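import Mathlib

set_option autoImplicit false
set_option linter.unusedSectionVars false
set_option linter.unusedVariables false
set_option linter.style.haveILetI false

/-!
# S14 bridge: the linear algebra of an extension of `μ_p` by `ℤ/p`
-/

namespace Fermat.Agent.S14.BridgeAlg

variable {p : ℕ} [Fact p.Prime] {G : Type*} [Group G] {V : Type*} [AddCommGroup V]
  [Module (ZMod p) V] [DistribMulAction G V] [SMulCommClass G (ZMod p) V]

/-- abstract form of the hypotheses. -/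
structure Data (C : Submodule (ZMod p) V) (w : G → ZMod p) : Prop where
  fixed : ∀ σ : G, ∀ x ∈ C, σ • x = x
  quot : ∀ (σ : G) (x : V), σ • x - w σ • x ∈ C
  w_one : w 1 = 1
  w_mul : ∀ σ τ, w (σ * τ) = w σ * w τ
  card_sub : Nat.card C = p
  card_total : Nat.card V = p ^ 2

variable {C : Submodule (ZMod p) V} {w : G → ZMod p} (D : Data C w)

include D

lemma Data.w_mul_inv (σ : G) : w σ * w σ⁻¹ = 1 := by
  rw [← D.w_mul, mul_inv_cancel, D.w_one]

lemma Data.w_ne_zero (σ : G) : w σ ≠ 0 := by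
  intro h
  have := D.w_mul_inv σ
  rw [h, zero_mul] at this
  exact zero_ne_one this

lemma Data.w_inv (σ : G) : w σ⁻¹ = (w σ)⁻¹ :=
  eq_inv_of_mul_eq_one_right (D.w_mul_inv σ)

lemma Data.ne_top : C ≠ ⊤ := by
  intro h
  have h1 := D.card_sub
  rw [h] at h1
  have h2 : Nat.card (⊤ : Submodule (ZMod p) V) = Nat.card V :=
    Nat.card_congr (Submodule.topEquiv (R := ZMod p) (M := V)).toEquiv
  rw [h2, D.card_total] at h1
  have hp := (Fact.out : p.Prime).two_le
  nlinarith

lemma Data.exists_not_mem : ∃ v₀ : V, v₀ ∉ C := by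
  by_contra hcon
  push Not at hcon
  exact D.ne_top (eq_top_iff.2 fun x _ => hcon x)

lemma Data.finite : Finite V := by
  apply Nat.finite_of_card_ne_zero
  rw [D.card_total]
  exact pow_ne_zero _ (Fact.out : p.Prime).ne_zero

lemma Data.sup_eq_top {v₀ : V} (hv₀ : v₀ ∉ C) : C ⊔ Submodule.span (ZMod p) {v₀} = ⊤ := by
  haveI := D.finite
  haveI : Module.Finite (ZMod p) V := Module.Finite.of_finite
  have hV : Module.finrank (ZMod p) V = 2 := by
    have h1 := Module.natCard_eq_pow_finrank (K := ZMod p) (V := V)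
    rw [D.card_total, Nat.card_zmod] at h1
    exact (Nat.pow_right_injective (Fact.out : p.Prime).two_le h1).symm
  have hC : Module.finrank (ZMod p) C = 1 := by
    have h1 := Module.natCard_eq_pow_finrank (K := ZMod p) (V := C)
    rw [D.card_sub, Nat.card_zmod] at h1
    conv_lhs at h1 => rw [← pow_one p]
    exact (Nat.pow_right_injective (Fact.out : p.Prime).two_le h1).symm
  have hlt : C < C ⊔ Submodule.span (ZMod p) {v₀} := by
    refine lt_of_le_of_ne le_sup_left ?_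
    intro h
    apply hv₀
    rw [h]
    exact Submodule.mem_sup_right (Submodule.mem_span_singleton_self v₀)
  have h2 := Submodule.finrank_lt_finrank_of_lt hlt
  apply Submodule.eq_top_of_finrank_eq
  have h3 := Submodule.finrank_le (C ⊔ Submodule.span (ZMod p) {v₀})
  omega

lemma Data.decomp {v₀ : V} (hv₀ : v₀ ∉ C) (v : V) :
    ∃ a : ZMod p, ∃ c ∈ C, v = a • v₀ + c := by
  have h : v ∈ C ⊔ Submodule.span (ZMod p) {v₀} := by rw [D.sup_eq_top hv₀]; trivial
  obtain ⟨c, hc, y, hy, rfl⟩ := Submodule.mem_sup.1 h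
  obtain ⟨a, rfl⟩ := Submodule.mem_span_singleton.1 hy
  exact ⟨a, c, hc, add_comm _ _⟩

lemma Data.w_eq_one_of_trivial {σ : G} (h : ∀ v : V, σ • v = v) : w σ = 1 := by
  obtain ⟨v₀, hv₀⟩ := D.exists_not_mem
  by_contra hne
  apply hv₀
  have h1 := D.quot σ v₀
  rw [h v₀] at h1
  have h2 : v₀ - w σ • v₀ = (1 - w σ) • v₀ := by rw [sub_smul, one_smul]
  rw [h2] at h1
  have h3 : (1 - w σ) ≠ 0 := sub_ne_zero.2 (Ne.symm hne)
  have := C.smul_mem (1 - w σ)⁻¹ h1
  rwa [smul_smul, inv_mul_cancel₀ h3, one_smul] at this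

lemma Data.sub_mem {γ : G} (hγ : w γ = 1) (v : V) : γ • v - v ∈ C := by
  have := D.quot γ v
  rwa [hγ, one_smul] at this

lemma Data.trivial_of_fix {γ : G} {v₀ : V} (hv₀ : v₀ ∉ C) (h : γ • v₀ = v₀) (v : V) :
    γ • v = v := by
  obtain ⟨a, c, hc, rfl⟩ := D.decomp hv₀ v
  rw [smul_add, smul_comm, h, D.fixed γ c hc]

lemma Data.sub_mul {γ γ' : G} (hγ' : w γ' = 1) (v : V) :
    (γ * γ') • v - v = (γ • v - v) + (γ' • v - v) := by
  have h1 := D.fixed γ _ (D.sub_mem hγ' v)
  rw [smul_sub] at h1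
  rw [mul_smul]
  have : γ • γ' • v = γ • v + (γ' • v - v) := by rw [← h1]; abel
  rw [this]; abel

lemma Data.local_split {γ : G} (hγ : w γ = 1) {C' : Submodule (ZMod p) V} (hC' : IsCompl C C')
    (hst : ∀ x ∈ C', γ • x ∈ C') (v : V) : γ • v = v := by
  have h : v ∈ C ⊔ C' := by rw [hC'.sup_eq_top]; trivial
  obtain ⟨c, hc, y, hy, rfl⟩ := Submodule.mem_sup.1 h
  have h1 : γ • y - y ∈ C ⊓ C' := ⟨D.sub_mem hγ y, C'.sub_mem (hst y hy) hy⟩
  rw [hC'.inf_eq_bot, Submodule.mem_bot, sub_eq_zero] at h1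
  rw [smul_add, D.fixed γ c hc, h1]

lemma Data.pow_smul {γ : G} (hγ : w γ = 1) (n : ℕ) (v : V) :
    (γ ^ n) • v = v + n • (γ • v - v) := by
  induction n with
  | zero => simp
  | succ n ih =>
    rw [pow_succ', mul_smul, ih, smul_add,
      D.fixed γ _ (C.smul_of_tower_mem n (D.sub_mem hγ v)), succ_nsmul]
    abel

/-- the cocycle `v ↦ γ v - v` is semilinear for the conjugation action. -/
lemma Data.conj {γ δ : G} (hγ : w γ = 1) {n : ℕ} (hn : (n : ZMod p) = w δ) (v : V) :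
    (δ * γ ^ n * δ⁻¹) • v = γ • v := by
  set u := δ⁻¹ • v with hu
  -- `u = (w δ)⁻¹ v + c`
  have h1 : u - (w δ)⁻¹ • v ∈ C := by
    have := D.quot δ⁻¹ v
    rwa [D.w_inv] at this
  set c := u - (w δ)⁻¹ • v with hc
  have hu' : u = (w δ)⁻¹ • v + c := by rw [hc]; abel
  have h2 : γ • u - u = (w δ)⁻¹ • (γ • v - v) := by
    rw [hu', smul_add, D.fixed γ c h1, smul_comm, smul_sub]; abel
  have h3 : (n : ℕ) • (γ • u - u) = γ • v - v := by
    rw [h2, ← Nat.cast_smul_eq_nsmul (ZMod p), smul_smul, hn, mul_inv_cancel₀ (D.w_ne_zero δ),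
      one_smul]
  rw [mul_smul, mul_smul, ← hu, D.pow_smul hγ, h3, smul_add, D.fixed δ _ (D.sub_mem hγ v), hu,
    smul_inv_smul]
  abel

/-- Maschke by hand: if the kernel of `w` acts trivially, the extension splits. -/
lemma Data.complement {σ₀ : G} (hσ₀ : w σ₀ ≠ 1) (hker : ∀ σ : G, w σ = 1 → ∀ v : V, σ • v = v) :
    ∃ C' : Submodule (ZMod p) V, (∀ σ : G, ∀ x ∈ C', σ • x ∈ C') ∧ IsCompl C C' := by
  have hcomm : ∀ (σ : G) (v : V), σ₀ • σ • v = σ • σ₀ • v := by
    intro σ v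
    have h1 : w ((σ * σ₀)⁻¹ * (σ₀ * σ)) = 1 := by
      rw [D.w_mul, D.w_inv, D.w_mul, D.w_mul, mul_comm (w σ₀) (w σ)]
      exact inv_mul_cancel₀ (mul_ne_zero (D.w_ne_zero σ) (D.w_ne_zero σ₀))
    have h2 := hker _ h1 v
    rw [mul_smul, inv_smul_eq_iff, mul_smul, mul_smul] at h2
    exact h2
  have ha : w σ₀ - 1 ≠ 0 := sub_ne_zero.2 hσ₀
  let C' : Submodule (ZMod p) V :=
    { carrier := {y | σ₀ • y = w σ₀ • y}
      add_mem' := by
        intro a b ha hb
        simp only [Set.mem_setOf_eq] at ha hb ⊢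
        rw [smul_add, ha, hb, smul_add]
      zero_mem' := by simp
      smul_mem' := by
        intro c x hx
        simp only [Set.mem_setOf_eq] at hx ⊢
        rw [smul_comm, hx, smul_comm] }
  have hC' : ∀ y, y ∈ C' ↔ σ₀ • y = w σ₀ • y := fun y => Iff.rfl
  refine ⟨C', ?_, ?_⟩
  · intro σ x hx
    rw [hC'] at hx ⊢
    rw [hcomm, hx, smul_comm]
  · constructor
    · rw [Submodule.disjoint_def]
      intro x hx hx'
      rw [hC', D.fixed σ₀ x hx] at hx'
      have h1 : (w σ₀ - 1) • x = 0 := by rw [sub_smul, one_smul, ← hx', sub_self]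
      exact (smul_eq_zero.1 h1).resolve_left ha
    · rw [codisjoint_iff, eq_top_iff]
      intro x _
      set c := σ₀ • x - w σ₀ • x with hc
      have hcC : c ∈ C := D.quot σ₀ x
      set c' := (w σ₀ - 1)⁻¹ • c with hc'
      have hc'C : c' ∈ C := C.smul_mem _ hcC
      have h1 : (w σ₀ - 1) • c' = c := by rw [hc', smul_smul, mul_inv_cancel₀ ha, one_smul]
      have h2 : x + c' ∈ C' := by
        rw [hC', smul_add, D.fixed σ₀ c' hc'C, smul_add]
        have : σ₀ • x = w σ₀ • x + c := by rw [hc]; abel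
        rw [this, ← h1, sub_smul, one_smul]; abel
      have : x = -c' + (x + c') := by abel
      rw [this]
      exact Submodule.add_mem_sup (C.neg_mem hc'C) h2

end Fermat.Agent.S14.BridgeAlg
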