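import Mathlib
import Fermat.Agent.S54.Frobenius
import Fermat.Prelude.Def_FLTPrelim_Ramification

set_option autoImplicit false
set_option linter.unusedSectionVars false
set_option linter.unusedVariables false
set_option linter.style.haveILetI false

/-!
# Lifting finite-level inertia to the absolute inertia group
-/

namespace Fermat.Agent.S14.InertiaLift

open Fermat.Agent.S54
open scoped Pointwise

section Mem

variable {Ω : Type*} [Field Ω] [Algebra ℚ Ω]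

/-- membership in the (absolute) inertia subgroup. -/
theorem mem_inertiaSubgroupIn (A : ValuationSubring Ω) (σ : Ω ≃ₐ[ℚ] Ω)
    (h1 : ∀ z ∈ A, σ z ∈ A) (h1' : ∀ z ∈ A, σ⁻¹ z ∈ A)
    (h2 : ∀ z ∈ A, σ z - z ∈ A.nonunits) : σ ∈ A.inertiaSubgroupIn ℚ := by
  have hdec : σ ∈ A.decompositionSubgroup ℚ := by
    rw [MulAction.mem_stabilizer_iff]
    apply le_antisymm
    · intro x hx
      rw [ValuationSubring.mem_smul_pointwise_iff_exists] at hx
      obtain ⟨y, hy, rfl⟩ := hx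
      exact h1 y hy
    · intro x hx
      rw [ValuationSubring.mem_smul_pointwise_iff_exists]
      refine ⟨σ⁻¹ x, h1' x hx, ?_⟩
      simp [AlgEquiv.smul_def, AlgEquiv.aut_inv]
  refine ⟨⟨σ, hdec⟩, ?_, rfl⟩
  change MulSemiringAction.toRingAut (A.decompositionSubgroup ℚ)
        (IsLocalRing.ResidueField A) ⟨σ, hdec⟩ = 1
  ext x
  obtain ⟨a, rfl⟩ := IsLocalRing.residue_surjective x
  change (⟨σ, hdec⟩ : A.decompositionSubgroup ℚ) • IsLocalRing.residue A a = IsLocalRing.residue A a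
  rw [← IsLocalRing.ResidueField.residue_smul, ← sub_eq_zero, ← map_sub,
    IsLocalRing.residue_eq_zero_iff, ← A.coe_mem_nonunits_iff]
  exact h2 a a.2

end Mem

section Frac

variable {Ω : Type*} [Field Ω] [Algebra ℚ Ω] [Algebra.IsAlgebraic ℚ Ω]

theorem sub_mem_nonunits_of_integral
    (A' : ValuationSubring Ω) {q : ℕ} (hq : q.Prime) (hA : (q : Ω) ∈ A'.nonunits)
    (τ : Ω ≃ₐ[ℚ] Ω) (hτ : ∀ x : Ω, IsIntegral ℤ x → τ x - x ∈ A'.nonunits)
    (z : Ω) (hz : z ∈ A') : τ z - z ∈ A'.nonunits := by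
  have : CharZero Ω := charZero_of_injective_algebraMap (algebraMap ℚ Ω).injective
  have halg : IsAlgebraic ℤ z := by
    have h1 : IsAlgebraic ℚ z := Algebra.IsAlgebraic.isAlgebraic z
    exact (IsFractionRing.isAlgebraic_iff ℤ ℚ Ω).2 h1
  obtain ⟨b, s, hs, hzs⟩ := Fermat.Agent.S54.exists_fraction A' hq hA ⟨z, hz⟩ halg
  simp only at hzs
  set v := A'.valuation with hv
  have hvs : v (s : Ω) = 1 := by
    have h1 : IsUnit (Fermat.Agent.S54.intToVal A' s) := by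
      by_contra hcon
      exact hs ((IsLocalRing.mem_maximalIdeal _).2 hcon)
    exact (A'.valuation_eq_one_iff _).1 h1
  have hvb : v (b : Ω) ≤ 1 :=
    (A'.valuation_le_one_iff _).2 (Fermat.Agent.S54.mem_valuationSubring_of_isIntegral A' b.2)
  have hτb : v (τ b - b) < 1 := A'.mem_nonunits_iff.1 (hτ _ b.2)
  have hτs : v (τ s - s) < 1 := A'.mem_nonunits_iff.1 (hτ _ s.2)
  have hvτs : v (τ (s : Ω)) = 1 := by
    have : τ (s : Ω) = s + (τ s - s) := by ring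
    rw [this, Valuation.map_add_eq_of_lt_left v (by rw [hvs]; exact hτs), hvs]
  have hs0 : (s : Ω) ≠ 0 := by
    intro h0; rw [h0, map_zero] at hvs; exact zero_ne_one hvs
  have hτs0 : τ (s : Ω) ≠ 0 := by
    intro h0; rw [h0, map_zero] at hvτs; exact zero_ne_one hvτs
  have hz' : z = b / s := by field_simp; exact hzs
  have key : τ z - z = ((τ b - b) * s - b * (τ s - s)) / (s * τ s) := by
    rw [hz', map_div₀]
    field_simp
    ring
  rw [A'.mem_nonunits_iff, key, map_div₀, map_mul, hvs, hvτs, mul_one, div_one]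
  apply Valuation.map_sub_lt
  · rw [map_mul, hvs, mul_one]; exact hτb
  · rw [map_mul]
    exact lt_of_le_of_lt (by simpa using mul_le_mul_left hvb (v (τ s - s))) hτs

end Frac

section Lift

variable {Ω : Type*} [Field Ω] [Algebra ℚ Ω] [IsGalois ℚ Ω]

local notation "𝔹" => integralClosure ℤ Ω

theorem mem_centre_iff_nonunits (A : ValuationSubring Ω) (b : 𝔹) :
    b ∈ centre A ↔ (b : Ω) ∈ A.nonunits :=
  (ValuationSubring.coe_mem_nonunits_iff (A := A) (a := intToVal A b)).symm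

/-- an automorphism that stabilises the centre of `A` and acts trivially on the quotient lies
in the absolute inertia group. -/
theorem mem_inertia_of_centre (A : ValuationSubring Ω) {ℓ : ℕ} (hℓ : ℓ.Prime)
    (hA : (ℓ : Ω) ∈ A.nonunits) (σ : Ω ≃ₐ[ℚ] Ω) (hσ : σ • centre A = centre A)
    (h : ∀ b : 𝔹, σ • b - b ∈ centre A) : σ ∈ A.inertiaSubgroupIn ℚ := by
  have hσinv : σ⁻¹ • centre A = centre A := by
    rw [inv_smul_eq_iff, hσ]
  refine mem_inertiaSubgroupIn A σ (fun z hz => apply_mem_of_smul_centre A hℓ hA σ hσ hz)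
    (fun z hz => apply_mem_of_smul_centre A hℓ hA σ⁻¹ hσinv hz) ?_
  apply sub_mem_nonunits_of_integral A hℓ hA σ
  intro x hx
  exact (mem_centre_iff_nonunits A _).1 (h ⟨x, hx⟩)

/-- **Inertia lifts**: an automorphism acting trivially on the integers of the finite Galois
extension `L` modulo the centre of `A` agrees on `L` with an element of the absolute inertia
group of `A`. -/
theorem inertia_lift (L : IntermediateField ℚ Ω) [IsGalois ℚ L]
    (A : ValuationSubring Ω) {ℓ : ℕ} (hℓ : ℓ.Prime) (hA : (ℓ : Ω) ∈ A.nonunits)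
    (τ : Ω ≃ₐ[ℚ] Ω) (hτ : ∀ z ∈ L, IsIntegral ℤ z → τ z - z ∈ A.nonunits) :
    ∃ σ ∈ A.inertiaSubgroupIn ℚ, ∀ z ∈ L, σ z = τ z := by
  classical
  let H : Subgroup (Ω ≃ₐ[ℚ] Ω) := L.fixingSubgroup
  letI : TopologicalSpace 𝔹 := ⊥
  haveI : DiscreteTopology 𝔹 := ⟨rfl⟩
  haveI := continuousSMul_integralClosure (L := Ω)
  have hcl : IsClosed (H : Set (Ω ≃ₐ[ℚ] Ω)) := InfiniteGalois.fixingSubgroup_isClosed L
  haveI : CompactSpace H := isCompact_iff_compactSpace.mp hcl.isCompact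
  let A₀ := FixedPoints.subalgebra ℤ 𝔹 H
  haveI : Algebra.IsInvariant A₀ 𝔹 H := ⟨fun b hb => ⟨⟨b, hb⟩, rfl⟩⟩
  -- elements of `A₀` lie in `L`
  have hA₀L : ∀ a : A₀, ((a : 𝔹) : Ω) ∈ L := by
    intro a
    rw [← InfiniteGalois.fixedField_fixingSubgroup L, IntermediateField.mem_fixedField_iff]
    intro f hf
    exact congrArg Subtype.val (a.2 ⟨f, hf⟩)
  have hH : ∀ h : H, ∀ z ∈ L, (h : Ω ≃ₐ[ℚ] Ω) z = z := by
    intro h z hz
    exact (IntermediateField.mem_fixingSubgroup_iff L h.1).1 h.2 z hz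
  have hτL : ∀ (ρ : Ω ≃ₐ[ℚ] Ω), ∀ z ∈ L, ρ z ∈ L := by
    intro ρ z hz
    have h0 : ((ρ.restrictNormal L ⟨z, hz⟩ : L) : Ω) = ρ z :=
      AlgEquiv.restrictNormal_commutes ρ L ⟨z, hz⟩
    rw [← h0]
    exact Subtype.property _
  let Q : Ideal 𝔹 := centre A
  have hQmem : ∀ b : 𝔹, b ∈ Q ↔ (b : Ω) ∈ A.nonunits := mem_centre_iff_nonunits A
  have hτQ : ∀ b : 𝔹, (b : Ω) ∈ L → τ • b - b ∈ Q := by
    intro b hb
    rw [hQmem]
    exact hτ _ hb b.2
  -- step 1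
  have hunder : (τ • Q).under A₀ = Q.under A₀ := by
    ext x
    rw [Ideal.mem_comap, Ideal.mem_comap, Ideal.mem_pointwise_smul_iff_inv_smul_mem]
    have h1 := hτQ (τ⁻¹ • (x : 𝔹)) (hτL τ⁻¹ _ (hA₀L x))
    rw [smul_inv_smul] at h1
    constructor
    · intro h
      have := Q.add_mem h1 h
      simpa using this
    · intro h
      have := Q.sub_mem h h1
      simpa using this
  obtain ⟨h, hh⟩ := Algebra.IsInvariant.exists_smul_of_under_eq_of_profinite (A := A₀) (G := H)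
    (τ • Q) Q hunder
  set σ₁ : Ω ≃ₐ[ℚ] Ω := (h : Ω ≃ₐ[ℚ] Ω) * τ with hσ₁
  have hσ₁Q : σ₁ • Q = Q := by
    rw [hσ₁, mul_smul]; exact hh.symm
  have hσ₁L : ∀ z ∈ L, σ₁ z = τ z := by
    intro z hz
    rw [hσ₁, AlgEquiv.mul_apply]
    exact hH h _ (hτL τ z hz)
  have hσ₁A₀ : ∀ a : A₀, σ₁ • (a : 𝔹) - a ∈ Q := by
    intro a
    have h1 : σ₁ • (a : 𝔹) = τ • (a : 𝔹) := Subtype.ext (hσ₁L _ (hA₀L a))
    rw [h1]
    exact hτQ _ (hA₀L a)
  let P₀ : Ideal A₀ := Q.under A₀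
  haveI : Q.LiesOver P₀ := ⟨rfl⟩
  let e : (𝔹 ⧸ Q) ≃+* (𝔹 ⧸ Q) := Ideal.quotientEquiv Q Q (MulSemiringAction.toRingEquiv _ 𝔹 σ₁)
    (by
      conv_lhs => rw [← hσ₁Q]
      rfl)
  have he : ∀ b : 𝔹, e (Ideal.Quotient.mk Q b) = Ideal.Quotient.mk Q (σ₁ • b) := fun b => rfl
  let e' : (𝔹 ⧸ Q) ≃ₐ[A₀ ⧸ P₀] (𝔹 ⧸ Q) := AlgEquiv.ofRingEquiv (f := e) (by
    intro r
    obtain ⟨a, rfl⟩ := Ideal.Quotient.mk_surjective r
    change e (Ideal.Quotient.mk Q (a : 𝔹)) = Ideal.Quotient.mk Q (a : 𝔹)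
    rw [he, Ideal.Quotient.eq]
    exact hσ₁A₀ a)
  obtain ⟨h', hh'⟩ := Ideal.Quotient.stabilizerHom_surjective_of_profinite (G := H) P₀ Q e'
  have hh'Q : (h'.1 : Ω ≃ₐ[ℚ] Ω) • Q = Q := h'.2
  have hh'b : ∀ b : 𝔹, (h'.1 : Ω ≃ₐ[ℚ] Ω) • b - σ₁ • b ∈ Q := by
    intro b
    have h2 := DFunLike.congr_fun hh' (Ideal.Quotient.mk _ b)
    rw [Ideal.Quotient.stabilizerHom_apply] at h2
    change _ = e (Ideal.Quotient.mk Q b) at h2
    rw [he, Ideal.Quotient.eq] at h2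
    exact h2
  refine ⟨(h'.1 : Ω ≃ₐ[ℚ] Ω)⁻¹ * σ₁, mem_inertia_of_centre A hℓ hA _ ?_ ?_, ?_⟩
  · rw [mul_smul, hσ₁Q, inv_smul_eq_iff, hh'Q]
  · intro b
    have h3 := hh'b b
    have h4 : (h'.1 : Ω ≃ₐ[ℚ] Ω)⁻¹ • ((h'.1 : Ω ≃ₐ[ℚ] Ω) • b - σ₁ • b) ∈ Q := by
      rw [← Ideal.mem_pointwise_smul_iff_inv_smul_mem, hh'Q]; exact h3
    rw [smul_sub, inv_smul_smul] at h4
    have := Q.neg_mem h4
    rw [neg_sub] at this
    rw [mul_smul]; exact this
  · intro z hz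
    rw [AlgEquiv.mul_apply, hσ₁L z hz]
    have h5 := hH h'.1 _ (hτL τ z hz)
    conv_lhs => rw [← h5]
    exact (h'.1 : Ω ≃ₐ[ℚ] Ω).symm_apply_apply _
end Lift

end Fermat.Agent.S14.InertiaLift
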