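import Mathlib

set_option autoImplicit false

/-!
# S14: the arithmetic statement to which the extension-vanishing statement is reduced

`MainStatement p`: there is no cyclic extension `L` of degree `p` of `K = ℚ(ζ_p)` which is
Galois over `ℚ`, unramified at every finite prime, and on which `Gal(K/ℚ)` acts (by conjugation
on `Gal(L/K)`) through the inverse of the cyclotomic character.
-/

open NumberField

namespace Fermat.Agent.S14

/-- No everywhere unramified `ℤ/p`-extension of `ℚ(ζ_p)` of type `ω⁻¹`.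
* `hU`: all inertia groups of `L/K` are trivial;
* `hE`: if `d ∈ Gal(L/ℚ)` acts on `μ_p` by `ζ ↦ ζ ^ n` then `d gⁿ d⁻¹ = g` for `g ∈ Gal(L/K)`. -/
def MainStatement (p : ℕ) : Prop :=
  ∀ (K L : Type) [Field K] [Field L] [NumberField K] [NumberField L] [Algebra K L]
    [IsCyclotomicExtension {p} ℚ K] [IsGalois ℚ L] [IsGalois K L],
    Module.finrank K L = p →
    (∀ P : Ideal (𝓞 L), P.IsPrime → P ≠ ⊥ → P.inertia Gal(L/K) = ⊥) →
    (∀ (d : Gal(L/ℚ)) (n : ℕ),
      (∀ ζ : K, ζ ^ p = 1 → d (algebraMap K L ζ) = algebraMap K L ζ ^ n) →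
      ∀ g : Gal(L/K), d * (g ^ n).restrictScalars ℚ * d⁻¹ = g.restrictScalars ℚ) →
    False

end Fermat.Agent.S14
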