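import Mathlib
import Fermat.Prelude.Def_ExtCitation_AdmissibleExtension_v2
import Fermat.Agent.S14.MainStmt
import Fermat.Agent.S14.InertiaLift
import Fermat.Agent.S14.BridgeAlg

set_option autoImplicit false
set_option linter.unusedSectionVars false
set_option linter.unusedVariables false
set_option linter.style.haveILetI false

/-!
# S14 bridge: `MainStatement p → ExtVanishingCts p`
-/

namespace Fermat.Agent.S14.Bridge

open ExtCitation NumberField Fermat.Agent.S14.InertiaLift

local notation "Kb" => AlgebraicClosure ℚ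
local notation "GQ" => (AlgebraicClosure ℚ ≃ₐ[ℚ] AlgebraicClosure ℚ)

section Char

variable (p : ℕ) [Fact p.Prime]

/-- the mod `p` cyclotomic character with values in `ZMod p`. -/
noncomputable def wchar (σ : GQ) : ZMod p := (cycloExp p σ : ZMod p)

lemma wchar_eq (σ : GQ) :
    haveI : NeZero p := ⟨(Fact.out : p.Prime).ne_zero⟩
    wchar p σ = ((modularCyclotomicCharacter Kb (card_rootsOfUnity_eq_self p)
      (σ : Kb ≃+* Kb) : (ZMod p)ˣ) : ZMod p) := by
  haveI : NeZero p := ⟨(Fact.out : p.Prime).ne_zero⟩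
  unfold wchar cycloExp
  exact ZMod.natCast_zmod_val _

lemma wchar_one : wchar p 1 = 1 := by
  haveI : NeZero p := ⟨(Fact.out : p.Prime).ne_zero⟩
  rw [wchar_eq]
  have : ((1 : GQ) : Kb ≃+* Kb) = 1 := rfl
  rw [this, map_one, Units.val_one]

lemma wchar_mul (σ τ : GQ) : wchar p (σ * τ) = wchar p σ * wchar p τ := by
  haveI : NeZero p := ⟨(Fact.out : p.Prime).ne_zero⟩
  rw [wchar_eq, wchar_eq, wchar_eq]
  have : ((σ * τ : GQ) : Kb ≃+* Kb) = (σ : Kb ≃+* Kb) * (τ : Kb ≃+* Kb) := rfl
  rw [this, map_mul, Units.val_mul]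

lemma cycloExp_spec (σ : GQ) {ζ : Kb} (hζ : ζ ^ p = 1) : σ ζ = ζ ^ cycloExp p σ := by
  haveI : NeZero p := ⟨(Fact.out : p.Prime).ne_zero⟩
  have hu : IsUnit ζ := IsUnit.of_pow_eq_one hζ (NeZero.ne p)
  obtain ⟨u, rfl⟩ := hu
  have hmem : u ∈ rootsOfUnity p Kb := by
    rw [mem_rootsOfUnity]; exact Units.ext (by simpa using hζ)
  exact modularCyclotomicCharacter.spec Kb (card_rootsOfUnity_eq_self p) (σ : Kb ≃+* Kb) hmem

lemma wchar_eq_of_apply (σ : GQ) {ζ : Kb} (hζ : IsPrimitiveRoot ζ p) {n : ℕ} (h : σ ζ = ζ ^ n) :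
    wchar p σ = n := by
  have h1 := cycloExp_spec p σ hζ.pow_eq_one
  rw [h] at h1
  have hfin : IsOfFinOrder ζ :=
    isOfFinOrder_iff_pow_eq_one.2 ⟨p, (Fact.out : p.Prime).pos, hζ.pow_eq_one⟩
  have h2 := hfin.pow_eq_pow_iff_modEq.1 h1
  rw [← hζ.eq_orderOf] at h2
  unfold wchar
  exact ((ZMod.natCast_eq_natCast_iff _ _ _).2 h2).symm

lemma apply_eq_of_wchar_eq_one (σ : GQ) (h : wchar p σ = 1) {ζ : Kb} (hζ : ζ ^ p = 1) :
    σ ζ = ζ := by
  have h1 := cycloExp_spec p σ hζ
  have h2 : cycloExp p σ ≡ 1 [MOD p] := by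
    rw [← ZMod.natCast_eq_natCast_iff]; simpa [wchar] using h
  rw [h1]
  conv_rhs => rw [← pow_one ζ]
  exact pow_eq_pow_of_modEq h2 hζ

lemma exists_primitiveRoot : ∃ ζ : Kb, IsPrimitiveRoot ζ p := by
  haveI : NeZero p := ⟨(Fact.out : p.Prime).ne_zero⟩
  haveI : NeZero (p : Kb) := ⟨Nat.cast_ne_zero.mpr (NeZero.ne p)⟩
  exact HasEnoughRootsOfUnity.exists_primitiveRoot Kb p

lemma exists_wchar_ne_one (h3 : 3 ≤ p) : ∃ σ : GQ, wchar p σ ≠ 1 := by
  haveI := Fermat.Agent.S54.isGalois_algebraicClosure_rat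
  by_contra hcon
  push Not at hcon
  obtain ⟨ζ, hζ⟩ := exists_primitiveRoot p
  have h1 : ζ ∈ Set.range (algebraMap ℚ Kb) := by
    rw [InfiniteGalois.mem_range_algebraMap_iff_fixed]
    intro f
    exact apply_eq_of_wchar_eq_one p f (hcon f) hζ.pow_eq_one
  obtain ⟨q, rfl⟩ := h1
  have h2 : q ^ p = 1 := by
    have := hζ.pow_eq_one
    rw [← map_pow] at this
    exact (algebraMap ℚ Kb).injective (by rw [this, map_one])
  have hodd : Odd p := (Fact.out : p.Prime).odd_of_ne_two (by omega)
  have h4 : q = 1 := by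
    rcases pow_eq_one_iff_cases.1 h2 with h | h | ⟨_, h⟩
    · omega
    · exact h
    · exact absurd h (Nat.not_even_iff_odd.2 hodd)
  rw [h4, map_one] at hζ
  have := hζ.eq_orderOf
  rw [orderOf_one] at this
  omega

end Char

section Val

lemma exists_prime_mem {L : Type*} [Field L] [NumberField L] (P : Ideal (𝓞 L)) (hP : P.IsPrime)
    (hP0 : P ≠ ⊥) : ∃ ℓ : ℕ, ℓ.Prime ∧ (ℓ : 𝓞 L) ∈ P := by
  have h1 : (P.under ℤ).IsPrime := inferInstance
  have h2 : P.under ℤ ≠ ⊥ := fun h => hP0 (Ideal.eq_bot_of_comap_eq_bot h)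
  have h3 := Submodule.IsPrincipal.prime_generator_of_isPrime (P.under ℤ) h2
  set g := Submodule.IsPrincipal.generator (P.under ℤ) with hg
  have h4 : g ∈ P.under ℤ := Submodule.IsPrincipal.generator_mem _
  refine ⟨g.natAbs, Int.prime_iff_natAbs_prime.1 h3, ?_⟩
  have h5 : ((g.natAbs : ℤ)) ∈ P.under ℤ := by
    rcases Int.natAbs_eq g with h | h
    · rw [← h]; exact h4
    · have : (g.natAbs : ℤ) = -g := by omega
      rw [this]; exact (P.under ℤ).neg_mem h4
  have h6 : algebraMap ℤ (𝓞 L) (g.natAbs : ℤ) ∈ P := h5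
  simpa using h6

lemma exists_valuationSubring_of_prime (L : IntermediateField ℚ Kb) [NumberField L]
    (P : Ideal (𝓞 L)) (hP : P.IsPrime) :
    ∃ A : ValuationSubring Kb, ∀ x ∈ P, (((x : 𝓞 L) : L) : Kb) ∈ A.nonunits := by
  let φ : 𝓞 L →+* Kb := (algebraMap L Kb).comp (algebraMap (𝓞 L) L)
  have hφ : Function.Injective φ :=
    (algebraMap L Kb).injective.comp (RingOfIntegers.coe_injective)
  let I : Ideal φ.range := P.map φ.rangeRestrict
  have hI : I ≠ ⊤ := by
    intro h
    have h1 : I.comap φ.rangeRestrict = P := by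
      apply Ideal.comap_map_of_bijective
      refine ⟨?_, φ.rangeRestrict_surjective⟩
      intro a b hab
      have h2 : φ a = φ b := congrArg (fun t : φ.range => (t : Kb)) hab
      exact hφ h2
    rw [h, Ideal.comap_top] at h1
    exact hP.ne_top h1.symm
  obtain ⟨B, -, hB⟩ := Ideal.image_subset_nonunits_valuationSubring I hI
  refine ⟨B, fun x hx => hB ⟨φ.rangeRestrict x, Ideal.mem_map_of_mem _ hx, rfl⟩⟩

end Val

section Main

variable {p : ℕ} [Fact p.Prime] {V : Type} [AddCommGroup V] [Module (ZMod p) V]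
  [DistribMulAction GQ V] [SMulCommClass GQ (ZMod p) V] {C : Submodule (ZMod p) V}

lemma data (h : IsAdmissibleExtension p V C) : BridgeAlg.Data C (wchar p) where
  fixed := h.fixed_sub
  quot := h.cyclo_quot
  w_one := wchar_one p
  w_mul := wchar_mul p
  card_sub := h.card_sub
  card_total := h.card_total

/-- the kernel of the action. -/
def kerAct (V : Type) [AddCommGroup V] [DistribMulAction GQ V] : Subgroup GQ where
  carrier := {σ | ∀ v : V, σ • v = v}
  mul_mem' := by
    intro a b ha hb v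
    rw [mul_smul, hb v, ha v]
  one_mem' := fun v => one_smul _ v
  inv_mem' := by
    intro a ha v
    rw [inv_smul_eq_iff, ha v]

instance kerAct_normal : (kerAct V).Normal := by
  constructor
  intro n hn g v
  rw [mul_smul, mul_smul, hn, smul_inv_smul]

theorem caseB (hmain : MainStatement p) (h : IsAdmissibleExtensionCts p V C)
    (γ₀ : GQ) (hγ₀ : wchar p γ₀ = 1) (v₁ : V) (hv₁ : γ₀ • v₁ ≠ v₁) : False := by
  classical
  haveI := Fermat.Agent.S54.isGalois_algebraicClosure_rat
  haveI : NeZero p := ⟨(Fact.out : p.Prime).ne_zero⟩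
  have D := data h.toIsAdmissibleExtension
  let N : Subgroup GQ := kerAct V
  have hNopen : IsOpen (N : Set GQ) := h.open_kernel
  have hNclosed : IsClosed (N : Set GQ) := Subgroup.isClosed_of_isOpen N hNopen
  let L : IntermediateField ℚ Kb := IntermediateField.fixedField N
  have hLN : L.fixingSubgroup = N := InfiniteGalois.fixingSubgroup_fixedField ⟨N, hNclosed⟩
  haveI : FiniteDimensional ℚ L := (InfiniteGalois.isOpen_iff_finite L).1 (by rw [hLN]; exact hNopen)
  haveI : IsGalois ℚ L := (InfiniteGalois.normal_iff_isGalois L).1 (by rw [hLN]; infer_instance)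
  haveI : NumberField L := { to_charZero := inferInstance, to_finiteDimensional := inferInstance }
  let res : GQ →* (L ≃ₐ[ℚ] L) := AlgEquiv.restrictNormalHom L
  have hres : Function.Surjective res := AlgEquiv.restrictNormalHom_surjective Kb
  have hres_apply : ∀ (σ : GQ) (z : L), ((res σ z : L) : Kb) = σ z :=
    fun σ z => AlgEquiv.restrictNormal_commutes σ L z
  have hresN : ∀ σ : GQ, res σ = 1 ↔ ∀ v : V, σ • v = v := by
    intro σ
    have h1 : (∀ v : V, σ • v = v) ↔ σ ∈ L.fixingSubgroup := by rw [hLN]; rfl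
    rw [h1, IntermediateField.mem_fixingSubgroup_iff]
    constructor
    · intro h2 z hz
      have := hres_apply σ ⟨z, hz⟩
      rw [h2] at this
      exact this.symm
    · intro h2
      ext z
      rw [hres_apply, h2 z z.2]; rfl
  have hres_eq : ∀ σ σ' : GQ, res σ = res σ' → ∀ v : V, σ • v = σ' • v := by
    intro σ σ' h1 v
    have h2 : res (σ'⁻¹ * σ) = 1 := by rw [map_mul, map_inv, h1, inv_mul_cancel]
    have h3 := (hresN _).1 h2 v
    rwa [mul_smul, inv_smul_eq_iff] at h3
  obtain ⟨ζ, hζ⟩ := exists_primitiveRoot p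
  have hζL : ζ ∈ L := by
    rw [IntermediateField.mem_fixedField_iff]
    intro f hf
    exact apply_eq_of_wchar_eq_one p f (D.w_eq_one_of_trivial hf) hζ.pow_eq_one
  let ζ' : L := ⟨ζ, hζL⟩
  have hζ' : IsPrimitiveRoot ζ' p :=
    IsPrimitiveRoot.of_map_of_injective (f := algebraMap L Kb) hζ (algebraMap L Kb).injective
  let K₁ : IntermediateField ℚ L := IntermediateField.adjoin ℚ {ζ'}
  haveI : IsCyclotomicExtension {p} ℚ K₁ := hζ'.intermediateField_adjoin_isCyclotomicExtension ℚ
  haveI : NumberField K₁ := inferInstance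
  haveI : IsGalois K₁ L := inferInstance
  -- lifts of elements of `Gal(L/K₁)`
  have hlift : ∀ g : Gal(L/K₁), ∃ γ : GQ, res γ = g.restrictScalars ℚ ∧ wchar p γ = 1 := by
    intro g
    obtain ⟨γ, hγ⟩ := hres (g.restrictScalars ℚ)
    refine ⟨γ, hγ, ?_⟩
    have h1 : γ ζ = ζ ^ 1 := by
      have h2 := hres_apply γ ζ'
      rw [hγ] at h2
      have h3 : g.restrictScalars ℚ ζ' = ζ' := by
        have hmem : ζ' ∈ K₁ := IntermediateField.mem_adjoin_simple_self ℚ ζ'
        exact g.commutes ⟨ζ', hmem⟩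
      rw [h3] at h2
      rw [pow_one]; exact h2.symm
    have := wchar_eq_of_apply p γ hζ h1
    simpa using this
  choose lift hlift_res hlift_w using hlift
  obtain ⟨v₀, hv₀⟩ := D.exists_not_mem
  let f : Gal(L/K₁) →* Multiplicative C :=
    { toFun := fun g => Multiplicative.ofAdd ⟨lift g • v₀ - v₀, D.sub_mem (hlift_w g) v₀⟩
      map_one' := by
        have h1 : res (lift 1) = 1 := by rw [hlift_res]; rfl
        have h2 := (hresN _).1 h1 v₀
        rw [← ofAdd_zero]
        congr 1
        exact Subtype.ext (by simp [h2])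
      map_mul' := by
        intro g g'
        have h1 : res (lift (g * g')) = res (lift g * lift g') := by
          rw [map_mul, hlift_res, hlift_res, hlift_res]; rfl
        have h2 := hres_eq _ _ h1 v₀
        rw [← ofAdd_add]
        congr 1
        apply Subtype.ext
        simp only [Submodule.coe_add]
        rw [h2]
        exact D.sub_mul (hlift_w g') v₀ }
  have hf : Function.Injective f := by
    rw [injective_iff_map_eq_one]
    intro g hg
    have h1 : lift g • v₀ - v₀ = 0 := by
      have := congrArg (fun t : Multiplicative C => ((Multiplicative.toAdd t : C) : V)) hg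
      simpa [f] using this
    have h2 := D.trivial_of_fix hv₀ (sub_eq_zero.1 h1)
    have h3 := (hresN _).2 h2
    rw [hlift_res] at h3
    ext z
    exact congrArg Subtype.val (DFunLike.congr_fun h3 z)
  -- the degree
  have hcard : Nat.card Gal(L/K₁) = p := by
    have h1 : Nat.card Gal(L/K₁) ∣ Nat.card (Multiplicative C) := Subgroup.card_dvd_of_injective f hf
    have h2 : Nat.card (Multiplicative C) = p :=
      (Nat.card_congr Multiplicative.toAdd).trans D.card_sub
    rw [h2] at h1
    rcases (Nat.dvd_prime (Fact.out : p.Prime)).1 h1 with h3 | h3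
    · exfalso
      -- `res γ₀` gives a non-trivial element
      have hfix : res γ₀ ∈ K₁.fixingSubgroup := by
        have hle : K₁ ≤ IntermediateField.fixedField (Subgroup.zpowers (res γ₀)) := by
          rw [IntermediateField.adjoin_le_iff, Set.singleton_subset_iff, SetLike.mem_coe,
            IntermediateField.mem_fixedField_iff]
          intro f' hf'
          obtain ⟨k, rfl⟩ := Subgroup.mem_zpowers_iff.1 hf'
          have h4 : res γ₀ ζ' = ζ' := by
            apply Subtype.ext
            rw [hres_apply]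
            exact apply_eq_of_wchar_eq_one p γ₀ hγ₀ hζ.pow_eq_one
          have h5 : res γ₀ ∈ MulAction.stabilizer (L ≃ₐ[ℚ] L) ζ' := h4
          exact (Subgroup.zpow_mem _ h5 k : _)
        rw [IntermediateField.mem_fixingSubgroup_iff]
        intro x hx
        exact (IntermediateField.mem_fixedField_iff _ _).1 (hle hx) _ (Subgroup.mem_zpowers _)
      have hsub : Subsingleton Gal(L/K₁) := (Nat.card_eq_one_iff_unique.1 h3).1
      have h6 : IntermediateField.fixingSubgroupEquiv K₁ ⟨res γ₀, hfix⟩ = 1 := Subsingleton.elim _ _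
      have h7 : (⟨res γ₀, hfix⟩ : K₁.fixingSubgroup) = 1 := by
        simpa using h6
      have h8 : res γ₀ = 1 := congrArg Subtype.val h7
      exact hv₁ ((hresN _).1 h8 v₁)
    · exact h3
  have hdeg : Module.finrank K₁ L = p := by
    rw [← IsGalois.card_aut_eq_finrank, hcard]
  refine hmain K₁ L hdeg ?_ ?_
  · -- unramified
    intro P hP hP0
    rw [eq_bot_iff]
    intro g hg
    rw [Subgroup.mem_bot]
    obtain ⟨ℓ, hℓ, hℓP⟩ := exists_prime_mem P hP hP0
    obtain ⟨A, hA⟩ := exists_valuationSubring_of_prime L P hP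
    have hℓA : (ℓ : Kb) ∈ A.nonunits := by simpa using hA _ hℓP
    obtain ⟨σ, hσI, hσL⟩ := inertia_lift L A hℓ hℓA (lift g) (by
      intro z hz hzint
      have hzint' : IsIntegral ℤ (⟨z, hz⟩ : L) :=
        (isIntegral_algebraMap_iff (algebraMap L Kb).injective).1 hzint
      obtain ⟨x, hx⟩ := (IsIntegralClosure.isIntegral_iff (A := 𝓞 L)).1 hzint'
      have h1 := hA _ (hg x)
      have h2 := hres_apply (lift g) ⟨z, hz⟩
      rw [hlift_res] at h2
      have hz' : z = (((x : 𝓞 L) : L) : Kb) := by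
        have := congrArg (fun t : L => (t : Kb)) hx
        exact this.symm
      have h3 : (lift g) z - z = (((g • x - x : 𝓞 L) : L) : Kb) := by
        have h4 : (lift g) z = ((g.restrictScalars ℚ ⟨z, hz⟩ : L) : Kb) := h2.symm
        rw [h4, ← hx]
        conv_lhs => rw [hz']
        rfl
      rw [h3]
      exact h1)
    have hσres : res σ = g.restrictScalars ℚ := by
      rw [← hlift_res]
      ext z
      rw [hres_apply, hres_apply, hσL z z.2]
    have hσw : wchar p σ = 1 := by
      have h1 : σ ζ = ζ ^ 1 := by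
        rw [hσL ζ hζL, pow_one]
        exact apply_eq_of_wchar_eq_one p _ (hlift_w g) hζ.pow_eq_one
      simpa using wchar_eq_of_apply p σ hζ h1
    have htriv : ∀ v : V, σ • v = v := by
      by_cases hℓp : ℓ = p
      · have hpA : A.LiesOverPrime p := hℓp ▸ hℓA
        obtain ⟨C', hst, hcompl⟩ := h.locally_split A hpA
        have hσD : σ ∈ A.decompositionSubgroup ℚ := by
          obtain ⟨τ, -, rfl⟩ := hσI
          exact τ.2
        exact D.local_split hσw hcompl (fun x hx => hst σ hσD x hx)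
      · exact h.unramified_outside ℓ hℓ hℓp A hℓA σ hσI
    have h3 := (hresN _).2 htriv
    rw [hσres] at h3
    ext z
    exact congrArg Subtype.val (DFunLike.congr_fun h3 z)
  · -- equivariance
    intro d n hd g
    obtain ⟨δ, hδ⟩ := hres d
    have hwδ : wchar p δ = n := by
      apply wchar_eq_of_apply p δ hζ
      have hmem : ζ' ∈ K₁ := IntermediateField.mem_adjoin_simple_self ℚ ζ'
      have h1 : d ζ' = ζ' ^ n := hd ⟨ζ', hmem⟩ (Subtype.ext hζ'.pow_eq_one)
      have h2 := hres_apply δ ζ'
      rw [hδ, h1] at h2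
      exact h2.symm
    have h1 : ∀ v : V, (δ * (lift g) ^ n * δ⁻¹) • v = lift g • v := D.conj (hlift_w g) hwδ.symm
    have h2 : res ((lift g)⁻¹ * (δ * lift g ^ n * δ⁻¹)) = 1 :=
      (hresN _).2 (fun v => by rw [mul_smul, h1, inv_smul_smul])
    rw [map_mul, map_inv, map_mul, map_mul, map_pow, map_inv, hδ, hlift_res] at h2
    have h3 := inv_mul_eq_one.1 h2
    rw [h3]
    congr 2
    exact map_pow (AlgEquiv.restrictScalarsHom ℚ) g n

/-- **The bridge**: the arithmetic statement implies the vanishing of the extension group. -/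
theorem bridge (h3 : 3 ≤ p) (hmain : MainStatement p) : ExtVanishingCts p := by
  intro V _ _ _ _ C h
  have D := data h.toIsAdmissibleExtension
  obtain ⟨σ₀, hσ₀⟩ := exists_wchar_ne_one p h3
  apply D.complement hσ₀
  intro σ hσ v
  by_contra hne
  exact caseB hmain h σ hσ v hne

end Main

end Fermat.Agent.S14.Bridge
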