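import Mathlib

set_option autoImplicit false
set_option linter.style.haveILetI false

open NumberField Pointwise

namespace Fermat.Agent.S14.Jac

/-- The sum of the values of a polynomial of degree `< q - 1` over a finite field vanishes. -/
lemma sum_eval_eq_zero {F : Type*} [Field F] [Fintype F] (P : Polynomial F)
    (h : P.natDegree < Fintype.card F - 1) : ∑ x : F, P.eval x = 0 := by
  simp_rw [Polynomial.eval_eq_sum_range]
  rw [Finset.sum_comm]
  refine Finset.sum_eq_zero fun k hk => ?_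
  rw [← Finset.mul_sum, FiniteField.sum_pow_lt_card_sub_one F k
    (by have := Finset.mem_range.mp hk; omega), mul_zero]

lemma sum_pow_mul_one_sub_pow {F : Type*} [Field F] [Fintype F] (n : ℕ)
    (h : 2 * n < Fintype.card F - 1) : ∑ x : F, x ^ n * (1 - x) ^ n = 0 := by
  have hdeg : ((Polynomial.X : Polynomial F) ^ n * (1 - Polynomial.X) ^ n).natDegree
      < Fintype.card F - 1 := by
    refine lt_of_le_of_lt ?_ h
    refine Polynomial.natDegree_mul_le.trans ?_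
    have h1 : ((Polynomial.X : Polynomial F) ^ n).natDegree ≤ n := by
      simp
    have h2 : (((1 : Polynomial F) - Polynomial.X) ^ n).natDegree ≤ n := by
      refine Polynomial.natDegree_pow_le.trans ?_
      have : ((1 : Polynomial F) - Polynomial.X).natDegree ≤ 1 := by
        refine (Polynomial.natDegree_sub_le _ _).trans ?_
        simp
      nlinarith
    omega
  have := sum_eval_eq_zero _ hdeg
  simpa using this

/-- The `p`-th power residue character with values in a ring `R` reducing onto the finite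
field `F`. -/
lemma exists_char {R F : Type*} [CommRing R] [IsDomain R] [Field F] [Fintype F] [DecidableEq F]
    (red : R →+* F) (p : ℕ) [NeZero p] (ζ : R) (hζ : ζ ^ p = 1)
    (hζ' : IsPrimitiveRoot (red ζ) p) :
    p ∣ Fintype.card F - 1 ∧
    ∃ χ : MulChar F R, (∀ x, red (χ x) = x ^ ((Fintype.card F - 1) / p)) ∧
      (∀ x, x ≠ 0 → (χ x) ^ p = 1) := by
  obtain ⟨g, hg⟩ := IsCyclic.exists_generator (α := Fˣ)
  set m := (Fintype.card F - 1) / p with hmdef
  have hpdvd : p ∣ Fintype.card F - 1 := by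
    have : (red ζ) ^ (Fintype.card F - 1) = 1 :=
      FiniteField.pow_card_sub_one_eq_one _ (hζ'.ne_zero (NeZero.ne p))
    exact hζ'.dvd_of_pow_eq_one _ this
  refine ⟨hpdvd, ?_⟩
  have hm : p * m = Fintype.card F - 1 := Nat.mul_div_cancel' hpdvd
  have hcard : 1 < Fintype.card F := Fintype.one_lt_card
  have hm0 : m ≠ 0 := by
    rintro h0
    rw [h0, mul_zero] at hm
    omega
  have hy : ((g : F) ^ m) ^ p = 1 := by
    rw [← pow_mul, mul_comm, hm]
    exact FiniteField.pow_card_sub_one_eq_one _ g.ne_zero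
  obtain ⟨i, -, hi⟩ := hζ'.eq_pow_of_pow_eq_one hy
  have hu : IsUnit ζ := IsUnit.of_pow_eq_one hζ (NeZero.ne p)
  let u : Rˣ := hu.unit ^ i
  have huval : (u : R) = ζ ^ i := by simp [u]
  have hu1 : u ∈ rootsOfUnity (Fintype.card Fˣ) R := by
    rw [mem_rootsOfUnity, Fintype.card_units, ← hm]
    ext
    rw [Units.val_pow_eq_pow_val, huval, Units.val_one, ← pow_mul, mul_comm i, mul_assoc, pow_mul,
      hζ, one_pow]
  let χ : MulChar F R := MulChar.ofRootOfUnity hu1 hg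
  have hχg : χ g = ζ ^ i := by
    rw [MulChar.ofRootOfUnity_spec, huval]
  have key : ∀ x : F, x ≠ 0 → ∃ k : ℕ, x = (g : F) ^ k := fun x hx => by
    obtain ⟨k, hk⟩ := (mem_powers_iff_mem_zpowers.mpr (hg (Units.mk0 x hx)))
    refine ⟨k, ?_⟩
    have := congrArg Units.val hk
    simpa using this.symm
  refine ⟨χ, fun x => ?_, fun x hx => ?_⟩
  · by_cases hx : x = 0
    · subst hx
      rw [MulChar.map_zero, map_zero, zero_pow hm0]
    · obtain ⟨k, hk⟩ := key x hx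
      rw [hk, map_pow, hχg, map_pow, map_pow, hi, ← pow_mul, ← pow_mul, mul_comm]
  · obtain ⟨k, hk⟩ := key x hx
    have h1 : ((ζ ^ i) ^ k) ^ p = (ζ ^ p) ^ (i * k) := by ring
    rw [hk, map_pow, hχg, h1, hζ, one_pow]

lemma absNorm_smul {K : Type*} [Field K] [NumberField K] (σ : K ≃ₐ[ℚ] K) (I : Ideal (𝓞 K)) :
    Ideal.absNorm (σ • I) = Ideal.absNorm I := by
  rw [Ideal.absNorm_apply, Ideal.absNorm_apply, Submodule.cardQuot_apply, Submodule.cardQuot_apply]
  refine (Nat.card_congr (Ideal.quotientEquiv I (σ • I)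
    (MulSemiringAction.toRingEquiv (K ≃ₐ[ℚ] K) (𝓞 K) σ) ?_).toEquiv).symm
  rw [Ideal.pointwise_smul_def]
  rfl

lemma coe_smul {K : Type*} [Field K] [NumberField K] (σ : K ≃ₐ[ℚ] K) (x : 𝓞 K) :
    ((σ • x : 𝓞 K) : K) = σ (x : K) := rfl

lemma smul_eq_pow {K : Type*} [Field K] [NumberField K] {p a : ℕ} (ha : a ≠ 0) (σ : K ≃ₐ[ℚ] K)
    (hσ : ∀ ζ : K, ζ ^ p = 1 → σ ζ = ζ ^ a) (y : 𝓞 K) (hy : y = 0 ∨ y ^ p = 1) :
    σ • y = y ^ a := by
  rcases hy with rfl | hy
  · rw [smul_zero, zero_pow ha]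
  · apply RingOfIntegers.ext
    rw [coe_smul, hσ _ (by exact_mod_cast congrArg (fun z : 𝓞 K => (z : K)) hy)]
    simp

end Fermat.Agent.S14.Jac

namespace Fermat.Agent.S14

open Jac

theorem exists_jacobi_generator (p : ℕ) [Fact p.Prime] (hp2 : p ≠ 2)
    (K : Type*) [Field K] [NumberField K] [IsCyclotomicExtension {p} ℚ K]
    (𝔯 : Ideal (𝓞 K)) (h𝔯 : 𝔯.IsPrime) (hdeg : (Ideal.absNorm 𝔯).Prime) (hp𝔯 : (p : 𝓞 K) ∉ 𝔯)
    (s : ℕ → (K ≃ₐ[ℚ] K))
    (hs : ∀ a ∈ Finset.Icc 1 ((p-1)/2), ∀ ζ : K, ζ ^ p = 1 → s a ζ = ζ ^ a) :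
    ∃ J : 𝓞 K, Ideal.span {J} = ∏ a ∈ Finset.Icc 1 ((p-1)/2), (s a)⁻¹ • 𝔯 := by
  classical
  have hp : p.Prime := Fact.out
  haveI : NeZero p := ⟨hp.ne_zero⟩
  have hp3 : 3 ≤ p := by
    have := hp.two_le
    omega
  set r := Ideal.absNorm 𝔯 with hr
  have h𝔯0 : 𝔯 ≠ ⊥ := by
    rintro rfl
    rw [hr, Ideal.absNorm_bot] at hdeg
    exact Nat.not_prime_zero hdeg
  haveI h𝔯max : 𝔯.IsMaximal := h𝔯.isMaximal h𝔯0
  letI : Field (𝓞 K ⧸ 𝔯) := Ideal.Quotient.field 𝔯
  haveI : Finite (𝓞 K ⧸ 𝔯) := Ideal.finiteQuotientOfFreeOfNeBot 𝔯 h𝔯0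
  letI : Fintype (𝓞 K ⧸ 𝔯) := Fintype.ofFinite _
  have hcard : Fintype.card (𝓞 K ⧸ 𝔯) = r := by
    rw [hr, Ideal.absNorm_apply, Submodule.cardQuot_apply, Nat.card_eq_fintype_card]
  let red : 𝓞 K →+* 𝓞 K ⧸ 𝔯 := Ideal.Quotient.mk 𝔯
  have hred0 : ∀ x : 𝓞 K, red x = 0 ↔ x ∈ 𝔯 := fun x => Ideal.Quotient.eq_zero_iff_mem
  have hζK := IsCyclotomicExtension.zeta_spec p ℚ K
  let ζ : 𝓞 K := hζK.toInteger
  have hζprim : IsPrimitiveRoot ζ p := hζK.toInteger_isPrimitiveRoot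
  have hζp : ζ ^ p = 1 := hζprim.pow_eq_one
  have hζ1 : red ζ ≠ 1 := by
    intro h
    have h1 : ζ - 1 ∈ 𝔯 := by
      rw [← hred0, map_sub, map_one]
      exact sub_eq_zero.mpr h
    apply hp𝔯
    have h2 : ζ - 1 ∣ ((p : ℤ) : 𝓞 K) :=
      (IsCyclotomicExtension.Rat.zeta_sub_one_dvd_intCast_iff' p hζK).mpr (dvd_refl _)
    have h3 := 𝔯.mem_of_dvd h2 h1
    simpa using h3
  have hζ'prim : IsPrimitiveRoot (red ζ) p := by
    have h1 : (red ζ) ^ p = 1 := by rw [← map_pow, hζp, map_one]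
    have h2 := orderOf_eq_prime h1 hζ1
    rw [← h2]
    exact IsPrimitiveRoot.orderOf _
  obtain ⟨hpdvd, χ, hχred, hχp⟩ := exists_char red p ζ hζp hζ'prim
  rw [hcard] at hpdvd
  simp only [hcard] at hχred
  set m := (r - 1) / p with hmdef
  have hm : p * m = r - 1 := Nat.mul_div_cancel' hpdvd
  have hr2 : 2 ≤ r := hdeg.two_le
  have hm0 : 0 < m := by
    rcases Nat.eq_zero_or_pos m with h0 | h0
    · rw [h0, mul_zero] at hm
      omega
    · exact h0
  have hχ01 : ∀ x, χ x = 0 ∨ (χ x) ^ p = 1 := fun x => by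
    by_cases hx : x = 0
    · left
      rw [hx, MulChar.map_zero]
    · exact Or.inr (hχp x hx)
  let J : 𝓞 K := jacobiSum χ χ
  -- Step A: `J` lies in each of the conjugate primes
  have hA : ∀ a ∈ Finset.Icc 1 ((p-1)/2), J ∈ (s a)⁻¹ • 𝔯 := by
    intro a ha
    rw [Ideal.mem_pointwise_smul_iff_inv_smul_mem, inv_inv, ← hred0]
    have ha' := Finset.mem_Icc.mp ha
    have ha0 : a ≠ 0 := by omega
    have h1 : (s a) • J = ∑ x, (χ x) ^ a * (χ (1 - x)) ^ a := by
      simp only [J, jacobiSum, Finset.smul_sum, smul_mul']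
      refine Finset.sum_congr rfl fun x _ => ?_
      rw [smul_eq_pow ha0 (s a) (hs a ha) _ (hχ01 x),
        smul_eq_pow ha0 (s a) (hs a ha) _ (hχ01 (1 - x))]
    rw [h1, map_sum]
    have h2 : ∀ x, red ((χ x) ^ a * (χ (1 - x)) ^ a) = x ^ (m * a) * (1 - x) ^ (m * a) := by
      intro x
      rw [map_mul, map_pow, map_pow, hχred, hχred, ← pow_mul, ← pow_mul]
    simp_rw [h2]
    apply sum_pow_mul_one_sub_pow
    rw [hcard, ← hm]
    have : 2 * a < p := by omega
    nlinarith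
  -- Step B: the conjugate primes are distinct
  have hint : ∀ x : 𝓞 K, ∃ n : ℤ, x - (n : 𝓞 K) ∈ 𝔯 := by
    intro x
    let e := ZMod.ringEquivOfPrime (𝓞 K ⧸ 𝔯) hdeg hcard
    obtain ⟨z, hz⟩ := e.surjective (red x)
    obtain ⟨n, rfl⟩ := ZMod.intCast_surjective z
    refine ⟨n, ?_⟩
    rw [← hred0, map_sub, ← hz, map_intCast, map_intCast, sub_self]
  have hB : ∀ a ∈ Finset.Icc 1 ((p-1)/2), ∀ b ∈ Finset.Icc 1 ((p-1)/2),
      (s a)⁻¹ • 𝔯 = (s b)⁻¹ • 𝔯 → a = b := by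
    intro a ha b hb hab
    have ha' := Finset.mem_Icc.mp ha
    have hb' := Finset.mem_Icc.mp hb
    have h1 : ∀ (σ : K ≃ₐ[ℚ] K) (x : 𝓞 K) (n : ℤ), x - n ∈ 𝔯 → σ⁻¹ • x - n ∈ σ⁻¹ • 𝔯 := by
      intro σ x n h
      have := (Ideal.smul_mem_pointwise_smul_iff (a := σ⁻¹)).mpr h
      have hn' : σ⁻¹ • ((n : ℤ) : 𝓞 K) = n :=
        map_intCast (MulSemiringAction.toRingHom (K ≃ₐ[ℚ] K) (𝓞 K) σ⁻¹) n
      rwa [smul_sub, hn'] at this
    obtain ⟨n, hn⟩ := hint (ζ ^ b)
    have h2 := h1 (s a) _ n hn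
    have h3 := h1 (s b) _ n hn
    rw [← hab] at h3
    have h4 : (s b)⁻¹ • (ζ ^ b) = ζ := by
      rw [inv_smul_eq_iff, smul_eq_pow (by omega) (s b) (hs b hb) ζ (Or.inr hζp)]
    rw [h4] at h3
    have h5 := Ideal.sub_mem _ h2 h3
    rw [sub_sub_sub_cancel_right, Ideal.mem_pointwise_smul_iff_inv_smul_mem, inv_inv, smul_sub,
      smul_inv_smul, smul_eq_pow (by omega) (s a) (hs a ha) ζ (Or.inr hζp), ← hred0, map_sub,
      map_pow, map_pow, sub_eq_zero] at h5
    exact (hζ'prim.pow_inj (by omega) (by omega) h5).symm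
  have hmax : ∀ σ : K ≃ₐ[ℚ] K, (σ • 𝔯).IsMaximal := by
    intro σ
    rw [Ideal.pointwise_smul_def]
    exact Ideal.map_isMaximal_of_equiv (MulSemiringAction.toRingEquiv (K ≃ₐ[ℚ] K) (𝓞 K) σ)
  have hdvd : (∏ a ∈ Finset.Icc 1 ((p-1)/2), (s a)⁻¹ • 𝔯) ∣ Ideal.span {J} := by
    apply Finset.prod_dvd_of_coprime
    · intro a ha b hb hab
      rw [Function.onFun, Ideal.isCoprime_iff_sup_eq]
      exact Ideal.IsMaximal.coprime_of_ne (hmax _) (hmax _) (fun h => hab (hB a ha b hb h))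
    · intro a ha
      rw [Ideal.dvd_span_singleton]
      exact hA a ha
  -- Step C: norms
  have hodd : (p - 1) / 2 * 2 = p - 1 := by
    rcases hp.eq_two_or_odd with h | h
    · exact absurd h hp2
    · omega
  have hNA : Ideal.absNorm (∏ a ∈ Finset.Icc 1 ((p-1)/2), (s a)⁻¹ • 𝔯) = r ^ ((p-1)/2) := by
    rw [map_prod]
    simp only [absNorm_smul]
    rw [Finset.prod_const, Nat.card_Icc, Nat.add_sub_cancel]
  -- nontriviality of the characters
  have hne : ∀ k : ℕ, 0 < k → k < p → χ ^ k ≠ 1 := by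
    intro k hk0 hkp h
    have h1 : ∀ x : (𝓞 K ⧸ 𝔯)ˣ, x ^ (m * k) = 1 := by
      intro x
      have h2 : (χ ^ k) (x : 𝓞 K ⧸ 𝔯) = 1 := by
        rw [h, MulChar.one_apply x.isUnit]
      rw [MulChar.pow_apply' _ hk0.ne'] at h2
      have h3 := congrArg red h2
      rw [map_pow, hχred, map_one, ← pow_mul] at h3
      exact Units.ext (by simpa using h3)
    rw [FiniteField.forall_pow_eq_one_iff, hcard, ← hm] at h1
    have h4 := Nat.le_of_dvd (Nat.mul_pos hm0 hk0) h1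
    nlinarith
  let c : K ≃ₐ[ℚ] K := (IsCyclotomicExtension.Rat.galEquivZMod p K).symm (-1)
  have hc : ∀ y : 𝓞 K, y = 0 ∨ y ^ p = 1 → c • y = y ^ (p - 1) := by
    intro y hy
    refine smul_eq_pow (p := p) (by omega) c ?_ y hy
    intro z hz
    rw [IsCyclotomicExtension.Rat.galEquivZMod_apply_of_pow_eq p K c hz]
    congr 1
    simp only [c, MulEquiv.apply_symm_apply, Units.val_neg, Units.val_one]
    rw [ZMod.neg_val, if_neg (one_ne_zero), ZMod.val_one]
  have hinv : ∀ x, χ⁻¹ x = (χ x) ^ (p - 1) := by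
    intro x
    by_cases hx : x = 0
    · rw [hx, MulChar.map_zero, MulChar.map_zero, zero_pow (by omega)]
    · have h1 : χ⁻¹ x * χ x = 1 := by
        rw [← MulChar.mul_apply, inv_mul_cancel, MulChar.one_apply (isUnit_iff_ne_zero.mpr hx)]
      have h2 : (χ x) ^ (p - 1) * χ x = 1 := by
        rw [← pow_succ, Nat.sub_add_cancel hp.one_le, hχp x hx]
      have h3 : χ x ≠ 0 := by
        intro h0
        rw [h0, mul_zero] at h1
        exact zero_ne_one h1
      exact mul_right_cancel₀ h3 (h1.trans h2.symm)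
  have hcJ : c • J = jacobiSum χ⁻¹ χ⁻¹ := by
    simp only [J, jacobiSum, Finset.smul_sum, smul_mul']
    refine Finset.sum_congr rfl fun x _ => ?_
    rw [hc _ (hχ01 x), hc _ (hχ01 (1 - x)), hinv, hinv]
  have hJJ : J * (c • J) = (r : 𝓞 K) := by
    rw [hcJ]
    have hinj : Function.Injective (algebraMap (𝓞 K) K) := RingOfIntegers.coe_injective
    apply hinj
    have hchar : ringChar K ≠ ringChar (𝓞 K ⧸ 𝔯) := by
      rw [ringChar.eq_zero]
      exact (CharP.ringChar_ne_zero_of_finite _).symm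
    have h1 : χ.ringHomComp (algebraMap (𝓞 K) K) ≠ 1 := by
      rw [MulChar.ringHomComp_ne_one_iff hinj]
      have := hne 1 one_pos hp.one_lt
      rwa [pow_one] at this
    have h2 : χ.ringHomComp (algebraMap (𝓞 K) K) * χ.ringHomComp (algebraMap (𝓞 K) K) ≠ 1 := by
      rw [← MulChar.ringHomComp_mul, MulChar.ringHomComp_ne_one_iff hinj, ← pow_two]
      exact hne 2 two_pos (by omega)
    have := jacobiSum_mul_jacobiSum_inv hchar h1 h1 h2
    rw [MulChar.ringHomComp_inv, jacobiSum_ringHomComp, jacobiSum_ringHomComp, hcard] at this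
    rw [map_mul, this, map_natCast]
  have hspan : Ideal.span {c • J} = c • Ideal.span {J} := by
    rw [Ideal.pointwise_smul_def, Ideal.map_span, Set.image_singleton]
    rfl
  have hrank : Module.finrank ℤ (𝓞 K) = p - 1 := by
    rw [RingOfIntegers.rank, IsCyclotomicExtension.finrank K
      (Polynomial.cyclotomic.irreducible_rat hp.pos), Nat.totient_prime hp]
  have hNJ : Ideal.absNorm (Ideal.span {J}) = r ^ ((p-1)/2) := by
    have h1 : Ideal.absNorm (Ideal.span {J}) * Ideal.absNorm (Ideal.span {c • J}) = r ^ (p - 1) := by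
      rw [← map_mul, Ideal.span_singleton_mul_span_singleton, hJJ, Ideal.absNorm_span_natCast, hrank]
    rw [hspan, absNorm_smul, ← pow_two, ← hodd, pow_mul] at h1
    exact Nat.pow_left_injective (n := 2) (by norm_num) h1
  obtain ⟨X, hX⟩ := hdvd
  have hNX : Ideal.absNorm X = 1 := by
    have h1 := congrArg Ideal.absNorm hX
    rw [map_mul, hNA, hNJ] at h1
    have h2 : 0 < r ^ ((p-1)/2) := pow_pos (by omega) _
    nlinarith
  rw [Ideal.absNorm_eq_one_iff] at hNX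
  refine ⟨J, ?_⟩
  rw [hX, hNX, Ideal.mul_top]

end Fermat.Agent.S14
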