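import Fermat.Agent.S14.Defs

/-!
# S14/Kummerize : from the hypotheses of `MainStatement` to the `α`-language
`L/K` cyclic of degree `p`, `ζ ∈ K`: `L = K(θ)`, `θ^p = α ∈ K`.  For `δ ∈ Gal(K/ℚ)`, `δ ζ = ζ^c`, lift `δ` to
`d ∈ Gal(L/ℚ)`; `d g^c d⁻¹ = g` gives `g (d θ) = ζ^{i c²} d θ` when `g θ = ζ^i θ`, so `d θ / θ^{c²} ∈ K`.
-/

set_option autoImplicit false

open NumberField IsDedekindDomain

namespace Fermat.Agent.S14

namespace Kummerize

theorem eidx_eq_one_of_inertia {K L : Type} [Field K] [Field L] [NumberField K] [NumberField L]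
    [Algebra K L] [IsGalois K L]
    (hU : ∀ P : Ideal (𝓞 L), P.IsPrime → P ≠ ⊥ → P.inertia Gal(L/K) = ⊥) (w : Pr L) :
    eidx K w = 1 := by
  unfold eidx
  have h1 := Ideal.card_inertia_eq_ramificationIdxIn (G := Gal(L/K)) (w.asIdeal.under (𝓞 K)) w.asIdeal
  rw [hU w.asIdeal w.isPrime w.ne_bot] at h1
  rw [Ideal.ramificationIdxIn_eq_ramificationIdx (w.asIdeal.under (𝓞 K)) w.asIdeal Gal(L/K)] at h1
  simpa using h1.symm

theorem pow_apply_of_eigen {K L : Type} [Field K] [Field L] [Algebra K L] (g : Gal(L/K)) {z : K}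
    {θ : L} (h : g θ = algebraMap K L z * θ) (n : ℕ) : (g ^ n) θ = algebraMap K L z ^ n * θ := by
  induction n with
  | zero => simp
  | succ n ih =>
    rw [pow_succ', AlgEquiv.mul_apply, ih, map_mul, map_pow, AlgEquiv.commutes, h]
    ring

end Kummerize

open Kummerize

theorem kummerize {p : ℕ} [Fact p.Prime] (hp : p ≠ 2) {K L : Type} [Field K] [Field L] [NumberField K]
    [NumberField L] [Algebra K L] [IsCyclotomicExtension {p} ℚ K] [IsGalois ℚ L] [IsGalois K L]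
    (hdeg : Module.finrank K L = p)
    (hU : ∀ P : Ideal (𝓞 L), P.IsPrime → P ≠ ⊥ → P.inertia Gal(L/K) = ⊥)
    (hE : ∀ (d : Gal(L/ℚ)) (n : ℕ),
      (∀ ζ : K, ζ ^ p = 1 → d (algebraMap K L ζ) = algebraMap K L ζ ^ n) →
      ∀ g : Gal(L/K), d * (g ^ n).restrictScalars ℚ * d⁻¹ = g.restrictScalars ℚ) :
    ∃ (ζ α : K) (θ : L), IsPrimitiveRoot ζ p ∧ (∀ w : Pr L, eidx K w = 1) ∧ (¬ ∃ y : K, y ^ p = α) ∧
      θ ^ p = algebraMap K L α ∧
      ∀ (δ : K ≃ₐ[ℚ] K) (c : ℕ), δ ζ = ζ ^ c → ∃ u : K, δ α = α ^ (c ^ 2) * u ^ p := by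
  have hp0 : p ≠ 0 := (Fact.out : p.Prime).ne_zero
  have hp1 : p ≠ 1 := (Fact.out : p.Prime).ne_one
  have : NeZero p := ⟨hp0⟩
  have hζ : IsPrimitiveRoot (IsCyclotomicExtension.zeta p ℚ K) p :=
    IsCyclotomicExtension.zeta_spec p ℚ K
  set ζ := IsCyclotomicExtension.zeta p ℚ K with hζdef
  have hcard : Nat.card Gal(L/K) = p := by rw [IsGalois.card_aut_eq_finrank, hdeg]
  have : IsCyclic Gal(L/K) := isCyclic_of_prime_card hcard
  obtain ⟨θ, ⟨α, hα⟩, htop⟩ := exists_root_adjoin_eq_top_of_isCyclic K L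
    (by rw [hdeg]; exact ⟨ζ, (mem_primitiveRoots (Nat.pos_of_ne_zero hp0)).mpr hζ⟩)
  rw [hdeg] at hα
  have hζL : IsPrimitiveRoot (algebraMap K L ζ) p :=
    hζ.map_of_injective (algebraMap K L).injective
  have hθK : ∀ y : K, algebraMap K L y ≠ θ := by
    intro y hy
    have h1 : IntermediateField.adjoin K {θ} = ⊥ := by
      rw [IntermediateField.adjoin_simple_eq_bot_iff, IntermediateField.mem_bot]
      exact ⟨y, hy⟩
    rw [htop] at h1
    have h2 := IntermediateField.bot_eq_top_iff_finrank_eq_one.mp h1.symm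
    rw [hdeg] at h2
    exact hp1 h2
  have hθ0 : θ ≠ 0 := by
    intro h
    exact hθK 0 (by rw [map_zero, h])
  have hαp : ¬ ∃ y : K, y ^ p = α := by
    rintro ⟨y, hy⟩
    have h1 : θ ^ p = (algebraMap K L y) ^ p := by rw [← hα, ← hy, map_pow]
    have hy0 : algebraMap K L y ≠ 0 := by
      intro h
      rw [h, zero_pow hp0] at h1
      exact hθ0 (pow_eq_zero_iff hp0 |>.mp h1)
    have h2 : (θ / algebraMap K L y) ^ p = 1 := by
      rw [div_pow, h1, div_self (pow_ne_zero _ hy0)]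
    obtain ⟨i, _, hi⟩ := hζL.eq_pow_of_pow_eq_one h2
    exact hθK (ζ ^ i * y) (by rw [map_mul, map_pow, hi, div_mul_cancel₀ _ hy0])
  have hg : ∀ g : Gal(L/K), ∃ i : ℕ, g θ = algebraMap K L (ζ ^ i) * θ := by
    intro g
    have h2 : (g θ / θ) ^ p = 1 := by
      rw [div_pow, ← map_pow, ← hα, AlgEquiv.commutes, div_self]
      rw [hα]
      exact pow_ne_zero _ hθ0
    obtain ⟨i, _, hi⟩ := hζL.eq_pow_of_pow_eq_one h2
    exact ⟨i, by rw [map_pow, hi, div_mul_cancel₀ _ hθ0]⟩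
  refine ⟨ζ, α, θ, hζ, eidx_eq_one_of_inertia hU, hαp, hα.symm, ?_⟩
  intro δ c hc
  have : IsGalois ℚ K := IsCyclotomicExtension.isGalois {p} ℚ K
  obtain ⟨d, hd⟩ := AlgEquiv.restrictNormalHom_surjective (F := ℚ) (K₁ := K) L δ
  have hdK : ∀ x : K, d (algebraMap K L x) = algebraMap K L (δ x) := by
    intro x
    rw [← hd]
    exact (AlgEquiv.restrictNormal_commutes d K x).symm
  have hroot : ∀ ζ1 : K, ζ1 ^ p = 1 → d (algebraMap K L ζ1) = algebraMap K L ζ1 ^ c := by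
    intro ζ1 h1
    obtain ⟨i, _, rfl⟩ := hζ.eq_pow_of_pow_eq_one h1
    rw [hdK, map_pow, hc, ← map_pow, ← pow_mul, ← pow_mul, mul_comm]
  have hconj := hE d c hroot
  have hfix : ∀ g : Gal(L/K), g (d θ / θ ^ (c ^ 2)) = d θ / θ ^ (c ^ 2) := by
    intro g
    obtain ⟨i, hi⟩ := hg g
    have h1 : g (d θ) = d ((g ^ c) θ) := by
      have h := congrArg (fun f : Gal(L/ℚ) => f (d θ)) (hconj g)
      simp only [AlgEquiv.mul_apply, AlgEquiv.restrictScalars_apply] at h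
      rw [← h]
      congr 2
      exact (AlgEquiv.symm_apply_apply d θ)
    have h2 := pow_apply_of_eigen g hi c
    have hz0 : algebraMap K L ζ ≠ 0 := hζL.ne_zero hp0
    rw [map_div₀, map_pow, h1, h2, map_mul, map_pow, hdK, map_pow, hc, hi, mul_pow]
    have h3 : algebraMap K L ((ζ ^ c) ^ i) ^ c = algebraMap K L (ζ ^ i) ^ c ^ 2 := by
      rw [← map_pow, ← map_pow]
      congr 1
      ring
    rw [h3, mul_div_mul_left]
    exact pow_ne_zero _ (by rw [map_pow]; exact pow_ne_zero _ hz0)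
  obtain ⟨u, hu⟩ := (IsGalois.mem_range_algebraMap_iff_fixed _).mpr hfix
  refine ⟨u, (algebraMap K L).injective ?_⟩
  rw [← hdK, hα, map_pow, map_mul, map_pow, map_pow, hu, hα, div_pow, ← pow_mul, ← pow_mul,
    mul_comm p, mul_div_cancel₀]
  exact pow_ne_zero _ hθ0

end Fermat.Agent.S14
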