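import Fermat.Agent.S14.Cross
import Fermat.Agent.S14.Jac
import Fermat.Agent.S14.MainStmt
import Fermat.Agent.S14.Kummerize

/-!
# S14/Main : no everywhere unramified `L = K(α^{1/p})` of type `ω²` (for `α`);  `MainStatement p`
-/

set_option autoImplicit false

open NumberField IsDedekindDomain
open scoped Pointwise nonZeroDivisors

namespace Fermat.Agent.S14

namespace Main

theorem Nv_prime_rat (u : Pr ℚ) : (Nv u).Prime := by
  let e : 𝓞 ℚ ≃+* ℤ := Rat.ringOfIntegersEquiv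
  let J : Ideal ℤ := u.asIdeal.map e
  have hJp : J.IsPrime := Ideal.map_isPrime_of_equiv e
  have hJ0 : J ≠ ⊥ := by
    intro h
    exact u.ne_bot ((Ideal.map_eq_bot_iff_of_injective e.injective).mp h)
  have hcard : Nv u = Ideal.absNorm J := by
    rw [Nv_eq_card, Ideal.absNorm_apply, Submodule.cardQuot_apply]
    exact Nat.card_congr (Ideal.quotientEquiv u.asIdeal J e rfl).toEquiv
  rw [hcard, Nat.prime_iff_prime_int, ← Ideal.span_singleton_prime, Int.ideal_span_absNorm_eq_self]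
  · exact hJp
  · exact Int.natCast_ne_zero.mpr (Ideal.absNorm_eq_zero_iff.not.mpr hJ0)

theorem exists_aut {p : ℕ} [Fact p.Prime] {K : Type} [Field K] [NumberField K]
    [IsCyclotomicExtension {p} ℚ K] {ζ : K} (hζ : IsPrimitiveRoot ζ p) (a : ℕ) (ha : a.Coprime p) :
    ∃ σ : K ≃ₐ[ℚ] K, σ ζ = ζ ^ a := by
  have hpp : p.Prime := Fact.out
  have : NeZero p := ⟨hpp.ne_zero⟩
  have hζa := hζ.pow_of_coprime a ha
  have hmin : minpoly ℚ (hζ.powerBasis ℚ).gen = minpoly ℚ (hζa.powerBasis ℚ).gen := by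
    rw [IsPrimitiveRoot.powerBasis_gen, IsPrimitiveRoot.powerBasis_gen,
      ← Polynomial.cyclotomic_eq_minpoly_rat hζ hpp.pos, ← Polynomial.cyclotomic_eq_minpoly_rat hζa hpp.pos]
  refine ⟨(hζ.powerBasis ℚ).equivOfMinpoly (hζa.powerBasis ℚ) hmin, ?_⟩
  have := (hζ.powerBasis ℚ).equivOfMinpoly_gen (hζa.powerBasis ℚ) hmin
  rwa [IsPrimitiveRoot.powerBasis_gen, IsPrimitiveRoot.powerBasis_gen] at this

theorem aut_eq_one {p : ℕ} [Fact p.Prime] {K : Type} [Field K] [NumberField K]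
    [IsCyclotomicExtension {p} ℚ K] {ζ : K} (hζ : IsPrimitiveRoot ζ p) (δ : K ≃ₐ[ℚ] K)
    (h : δ ζ = ζ) : δ = 1 := by
  have hpp : p.Prime := Fact.out
  have : NeZero p := ⟨hpp.ne_zero⟩
  have h1 : (δ : K →ₐ[ℚ] K) = AlgHom.id ℚ K := by
    apply (hζ.powerBasis ℚ).algHom_ext
    rw [IsPrimitiveRoot.powerBasis_gen]
    simpa using h
  ext x
  exact DFunLike.congr_fun h1 x

theorem sum_Icc_mul_two (h : ℕ) : (∑ a ∈ Finset.Icc 1 h, a) * 2 = h * (h + 1) := by
  induction h with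
  | zero => simp
  | succ n ih =>
    rw [Finset.sum_Icc_succ_top (by omega), add_mul, ih]
    ring

theorem sum_Icc_ne_zero {p : ℕ} [Fact p.Prime] (hp : p ≠ 2) :
    ((∑ a ∈ Finset.Icc 1 ((p - 1) / 2), a : ℕ) : ZMod p) ≠ 0 := by
  have hpp : p.Prime := Fact.out
  have h2 := hpp.two_le
  intro h
  rw [ZMod.natCast_eq_zero_iff] at h
  have h1 : p ∣ ((p - 1) / 2) * ((p - 1) / 2 + 1) := by
    rw [← sum_Icc_mul_two]
    exact Dvd.dvd.mul_right h 2
  rcases (Nat.Prime.dvd_mul hpp).mp h1 with h3 | h3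
  · have := Nat.le_of_dvd (by omega) h3
    omega
  · have := Nat.le_of_dvd (by omega) h3
    omega

end Main

/-- equivariance: `sym(α, δ v) = c⁻¹ sym(α, v)`, in the form `c sym(α, δ v) = sym(α, v)`  (`sym_gal`, `δ α = α^{c²} u^p`; `p ∤ c`). -/
theorem sym_alpha_gal {p : ℕ} [Fact p.Prime] {K : Type} [Field K] [NumberField K] {ζ : K}
    (hζ : IsPrimitiveRoot ζ p) {α : K} (hα0 : α ≠ 0)
    (htype : ∀ (δ : K ≃ₐ[ℚ] K) (c : ℕ), δ ζ = ζ ^ c → ∃ u : K, δ α = α ^ (c ^ 2) * u ^ p)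
    (δ : K ≃ₐ[ℚ] K) {c : ℕ} (hc : δ ζ = ζ ^ c) (v : Pr K) (hv : ord v (p : K) = 0)
    (hαv : ord v α = 0) (hαv' : ord (gal δ v) α = 0) :
    (c : ZMod p) * sym p ζ (gal δ v) α = sym p ζ v α := by
  have hp : p.Prime := Fact.out
  obtain ⟨u, hu⟩ := htype δ c hc
  have hv' : ord (gal δ v) (p : K) = 0 := by
    have := ord_gal δ v (p : K)
    rwa [map_natCast, hv] at this
  have h1 := sym_gal hζ δ hc v hv hα0 hαv
  have hδα : δ α ≠ 0 := by simpa using hα0
  have hu0 : u ≠ 0 := by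
    rintro rfl
    rw [zero_pow hp.ne_zero, mul_zero] at hu
    exact hδα hu
  have hord : ord (gal δ v) (δ α) = 0 := by rw [ord_gal, hαv]
  have hαc0 : α ^ (c ^ 2) ≠ 0 := pow_ne_zero _ hα0
  have hαc : ord (gal δ v) (α ^ (c ^ 2)) = 0 := by rw [ord_pow, hαv', mul_zero]
  have hup : ord (gal δ v) (u ^ p) = 0 := by
    rw [hu, ord_mul _ hαc0 (pow_ne_zero _ hu0), hαc, zero_add] at hord
    exact hord
  have huv : ord (gal δ v) u = 0 := by
    rw [ord_pow] at hup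
    rcases mul_eq_zero.mp hup with h | h
    · exact absurd (by exact_mod_cast h) hp.ne_zero
    · exact h
  rw [hu, sym_mul hζ _ hv' hαc0 hαc (pow_ne_zero _ hu0) hup, sym_pow hζ _ hv' hα0 hαv',
    sym_pow hζ _ hv' hu0 huv] at h1
  simp only [ZMod.natCast_self, zero_mul, add_zero, Nat.cast_pow] at h1
  -- `c` is invertible mod `p`
  have hc0 : (c : ZMod p) ≠ 0 := by
    intro h
    rw [ZMod.natCast_eq_zero_iff] at h
    obtain ⟨t, rfl⟩ := h
    rw [pow_mul, hζ.pow_eq_one, one_pow] at hc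
    have h2 : ζ = 1 := by
      apply δ.injective
      rw [hc, map_one]
    exact hζ.ne_one hp.one_lt h2
  apply mul_left_cancel₀ hc0
  rw [← h1]
  ring

namespace Main

theorem gal_asIdeal {K : Type} [Field K] [NumberField K] (σ : K ≃ₐ[ℚ] K) (v : Pr K) :
    (gal σ v).asIdeal = σ • v.asIdeal := by
  change Ideal.map (galRestrict (𝓞 ℚ) ℚ K (𝓞 K) σ) v.asIdeal = _
  rw [Ideal.pointwise_smul_def]
  unfold Ideal.map
  congr 1
  refine Set.image_congr fun x _ => ?_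
  apply RingOfIntegers.ext
  exact algebraMap_galRestrict_apply (𝓞 ℚ) σ x

end Main

open Main

/-- adapter for `exists_jacobi_generator` (S14/Jac.lean): `dv J = ∑_{a < p/2} δ_a⁻¹ v`. -/
theorem exists_jacobi_dv {p : ℕ} [Fact p.Prime] (hp : p ≠ 2) {K : Type} [Field K] [NumberField K]
    [IsCyclotomicExtension {p} ℚ K] {ζ : K} (hζ : IsPrimitiveRoot ζ p) (v : Pr K)
    (hv : ord v (p : K) = 0) (hdeg : (Nv v).Prime) (s : ℕ → (K ≃ₐ[ℚ] K))
    (hs : ∀ a ∈ Finset.Icc 1 ((p - 1) / 2), s a ζ = ζ ^ a) :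
    ∃ J : K, J ≠ 0 ∧ dv J = ∑ a ∈ Finset.Icc 1 ((p - 1) / 2), Finsupp.single (gal (s a)⁻¹ v) 1 := by
  classical
  have hpp : p.Prime := Fact.out
  have : NeZero p := ⟨hpp.ne_zero⟩
  have hpv : (p : 𝓞 K) ∉ v.asIdeal := by
    have hp1 : (p : 𝓞 K) ≠ 0 := by exact_mod_cast hpp.ne_zero
    rw [← ord_eq_zero_iff v hp1]
    simpa using hv
  obtain ⟨J, hJ⟩ := exists_jacobi_generator p hp K v.asIdeal v.isPrime hdeg hpv s (by
    intro a ha ζ1 h1
    obtain ⟨i, _, rfl⟩ := hζ.eq_pow_of_pow_eq_one h1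
    rw [map_pow, hs a ha, ← pow_mul, ← pow_mul, mul_comm])
  have hJ' : Ideal.span {J} = ∏ a ∈ Finset.Icc 1 ((p - 1) / 2), (gal (s a)⁻¹ v).asIdeal := by
    rw [hJ]
    exact Finset.prod_congr rfl fun a _ => (gal_asIdeal _ _).symm
  have hJ0 : J ≠ 0 := by
    rintro rfl
    have h0 : (∏ a ∈ Finset.Icc 1 ((p - 1) / 2), (gal (s a)⁻¹ v).asIdeal) ≠ 0 := by
      rw [Finset.prod_ne_zero_iff]
      intro a _
      exact (gal (s a)⁻¹ v).ne_bot
    apply h0
    rw [← hJ']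
    simp
  refine ⟨(J : K), by simpa using hJ0, ?_⟩
  ext w
  rw [dv_apply, Finsupp.finsetSum_apply]
  unfold ord
  have h : FractionalIdeal.spanSingleton (𝓞 K)⁰ (J : K) =
      ((Ideal.span {J} : Ideal (𝓞 K)) : FractionalIdeal (𝓞 K)⁰ K) :=
    (FractionalIdeal.coeIdeal_span_singleton J).symm
  rw [h, hJ', ← FractionalIdeal.coeIdealHom_apply, map_prod, FractionalIdeal.count_prod]
  · refine Finset.sum_congr rfl fun a _ => ?_
    rw [FractionalIdeal.coeIdealHom_apply, FractionalIdeal.count_maximal, Finsupp.single_apply]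
  · intro a _
    rw [FractionalIdeal.coeIdealHom_apply]
    exact FractionalIdeal.coeIdeal_ne_zero.mpr (gal (s a)⁻¹ v).ne_bot

/-- MAIN in `α`-language. -/
theorem main_alpha {p : ℕ} [Fact p.Prime] (hp : p ≠ 2) {K : Type} [Field K] [NumberField K]
    [IsCyclotomicExtension {p} ℚ K] {ζ : K} (hζ : IsPrimitiveRoot ζ p)
    {L : Type} [Field L] [NumberField L] [Algebra K L] [IsGalois K L]
    (hdeg : Module.finrank K L = p) (hunr : ∀ w : Pr L, eidx K w = 1)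
    {α : K} (hα : ¬ ∃ y : K, y ^ p = α) {θ : L} (hθ : θ ^ p = algebraMap K L α)
    (htype : ∀ (δ : K ≃ₐ[ℚ] K) (c : ℕ), δ ζ = ζ ^ c → ∃ u : K, δ α = α ^ (c ^ 2) * u ^ p) :
    False := by
  classical
  have hpp : p.Prime := Fact.out
  have : NeZero p := ⟨hpp.ne_zero⟩
  have : IsGalois ℚ K := IsCyclotomicExtension.isGalois {p} ℚ K
  have hα0 : α ≠ 0 := by
    rintro rfl
    exact hα ⟨0, zero_pow hpp.ne_zero⟩
  -- the set `Sg`
  let Sg₀ : Finset (Pr K) :=
    (finite_ord_ne_zero (p : K)).toFinset ∪ (finite_ord_ne_zero α).toFinset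
  let Sg : Finset (Pr K) := Finset.univ.biUnion fun δ : K ≃ₐ[ℚ] K => Sg₀.image (gal δ)
  have hmem : ∀ v : Pr K, v ∈ Sg ↔ ∃ (δ : K ≃ₐ[ℚ] K) (v₀ : Pr K),
      (ord v₀ (p : K) ≠ 0 ∨ ord v₀ α ≠ 0) ∧ gal δ v₀ = v := by
    intro v
    simp [Sg, Sg₀]
  have hGood : Good p α Sg := by
    intro v hv
    rw [hmem] at hv
    by_contra hcon
    apply hv
    refine ⟨1, v, ?_, gal_one v⟩
    by_contra h2
    push Not at h2
    exact hcon h2
  have hstab : ∀ (δ : K ≃ₐ[ℚ] K) (v : Pr K), v ∉ Sg → gal δ v ∉ Sg := by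
    intro δ v hv h
    rw [hmem] at h
    obtain ⟨δ', v₀, h0, h1⟩ := h
    apply hv
    rw [hmem]
    refine ⟨δ⁻¹ * δ', v₀, h0, ?_⟩
    rw [gal_mul, h1, ← gal_mul, inv_mul_cancel, gal_one]
  -- a prime with nonzero symbol
  obtain ⟨v, hvS, hvp, hvα, hsym⟩ := DL hζ hα Sg
  -- its decomposition group is trivial
  have htriv : ∀ δ : K ≃ₐ[ℚ] K, gal δ v = v → δ = 1 := by
    intro δ hδ
    have h1 : (δ ζ) ^ p = 1 := by rw [← map_pow, hζ.pow_eq_one, map_one]
    obtain ⟨c, hcp, hc⟩ := hζ.eq_pow_of_pow_eq_one h1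
    have h2 := sym_alpha_gal hζ hα0 htype δ hc.symm v hvp hvα (by rw [hδ]; exact hvα)
    rw [hδ] at h2
    have h3 : ((c : ZMod p) - 1) * sym p ζ v α = 0 := by
      rw [sub_mul, h2, one_mul, sub_self]
    have h4 : (c : ZMod p) = ((1 : ℕ) : ZMod p) := by
      rcases mul_eq_zero.mp h3 with h | h
      · rw [Nat.cast_one]
        exact sub_eq_zero.mp h
      · exact absurd h hsym
    rw [ZMod.natCast_eq_natCast_iff] at h4
    apply aut_eq_one hζ
    have h5 : c = 1 := by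
      have h6 := h4
      unfold Nat.ModEq at h6
      rwa [Nat.mod_eq_of_lt hcp, Nat.mod_eq_of_lt hpp.one_lt] at h6
    rw [← hc, h5, pow_one]
  have hNv : (Nv v).Prime := by
    obtain ⟨_, hf⟩ := split_of_stab (k := ℚ) v htriv
    rw [Nv_eq_pow (k := ℚ) v, hf, pow_one]
    exact Nv_prime_rat _
  -- the automorphisms
  have hex : ∀ a : ℕ, ∃ σ : K ≃ₐ[ℚ] K, a ∈ Finset.Icc 1 ((p - 1) / 2) → σ ζ = ζ ^ a := by
    intro a
    by_cases ha : a ∈ Finset.Icc 1 ((p - 1) / 2)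
    · rw [Finset.mem_Icc] at ha
      have hcop : a.Coprime p := by
        rw [Nat.coprime_comm, Nat.Prime.coprime_iff_not_dvd hpp]
        intro hd
        have := Nat.le_of_dvd (by omega) hd
        omega
      obtain ⟨σ, hσ⟩ := exists_aut hζ a hcop
      exact ⟨σ, fun _ => hσ⟩
    · exact ⟨1, fun h => absurd h ha⟩
  choose s hs using hex
  obtain ⟨J, hJ0, hJ⟩ := exists_jacobi_dv hp hζ v hvp hNv s hs
  have hV := Hgp_ne_top hp hζ hdeg hunr hα hθ Sg hGood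
  have hJS : ∀ w ∈ Sg, ord w J = 0 := by
    intro w hw
    rw [← dv_apply, hJ, Finsupp.finsetSum_apply]
    refine Finset.sum_eq_zero fun a _ => ?_
    rw [Finsupp.single_apply, if_neg]
    intro h
    exact hstab (s a)⁻¹ v hvS (h ▸ hw)
  have hrec := reciprocity hp hζ hα Sg hGood hV hJ0 hJS
  rw [hJ, map_sum] at hrec
  have hterm : ∀ a ∈ Finset.Icc 1 ((p - 1) / 2),
      psi p ζ α Sg (Finsupp.single (gal (s a)⁻¹ v) 1) = (a : ZMod p) * sym p ζ v α := by
    intro a ha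
    have hn := hstab (s a)⁻¹ v hvS
    rw [psi_single, if_neg hn, Int.cast_one, one_mul]
    have hg := hGood _ hn
    have hback : gal (s a) (gal (s a)⁻¹ v) = v := by
      rw [← gal_mul, mul_inv_cancel, gal_one]
    have := sym_alpha_gal hζ hα0 htype (s a) (hs a ha) (gal (s a)⁻¹ v) hg.1 hg.2
      (by rw [hback]; exact hvα)
    rw [hback] at this
    exact this.symm
  rw [Finset.sum_congr rfl hterm, ← Finset.sum_mul, ← Nat.cast_sum] at hrec
  rcases mul_eq_zero.mp hrec with h | h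
  · exact sum_Icc_ne_zero hp h
  · exact hsym h

theorem main (p : ℕ) [Fact p.Prime] (h3 : 3 ≤ p) : MainStatement p := by
  intro K L _ _ _ _ _ _ _ _ hdeg hU hE
  have hp : p ≠ 2 := by omega
  obtain ⟨ζ, α, θ, hζ, hunr, hα, hθ, htype⟩ := kummerize hp hdeg hU hE
  exact main_alpha hp hζ hdeg hunr hα hθ htype

end Fermat.Agent.S14
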