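import Mathlib

namespace Fermat.Agent.S14.AbTools

open Polynomial Module

/-- `(X-1)^(p-1) = Φ + p r` with `r` a unit modulo `Φ = 1 + X + ... + X^(p-1)`. -/
theorem poly_identity (p : ℕ) [hp : Fact p.Prime] :
    ∃ r U W : ℤ[X], (X - 1 : ℤ[X]) ^ (p - 1) =
      (∑ i ∈ Finset.range p, X ^ i) + C (p : ℤ) * r ∧
      r * U + (∑ i ∈ Finset.range p, X ^ i) * W = 1 := by
  set Φ : ℤ[X] := ∑ i ∈ Finset.range p, X ^ i with hΦ
  have hp1 : p - 1 + 1 = p := Nat.sub_add_cancel hp.out.one_le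
  have hp0 : p - 1 ≠ 0 := by have := hp.out.two_le; omega
  set P : ℤ[X] := (X - 1) ^ (p - 1) - Φ with hP
  have hmap : P.map (Int.castRingHom (ZMod p)) = 0 := by
    have h1 : (X - 1 : (ZMod p)[X]) * P.map (Int.castRingHom (ZMod p)) = 0 := by
      have : P.map (Int.castRingHom (ZMod p)) =
          (X - 1 : (ZMod p)[X]) ^ (p - 1) - ∑ i ∈ Finset.range p, X ^ i := by
        simp [hP, hΦ, Polynomial.map_sum]
      rw [this, mul_sub, mul_geom_sum, ← pow_succ', hp1, sub_pow_char, one_pow, sub_self]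
    rcases mul_eq_zero.1 h1 with h | h
    · exact absurd h (by simpa using X_sub_C_ne_zero (1 : ZMod p))
    · exact h
  have hdvd : C (p : ℤ) ∣ P := by
    rw [C_dvd_iff_dvd_coeff]
    intro i
    have := congrArg (fun q => q.coeff i) hmap
    simp only [coeff_map, coeff_zero, eq_intCast] at this
    exact (ZMod.intCast_zmod_eq_zero_iff_dvd _ p).1 this
  obtain ⟨r, hr⟩ := hdvd
  have hr1 : r.eval 1 = -1 := by
    have := congrArg (eval 1) hr
    simp only [hP, hΦ, eval_sub, eval_pow, eval_X, eval_one, sub_self, eval_finsetSum, one_pow,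
      Finset.sum_const, Finset.card_range, eval_mul, eval_C, zero_pow hp0, nsmul_eq_mul, mul_one,
      zero_sub] at this
    have hpz : (p : ℤ) ≠ 0 := by exact_mod_cast hp.out.ne_zero
    have h2 : (p : ℤ) * (r.eval 1 + 1) = 0 := by
      linarith
    rcases mul_eq_zero.1 h2 with h | h
    · exact absurd h hpz
    · linarith
  obtain ⟨R₁, hR₁⟩ : (X - C (1 : ℤ)) ∣ r - C (r.eval 1) := X_sub_C_dvd_sub_C_eval
  have hr' : r = -1 + (X - 1) * R₁ := by
    rw [hr1] at hR₁
    simp only [map_neg, map_one, sub_neg_eq_add] at hR₁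
    linear_combination hR₁
  have hmain : (X - 1 : ℤ[X]) ^ (p - 1) = Φ + C (p : ℤ) * r := by
    rw [← hr, hP]; ring
  set G : ℤ[X] := ∑ k ∈ Finset.range (p - 1), ((X - 1) * R₁) ^ k with hG
  have hgeom : ((X - 1) * R₁ - 1) * G = ((X - 1) * R₁) ^ (p - 1) - 1 := mul_geom_sum _ _
  refine ⟨r, -G + C (p : ℤ) * R₁ ^ (p - 1), R₁ ^ (p - 1), hmain, ?_⟩
  have h4 : ((X - 1) * R₁) ^ (p - 1) = (Φ + C (p : ℤ) * r) * R₁ ^ (p - 1) := by
    rw [mul_pow, hmain]
  have h5 : r = (X - 1) * R₁ - 1 := by rw [hr']; ring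
  have h6 : r * G = (Φ + C (p : ℤ) * r) * R₁ ^ (p - 1) - 1 := by
    rw [← h4, ← hgeom, ← h5]
  linear_combination (-1 : ℤ[X]) * h6

variable {M : Type*} [AddCommGroup M] [Module.Free ℤ M] [Module.Finite ℤ M]

theorem card_quot_range (f : M →ₗ[ℤ] M) (hf : Function.Injective f) :
    Nat.card (M ⧸ LinearMap.range f) = (LinearMap.det f).natAbs := by
  have h := Submodule.natAbs_det_equiv (LinearMap.range f) (LinearEquiv.ofInjective f hf)
  rw [← h]
  congr 2

theorem card_quot_smul (n : ℕ) (hn : n ≠ 0) :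
    Nat.card (M ⧸ LinearMap.range ((n : ℤ) • (LinearMap.id : M →ₗ[ℤ] M))) = n ^ finrank ℤ M := by
  rw [card_quot_range]
  · rw [LinearMap.det_smul, LinearMap.det_id, mul_one, Int.natAbs_pow, Int.natAbs_natCast]
  · intro x y hxy
    simp only [LinearMap.smul_apply, LinearMap.id_coe, id_eq] at hxy
    exact smul_right_injective M (by exact_mod_cast hn : (n : ℤ) ≠ 0) hxy

theorem card_quot_sub_one (p : ℕ) [hp : Fact p.Prime] (s : M →ₗ[ℤ] M)
    (hN : ∑ i ∈ Finset.range p, s ^ i = 0) :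
    ∃ c, finrank ℤ M = (p - 1) * c ∧ Nat.card (M ⧸ LinearMap.range (s - 1)) = p ^ c := by
  obtain ⟨r, U, W, h1, h2⟩ := poly_identity p
  have hp0 : p - 1 ≠ 0 := by have := hp.out.two_le; omega
  have e1 := congrArg (aeval s) h1
  have e2 := congrArg (aeval s) h2
  simp only [map_pow, map_sub, aeval_X, map_one, map_add, map_sum, hN, zero_add, map_mul,
    aeval_C, zero_mul, add_zero] at e1 e2
  set R := aeval s r with hR
  set V := aeval s U with hV
  have e1' : (s - 1) ^ (p - 1) = (p : ℤ) • R := by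
    rw [e1]; simp [Algebra.smul_def]
  have hdet : (LinearMap.det (s - 1)) ^ (p - 1) = (p : ℤ) ^ finrank ℤ M * LinearMap.det R := by
    rw [← map_pow, e1', LinearMap.det_smul]
  have hunit : IsUnit (LinearMap.det R) := by
    have : LinearMap.det R * LinearMap.det V = 1 := by rw [← map_mul, e2, map_one]
    exact IsUnit.of_mul_eq_one _ this
  have habs : (LinearMap.det (s - 1)).natAbs ^ (p - 1) = p ^ finrank ℤ M := by
    have := congrArg Int.natAbs hdet
    rw [Int.natAbs_pow, Int.natAbs_mul, Int.natAbs_pow, Int.natAbs_natCast,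
      Int.isUnit_iff_natAbs_eq.1 hunit, mul_one] at this
    exact this
  have hinj : Function.Injective ⇑(s - 1 : M →ₗ[ℤ] M) := by
    rw [← LinearMap.ker_eq_bot, LinearMap.ker_eq_bot']
    intro x hx
    have h3 : ((s - 1) ^ (p - 1)) x = 0 := by
      obtain ⟨k, hk⟩ := Nat.exists_eq_succ_of_ne_zero hp0
      rw [hk, pow_succ, Module.End.mul_apply, hx, map_zero]
    rw [e1', LinearMap.smul_apply] at h3
    have h4 : R x = 0 := by
      have hpz : (p : ℤ) ≠ 0 := by exact_mod_cast hp.out.ne_zero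
      exact (smul_eq_zero.1 h3).resolve_left hpz
    have h5 : (V * R) x = x := by
      have h6 : V * R = 1 := by
        rw [hV, hR, ← map_mul, mul_comm, map_mul]; exact e2
      rw [h6]; rfl
    rw [← h5, Module.End.mul_apply, h4, map_zero]
  obtain ⟨c, -, hc⟩ := (Nat.dvd_prime_pow hp.out).1 (habs ▸ dvd_pow_self _ hp0)
  refine ⟨c, ?_, ?_⟩
  · rw [hc, ← pow_mul] at habs
    have := Nat.pow_right_injective hp.out.two_le habs
    rw [← this, mul_comm]
  · rw [card_quot_range _ hinj, hc]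

section Index
variable {A : Type*} [AddCommGroup A]

theorem relIndex_eq_ker_mul_map (f : A →+ A) {B C : AddSubgroup A} (h : B ≤ C) :
    B.relIndex C = (f.ker ⊓ B).relIndex (f.ker ⊓ C) * (B.map f).relIndex (C.map f) := by
  rw [AddSubgroup.relIndex_map_map]
  have h1 : B.relIndex C = B.relIndex (B ⊔ (f.ker ⊓ C)) * (B ⊔ (f.ker ⊓ C)).relIndex C :=
    (AddSubgroup.relIndex_mul_relIndex _ _ _ le_sup_left (sup_le h inf_le_right)).symm
  have h2 : B.relIndex (B ⊔ (f.ker ⊓ C)) = (f.ker ⊓ B).relIndex (f.ker ⊓ C) := by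
    rw [AddSubgroup.relIndex_sup_left, ← AddSubgroup.inf_relIndex_right]
    congr 1
    rw [inf_comm B, inf_assoc, inf_eq_right.2 h]
  have h3 : (B ⊔ (f.ker ⊓ C)).relIndex C = (B ⊔ f.ker).relIndex (C ⊔ f.ker) := by
    have e1 : C ⊔ f.ker = C ⊔ (B ⊔ f.ker) := by
      rw [← sup_assoc, sup_eq_left.2 h]
    rw [e1, AddSubgroup.relIndex_sup_right]
    rw [← AddSubgroup.inf_relIndex_right (B ⊔ f.ker) C, sup_inf_assoc_of_le _ h]
  rw [h1, h2, h3]

/-- `(ker f ∩ B : g B)`. -/
noncomputable def hq (f g : A →+ A) (B : AddSubgroup A) : ℕ := (B.map g).relIndex (f.ker ⊓ B)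

theorem hq_key (f g : A →+ A) (hfg : ∀ x, f (g x) = 0)
    {B C : AddSubgroup A} (hBC : B ≤ C) (hBg : B.map g ≤ B) (hCg : C.map g ≤ C) :
    (B.map g).relIndex (C.map g) * hq f g C = hq f g B * (f.ker ⊓ B).relIndex (f.ker ⊓ C) := by
  have hk : ∀ E : AddSubgroup A, E.map g ≤ f.ker := by
    rintro E _ ⟨x, -, rfl⟩
    exact hfg x
  unfold hq
  rw [AddSubgroup.relIndex_mul_relIndex _ _ _ (AddSubgroup.map_mono hBC) (le_inf (hk C) hCg),
    AddSubgroup.relIndex_mul_relIndex _ _ _ (le_inf (hk B) hBg) (inf_le_inf_left _ hBC)]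

theorem hq_mul_eq (f g : A →+ A) (hfg : ∀ x, f (g x) = 0) (hgf : ∀ x, g (f x) = 0)
    {B C : AddSubgroup A} (hBC : B ≤ C) (hfin : B.relIndex C ≠ 0)
    (hBf : B.map f ≤ B) (hBg : B.map g ≤ B) (hCf : C.map f ≤ C) (hCg : C.map g ≤ C) :
    hq f g C * hq g f B = hq f g B * hq g f C := by
  have k1 := hq_key f g hfg hBC hBg hCg
  have k2 := hq_key g f hgf hBC hBf hCf
  have n1 := relIndex_eq_ker_mul_map f hBC
  have n2 := relIndex_eq_ker_mul_map g hBC
  set a1 := (f.ker ⊓ B).relIndex (f.ker ⊓ C)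
  set a2 := (B.map f).relIndex (C.map f)
  set b1 := (g.ker ⊓ B).relIndex (g.ker ⊓ C)
  set b2 := (B.map g).relIndex (C.map g)
  have h : (hq f g C * hq g f B) * (B.relIndex C) = (hq f g B * hq g f C) * (B.relIndex C) := by
    calc (hq f g C * hq g f B) * (B.relIndex C) = (b2 * hq f g C) * (hq g f B * b1) := by
          rw [n2]; ring
      _ = (hq f g B * a1) * (a2 * hq g f C) := by rw [k1, k2]
      _ = (hq f g B * hq g f C) * (B.relIndex C) := by rw [n1]; ring
  exact Nat.eq_of_mul_eq_mul_right (Nat.pos_of_ne_zero hfin) h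

theorem hq_ne_zero (f g : A →+ A) (hfg : ∀ x, f (g x) = 0)
    {B C : AddSubgroup A} (hBC : B ≤ C) (hfin : B.relIndex C ≠ 0)
    (hBg : B.map g ≤ B) (hCg : C.map g ≤ C) (hB : hq f g B ≠ 0) : hq f g C ≠ 0 := by
  have k1 := hq_key f g hfg hBC hBg hCg
  have n1 := relIndex_eq_ker_mul_map f hBC
  intro h0
  rw [h0, mul_zero] at k1
  rcases Nat.mul_eq_zero.1 k1.symm with h | h
  · exact hB h
  · rw [h, zero_mul] at n1; exact hfin n1

theorem relIndex_restrict (S : Submodule ℤ A) (φ : A →ₗ[ℤ] A) (hφ : ∀ x ∈ S, φ x ∈ S) :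
    (S.toAddSubgroup.map φ.toAddMonoidHom).relIndex S.toAddSubgroup =
      Nat.card (↥S ⧸ LinearMap.range (φ.restrict hφ)) := by
  have h1 : S.toAddSubgroup = (S.subtype.toAddMonoidHom).range := by
    ext x; simp
  have h2 : (S.toAddSubgroup.map φ.toAddMonoidHom).comap S.subtype.toAddMonoidHom =
      (LinearMap.range (φ.restrict hφ)).toAddSubgroup := by
    ext x
    simp only [AddSubgroup.mem_comap, AddSubgroup.mem_map, Submodule.mem_toAddSubgroup,
      LinearMap.toAddMonoidHom_coe, Submodule.subtype_apply, LinearMap.mem_range, Subtype.exists]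
    constructor
    · rintro ⟨y, hy, hxy⟩
      exact ⟨y, hy, Subtype.ext hxy⟩
    · rintro ⟨y, hy, hxy⟩
      exact ⟨y, hy, congrArg Subtype.val hxy⟩
  calc _ = (S.toAddSubgroup.map φ.toAddMonoidHom).relIndex (S.subtype.toAddMonoidHom).range := by
        rw [← h1]
    _ = ((S.toAddSubgroup.map φ.toAddMonoidHom).comap S.subtype.toAddMonoidHom).index :=
        (AddSubgroup.index_comap _ _).symm
    _ = _ := by rw [h2]; rfl

end Index

section FG
variable {A : Type*} [AddCommGroup A]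

theorem exists_kill_torsion [Module.Finite ℤ A] :
    ∃ m : ℕ, m ≠ 0 ∧ ∀ x : A, ∀ n : ℤ, n ≠ 0 → n • x = 0 → m • x = 0 := by
  have hT : Module.IsTorsion ℤ (Submodule.torsion ℤ A) := Submodule.torsion_isTorsion
  have : Finite (Submodule.torsion ℤ A) := Module.finite_of_fg_torsion _ hT
  refine ⟨Nat.card (Submodule.torsion ℤ A), Nat.card_pos.ne', fun x n hn hx => ?_⟩
  have hx' : x ∈ Submodule.torsion ℤ A :=
    (Submodule.mem_torsion_iff x).2 ⟨⟨n, mem_nonZeroDivisors_of_ne_zero hn⟩, hx⟩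
  have := card_nsmul_eq_zero' (G := Submodule.torsion ℤ A) (x := ⟨x, hx'⟩)
  exact congrArg Subtype.val this

theorem finrank_eq_of_torsion_quot [Module.Finite ℤ A] (K : Submodule ℤ A)
    (h : ∀ x : A, ∃ n : ℤ, n ≠ 0 ∧ n • x ∈ K) : finrank ℤ K = finrank ℤ A := by
  have h1 := Submodule.finrank_quotient_add_finrank K
  have h2 : finrank ℤ (A ⧸ K) = 0 := by
    rw [Module.finrank_eq_zero_iff]
    intro x
    obtain ⟨y, rfl⟩ := Submodule.Quotient.mk_surjective K x
    obtain ⟨n, hn, hy⟩ := h y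
    exact ⟨n, hn, by rw [← Submodule.Quotient.mk_smul]; exact (Submodule.Quotient.mk_eq_zero K).2 hy⟩
  omega

theorem finrank_quot_of_torsion [Module.Finite ℤ A] (K : Submodule ℤ A)
    (h : ∀ x ∈ K, ∃ n : ℤ, n ≠ 0 ∧ n • x = 0) : finrank ℤ (A ⧸ K) = finrank ℤ A := by
  have h1 := Submodule.finrank_quotient_add_finrank K
  have h2 : finrank ℤ K = 0 := by
    rw [Module.finrank_eq_zero_iff]
    rintro ⟨x, hx⟩
    obtain ⟨n, hn, hy⟩ := h x hx
    exact ⟨n, hn, Subtype.ext hy⟩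
  omega

/-- `(A : nA) = n^rk · #A[n]`. -/
theorem index_range_smul [Module.Finite ℤ A] (n : ℕ) (hn : n ≠ 0) :
    (LinearMap.range ((n : ℤ) • (LinearMap.id : A →ₗ[ℤ] A))).toAddSubgroup.index =
      n ^ finrank ℤ A * Nat.card (LinearMap.ker ((n : ℤ) • (LinearMap.id : A →ₗ[ℤ] A))) := by
  obtain ⟨m, hm, hkill⟩ := exists_kill_torsion (A := A)
  have hnz : (n : ℤ) ≠ 0 := by exact_mod_cast hn
  have hmz : (m : ℤ) ≠ 0 := by exact_mod_cast hm
  set F : A →ₗ[ℤ] A := (n : ℤ) • LinearMap.id with hF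
  set B : Submodule ℤ A := LinearMap.range ((m : ℤ) • (LinearMap.id : A →ₗ[ℤ] A)) with hB
  have hBtf : ∀ (r : ℤ) (x : B), r • x = 0 → r = 0 ∨ x = 0 := by
    rintro r ⟨_, y, rfl⟩ hr
    by_cases hr0 : r = 0
    · exact Or.inl hr0
    right
    have h1 : (r * m) • y = 0 := by
      have := congrArg Subtype.val hr
      simpa [mul_smul] using this
    have h2 := hkill y (r * m) (mul_ne_zero hr0 hmz) h1
    apply Subtype.ext
    simpa using h2
  have : Module.IsTorsionFree ℤ B := Module.IsTorsionFree.of_smul_eq_zero hBtf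
  have : Module.Free ℤ B := Module.free_of_finite_type_torsion_free'
  have hrk : finrank ℤ B = finrank ℤ A :=
    finrank_eq_of_torsion_quot B fun x => ⟨m, hmz, ⟨x, by simp⟩⟩
  have hstab : ∀ x ∈ B, F x ∈ B := fun x hx => by
    simpa [hF] using B.smul_mem (n : ℤ) hx
  have key := hq_mul_eq (F.toAddMonoidHom) (0 : A →+ A) (fun x => by simp) (fun x => by simp)
    (B := B.toAddSubgroup) (C := ⊤) le_top (by
      rw [AddSubgroup.relIndex_top_right]
      have : Finite (A ⧸ B) := by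
        apply Module.finite_of_fg_torsion
        intro x
        obtain ⟨y, rfl⟩ := Submodule.Quotient.mk_surjective B x
        refine ⟨⟨m, mem_nonZeroDivisors_of_ne_zero hmz⟩, ?_⟩
        change (m : ℤ) • (Submodule.Quotient.mk y : A ⧸ B) = 0
        rw [← Submodule.Quotient.mk_smul]
        exact (Submodule.Quotient.mk_eq_zero B).2 ⟨y, by simp⟩
      exact (AddSubgroup.index_ne_zero_iff_finite).2 this)
    (by rintro _ ⟨x, hx, rfl⟩; exact hstab x hx) (by rintro _ ⟨x, hx, rfl⟩; exact B.zero_mem)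
    le_top le_top
  have e1 : ∀ C : AddSubgroup A, hq F.toAddMonoidHom (0 : A →+ A) C =
      Nat.card ↥(F.toAddMonoidHom.ker ⊓ C) := by
    intro C
    have : C.map (0 : A →+ A) = ⊥ := by
      ext x; simp only [AddSubgroup.mem_map, AddMonoidHom.zero_apply, AddSubgroup.mem_bot]
      exact ⟨fun ⟨_, _, h⟩ => h.symm, fun h => ⟨0, C.zero_mem, h.symm⟩⟩
    rw [hq, this, AddSubgroup.relIndex_bot_left]
  have e2 : ∀ C : AddSubgroup A, hq (0 : A →+ A) F.toAddMonoidHom C =
      (C.map F.toAddMonoidHom).relIndex C := by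
    intro C
    have : (0 : A →+ A).ker = ⊤ := by ext x; simp
    rw [hq, this, top_inf_eq]
  rw [e1, e1, e2, e2, relIndex_restrict B F hstab] at key
  have e3 : F.restrict hstab = (n : ℤ) • (LinearMap.id : B →ₗ[ℤ] B) := by
    ext x; simp [hF]
  have e4 : F.toAddMonoidHom.ker ⊓ B.toAddSubgroup = ⊥ := by
    rw [eq_bot_iff]
    rintro x ⟨hx1, hx2⟩
    have hx3 : (n : ℤ) • (⟨x, hx2⟩ : B) = 0 := by
      apply Subtype.ext
      have : F x = 0 := hx1
      simpa [hF] using this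
    rcases hBtf _ _ hx3 with h | h
    · exact absurd h hnz
    · exact congrArg Subtype.val h
  have e5 : (⊤ : AddSubgroup A).map F.toAddMonoidHom = (LinearMap.range F).toAddSubgroup := by
    ext x; simp
  have e6 : Nat.card ↥(F.toAddMonoidHom.ker ⊓ ⊤) = Nat.card (LinearMap.ker F) := by
    rw [inf_top_eq]; rfl
  rw [e3, card_quot_smul n hn, e4, e5, AddSubgroup.relIndex_top_right, e6, hrk] at key
  simp only [AddSubgroup.card_bot, one_mul] at key
  rw [← key, mul_comm]

theorem finite_and_finrank_of_map {ι : Type*} [Fintype ι] [DecidableEq ι] (φ : A →ₗ[ℤ] (ι → ℤ))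
    [Module.Finite ℤ (LinearMap.ker φ)] (h : ℤ) (hh : h ≠ 0)
    (hφ : ∀ i, Pi.single i h ∈ LinearMap.range φ) :
    Module.Finite ℤ A ∧ finrank ℤ A = finrank ℤ (LinearMap.ker φ) + Fintype.card ι := by
  classical
  have e := φ.quotKerEquivRange
  have : Module.Finite ℤ (A ⧸ LinearMap.ker φ) := Module.Finite.equiv e.symm
  have hfin : Module.Finite ℤ A := Module.Finite.of_submodule_quotient (LinearMap.ker φ)
  refine ⟨hfin, ?_⟩
  have h1 := Submodule.finrank_quotient_add_finrank (LinearMap.ker φ)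
  have h2 : finrank ℤ (LinearMap.range φ) = finrank ℤ (ι → ℤ) :=
    finrank_eq_of_torsion_quot _ fun x => ⟨h, hh, by
      have : h • x = ∑ i, x i • (Pi.single i h : ι → ℤ) := by
        ext j; simp [Finset.sum_apply, Pi.single_apply, mul_comm]
      rw [this]
      exact Submodule.sum_mem _ fun i _ => Submodule.smul_mem _ _ (hφ i)⟩
  rw [e.finrank_eq, h2, Module.finrank_fintype_fun_eq_card] at h1
  omega

end FG

end Fermat.Agent.S14.AbTools
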