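import Fermat.Agent.S14.LinkCop

/-!
# S14/Cross : reciprocity  `psi_α (dv y) = 0`  for `K = ℚ(ζ_p)`, `L = K(α^{1/p})` everywhere unramified
-/

set_option autoImplicit false

open NumberField IsDedekindDomain

namespace Fermat.Agent.S14

open CrossAux in
/-- RECIPROCITY. -/
theorem reciprocity {p : ℕ} [Fact p.Prime] (hp : p ≠ 2) {K : Type} [Field K] [NumberField K]
    [IsCyclotomicExtension {p} ℚ K] {ζ : K} (hζ : IsPrimitiveRoot ζ p) {α : K}
    (hα : ¬ ∃ y : K, y ^ p = α) (Sg : Finset (Pr K)) (hSg : Good p α Sg)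
    (hV : Hgp p ζ α Sg ≠ ⊤) {y : K} (hy : y ≠ 0) (hyS : ∀ v ∈ Sg, ord v y = 0) :
    psi p ζ α Sg (dv y) = 0 := by
  classical
  have hpp : p.Prime := Fact.out
  have hα0 : α ≠ 0 := by
    rintro rfl
    exact hα ⟨0, zero_pow hpp.ne_zero⟩
  set H := Hgp p ζ α Sg with hH
  have hNH : Nrm p ζ α Sg ≤ H := le_sup_right
  have hPH : Prin K ≤ H := le_sup_left
  have hpH : ∀ D : Dv K, p • D ∈ H := fun D => hNH (smul_mem_Nrm α Sg D)
  obtain ⟨r0, hr0, -, -, hs0⟩ := DL hζ hα Sg
  obtain ⟨c0, hc0⟩ : ∃ c0 : ℤ, (c0 : ZMod p) = sym p ζ r0 α :=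
    ⟨((sym p ζ r0 α).val : ℤ), by simp⟩
  -- singles with coefficient ≡ 0
  have hzero : ∀ (v : Pr K) (c : ℤ), v ∉ Sg → (c : ZMod p) = 0 → Finsupp.single v c ∈ H :=
    fun v c hv hc => hNH (single_mem_Nrm α Sg hv (by rw [hc, zero_mul]))
  -- Claim 1
  have claim1 : ∀ q : Pr K, q ∉ Sg → ∀ cq : ℤ, (cq : ZMod p) = sym p ζ q α →
      Finsupp.single r0 cq - Finsupp.single q c0 ∈ H := by
    intro q hq cq hcq
    by_cases hsq : sym p ζ q α = 0
    · refine H.sub_mem (hzero r0 cq hr0 (hcq.trans hsq)) (hNH (single_mem_Nrm α Sg hq ?_))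
      rw [hsq, mul_zero]
    by_cases hcop : ord r0 (Nv q : K) = 0
    · exact link_of_coprime hp hζ hα0 Sg hSg hr0 hq hcop hs0 hsq hc0 hcq
    -- chain through a third prime
    obtain ⟨r', hr', -, -, hs'⟩ := DL hζ hα
      (Sg ∪ (finite_ord_ne_zero ((Nv r0 : K) * (Nv q : K))).toFinset)
    rw [Finset.mem_union, not_or] at hr'
    obtain ⟨hr'S, hr'N⟩ := hr'
    simp only [Set.Finite.mem_toFinset, Set.mem_ofPred_eq, not_not] at hr'N
    have hN0 : (Nv r0 : K) ≠ 0 := Nat.cast_ne_zero.mpr (Nv_ne_zero r0)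
    have hNq : (Nv q : K) ≠ 0 := Nat.cast_ne_zero.mpr (Nv_ne_zero q)
    rw [ord_mul r' hN0 hNq] at hr'N
    have hnn0 : 0 ≤ ord r' (Nv r0 : K) := by
      have := ord_nonneg r' ((Nv r0 : ℕ) : 𝓞 K); simpa using this
    have hnnq : 0 ≤ ord r' (Nv q : K) := by
      have := ord_nonneg r' ((Nv q : ℕ) : 𝓞 K); simpa using this
    have h10 : ord r' (Nv r0 : K) = 0 := by omega
    have h1q : ord r' (Nv q : K) = 0 := by omega
    obtain ⟨c', hc'⟩ : ∃ c' : ℤ, (c' : ZMod p) = sym p ζ r' α :=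
      ⟨((sym p ζ r' α).val : ℤ), by simp⟩
    -- r0 ~ r'
    have e1 : Finsupp.single r0 c' - Finsupp.single r' c0 ∈ H :=
      link_of_coprime hp hζ hα0 Sg hSg hr0 hr'S (ord_Nv_symm h10) hs0 hs' hc0 hc'
    -- r' ~ q
    have e2 : Finsupp.single r' cq - Finsupp.single q c' ∈ H :=
      link_of_coprime hp hζ hα0 Sg hSg hr'S hq h1q hs' hsq hc' hcq
    have e3 : c' • (Finsupp.single r0 cq - Finsupp.single q c0) ∈ H := by
      have : c' • (Finsupp.single r0 cq - Finsupp.single q c0)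
          = cq • (Finsupp.single r0 c' - Finsupp.single r' c0)
            + c0 • (Finsupp.single r' cq - Finsupp.single q c') := by
        simp only [smul_sub, Finsupp.smul_single, smul_eq_mul]
        rw [mul_comm c' cq, mul_comm c' c0, mul_comm cq c0]
        abel
      rw [this]
      exact H.add_mem (H.zsmul_mem e1 _) (H.zsmul_mem e2 _)
    exact mem_of_zsmul_mem H (hpH _) (by rw [hc']; exact hs') e3
  -- Claim 2
  have claim2 : ∀ D : Dv K, ∀ c : ℤ, (c : ZMod p) = psi p ζ α Sg D →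
      Finsupp.single r0 c - c0 • (D.filter (· ∉ Sg)) ∈ H := by
    intro D
    induction D using Finsupp.induction_linear with
    | zero =>
      intro c hc
      rw [map_zero] at hc
      rw [Finsupp.filter_zero, smul_zero, sub_zero]
      exact hzero r0 c hr0 hc
    | add f g hf hg =>
      intro c hc
      obtain ⟨cf, hcf⟩ : ∃ cf : ℤ, (cf : ZMod p) = psi p ζ α Sg f :=
        ⟨((psi p ζ α Sg f).val : ℤ), by simp⟩
      have hcg : ((c - cf : ℤ) : ZMod p) = psi p ζ α Sg g := by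
        rw [Int.cast_sub, hc, hcf, map_add]; ring
      have := H.add_mem (hf cf hcf) (hg (c - cf) hcg)
      have e : Finsupp.single r0 c - c0 • ((f + g).filter (· ∉ Sg))
          = (Finsupp.single r0 cf - c0 • (f.filter (· ∉ Sg)))
            + (Finsupp.single r0 (c - cf) - c0 • (g.filter (· ∉ Sg))) := by
        rw [Finsupp.filter_add, smul_add, Finsupp.single_sub]
        abel
      rw [e]; exact this
    | single v n =>
      intro c hc
      rw [psi_single] at hc
      by_cases hv : v ∈ Sg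
      · rw [if_pos hv] at hc
        rw [Finsupp.filter_single_of_neg (p := (· ∉ Sg)) (by simpa using hv), smul_zero, sub_zero]
        exact hzero r0 c hr0 hc
      · rw [if_neg hv] at hc
        rw [Finsupp.filter_single_of_pos (p := (· ∉ Sg)) hv]
        obtain ⟨cq, hcq⟩ : ∃ cq : ℤ, (cq : ZMod p) = sym p ζ v α :=
          ⟨((sym p ζ v α).val : ℤ), by simp⟩
        have h1 := H.zsmul_mem (claim1 v hv cq hcq) n
        have h2 : Finsupp.single r0 (c - n * cq) ∈ H := by
          apply hzero r0 _ hr0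
          rw [Int.cast_sub, Int.cast_mul, hc, hcq, sub_self]
        have e : Finsupp.single r0 c - c0 • Finsupp.single v n
            = n • (Finsupp.single r0 cq - Finsupp.single v c0) + Finsupp.single r0 (c - n * cq) := by
          simp only [smul_sub, Finsupp.smul_single, smul_eq_mul, Finsupp.single_sub]
          rw [mul_comm c0 n]
          abel
        rw [e]; exact H.add_mem h1 h2
  by_contra hne
  apply hV
  obtain ⟨c, hc⟩ : ∃ c : ℤ, (c : ZMod p) = psi p ζ α Sg (dv y) :=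
    ⟨((psi p ζ α Sg (dv y)).val : ℤ), by simp⟩
  have hfilter : (dv y).filter (· ∉ Sg) = dv y := by
    rw [Finsupp.filter_eq_self_iff]
    intro v hv hvS
    exact hv (by rw [dv_apply]; exact hyS v hvS)
  have h1 := claim2 (dv y) c hc
  rw [hfilter] at h1
  have h2 : Finsupp.single r0 c ∈ H := by
    have h3 : c0 • dv y ∈ H := H.zsmul_mem (hPH ((mem_Prin_iff _).mpr ⟨y, hy, rfl⟩)) _
    have := H.add_mem h1 h3
    simpa using this
  have hr01 : Finsupp.single r0 (1 : ℤ) ∈ H := by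
    apply mem_of_zsmul_mem H (hpH _) (c := c) (by rw [hc]; exact hne)
    simpa using h2
  have hall : ∀ q : Pr K, q ∉ Sg → Finsupp.single q (1 : ℤ) ∈ H := by
    intro q hq
    obtain ⟨cq, hcq⟩ : ∃ cq : ℤ, (cq : ZMod p) = sym p ζ q α :=
      ⟨((sym p ζ q α).val : ℤ), by simp⟩
    have h3 := claim1 q hq cq hcq
    have h4 : Finsupp.single r0 cq ∈ H := by
      have := H.zsmul_mem hr01 cq
      simpa using this
    have h5 : Finsupp.single q c0 ∈ H := by
      have := H.sub_mem h4 h3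
      simpa using this
    apply mem_of_zsmul_mem H (hpH _) (c := c0) (by rw [hc0]; exact hs0)
    simpa using h5
  rw [eq_top_iff]
  intro D _
  obtain ⟨x, hx0, hx⟩ := exists_move Sg D
  have h6 : D + dv x ∈ H := by
    rw [← Finsupp.sum_single (D + dv x)]
    refine AddSubgroup.sum_mem _ fun v hv => ?_
    have hvS : v ∉ Sg := fun hvS => (Finsupp.mem_support_iff.mp hv) (hx v hvS)
    have := H.zsmul_mem (hall v hvS) ((D + dv x) v)
    simpa using this
  have h7 : dv x ∈ H := hPH ((mem_Prin_iff _).mpr ⟨x, hx0, rfl⟩)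
  have := H.sub_mem h6 h7
  simpa using this

end Fermat.Agent.S14
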