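import Fermat.Agent.S14.Link

/-!
# S14/CrossAux : small helpers for Cross (residue characteristic, divisibility in subgroups)
-/

set_option autoImplicit false

open NumberField IsDedekindDomain

namespace Fermat.Agent.S14

namespace CrossAux

/-- residue characteristic. -/
theorem exists_char {K : Type} [Field K] [NumberField K] (v : Pr K) :
    ∃ ℓ f : ℕ, ℓ.Prime ∧ 0 < f ∧ Nv v = ℓ ^ f ∧
      ∀ n : ℕ, n ≠ 0 → (ord v (n : K) ≠ 0 ↔ ℓ ∣ n) := by
  have : v.asIdeal.IsMaximal := v.isMaximal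
  let _ : Field (𝓞 K ⧸ v.asIdeal) := Ideal.Quotient.field _
  have hfin : Finite (𝓞 K ⧸ v.asIdeal) := Ideal.finiteQuotientOfFreeOfNeBot _ v.ne_bot
  let _ : Fintype (𝓞 K ⧸ v.asIdeal) := Fintype.ofFinite _
  obtain ⟨ℓ, hchar⟩ := CharP.exists (𝓞 K ⧸ v.asIdeal)
  obtain ⟨f, hℓ, hcard⟩ := FiniteField.card (𝓞 K ⧸ v.asIdeal) ℓ
  refine ⟨ℓ, f, hℓ, f.pos, ?_, fun n hn => ?_⟩
  · rw [Nv_eq_card, Nat.card_eq_fintype_card, hcard]
  · have hn' : ((n : ℕ) : 𝓞 K) ≠ 0 := Nat.cast_ne_zero.mpr hn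
    have h1 := ord_eq_zero_iff v hn'
    have h2 : (((n : ℕ) : 𝓞 K) : K) = (n : K) := by simp
    rw [h2] at h1
    rw [Ne, h1, not_not, ← Ideal.Quotient.eq_zero_iff_mem, map_natCast]
    exact CharP.cast_eq_zero_iff _ ℓ n

theorem Nv_ne_zero {K : Type} [Field K] [NumberField K] (v : Pr K) : Nv v ≠ 0 := by
  have := two_le_Nv v; omega

/-- symmetry of "different residue characteristic". -/
theorem ord_Nv_symm {K : Type} [Field K] [NumberField K] {v w : Pr K}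
    (h : ord v (Nv w : K) = 0) : ord w (Nv v : K) = 0 := by
  obtain ⟨ℓ, f, hℓ, hf, hN, hord⟩ := exists_char v
  obtain ⟨ℓ', f', hℓ', hf', hN', hord'⟩ := exists_char w
  by_contra hcon
  rw [← Ne, hord' _ (Nv_ne_zero v), hN] at hcon
  have h1 : ℓ' = ℓ := (Nat.prime_dvd_prime_iff_eq hℓ' hℓ).mp (hℓ'.dvd_of_dvd_pow hcon)
  have h2 : ord v (Nv w : K) ≠ 0 := by
    rw [hord _ (Nv_ne_zero w), hN', h1]
    exact dvd_pow_self _ hf'.ne'
  exact h2 h

theorem ord_Nv_self {K : Type} [Field K] [NumberField K] (v : Pr K) : ord v (Nv v : K) ≠ 0 := by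
  obtain ⟨ℓ, f, hℓ, hf, hN, hord⟩ := exists_char v
  rw [hord _ (Nv_ne_zero v), hN]
  exact dvd_pow_self _ hf.ne'

/-- if `c` is prime to `p` and `c • x ∈ H ⊇ p A` then `x ∈ H`. -/
theorem mem_of_zsmul_mem {A : Type*} [AddCommGroup A] {p : ℕ} [Fact p.Prime] (H : AddSubgroup A)
    {x : A} (hp : p • x ∈ H) {c : ℤ} (hc : (c : ZMod p) ≠ 0) (h : c • x ∈ H) : x ∈ H := by
  have hcop : IsCoprime c (p : ℤ) := by
    have hpp : Prime (p : ℤ) := Nat.prime_iff_prime_int.mp Fact.out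
    rw [isCoprime_comm, hpp.coprime_iff_not_dvd]
    intro hd
    exact hc ((ZMod.intCast_zmod_eq_zero_iff_dvd c p).mpr hd)
  obtain ⟨s, t, hst⟩ := hcop
  have : x = s • (c • x) + t • (p • x) := by
    rw [smul_smul, ← natCast_zsmul, smul_smul, ← add_smul, hst, one_smul]
  rw [this]
  exact H.add_mem (H.zsmul_mem h _) (H.zsmul_mem hp _)

end CrossAux

end Fermat.Agent.S14
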