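import Fermat.Agent.S14.Defs

/-!
# S14/DefsLoc : definitions for the two inequalities
-/

set_option autoImplicit false

open NumberField IsDedekindDomain

namespace Fermat.Agent.S14

variable {k : Type} [Field k] [NumberField k]

/-- the exponent `n_v = p e_v/(p-1) + 1`, `e_v = ord_v p`  (`= 1` for `v ∤ p`): `x ≡ 1 mod v^{n_v}` implies that `x` is a
local `p`-th power. -/
noncomputable def nloc (p : ℕ) (v : Pr k) : ℕ := p * (ord v (p : k)).toNat / (p - 1) + 1

/-- "`x` is a `p`-th power in the completion at `v`". -/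
def LocPow (p : ℕ) (v : Pr k) (x : k) : Prop := ∃ z : k, z ≠ 0 ∧ Cong v (nloc p v) (x / z ^ p) 1

/-- the `S`-units. -/
def US (S : Finset (Pr k)) : Subgroup kˣ where
  carrier := {x | ∀ v : Pr k, v ∉ S → ord v (x : k) = 0}
  mul_mem' := by
    intro a b ha hb v hv
    have h := FractionalIdeal.count_mul k v
      (I := FractionalIdeal.spanSingleton (nonZeroDivisors (𝓞 k)) (a : k))
      (I' := FractionalIdeal.spanSingleton (nonZeroDivisors (𝓞 k)) (b : k))
      (by rw [Ne, FractionalIdeal.spanSingleton_eq_zero_iff]; exact a.ne_zero)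
      (by rw [Ne, FractionalIdeal.spanSingleton_eq_zero_iff]; exact b.ne_zero)
    rw [FractionalIdeal.spanSingleton_mul_spanSingleton] at h
    have ha' := ha v hv
    have hb' := hb v hv
    unfold ord at ha' hb' ⊢
    rw [Units.val_mul, h, ha', hb', add_zero]
  one_mem' := by
    intro v _
    unfold ord
    rw [Units.val_one, FractionalIdeal.spanSingleton_one, FractionalIdeal.count_one]
  inv_mem' := by
    intro a ha v hv
    have ha' := ha v hv
    unfold ord at ha' ⊢
    rw [Units.val_inv_eq_inv_val, ← FractionalIdeal.spanSingleton_inv, FractionalIdeal.count_inv, ha',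
      neg_zero]

/-- `k_{S,p}` : the elements which are local `p`-th powers at all `v ∈ S`  (as a set; it is a subgroup: `Loc1`). -/
def KSp (p : ℕ) (S : Finset (Pr k)) : Set kˣ := {x | ∀ v ∈ S, LocPow p v (x : k)}

/-- `P^*_T` : principal divisors of elements which are units and `p`-th power residues at all `v ∈ T`. -/
noncomputable def PStar (p : ℕ) (ζ : k) (T : Finset (Pr k)) : AddSubgroup (Dv k) :=
  AddSubgroup.closure {D | ∃ y : k, y ≠ 0 ∧ (∀ v ∈ T, ord v y = 0 ∧ sym p ζ v y = 0) ∧ dv y = D}

end Fermat.Agent.S14
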