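import Mathlib

set_option autoImplicit false

open NumberField IsDedekindDomain Pointwise

namespace Fermat.Agent.S14.Loc2

section abstract

variable {F Γ : Type*} [Field F] [LinearOrderedCommGroupWithZero Γ] (ν : Valuation F Γ)
  {p : ℕ}

theorem exists_root_close (hp : 0 < p) {ζ : F} (hζ : IsPrimitiveRoot ζ p) {Y : F}
    (h : ν (Y ^ p - 1) < ν (ζ - 1) ^ p) : ∃ η : F, η ^ p = 1 ∧ ν (Y - η) < ν (ζ - 1) := by
  by_contra hcon
  push Not at hcon
  have h1 : Y ^ p - 1 = ∏ η ∈ Polynomial.nthRootsFinset p (1 : F), (Y - η) := by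
    have := hζ.pow_sub_pow_eq_prod_sub_mul Y 1 hp
    simpa using this
  rw [h1, map_prod] at h
  have h2 : ν (ζ - 1) ^ p ≤ ∏ η ∈ Polynomial.nthRootsFinset p (1 : F), ν (Y - η) := by
    have hc : (Polynomial.nthRootsFinset p (1 : F)).card = p := hζ.card_nthRootsFinset
    have := Finset.pow_card_le_prod (Polynomial.nthRootsFinset p (1 : F)) (fun η => ν (Y - η))
      (ν (ζ - 1)) (fun η hη => hcon η ((Polynomial.mem_nthRootsFinset hp 1).1 hη))
    rwa [hc] at this
  exact absurd h (not_lt.mpr h2)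

theorem root_close_unique {ζ : F}
    (H : ∀ η₁ η₂ : F, η₁ ^ p = 1 → η₂ ^ p = 1 → η₁ ≠ η₂ → ν (η₁ - η₂) = ν (ζ - 1))
    {Y η₁ η₂ : F} (h₁ : η₁ ^ p = 1) (h₂ : η₂ ^ p = 1)
    (c₁ : ν (Y - η₁) < ν (ζ - 1)) (c₂ : ν (Y - η₂) < ν (ζ - 1)) : η₁ = η₂ := by
  by_contra hne
  have := H η₁ η₂ h₁ h₂ hne
  have h3 : ν (η₁ - η₂) < ν (ζ - 1) := by
    have : η₁ - η₂ = (Y - η₂) - (Y - η₁) := by ring
    rw [this]
    exact lt_of_le_of_lt (ν.map_sub _ _) (max_lt c₂ c₁)
  exact absurd this (ne_of_lt h3)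

end abstract

variable {p : ℕ} [Fact p.Prime] {k M : Type*} [Field k] [NumberField k] [Field M] [NumberField M]
  [Algebra k M]

theorem valuation_unit (w : HeightOneSpectrum (𝓞 M)) (u : (𝓞 M)ˣ) :
    w.valuation M ((u : 𝓞 M) : M) = 1 := by
  rw [HeightOneSpectrum.valuation_eq_one_iff_notMem]
  exact fun h => w.isPrime.ne_top (Ideal.eq_top_of_isUnit_mem _ h u.isUnit)

theorem valuation_root_sub (w : HeightOneSpectrum (𝓞 M)) {ζ : M} (hζ : IsPrimitiveRoot ζ p)
    (η₁ η₂ : M) (h₁ : η₁ ^ p = 1) (h₂ : η₂ ^ p = 1) (hne : η₁ ≠ η₂) :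
    w.valuation M (η₁ - η₂) = w.valuation M (ζ - 1) := by
  have hp := (Fact.out : p.Prime)
  have hint : ∀ η : M, η ^ p = 1 → IsIntegral ℤ η := fun η h =>
    IsIntegral.of_pow hp.pos (by rw [h]; exact isIntegral_one)
  let ζ' : 𝓞 M := ⟨ζ, hint ζ hζ.pow_eq_one⟩
  let a₁ : 𝓞 M := ⟨η₁, hint _ h₁⟩
  let a₂ : 𝓞 M := ⟨η₂, hint _ h₂⟩
  have hζ' : IsPrimitiveRoot ζ' p :=
    IsPrimitiveRoot.of_map_of_injective (f := algebraMap (𝓞 M) M) (hf := RingOfIntegers.coe_injective) hζ
  have m₁ : a₁ ∈ Polynomial.nthRootsFinset p (1 : 𝓞 M) := by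
    rw [Polynomial.mem_nthRootsFinset hp.pos]
    exact RingOfIntegers.coe_injective (by simpa [a₁] using h₁)
  have m₂ : a₂ ∈ Polynomial.nthRootsFinset p (1 : 𝓞 M) := by
    rw [Polynomial.mem_nthRootsFinset hp.pos]
    exact RingOfIntegers.coe_injective (by simpa [a₂] using h₂)
  have hne' : a₁ ≠ a₂ := fun h => hne (congrArg (fun t : 𝓞 M => (t : M)) h)
  obtain ⟨u, hu⟩ := hζ'.nthRootsFinset_pairwise_associated_sub_one_sub_of_prime hp m₁ m₂ hne'
  have h3 : η₁ - η₂ = (ζ - 1) * ((u : 𝓞 M) : M) := by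
    have := congrArg (fun t : 𝓞 M => (t : M)) hu
    simpa [a₁, a₂, ζ'] using this.symm
  rw [h3, map_mul, valuation_unit, mul_one]

omit [NumberField k] in
theorem intValuation_smul (w : HeightOneSpectrum (𝓞 M)) (σ : Gal(M/k))
    (hσ : σ • w.asIdeal = w.asIdeal) (r : 𝓞 M) :
    w.intValuation (σ • r) = w.intValuation r := by
  have key : ∀ (n : ℕ) (r : 𝓞 M), σ • r ∈ w.asIdeal ^ n ↔ r ∈ w.asIdeal ^ n := by
    intro n r
    have : σ • (w.asIdeal ^ n) = w.asIdeal ^ n := by rw [smul_pow', hσ]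
    conv_lhs => rw [← this]
    exact Ideal.smul_mem_pointwise_smul_iff
  rcases eq_or_ne r 0 with rfl | hr
  · simp
  have hr' : σ • r ≠ 0 := by
    intro h
    apply hr
    have := congrArg (fun t => σ⁻¹ • t) h
    simpa using this
  rw [w.intValuation_if_neg hr, w.intValuation_if_neg hr']
  set n := (Associates.mk w.asIdeal).count (Associates.mk (Ideal.span {r})).factors
  set m := (Associates.mk w.asIdeal).count (Associates.mk (Ideal.span {σ • r})).factors
  have e1 : w.intValuation r = WithZero.exp (-(n : ℤ)) := w.intValuation_if_neg hr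
  have e2 : w.intValuation (σ • r) = WithZero.exp (-(m : ℤ)) := w.intValuation_if_neg hr'
  apply le_antisymm
  · rw [← e2, HeightOneSpectrum.intValuation_le_pow_iff_mem, key,
      ← HeightOneSpectrum.intValuation_le_pow_iff_mem, e1]
  · rw [← e1, HeightOneSpectrum.intValuation_le_pow_iff_mem, ← key,
      ← HeightOneSpectrum.intValuation_le_pow_iff_mem, e2]

omit [NumberField k] in
theorem valuation_galois (w : HeightOneSpectrum (𝓞 M)) (σ : Gal(M/k))
    (hσ : σ • w.asIdeal = w.asIdeal) (a : M) :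
    w.valuation M (σ a) = w.valuation M a := by
  obtain ⟨r, s, hs, rfl⟩ := IsFractionRing.div_surjective (A := 𝓞 M) a
  have h1 : ∀ r : 𝓞 M, σ (algebraMap (𝓞 M) M r) = algebraMap (𝓞 M) M (σ • r) := fun r => rfl
  rw [map_div₀, h1, h1, map_div₀, map_div₀, HeightOneSpectrum.valuation_of_algebraMap,
    HeightOneSpectrum.valuation_of_algebraMap, HeightOneSpectrum.valuation_of_algebraMap,
    HeightOneSpectrum.valuation_of_algebraMap, intValuation_smul w σ hσ, intValuation_smul w σ hσ]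


omit [NumberField k] [NumberField M] in
theorem algEquiv_eq_one_of_adjoin {y : M} (hgen : IntermediateField.adjoin k {y} = ⊤)
    (σ : Gal(M/k)) (h : σ y = y) : σ = 1 := by
  apply AlgEquiv.ext
  intro a
  have ha : a ∈ IntermediateField.adjoin k {y} := hgen ▸ IntermediateField.mem_top
  induction ha using IntermediateField.adjoin_induction with
  | mem a ha =>
    simp only [Set.mem_singleton_iff] at ha
    subst ha
    exact h
  | algebraMap a => simp
  | add a b _ _ ha hb => simp [ha, hb]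
  | inv a _ ha => simp [ha]
  | mul a b _ _ ha hb => simp [ha, hb]

end Fermat.Agent.S14.Loc2

namespace Fermat.Agent.S14

open Loc2

variable {p : ℕ} [Fact p.Prime] {k M : Type*} [Field k] [NumberField k] [Field M] [NumberField M]
  [Algebra k M]

/-- LOC2 (splitting). `x / z^p ≡ 1 mod v^(p e' + 1)`, `e' = v(ζ - 1)`: decomposition groups above `v`
in `M = k(x^{1/p})` are trivial. -/
theorem kummer_stabilizer_eq_one {ζ : k} (hζ : IsPrimitiveRoot ζ p)
    (v : HeightOneSpectrum (𝓞 k)) (w : HeightOneSpectrum (𝓞 M)) [w.asIdeal.LiesOver v.asIdeal]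
    {x z : k} (hz : z ≠ 0) (hx : v.valuation k (x / z ^ p - 1) < v.valuation k (ζ - 1) ^ p)
    {y : M} (hy : y ^ p = algebraMap k M x) (hgen : IntermediateField.adjoin k {y} = ⊤)
    (σ : Gal(M/k)) (hσ : σ • w.asIdeal = w.asIdeal) : σ = 1 := by
  have hp := (Fact.out : p.Prime)
  set ν := w.valuation M with hν
  set ζM := algebraMap k M ζ with hζMdef
  have hζM : IsPrimitiveRoot ζM p := hζ.map_of_injective (algebraMap k M).injective
  set e := v.asIdeal.ramificationIdx' w.asIdeal with hedef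
  have he : e ≠ 0 := Ideal.IsDedekindDomain.ramificationIdx'_ne_zero_of_liesOver w.asIdeal v.ne_bot
  have hzM : algebraMap k M z ≠ 0 := by simpa using hz
  set Y := y / algebraMap k M z with hYdef
  have hY : Y ^ p - 1 = algebraMap k M (x / z ^ p - 1) := by
    simp [Y, div_pow, hy]
  have h1 : ν (Y ^ p - 1) < ν (ζM - 1) ^ p := by
    rw [hY, hν, ← HeightOneSpectrum.valuation_liesOver M v w,
       show ζM - 1 = algebraMap k M (ζ - 1) by simp [ζM],
       ← HeightOneSpectrum.valuation_liesOver M v w, ← pow_mul, mul_comm _ p, pow_mul]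
    exact pow_lt_pow_left₀ hx zero_le he
  obtain ⟨η, hη, hc⟩ := exists_root_close ν hp.pos hζM h1
  have hx0 : x ≠ 0 := by
    rintro rfl
    have h2 : v.valuation k (ζ - 1) ≤ 1 := by
      have hint : IsIntegral ℤ ζ := IsIntegral.of_pow hp.pos (by rw [hζ.pow_eq_one]; exact isIntegral_one)
      let ζ' : 𝓞 k := ⟨ζ, hint⟩
      have := v.valuation_le_one (K := k) (ζ' - 1)
      simpa [ζ'] using this
    have h3 : v.valuation k (ζ - 1) ^ p ≤ 1 := pow_le_one' h2 p
    simp at hx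
    exact absurd hx (not_lt.mpr h3)
  have hy0 : y ≠ 0 := by
    rintro rfl
    rw [zero_pow hp.ne_zero] at hy
    exact hx0 (by simpa using hy.symm)
  obtain ⟨i, -, rfl⟩ := hζM.eq_pow_of_pow_eq_one hη
  have hση : σ (ζM ^ i) = ζM ^ i := by simp [ζM]
  set ε := σ y / y with hεdef
  have hσy0 : σ y ≠ 0 := by simpa using hy0
  have hε0 : ε ≠ 0 := div_ne_zero hσy0 hy0
  have hε : ε ^ p = 1 := by
    rw [hεdef, div_pow, ← map_pow, hy, AlgEquiv.commutes, ← hy, div_self (pow_ne_zero _ hy0)]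
  have hνε : ν ε = 1 := by
    have := congrArg ν hε
    rw [map_pow, map_one] at this
    exact (pow_eq_one_iff.1 this).resolve_right hp.ne_zero
  have hσY : σ Y = ε * Y := by
    rw [hYdef, hεdef, map_div₀, AlgEquiv.commutes]
    field_simp
  have hc2 : ν (Y - ε⁻¹ * ζM ^ i) < ν (ζM - 1) := by
    have h4 : σ (Y - ζM ^ i) = ε * (Y - ε⁻¹ * ζM ^ i) := by
      rw [map_sub, hση, hσY]
      field_simp
    have h := valuation_galois w σ hσ (Y - ζM ^ i)
    rw [h4, map_mul] at h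
    rw [← hν, hνε, one_mul] at h
    rw [h]
    exact hc
  have h5 := root_close_unique ν (valuation_root_sub w hζM) (η₁ := ζM ^ i) (η₂ := ε⁻¹ * ζM ^ i) hη
    (by rw [mul_pow, inv_pow, hε, hη]; simp) hc hc2
  have hζi : ζM ^ i ≠ 0 := pow_ne_zero _ (hζM.ne_zero hp.ne_zero)
  have h6 : ε = 1 := by
    have : ε * ζM ^ i = ζM ^ i := by
      conv_lhs => rw [h5]
      field_simp
    exact mul_right_cancel₀ hζi (by rw [this, one_mul])
  apply algEquiv_eq_one_of_adjoin hgen
  rw [hεdef, div_eq_one_iff_eq hy0] at h6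
  exact h6

end Fermat.Agent.S14
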