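import Fermat.Agent.S14.Sym
import Fermat.Agent.S14.DefsLoc
import Fermat.Agent.S14.Loc2

/-!
# S14/Kummer : Kummer extensions `M = k(θ)`, `θ^p = x`, and the decomposition of primes in them
-/

set_option autoImplicit false
set_option linter.style.haveILetI false
set_option linter.unusedSectionVars false

open NumberField IsDedekindDomain Polynomial
open scoped nonZeroDivisors Pointwise

namespace Fermat.Agent.S14

variable {p : ℕ} [Fact p.Prime] {k : Type} [Field k] [NumberField k] {ζ : k}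

theorem exists_kummer (hζ : IsPrimitiveRoot ζ p) {x : k} (hx : ¬ ∃ y : k, y ^ p = x) :
    ∃ (M : Type) (_ : Field M) (_ : NumberField M) (_ : Algebra k M) (_ : IsGalois k M) (θ : M),
      Module.finrank k M = p ∧ θ ^ p = algebraMap k M x := by
  have hp := (Fact.out : p.Prime)
  have H : Irreducible (X ^ p - C x) :=
    X_pow_sub_C_irreducible_of_prime hp (fun b hb => hx ⟨b, hb⟩)
  haveI : Fact (Irreducible (X ^ p - C x)) := ⟨H⟩
  have hζ' : (primitiveRoots p k).Nonempty := ⟨ζ, (mem_primitiveRoots hp.pos).2 hζ⟩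
  haveI : IsSplittingField k (AdjoinRoot (X ^ p - C x)) (X ^ p - C x) :=
    isSplittingField_AdjoinRoot_X_pow_sub_C hζ' H
  haveI : FiniteDimensional k (AdjoinRoot (X ^ p - C x)) :=
    Polynomial.IsSplittingField.finiteDimensional _ (X ^ p - C x)
  refine ⟨AdjoinRoot (X ^ p - C x), inferInstance, NumberField.of_module_finite k _, inferInstance,
    isGalois_of_isSplittingField_X_pow_sub_C hζ' H _, AdjoinRoot.root _,
    finrank_of_isSplittingField_X_pow_sub_C hζ' H _, ?_⟩
  exact root_X_pow_sub_C_pow p x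

variable {M : Type} [Field M] [NumberField M] [Algebra k M] [IsGalois k M]

namespace Kummer

theorem val_int (v : Pr k) {a : 𝓞 k} (ha : a ≠ 0) :
    v.intValuation a = WithZero.exp (- ord v (a : k)) := by
  rw [v.intValuation_if_neg ha]
  congr 2
  unfold ord
  rw [← FractionalIdeal.coeIdeal_span_singleton, FractionalIdeal.count_coe]
  simpa using ha

theorem val_eq (v : Pr k) {x : k} (hx : x ≠ 0) :
    v.valuation k x = WithZero.exp (- ord v x) := by
  obtain ⟨a, b, hb, rfl⟩ := IsFractionRing.div_surjective (A := 𝓞 k) x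
  have hb0 : b ≠ 0 := nonZeroDivisors.ne_zero hb
  have ha0 : a ≠ 0 := by
    rintro rfl
    simp at hx
  have ha' : (algebraMap (𝓞 k) k a) ≠ 0 := by simpa using ha0
  have hb' : (algebraMap (𝓞 k) k b) ≠ 0 := by simpa using hb0
  rw [map_div₀, HeightOneSpectrum.valuation_of_algebraMap, HeightOneSpectrum.valuation_of_algebraMap,
    val_int v ha0, val_int v hb0, ord_div v ha' hb', ← WithZero.exp_sub]
  congr 1
  ring

theorem galRestrict_eq_smul (σ : M ≃ₐ[k] M) (r : 𝓞 M) :
    galRestrict (𝓞 k) k M (𝓞 M) σ r = σ • r := by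
  apply RingOfIntegers.coe_injective
  rw [algebraMap_galRestrict_apply]
  rfl

theorem gal_asIdeal (σ : M ≃ₐ[k] M) (w : Pr M) : (gal σ w).asIdeal = σ • w.asIdeal := by
  rw [Ideal.pointwise_smul_def]
  change Ideal.map (galRestrict (𝓞 k) k M (𝓞 M) σ) w.asIdeal = _
  unfold Ideal.map
  congr 1
  ext x
  simp only [Set.mem_image]
  constructor
  · rintro ⟨r, hr, rfl⟩
    exact ⟨r, hr, (galRestrict_eq_smul σ r).symm⟩
  · rintro ⟨r, hr, rfl⟩
    exact ⟨r, hr, galRestrict_eq_smul σ r⟩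

instance liesOver_below (w : Pr M) : w.asIdeal.LiesOver (below k w).asIdeal :=
  inferInstanceAs (w.asIdeal.LiesOver (w.asIdeal.under (𝓞 k)))

theorem val_zeta_pow (hζ : IsPrimitiveRoot ζ p) (v : Pr k) :
    v.valuation k (p : k) = v.valuation k (ζ - 1) ^ (p - 1) := by
  have hp := (Fact.out : p.Prime)
  obtain ⟨n, rfl⟩ : ∃ n, p = n + 1 := ⟨p - 1, (Nat.succ_pred_eq_of_pos hp.pos).symm⟩
  have h := hζ.prod_one_sub_pow_eq_order
  have h2 : ((n + 1 : ℕ) : k) = ∏ j ∈ Finset.range n, (1 - ζ ^ (j + 1)) := by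
    rw [h]; push_cast; ring
  rw [h2, map_prod, Nat.add_sub_cancel]
  rw [Finset.prod_congr rfl (g := fun _ => v.valuation k (ζ - 1))]
  · simp
  · intro j hj
    apply Loc2.valuation_root_sub v hζ
    · simp
    · rw [← pow_mul, mul_comm, pow_mul, hζ.pow_eq_one, one_pow]
    · intro h3
      have := hζ.pow_ne_one_of_pos_of_lt (Nat.succ_ne_zero j) (by simp at hj; omega)
      exact this h3.symm

end Kummer

namespace Kummer

omit [NumberField k] [NumberField M] [IsGalois k M] in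
theorem adjoin_eq_top (hdeg : Module.finrank k M = p) {x : k}
    (hx : ¬ ∃ y : k, y ^ p = x) {θ : M} (hθ : θ ^ p = algebraMap k M x) :
    IntermediateField.adjoin k {θ} = ⊤ := by
  have hp := (Fact.out : p.Prime)
  haveI := IntermediateField.isSimpleOrder_of_finrank_prime k M (hdeg ▸ hp)
  rcases eq_bot_or_eq_top (IntermediateField.adjoin k {θ}) with h | h
  · exfalso
    rw [IntermediateField.adjoin_simple_eq_bot_iff, IntermediateField.mem_bot] at h
    obtain ⟨y, rfl⟩ := h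
    apply hx
    refine ⟨y, ?_⟩
    apply (algebraMap k M).injective
    rw [map_pow, hθ]
  · exact h

end Kummer

open Kummer

/-- a generator of the Galois group. -/
theorem exists_kummer_gen (hζ : IsPrimitiveRoot ζ p) (hdeg : Module.finrank k M = p) {x : k}
    (hx : ¬ ∃ y : k, y ^ p = x) {θ : M} (hθ : θ ^ p = algebraMap k M x) :
    ∃ σ : M ≃ₐ[k] M, σ θ = algebraMap k M ζ * θ ∧ ∀ τ : M ≃ₐ[k] M, ∃ i : ℕ, τ = σ ^ i := by
  have hp := (Fact.out : p.Prime)
  haveI : NeZero p := ⟨hp.ne_zero⟩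
  have H : Irreducible (X ^ p - C x) :=
    X_pow_sub_C_irreducible_of_prime hp (fun b hb => hx ⟨b, hb⟩)
  have hζ' : (primitiveRoots p k).Nonempty := ⟨ζ, (mem_primitiveRoots hp.pos).2 hζ⟩
  have htop := adjoin_eq_top hdeg hx hθ
  haveI : IsSplittingField k M (X ^ p - C x) := by
    have := isSplittingField_X_pow_sub_C_of_root_adjoin_eq_top (K := k) (L := M) (hdeg.symm ▸ hζ')
      (a := x) (α := θ) (hdeg.symm ▸ hθ) htop
    rwa [hdeg] at this
  let e := autEquivZmod H M hζ
  refine ⟨e.symm (Multiplicative.ofAdd (1 : ZMod p)), ?_, ?_⟩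
  · have := autEquivZmod_symm_apply_natCast H M hθ hζ 1
    rw [Nat.cast_one, pow_one, Algebra.smul_def] at this
    exact this
  · intro τ
    refine ⟨(Multiplicative.toAdd (e τ)).val, ?_⟩
    apply e.injective
    rw [map_pow, MulEquiv.apply_symm_apply, ← ofAdd_nsmul]
    simp

/-- Kummer theory: an element of `k` which becomes a `p`-th power in `M = k(x^{1/p})` lies in `⟨x⟩ k^{*p}`. -/
theorem kummer_pow (hζ : IsPrimitiveRoot ζ p) (hdeg : Module.finrank k M = p) {x : k}
    (hx : ¬ ∃ y : k, y ^ p = x) {θ : M} (hθ : θ ^ p = algebraMap k M x) {x₁ : k} (hx₁ : x₁ ≠ 0)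
    (h : ∃ z : M, z ^ p = algebraMap k M x₁) : ∃ (j : ℕ) (y : k), y ^ p = x₁ * x ^ j := by
  have hp := (Fact.out : p.Prime)
  obtain ⟨z, hz⟩ := h
  obtain ⟨σ, hσ, hgen⟩ := exists_kummer_gen hζ hdeg hx hθ
  have hζM : IsPrimitiveRoot (algebraMap k M ζ) p := hζ.map_of_injective (algebraMap k M).injective
  have hz0 : z ≠ 0 := by
    rintro rfl
    rw [zero_pow hp.ne_zero] at hz
    exact hx₁ (by simpa using hz.symm)
  have h1 : (σ z / z) ^ p = 1 := by
    rw [div_pow, ← map_pow, hz, AlgEquiv.commutes, ← hz, div_self (pow_ne_zero _ hz0)]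
  obtain ⟨i, hi, hi'⟩ := hζM.eq_pow_of_pow_eq_one h1
  have hσz : σ z = algebraMap k M ζ ^ i * z := by
    rw [hi']; field_simp
  have hfix : σ (z * θ ^ (p - i)) = z * θ ^ (p - i) := by
    rw [map_mul, map_pow, hσ, hσz, mul_pow]
    have : algebraMap k M ζ ^ i * algebraMap k M ζ ^ (p - i) = 1 := by
      rw [← pow_add, Nat.add_sub_cancel' hi.le, hζM.pow_eq_one]
    calc algebraMap k M ζ ^ i * z * (algebraMap k M ζ ^ (p - i) * θ ^ (p - i))
        = (algebraMap k M ζ ^ i * algebraMap k M ζ ^ (p - i)) * (z * θ ^ (p - i)) := by ring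
      _ = z * θ ^ (p - i) := by rw [this, one_mul]
  have hfix' : ∀ τ : M ≃ₐ[k] M, τ (z * θ ^ (p - i)) = z * θ ^ (p - i) := by
    intro τ
    obtain ⟨n, rfl⟩ := hgen τ
    induction n with
    | zero => simp
    | succ n ih => rw [pow_succ, AlgEquiv.mul_apply, hfix, ih]
  obtain ⟨y, hy⟩ := (IsGalois.mem_range_algebraMap_iff_fixed _).2 hfix'
  refine ⟨p - i, y, ?_⟩
  apply (algebraMap k M).injective
  rw [map_pow, hy, mul_pow, hz, ← pow_mul, mul_comm (p - i) p, pow_mul, hθ, map_mul, map_pow]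


namespace Kummer

theorem split_of_val (hζ : IsPrimitiveRoot ζ p) (hdeg : Module.finrank k M = p) {x : k}
    (hx : ¬ ∃ y : k, y ^ p = x) {θ : M} (hθ : θ ^ p = algebraMap k M x) (w : Pr M) {z : k}
    (hz : z ≠ 0)
    (h : (below k w).valuation k (x / z ^ p - 1) < (below k w).valuation k (ζ - 1) ^ p) :
    eidx k w = 1 ∧ fdeg k w = 1 := by
  apply split_of_stab
  intro σ hσ
  have hσ' : σ • w.asIdeal = w.asIdeal := by rw [← gal_asIdeal, hσ]
  exact kummer_stabilizer_eq_one hζ (below k w) w hz h hθ (adjoin_eq_top hdeg hx hθ) σ hσ'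

theorem ord_p_eq (hζ : IsPrimitiveRoot ζ p) (v : Pr k) :
    ord v (p : k) = ((p - 1 : ℕ) : ℤ) * ord v (ζ - 1) := by
  have hp := (Fact.out : p.Prime)
  have hp0 : (p : k) ≠ 0 := Nat.cast_ne_zero.2 hp.ne_zero
  have hζ1 : ζ - 1 ≠ 0 := sub_ne_zero.2 (hζ.ne_one hp.one_lt)
  have h := val_zeta_pow hζ v
  rw [val_eq v hp0, val_eq v hζ1, ← WithZero.exp_nsmul, WithZero.exp_inj] at h
  rw [nsmul_eq_mul] at h
  linarith

theorem ord_zeta_nonneg (hζ : IsPrimitiveRoot ζ p) (v : Pr k) : 0 ≤ ord v (ζ - 1) := by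
  have hp := (Fact.out : p.Prime)
  have hint : IsIntegral ℤ ζ :=
    IsIntegral.of_pow hp.pos (by rw [hζ.pow_eq_one]; exact isIntegral_one)
  let ζ' : 𝓞 k := ⟨ζ, hint⟩
  have := ord_nonneg v (ζ' - 1)
  simpa [ζ'] using this

theorem nloc_eq (hζ : IsPrimitiveRoot ζ p) (v : Pr k) :
    (nloc p v : ℤ) = p * ord v (ζ - 1) + 1 := by
  have hp := (Fact.out : p.Prime)
  obtain ⟨e, he⟩ := Int.eq_ofNat_of_zero_le (ord_zeta_nonneg hζ v)
  unfold nloc
  rw [ord_p_eq hζ v, he]
  have : (((p - 1 : ℕ) : ℤ) * (e : ℤ)).toNat = (p - 1) * e := by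
    rw [← Nat.cast_mul, Int.toNat_natCast]
  rw [this]
  have h2 : p * ((p - 1) * e) / (p - 1) = p * e := by
    rw [show p * ((p - 1) * e) = (p * e) * (p - 1) by ring]
    exact Nat.mul_div_cancel _ (by have := hp.two_le; omega)
  rw [h2]
  push_cast
  ring

end Kummer

/-- (LOC2) local `p`-th powers split completely. -/
theorem kummer_loc2 (hζ : IsPrimitiveRoot ζ p) (hdeg : Module.finrank k M = p) {x : k}
    (hx : ¬ ∃ y : k, y ^ p = x) {θ : M} (hθ : θ ^ p = algebraMap k M x) (w : Pr M)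
    (h : LocPow p (below k w) x) : eidx k w = 1 ∧ fdeg k w = 1 := by
  have hp := (Fact.out : p.Prime)
  obtain ⟨z, hz, hc⟩ := h
  apply split_of_val hζ hdeg hx hθ w hz
  have hζ1 : ζ - 1 ≠ 0 := sub_ne_zero.2 (hζ.ne_one hp.one_lt)
  have hpos : 0 < (below k w).valuation k (ζ - 1) ^ p :=
    pow_pos (zero_lt_iff.2 (by simpa using hζ1)) p
  by_cases h0 : x / z ^ p - 1 = 0
  · rw [h0, map_zero]; exact hpos
  rcases hc with hc | hc
  · exact absurd (sub_eq_zero.2 hc) h0
  · rw [val_eq _ h0, val_eq _ hζ1, ← WithZero.exp_nsmul, WithZero.exp_lt_exp, nsmul_eq_mul]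
    rw [nloc_eq hζ] at hc
    linarith

theorem kummer_split (hζ : IsPrimitiveRoot ζ p) (hdeg : Module.finrank k M = p) {x : k}
    (hx : ¬ ∃ y : k, y ^ p = x) {θ : M} (hθ : θ ^ p = algebraMap k M x) (w : Pr M)
    (hp : ord (below k w) (p : k) = 0) (hxv : ord (below k w) x = 0)
    (h : sym p ζ (below k w) x = 0) : eidx k w = 1 ∧ fdeg k w = 1 := by
  have hpp := (Fact.out : p.Prime)
  have hx0 : x ≠ 0 := by
    rintro rfl
    exact hx ⟨0, zero_pow hpp.ne_zero⟩
  obtain ⟨z, hz, hzv, hc⟩ := (sym_eq_zero_iff hζ (below k w) hp hx0 hxv).1 h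
  apply kummer_loc2 hζ hdeg hx hθ w
  refine ⟨z, hz, ?_⟩
  have hn : nloc p (below k w) = 1 := by
    unfold nloc
    rw [hp]
    simp
  rw [hn]
  have hzp : z ^ p ≠ 0 := pow_ne_zero _ hz
  rcases hc with hc | hc
  · left
    rw [hc, div_self hzp]
  · by_cases h0 : x - z ^ p = 0
    · left
      rw [sub_eq_zero.1 h0, div_self hzp]
    · right
      have : x / z ^ p - 1 = (x - z ^ p) / z ^ p := by field_simp
      rw [this, ord_div _ h0 hzp, ord_pow, hzv]
      simpa using hc

theorem kummer_ram (hζ : IsPrimitiveRoot ζ p) (hdeg : Module.finrank k M = p) {x : k}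
    {θ : M} (hθ : θ ^ p = algebraMap k M x) (w : Pr M)
    (h : ¬ (p : ℤ) ∣ ord (below k w) x) : eidx k w = p ∧ fdeg k w = 1 := by
  have hpp := (Fact.out : p.Prime)
  have h1 : (p : ℤ) * ord w θ = eidx k w * ord (below k w) x := by
    rw [← ord_pow, hθ, ord_algebraMap]
  have h2 : (p : ℤ) ∣ (eidx k w : ℤ) := by
    have : (p : ℤ) ∣ eidx k w * ord (below k w) x := ⟨_, h1.symm⟩
    exact ((Nat.prime_iff_prime_int.1 hpp).dvd_or_dvd this).resolve_right h
  have h3 : p ∣ eidx k w := by exact_mod_cast h2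
  have h4 := eidx_mul_fdeg_le (k := k) w
  rw [hdeg] at h4
  have h5 := fdeg_pos (k := k) w
  have h6 := eidx_pos (k := k) w
  have h7 : p ≤ eidx k w := Nat.le_of_dvd h6 h3
  have h8 : fdeg k w = 1 := by
    by_contra hne
    have : 2 ≤ fdeg k w := by omega
    have : eidx k w * 2 ≤ eidx k w * fdeg k w := Nat.mul_le_mul_left _ this
    omega
  rw [h8, mul_one] at h4
  exact ⟨le_antisymm h4 h7, h8⟩

theorem kummer_inert (hζ : IsPrimitiveRoot ζ p) (hdeg : Module.finrank k M = p) {x : k}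
    (hx : ¬ ∃ y : k, y ^ p = x) {θ : M} (hθ : θ ^ p = algebraMap k M x) (w : Pr M)
    (hp : ord (below k w) (p : k) = 0) (hxv : ord (below k w) x = 0)
    (h : sym p ζ (below k w) x ≠ 0) : eidx k w = 1 ∧ fdeg k w = p := by
  have hpp := (Fact.out : p.Prime)
  have hx0 : x ≠ 0 := by
    rintro rfl
    exact hx ⟨0, zero_pow hpp.ne_zero⟩
  have hθ0 : θ ≠ 0 := by
    rintro rfl
    rw [zero_pow hpp.ne_zero] at hθ
    exact hx0 (by simpa using hθ.symm)
  have hθw : ord w θ = 0 := by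
    have h1 : (p : ℤ) * ord w θ = eidx k w * ord (below k w) x := by
      rw [← ord_pow, hθ, ord_algebraMap]
    rw [hxv, mul_zero] at h1
    exact (mul_eq_zero.1 h1).resolve_left (by exact_mod_cast hpp.ne_zero)
  have hζM : IsPrimitiveRoot (algebraMap k M ζ) p := hζ.map_of_injective (algebraMap k M).injective
  -- unramified
  have he : eidx k w = 1 := by
    apply unram_of_inertia
    intro σ hσ
    have h1 := hσ θ hθw.ge
    apply Loc2.algEquiv_eq_one_of_adjoin (adjoin_eq_top hdeg hx hθ)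
    rcases h1 with h1 | h1
    · exact h1
    by_contra hne
    have h2 : (σ θ / θ) ^ p = 1 := by
      rw [div_pow, ← map_pow, hθ, AlgEquiv.commutes, ← hθ, div_self (pow_ne_zero _ hθ0)]
    have h3 : σ θ / θ ≠ 1 := by
      intro h4
      exact hne ((div_eq_one_iff_eq hθ0).1 h4)
    have h4 := Loc2.valuation_root_sub w hζM (σ θ / θ) 1 h2 (one_pow p) h3
    have h5 : σ θ / θ - 1 ≠ 0 := sub_ne_zero.2 h3
    have hζ1 : algebraMap k M ζ - 1 ≠ 0 := sub_ne_zero.2 (hζM.ne_one hpp.one_lt)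
    rw [val_eq w h5, val_eq w hζ1, WithZero.exp_inj, neg_inj] at h4
    have h6 : ord w (algebraMap k M ζ - 1) = 0 := by
      have h7 := ord_p_eq hζ (below k w)
      rw [hp] at h7
      have h8 : ord (below k w) (ζ - 1) = 0 := by
        have := (mul_eq_zero.1 h7.symm)
        rcases this with h9 | h9
        · exfalso
          have := hpp.two_le
          have : p - 1 = 0 := by exact_mod_cast h9
          omega
        · exact h9
      have : algebraMap k M ζ - 1 = algebraMap k M (ζ - 1) := by simp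
      rw [this, ord_algebraMap, h8, mul_zero]
    have h7 : σ θ - θ = (σ θ / θ - 1) * θ := by field_simp
    rw [h7, ord_mul w h5 hθ0, h4, h6, hθw] at h1
    simp at h1
  rcases trichotomy hdeg w with ht | ht | ht
  · exfalso
    apply h
    obtain ⟨t, ht0, htc⟩ := exists_cong_of_fdeg_one w ht.2 hθw.ge
    have h1 : Cong w 1 (θ ^ p) (algebraMap k M t ^ p) := by
      apply Cong.pow htc hθw.ge _ p
      rw [ord_algebraMap]
      exact mul_nonneg (by positivity) ht0
    rw [hθ, ← map_pow] at h1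
    have h2 := cong_of_algebraMap w h1
    have h3 := Cong.ord_eq_zero le_rfl h2.symm hx0 hxv
    have ht1 : t ≠ 0 := by
      rintro rfl
      exact h3.1 (zero_pow hpp.ne_zero)
    rw [sym_eq_zero_iff hζ (below k w) hp hx0 hxv]
    refine ⟨t, ht1, ?_, h2⟩
    have h4 := h3.2
    rw [ord_pow] at h4
    exact (mul_eq_zero.1 h4).resolve_left (by exact_mod_cast hpp.ne_zero)
  · exact ht
  · exfalso
    rw [he] at ht
    exact hpp.one_lt.ne ht.1

end Fermat.Agent.S14
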