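import Fermat.Agent.S14.Gauss
import Fermat.Agent.S14.Kummer

/-!
# S14/Cyc : cyclotomic reciprocity over `k' = K(β^{1/p})`, `β = α^a γ_m`
-/

set_option autoImplicit false
set_option linter.unusedSectionVars false
set_option linter.style.haveILetI false

open NumberField IsDedekindDomain

namespace Fermat.Agent.S14.Cyc

section general

variable {k : Type} [Field k] [NumberField k]

theorem Nv_ne_zero {m : ℕ} (hm : m.Prime) (v : Pr k) (hv : ord v (m : k) = 0) :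
    (Nv v : ZMod m) ≠ 0 := by
  intro h
  rw [ZMod.natCast_eq_zero_iff, Nv_eq_card] at h
  haveI : Fact m.Prime := ⟨hm⟩
  have hfin : Finite (𝓞 k ⧸ v.asIdeal) := by
    apply Nat.finite_of_card_ne_zero
    rw [← Nv_eq_card]
    have := two_le_Nv v
    omega
  obtain ⟨x, hx⟩ := exists_prime_addOrderOf_dvd_card' m h
  obtain ⟨a, rfl⟩ := Ideal.Quotient.mk_surjective x
  have h1 : m • (Ideal.Quotient.mk v.asIdeal a) = 0 := by
    rw [← hx]; exact addOrderOf_nsmul_eq_zero _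
  have h2 : (m : 𝓞 k) * a ∈ v.asIdeal := by
    rw [← Ideal.Quotient.eq_zero_iff_mem, map_mul, map_natCast, ← nsmul_eq_mul]
    exact h1
  have hm0 : (m : 𝓞 k) ≠ 0 := Nat.cast_ne_zero.2 hm.ne_zero
  have h3 : (m : 𝓞 k) ∉ v.asIdeal := by
    rw [← ord_eq_zero_iff v hm0]
    simpa using hv
  have h4 : a ∈ v.asIdeal := (v.isPrime.mem_or_mem h2).resolve_left h3
  have h5 : Ideal.Quotient.mk v.asIdeal a = 0 := Ideal.Quotient.eq_zero_iff_mem.2 h4
  rw [h5, addOrderOf_zero] at hx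
  exact hm.one_lt.ne hx

end general

section lg

variable {p m : ℕ} {lg : ZMod m → ZMod p}

theorem lg_one [Fact m.Prime] (hlg_mul : ∀ a b : ZMod m, a ≠ 0 → b ≠ 0 → lg (a * b) = lg a + lg b) :
    lg 1 = 0 := by
  have := hlg_mul 1 1 one_ne_zero one_ne_zero
  rw [mul_one] at this
  simpa using this

theorem lg_pow [Fact m.Prime] (hlg_mul : ∀ a b : ZMod m, a ≠ 0 → b ≠ 0 → lg (a * b) = lg a + lg b)
    {a : ZMod m} (ha : a ≠ 0) (n : ℕ) : lg (a ^ n) = n * lg a := by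
  induction n with
  | zero => simp [lg_one hlg_mul]
  | succ n ih =>
    rw [pow_succ, hlg_mul _ _ (pow_ne_zero _ ha) ha, ih]
    push_cast
    ring

theorem lg_prod [Fact m.Prime]
    (hlg_mul : ∀ a b : ZMod m, a ≠ 0 → b ≠ 0 → lg (a * b) = lg a + lg b)
    {ι : Type*} (s : Finset ι) (f : ι → ZMod m) (hf : ∀ i ∈ s, f i ≠ 0) :
    lg (∏ i ∈ s, f i) = ∑ i ∈ s, lg (f i) := by
  classical
  induction s using Finset.induction_on with
  | empty => simp [lg_one hlg_mul]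
  | insert i s hi ih =>
    rw [Finset.prod_insert hi, Finset.sum_insert hi,
      hlg_mul _ _ (hf i (Finset.mem_insert_self _ _))
        (Finset.prod_ne_zero_iff.2 fun j hj => hf j (Finset.mem_insert_of_mem hj)),
      ih fun j hj => hf j (Finset.mem_insert_of_mem hj)]

theorem exists_pow_eq_of_pow_eq_one [Fact m.Prime] (hpm : p ∣ m - 1) (hp0 : p ≠ 0) {x : ZMod m}
    (hx : x ^ ((m - 1) / p) = 1) : ∃ c : ZMod m, c ^ p = x := by
  have hm := (Fact.out : m.Prime)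
  have hx0 : x ≠ 0 := by
    rintro rfl
    rw [zero_pow] at hx
    · exact zero_ne_one hx
    · obtain ⟨t, ht⟩ := hpm
      rw [ht, Nat.mul_div_cancel_left _ (Nat.pos_of_ne_zero hp0)]
      rintro rfl
      have := hm.two_le
      omega
  obtain ⟨g, hg⟩ := IsCyclic.exists_generator (α := (ZMod m)ˣ)
  obtain ⟨j, hj⟩ := (mem_powers_iff_mem_zpowers.2 (hg (Units.mk0 x hx0)))
  have hord : orderOf g = m - 1 := by
    rw [orderOf_eq_card_of_forall_mem_zpowers hg, Nat.card_eq_fintype_card, ZMod.card_units]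
  obtain ⟨t, ht⟩ := hpm
  have htdiv : (m - 1) / p = t := by rw [ht, Nat.mul_div_cancel_left _ (Nat.pos_of_ne_zero hp0)]
  have h1 : g ^ (j * t) = 1 := by
    have hj' : g ^ j = Units.mk0 x hx0 := hj
    rw [pow_mul, hj']
    ext
    simp [← htdiv, hx]
  have h2 : p * t ∣ j * t := by
    rw [← ht, ← hord]; exact orderOf_dvd_of_pow_eq_one h1
  have ht0 : t ≠ 0 := by
    rintro rfl
    have := hm.two_le
    omega
  obtain ⟨s, hs⟩ := Nat.dvd_of_mul_dvd_mul_right (Nat.pos_of_ne_zero ht0) h2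
  refine ⟨((g ^ s : (ZMod m)ˣ) : ZMod m), ?_⟩
  have hj' : g ^ j = Units.mk0 x hx0 := hj
  have : (g ^ s) ^ p = Units.mk0 x hx0 := by rw [← pow_mul, mul_comm, ← hs, hj']
  have := congrArg (fun u : (ZMod m)ˣ => (u : ZMod m)) this
  simpa using this

end lg

section cyclo

variable {p : ℕ} [Fact p.Prime] {K : Type} [Field K] [NumberField K]
    [IsCyclotomicExtension {p} ℚ K]

theorem exists_prime_over {m : ℕ} (hm : m.Prime) (hmp : m % p = 1) :
    ∃ v : Pr K, ord v (m : K) ≠ 0 ∧ Nv v = m ∧ ∀ n : ℤ, (n : 𝓞 K) ∈ v.asIdeal → (m : ℤ) ∣ n := by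
  have hp := (Fact.out : p.Prime)
  haveI : Fact m.Prime := ⟨hm⟩
  haveI : NeZero p := ⟨hp.ne_zero⟩
  have hprime : (Ideal.span {(m : ℤ)}).IsPrime := by
    rw [Ideal.span_singleton_prime (by exact_mod_cast hm.ne_zero)]
    exact Nat.prime_iff_prime_int.1 hm
  obtain ⟨⟨P, hP1, hP2⟩⟩ := (Ideal.span {(m : ℤ)}).nonempty_primesOver (S := 𝓞 K)
  have hmem : (m : 𝓞 K) ∈ P := by
    have : ((m : ℤ) : 𝓞 K) ∈ P := by
      have h1 : (m : ℤ) ∈ P.under ℤ := by
        rw [← hP2.over]; exact Ideal.mem_span_singleton_self _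
      exact h1
    simpa using this
  have hm0 : (m : 𝓞 K) ≠ 0 := Nat.cast_ne_zero.2 hm.ne_zero
  have hPbot : P ≠ ⊥ := by
    rintro rfl
    exact hm0 (by simpa using hmem)
  have hnd : ¬ m ∣ p := by
    intro h
    have := (Nat.prime_dvd_prime_iff_eq hm hp).1 h
    subst this
    rw [Nat.mod_self] at hmp
    exact zero_ne_one hmp
  have hdeg := IsCyclotomicExtension.Rat.inertiaDeg_eq_of_not_dvd m K P hnd
  have hone : orderOf ((m : ℕ) : ZMod p) = 1 := by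
    rw [orderOf_eq_one_iff]
    have : ((m : ℕ) : ZMod p) = ((m % p : ℕ) : ZMod p) := by simp
    rw [this, hmp]; simp
  rw [hone] at hdeg
  have hN := Ideal.pow_inertiaDeg m P
  rw [hdeg, pow_one] at hN
  refine ⟨⟨P, hP1, hPbot⟩, ?_, hN.symm, ?_⟩
  · intro h
    have := (ord_eq_zero_iff (⟨P, hP1, hPbot⟩ : Pr K) hm0).1 (by simpa using h)
    exact this hmem
  · intro n hn
    have h1 : n ∈ P.under ℤ := hn
    rw [← hP2.over, Ideal.mem_span_singleton] at h1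
    exact h1

end cyclo

section general2

variable {k : Type} [Field k] [NumberField k]

theorem ord_mul_nonneg (v : Pr k) {x y : k} (hx : 0 ≤ ord v x) (hy : 0 ≤ ord v y) :
    0 ≤ ord v (x * y) := by
  by_cases hx0 : x = 0
  · subst hx0; rw [zero_mul, ord_zero]
  by_cases hy0 : y = 0
  · subst hy0; rw [mul_zero, ord_zero]
  rw [ord_mul v hx0 hy0]
  exact add_nonneg hx hy

theorem ord_prod_nonneg (v : Pr k) {ι : Type*} (s : Finset ι) (f : ι → k)
    (hf : ∀ i ∈ s, 0 ≤ ord v (f i)) : 0 ≤ ord v (∏ i ∈ s, f i) := by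
  classical
  induction s using Finset.induction_on with
  | empty => simp [ord_one]
  | insert i s hi ih =>
    rw [Finset.prod_insert hi]
    exact ord_mul_nonneg v (hf i (Finset.mem_insert_self _ _))
      (ih fun j hj => hf j (Finset.mem_insert_of_mem hj))

theorem cong_prod (v : Pr k) (n : ℕ) {ι : Type*} (s : Finset ι) (f g : ι → k)
    (h : ∀ i ∈ s, Cong v n (f i) (g i)) (hf : ∀ i ∈ s, 0 ≤ ord v (f i))
    (hg : ∀ i ∈ s, 0 ≤ ord v (g i)) : Cong v n (∏ i ∈ s, f i) (∏ i ∈ s, g i) := by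
  classical
  induction s using Finset.induction_on with
  | empty => simpa using Cong.refl v n 1
  | insert i s hi ih =>
    rw [Finset.prod_insert hi, Finset.prod_insert hi]
    exact Cong.mul (h i (Finset.mem_insert_self _ _))
      (ih (fun j hj => h j (Finset.mem_insert_of_mem hj))
        (fun j hj => hf j (Finset.mem_insert_of_mem hj))
        (fun j hj => hg j (Finset.mem_insert_of_mem hj)))
      (hf i (Finset.mem_insert_self _ _))
      (ord_prod_nonneg v s g fun j hj => hg j (Finset.mem_insert_of_mem hj))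

theorem sym_prod {p : ℕ} [Fact p.Prime] {ζ : k} (hζ : IsPrimitiveRoot ζ p) (v : Pr k)
    (hv : ord v (p : k) = 0) {ι : Type*} (s : Finset ι) (f : ι → k)
    (hf : ∀ i ∈ s, f i ≠ 0 ∧ ord v (f i) = 0 ∧ sym p ζ v (f i) = 0) :
    (∏ i ∈ s, f i) ≠ 0 ∧ ord v (∏ i ∈ s, f i) = 0 ∧ sym p ζ v (∏ i ∈ s, f i) = 0 := by
  classical
  induction s using Finset.induction_on with
  | empty => simp [ord_one, sym_one hζ v hv]
  | insert i s hi ih =>
    rw [Finset.prod_insert hi]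
    obtain ⟨a1, a2, a3⟩ := hf i (Finset.mem_insert_self _ _)
    obtain ⟨b1, b2, b3⟩ := ih fun j hj => hf j (Finset.mem_insert_of_mem hj)
    refine ⟨mul_ne_zero a1 b1, ?_, ?_⟩
    · rw [ord_mul v a1 b1, a2, b2, add_zero]
    · rw [sym_mul hζ v hv a1 a2 b1 b2, a3, b3, add_zero]

end general2

section C1

variable {p : ℕ} [Fact p.Prime] {K : Type} [Field K] [NumberField K] {ζ : K}
  {k' : Type} [Field k'] [NumberField k'] [Algebra K k'] [IsGalois K k']

theorem sym_norm_eq_zero (hζ : IsPrimitiveRoot ζ p) (hdeg : Module.finrank K k' = p) {β : K}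
    {θ : k'} (hθ : θ ^ p = algebraMap K k' β) (v : Pr K) (hvp : ord v (p : K) = 0)
    (hram : ¬ (p : ℤ) ∣ ord v β) {A : k'} (hA0 : A ≠ 0)
    (hA : ∀ w : Pr k', below K w = v → ord w A = 0) :
    Algebra.norm K A ≠ 0 ∧ ord v (Algebra.norm K A) = 0 ∧ sym p ζ v (Algebra.norm K A) = 0 := by
  have hp := (Fact.out : p.Prime)
  obtain ⟨w, hw⟩ := exists_over (M := k') v
  subst hw
  obtain ⟨he, hf⟩ := kummer_ram hζ hdeg hθ w hram
  have hAw := hA w rfl
  obtain ⟨t, ht0, htc⟩ := exists_cong_of_fdeg_one w hf hAw.ge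
  have hns : ¬ (eidx K w = 1 ∧ fdeg K w = 1) := by
    rintro ⟨h1, -⟩
    rw [he] at h1
    exact hp.one_lt.ne' h1
  have hgal : ∀ σ : k' ≃ₐ[K] k', gal σ w = w := gal_eq_self_of_not_split hdeg w hns
  have hc : ∀ σ : k' ≃ₐ[K] k', Cong w 1 (σ A) (algebraMap K k' t) := by
    intro σ
    have := cong_gal σ w htc
    rwa [hgal, AlgEquiv.commutes] at this
  have hordσ : ∀ σ : k' ≃ₐ[K] k', ord w (σ A) = 0 := by
    intro σ
    have := ord_gal σ w A
    rwa [hgal, hAw] at this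
  have ht' := Cong.ord_eq_zero le_rfl htc.symm hA0 hAw
  have ht1 : t ≠ 0 := by
    rintro rfl
    exact ht'.1 (map_zero _)
  have htv : ord (below K w) t = 0 := by
    have := ht'.2
    rw [ord_algebraMap, he] at this
    exact (mul_eq_zero.1 this).resolve_left (by exact_mod_cast hp.ne_zero)
  have hprod := cong_prod w 1 Finset.univ (fun σ : k' ≃ₐ[K] k' => σ A)
    (fun _ => algebraMap K k' t) (fun σ _ => hc σ) (fun σ _ => (hordσ σ).ge)
    (fun σ _ => ht'.2.ge)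
  rw [← algebraMap_norm, Finset.prod_const, Finset.card_univ, ← Nat.card_eq_fintype_card,
    IsGalois.card_aut_eq_finrank, hdeg, ← map_pow] at hprod
  have hcong := cong_of_algebraMap w hprod
  have htp0 : t ^ p ≠ 0 := pow_ne_zero _ ht1
  have htpv : ord (below K w) (t ^ p) = 0 := by rw [ord_pow, htv, mul_zero]
  obtain ⟨n1, n2⟩ := Cong.ord_eq_zero le_rfl hcong htp0 htpv
  exact ⟨n1, n2, (sym_eq_zero_iff hζ (below K w) hvp n1 n2).2 ⟨t, ht1, htv, hcong⟩⟩

end C1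

section C2

variable {p : ℕ} [Fact p.Prime] {K : Type} [Field K] [NumberField K] {ζ : K}

theorem sym_prod_gal (hζ : IsPrimitiveRoot ζ p) {m : ℕ} (v0 : Pr K) (hv0 : ord v0 (m : K) ≠ 0)
    (hpm : ∀ v : Pr K, ord v (m : K) ≠ 0 → ord v (p : K) = 0) {u : K}
    (hu : ∀ v : Pr K, ord v (m : K) ≠ 0 → u ≠ 0 ∧ ord v u = 0 ∧ sym p ζ v u = 0) :
    (∏ δ : K ≃ₐ[ℚ] K, δ u) ≠ 0 ∧ ord v0 (∏ δ : K ≃ₐ[ℚ] K, δ u) = 0 ∧
      sym p ζ v0 (∏ δ : K ≃ₐ[ℚ] K, δ u) = 0 := by
  have hp := (Fact.out : p.Prime)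
  apply sym_prod hζ v0 (hpm v0 hv0)
  intro δ _
  set v := gal δ⁻¹ v0 with hv
  have hgv : gal δ v = v0 := by rw [hv, ← gal_mul, mul_inv_cancel, gal_one]
  have hvm : ord v (m : K) ≠ 0 := by
    have := ord_gal δ v (m : K)
    rw [hgv, map_natCast] at this
    rw [← this]; exact hv0
  obtain ⟨u1, u2, u3⟩ := hu v hvm
  refine ⟨by simpa using u1, ?_, ?_⟩
  · have := ord_gal δ v u
    rwa [hgv, u2] at this
  · have h1 : (δ ζ) ^ p = 1 := by rw [← map_pow, hζ.pow_eq_one, map_one]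
    obtain ⟨c, -, hc⟩ := hζ.eq_pow_of_pow_eq_one h1
    have := sym_gal hζ δ hc.symm v (hpm v hvm) u1 u2
    rw [hgv, u3, mul_zero] at this
    exact this

end C2

section C3

variable {p : ℕ} [Fact p.Prime] {K : Type} [Field K] [NumberField K] {ζ : K}

theorem int_pow_of_sym (hζ : IsPrimitiveRoot ζ p) {m : ℕ} (hm : m.Prime) (hmp : m % p = 1)
    (v0 : Pr K) (h1 : Nv v0 = m) (h2 : ∀ n : ℤ, (n : 𝓞 K) ∈ v0.asIdeal → (m : ℤ) ∣ n)
    (hv0p : ord v0 (p : K) = 0) {N : ℤ} (hN0 : (N : K) ≠ 0) (hNord : ord v0 (N : K) = 0)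
    (hs : sym p ζ v0 (N : K) = 0) : ∃ c : ZMod m, c ^ p = (N : ZMod m) := by
  have hp := (Fact.out : p.Prime)
  haveI : Fact m.Prime := ⟨hm⟩
  have hpm : p ∣ m - 1 := by
    refine ⟨m / p, ?_⟩
    have := Nat.div_add_mod m p
    omega
  apply exists_pow_eq_of_pow_eq_one hpm hp.ne_zero
  have h3 := sym_spec hζ v0 hv0p hN0 hNord
  rw [hs, ZMod.val_zero, pow_zero, h1] at h3
  have h4 := (cong_integer_iff v0 1 ((N : 𝓞 K) ^ ((m - 1) / p)) 1).1 (by simpa using h3)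
  rw [pow_one] at h4
  have h5 := h2 (N ^ ((m - 1) / p) - 1) (by simpa using h4)
  have h6 := (ZMod.intCast_zmod_eq_zero_iff_dvd _ m).2 h5
  push_cast at h6
  exact sub_eq_zero.1 h6

end C3

section main

variable {p : ℕ} [Fact p.Prime] {K : Type} [Field K] [NumberField K]
    [IsCyclotomicExtension {p} ℚ K] {ζ : K} {m : ℕ} {γ : K} {lg : ZMod m → ZMod p} {α : K} {a : ℕ}
    {k' : Type} [Field k'] [NumberField k'] [Algebra K k'] [IsGalois K k'] {θ : k'}

theorem ord_p_of_ord_m (hm : m.Prime) (hmp : m % p = 1) (v : Pr K) (hv : ord v (m : K) ≠ 0) :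
    ord v (p : K) = 0 := by
  have hp := (Fact.out : p.Prime)
  have hm0 : (m : 𝓞 K) ≠ 0 := Nat.cast_ne_zero.2 hm.ne_zero
  have hp0 : (p : 𝓞 K) ≠ 0 := Nat.cast_ne_zero.2 hp.ne_zero
  have h1 : (m : 𝓞 K) ∈ v.asIdeal := by
    by_contra h
    exact hv (by simpa using (ord_eq_zero_iff v hm0).2 h)
  have h2 : (p : 𝓞 K) ∉ v.asIdeal := by
    intro h
    have hne : m ≠ p := by
      rintro rfl
      rw [Nat.mod_self] at hmp
      exact zero_ne_one hmp
    have hcop : Nat.Coprime m p := (Nat.coprime_primes hm hp).2 hne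
    have hc : IsCoprime ((m : ℤ)) (p : ℤ) := Nat.isCoprime_iff_coprime.2 hcop
    obtain ⟨x, y, hxy⟩ := hc
    have h3 : ((x * m + y * p : ℤ) : 𝓞 K) ∈ v.asIdeal := by
      push_cast
      exact v.asIdeal.add_mem (v.asIdeal.mul_mem_left _ h1) (v.asIdeal.mul_mem_left _ h)
    rw [hxy] at h3
    exact v.isPrime.ne_top ((Ideal.eq_top_iff_one _).2 (by simpa using h3))
  simpa using (ord_eq_zero_iff v hp0).2 h2

theorem norm_natAbs_pow (hp2 : p ≠ 2) (hζ : IsPrimitiveRoot ζ p) (hm : m.Prime) (hmp : m % p = 1)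
    (hdeg : Module.finrank K k' = p) {β : K} (hθ : θ ^ p = algebraMap K k' β)
    (hram : ∀ v : Pr K, ord v (m : K) ≠ 0 → ¬ (p : ℤ) ∣ ord v β)
    (A : 𝓞 k') (hA0 : A ≠ 0)
    (hA : ∀ w : Pr k', ord (below K w) (m : K) ≠ 0 → ord w (A : k') = 0) :
    ∃ c : ZMod m, c ^ p = ((Algebra.norm ℤ A).natAbs : ZMod m) := by
  have hp := (Fact.out : p.Prime)
  haveI : IsGalois ℚ K := IsCyclotomicExtension.isGalois {p} ℚ K
  have hA0' : (A : k') ≠ 0 := by simpa using hA0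
  obtain ⟨v0, hv0, hNv0, hint⟩ := exists_prime_over (K := K) hm hmp
  have hpm := ord_p_of_ord_m (K := K) hm hmp
  have hu : ∀ v : Pr K, ord v (m : K) ≠ 0 → Algebra.norm K (A : k') ≠ 0 ∧
      ord v (Algebra.norm K (A : k')) = 0 ∧ sym p ζ v (Algebra.norm K (A : k')) = 0 := by
    intro v hv
    exact sym_norm_eq_zero hζ hdeg hθ v (hpm v hv) (hram v hv) hA0' (fun w hw => hA w (hw ▸ hv))
  have h1 := sym_prod_gal hζ v0 hv0 hpm hu
  have h2 : (∏ δ : K ≃ₐ[ℚ] K, δ (Algebra.norm K (A : k'))) = ((Algebra.norm ℤ A : ℤ) : K) := by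
    rw [← Algebra.norm_eq_prod_automorphisms ℚ, Algebra.norm_norm, ← Algebra.coe_norm_int]
    simp
  rw [h2] at h1
  obtain ⟨c, hc⟩ := int_pow_of_sym hζ hm hmp v0 hNv0 hint (hpm v0 hv0) h1.1 h1.2.1 h1.2.2
  rcases Int.natAbs_eq (Algebra.norm ℤ A) with h | h
  · refine ⟨c, ?_⟩
    rw [hc]
    conv_lhs => rw [h]
    simp
  · refine ⟨-c, ?_⟩
    rw [(hp.odd_of_ne_two hp2).neg_pow, hc]
    conv_lhs => rw [h]
    simp

open Classical in
/-- `λ(w) = lg(Nw)` for `w ∤ m`. -/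
noncomputable def lam (K : Type) [Field K] [NumberField K] {k' : Type} [Field k'] [NumberField k']
    [Algebra K k'] {p m : ℕ} (lg : ZMod m → ZMod p) (w : Pr k') : ZMod p :=
  if ord (below K w) (m : K) = 0 then lg (Nv w : ZMod m) else 0

/-- `Λ(D) = ∑ D(w) λ(w)`. -/
noncomputable def Lam (K : Type) [Field K] [NumberField K] {k' : Type} [Field k'] [NumberField k']
    [Algebra K k'] {p m : ℕ} (lg : ZMod m → ZMod p) : Dv k' →+ ZMod p :=
  Finsupp.liftAddHom fun w => (AddMonoidHom.mulRight (lam K lg w)).comp (Int.castAddHom (ZMod p))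

theorem Lam_apply (D : Dv k') : Lam K lg D = D.sum fun w n => (n : ZMod p) * lam K lg w := by
  unfold Lam
  rw [Finsupp.liftAddHom_apply]
  rfl

theorem ord_natCast_up (w : Pr k') (n : ℕ) (h : ord (below K w) (n : K) = 0) :
    ord w (n : k') = 0 := by
  have : (n : k') = algebraMap K k' (n : K) := by simp
  rw [this, ord_algebraMap, h, mul_zero]

theorem Lam_dv_integer (hp2 : p ≠ 2) (hζ : IsPrimitiveRoot ζ p) (hm : m.Prime) (hmp : m % p = 1)
    (hlg_mul : ∀ a b : ZMod m, a ≠ 0 → b ≠ 0 → lg (a * b) = lg a + lg b)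
    (hlg_zero : ∀ a : ZMod m, a ≠ 0 → (lg a = 0 ↔ ∃ c : ZMod m, c ^ p = a))
    (hdeg : Module.finrank K k' = p) {β : K} (hθ : θ ^ p = algebraMap K k' β)
    (hram : ∀ v : Pr K, ord v (m : K) ≠ 0 → ¬ (p : ℤ) ∣ ord v β)
    (A : 𝓞 k') (hA0 : A ≠ 0)
    (hA : ∀ w : Pr k', ord (below K w) (m : K) ≠ 0 → ord w (A : k') = 0) :
    Lam K lg (dv (A : k')) = 0 := by
  haveI : Fact m.Prime := ⟨hm⟩
  have h1 := norm_natAbs_pow hp2 hζ hm hmp hdeg hθ hram A hA0 hA
  have h2 := absNorm_eq_prod A hA0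
  have hsupp : ∀ w ∈ (dv (A : k')).support, ord (below K w) (m : K) = 0 := by
    intro w hw
    by_contra h
    rw [Finsupp.mem_support_iff, dv_apply] at hw
    exact hw (hA w h)
  have hne : ∀ w ∈ (dv (A : k')).support, (Nv w : ZMod m) ≠ 0 := fun w hw =>
    Nv_ne_zero hm w (ord_natCast_up w m (hsupp w hw))
  have h3 : ((Algebra.norm ℤ A).natAbs : ZMod m) =
      ∏ w ∈ (dv (A : k')).support, (Nv w : ZMod m) ^ ((dv (A : k')) w).toNat := by
    rw [h2, Finsupp.prod]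
    push_cast
    rfl
  have h4 : ((Algebra.norm ℤ A).natAbs : ZMod m) ≠ 0 := by
    rw [h3]
    exact Finset.prod_ne_zero_iff.2 fun w hw => pow_ne_zero _ (hne w hw)
  have h5 := (hlg_zero _ h4).2 h1
  rw [h3, lg_prod hlg_mul _ _ (fun w hw => pow_ne_zero _ (hne w hw))] at h5
  rw [Lam_apply, Finsupp.sum, ← h5]
  apply Finset.sum_congr rfl
  intro w hw
  rw [lg_pow hlg_mul (hne w hw), lam, if_pos (hsupp w hw)]
  congr 1
  have : 0 ≤ (dv (A : k')) w := by rw [dv_apply]; exact ord_nonneg w A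
  obtain ⟨n, hn⟩ := Int.eq_ofNat_of_zero_le this
  rw [hn]
  simp

end main
section main2

variable {p : ℕ} [Fact p.Prime] {K : Type} [Field K] [NumberField K]
    [IsCyclotomicExtension {p} ℚ K] {ζ : K} {m : ℕ} {γ : K} {lg : ZMod m → ZMod p} {α : K} {a : ℕ}
    {k' : Type} [Field k'] [NumberField k'] [Algebra K k'] [IsGalois K k'] {θ : k'}

theorem a_mul_sym (hζ : IsPrimitiveRoot ζ p) (hm : m.Prime) (hγ0 : γ ≠ 0)
    (hlg_mul : ∀ a b : ZMod m, a ≠ 0 → b ≠ 0 → lg (a * b) = lg a + lg b)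
    (hγ_unit : ∀ v : Pr K, ord v (m : K) = 0 → ord v γ = 0)
    (hγ_sym : ∀ v : Pr K, ord v (m : K) = 0 → ord v (p : K) = 0 →
      sym p ζ v γ = - lg (Nv v : ZMod m))
    (hα0 : α ≠ 0) (hθ : θ ^ p = algebraMap K k' (α ^ a * γ)) (w : Pr k')
    (h1 : ord (below K w) (p : K) = 0) (h2 : ord (below K w) (m : K) = 0)
    (h3 : ord (below K w) α = 0) :
    (a : ZMod p) * sym p (algebraMap K k' ζ) w (algebraMap K k' α) = lg (Nv w : ZMod m) := by
  have hp := (Fact.out : p.Prime)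
  haveI : Fact m.Prime := ⟨hm⟩
  have hζ' : IsPrimitiveRoot (algebraMap K k' ζ) p :=
    hζ.map_of_injective (algebraMap K k').injective
  have hpw : ord w (p : k') = 0 := ord_natCast_up w p h1
  have hγv := hγ_unit _ h2
  have hα' : algebraMap K k' α ≠ 0 := by simpa using hα0
  have hγ' : algebraMap K k' γ ≠ 0 := by simpa using hγ0
  have hαw : ord w (algebraMap K k' α) = 0 := by rw [ord_algebraMap, h3, mul_zero]
  have hγw : ord w (algebraMap K k' γ) = 0 := by rw [ord_algebraMap, hγv, mul_zero]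
  have hαa : ord w (algebraMap K k' α ^ a) = 0 := by rw [ord_pow, hαw, mul_zero]
  have hθ0 : θ ≠ 0 := by
    rintro rfl
    rw [zero_pow hp.ne_zero, map_mul, map_pow] at hθ
    exact mul_ne_zero (pow_ne_zero _ hα') hγ' hθ.symm
  have hθw : ord w θ = 0 := by
    have h4 : (p : ℤ) * ord w θ = 0 := by
      rw [← ord_pow, hθ, map_mul, map_pow, ord_mul w (pow_ne_zero _ hα') hγ', hαa, hγw, add_zero]
    exact (mul_eq_zero.1 h4).resolve_left (by exact_mod_cast hp.ne_zero)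
  have e1 : sym p (algebraMap K k' ζ) w (θ ^ p) = 0 := by
    rw [sym_pow hζ' w hpw hθ0 hθw]; simp
  rw [hθ, map_mul, map_pow, sym_mul hζ' w hpw (pow_ne_zero _ hα') hαa hγ' hγw,
    sym_pow hζ' w hpw hα' hαw, sym_algebraMap hζ w h1 hγ0 hγv, hγ_sym _ h2 h1] at e1
  rw [Nv_eq_pow (k := K) w]
  push_cast
  rw [lg_pow hlg_mul (Nv_ne_zero hm _ h2)]
  linear_combination e1

theorem a_mul_psi (hζ : IsPrimitiveRoot ζ p) (hm : m.Prime) (hγ0 : γ ≠ 0)
    (hlg_mul : ∀ a b : ZMod m, a ≠ 0 → b ≠ 0 → lg (a * b) = lg a + lg b)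
    (hγ_unit : ∀ v : Pr K, ord v (m : K) = 0 → ord v γ = 0)
    (hγ_sym : ∀ v : Pr K, ord v (m : K) = 0 → ord v (p : K) = 0 →
      sym p ζ v γ = - lg (Nv v : ZMod m))
    (hα0 : α ≠ 0) (hθ : θ ^ p = algebraMap K k' (α ^ a * γ)) (Sg' : Finset (Pr k'))
    (hSg' : ∀ w : Pr k', w ∉ Sg' → ord (below K w) (p : K) = 0 ∧ ord (below K w) (m : K) = 0 ∧
      ord (below K w) α = 0) (D : Dv k') (hD : ∀ w ∈ Sg', (p : ℤ) ∣ D w) :
    (a : ZMod p) * psi p (algebraMap K k' ζ) (algebraMap K k' α) Sg' D = Lam K lg D := by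
  classical
  rw [psi_apply, Lam_apply, Finsupp.mul_sum]
  apply Finsupp.sum_congr
  intro w _
  by_cases hw : w ∈ Sg'
  · rw [if_pos hw, mul_zero, (ZMod.intCast_zmod_eq_zero_iff_dvd _ p).2 (hD w hw), zero_mul]
  · rw [if_neg hw]
    obtain ⟨h1, h2, h3⟩ := hSg' w hw
    rw [lam, if_pos h2, ← a_mul_sym hζ hm hγ0 hlg_mul hγ_unit hγ_sym hα0 hθ w h1 h2 h3]
    ring

theorem Lam_dv (hp2 : p ≠ 2) (hζ : IsPrimitiveRoot ζ p) (hm : m.Prime) (hmp : m % p = 1)
    (hlg_mul : ∀ a b : ZMod m, a ≠ 0 → b ≠ 0 → lg (a * b) = lg a + lg b)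
    (hlg_zero : ∀ a : ZMod m, a ≠ 0 → (lg a = 0 ↔ ∃ c : ZMod m, c ^ p = a))
    (hdeg : Module.finrank K k' = p) {β : K} (hθ : θ ^ p = algebraMap K k' β)
    (hram : ∀ v : Pr K, ord v (m : K) ≠ 0 → ¬ (p : ℤ) ∣ ord v β)
    {y : k'} (hy : y ≠ 0)
    (hyS : ∀ w : Pr k', ord (below K w) (m : K) ≠ 0 → (p : ℤ) ∣ ord w y) :
    Lam K lg (dv y) = 0 := by
  classical
  have hp := (Fact.out : p.Prime)
  set Sm := (finite_ord_ne_zero (m : k')).toFinset with hSm
  have hmem : ∀ w : Pr k', w ∈ Sm ↔ ord (below K w) (m : K) ≠ 0 := by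
    intro w
    rw [hSm, Set.Finite.mem_toFinset, Set.mem_ofPred_eq]
    have : (m : k') = algebraMap K k' (m : K) := by simp
    rw [this, ord_algebraMap]
    have he := eidx_pos (k := K) w
    constructor
    · intro h h0
      exact h (by rw [h0, mul_zero])
    · intro h h0
      rcases mul_eq_zero.1 h0 with h1 | h1
      · have : eidx K w = 0 := by exact_mod_cast h1
        omega
      · exact h h1
  obtain ⟨z, hz0, hz⟩ := exists_ord_eq Sm (fun w => ord w y / p)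
  have hzp : z ^ p ≠ 0 := pow_ne_zero _ hz0
  set y₁ := y / z ^ p with hy₁
  have hy₁0 : y₁ ≠ 0 := div_ne_zero hy hzp
  have hy₁m : ∀ w ∈ Sm, ord w y₁ = 0 := by
    intro w hw
    rw [hy₁, ord_div w hy hzp, ord_pow, hz w hw,
      Int.mul_ediv_cancel' (hyS w ((hmem w).1 hw)), sub_self]
  set T := (finite_ord_ne_zero y₁).toFinset with hT
  obtain ⟨B, hB0, hB⟩ := DvBasic.approx_int (T ∪ Sm) (fun w => if w ∈ Sm then 1 else 0)
    (fun w => if w ∈ Sm then 1 else (- ord w y₁).toNat)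
  have hB0' : (B : k') ≠ 0 := by simpa using hB0
  have hBm : ∀ w ∈ Sm, ord w (B : k') = 0 := by
    intro w hw
    have h1 := hB w (Finset.mem_union_right _ hw)
    simp only [if_pos hw, pow_one] at h1
    rw [ord_eq_zero_iff w hB0]
    intro h2
    have : (1 : 𝓞 k') ∈ w.asIdeal := by
      have := w.asIdeal.sub_mem h2 h1
      simpa using this
    exact w.isPrime.ne_top ((Ideal.eq_top_iff_one _).2 this)
  have hint : ∀ w : Pr k', 0 ≤ ord w ((B : k') * y₁) := by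
    intro w
    rw [ord_mul w hB0' hy₁0]
    by_cases hw : w ∈ Sm
    · rw [hBm w hw, hy₁m w hw, add_zero]
    by_cases hwT : w ∈ T
    · have h1 := hB w (Finset.mem_union_left _ hwT)
      simp only [if_neg hw, sub_zero] at h1
      have h2 := (le_ord_iff w hB0 _).2 h1
      have h3 := Int.self_le_toNat (- ord w y₁)
      linarith
    · rw [hT, Set.Finite.mem_toFinset, Set.mem_ofPred_eq, not_not] at hwT
      rw [hwT, add_zero]
      exact ord_nonneg w B
  obtain ⟨A, hA⟩ := exists_integer_of_ord_nonneg hint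
  have hA0' : (A : k') ≠ 0 := by rw [hA]; exact mul_ne_zero hB0' hy₁0
  have hA0 : A ≠ 0 := by
    rintro rfl
    exact hA0' (by simp)
  have hAm : ∀ w : Pr k', ord (below K w) (m : K) ≠ 0 → ord w (A : k') = 0 := by
    intro w hw
    have hw' := (hmem w).2 hw
    rw [hA, ord_mul w hB0' hy₁0, hBm w hw', hy₁m w hw', add_zero]
  have hBm' : ∀ w : Pr k', ord (below K w) (m : K) ≠ 0 → ord w (B : k') = 0 :=
    fun w hw => hBm w ((hmem w).2 hw)
  have e1 := Lam_dv_integer hp2 hζ hm hmp hlg_mul hlg_zero hdeg hθ hram A hA0 hAm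
  have e2 := Lam_dv_integer hp2 hζ hm hmp hlg_mul hlg_zero hdeg hθ hram B hB0 hBm'
  have hyeq : y = (A : k') / (B : k') * z ^ p := by
    rw [hA, hy₁]
    field_simp
  rw [hyeq, dv_mul (div_ne_zero hA0' hB0') hzp, dv_div hA0' hB0', dv_pow, map_add, map_sub, e1, e2,
    map_nsmul, nsmul_eq_mul]
  simp

end main2

end Fermat.Agent.S14.Cyc

namespace Fermat.Agent.S14

open Cyc

theorem psi_dv_eq_zero_of_cyc {p : ℕ} [Fact p.Prime] (hp : p ≠ 2) {K : Type} [Field K] [NumberField K]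
    [IsCyclotomicExtension {p} ℚ K] {ζ : K} (hζ : IsPrimitiveRoot ζ p) {m : ℕ} (hm : m.Prime)
    (hmp : m % p = 1) {γ : K} {lg : ZMod m → ZMod p} (hγ0 : γ ≠ 0)
    (hlg_mul : ∀ a b : ZMod m, a ≠ 0 → b ≠ 0 → lg (a * b) = lg a + lg b)
    (hlg_zero : ∀ a : ZMod m, a ≠ 0 → (lg a = 0 ↔ ∃ c : ZMod m, c ^ p = a))
    (hγ_unit : ∀ v : Pr K, ord v (m : K) = 0 → ord v γ = 0)
    (hγ_ram : ∀ v : Pr K, ord v (m : K) ≠ 0 → ¬ (p : ℤ) ∣ ord v γ)
    (hγ_sym : ∀ v : Pr K, ord v (m : K) = 0 → ord v (p : K) = 0 →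
      sym p ζ v γ = - lg (Nv v : ZMod m))
    {α : K} (hα0 : α ≠ 0) (hαm : ∀ v : Pr K, ord v (m : K) ≠ 0 → ord v α = 0)
    {a : ℕ} (ha : ¬ p ∣ a)
    {k' : Type} [Field k'] [NumberField k'] [Algebra K k'] [IsGalois K k']
    (hdeg : Module.finrank K k' = p) {θ : k'} (hθ : θ ^ p = algebraMap K k' (α ^ a * γ))
    (Sg' : Finset (Pr k'))
    (hSg' : ∀ w : Pr k', w ∉ Sg' → ord (below K w) (p : K) = 0 ∧ ord (below K w) (m : K) = 0 ∧
      ord (below K w) α = 0)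
    {y : k'} (hy : y ≠ 0) (hyS : ∀ w ∈ Sg', (p : ℤ) ∣ ord w y) :
    psi p (algebraMap K k' ζ) (algebraMap K k' α) Sg' (dv y) = 0 := by
  have h1 := a_mul_psi hζ hm hγ0 hlg_mul hγ_unit hγ_sym hα0 hθ Sg' hSg' (dv y)
    (fun w hw => by rw [dv_apply]; exact hyS w hw)
  have hram : ∀ v : Pr K, ord v (m : K) ≠ 0 → ¬ (p : ℤ) ∣ ord v (α ^ a * γ) := by
    intro v hv
    rw [ord_mul v (pow_ne_zero _ hα0) hγ0, ord_pow, hαm v hv, mul_zero, zero_add]
    exact hγ_ram v hv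
  have h2 := Lam_dv (lg := lg) hp hζ hm hmp hlg_mul hlg_zero hdeg hθ hram hy (fun w hw => by
    apply hyS w
    by_contra hns
    exact hw (hSg' w hns).2.1)
  rw [h2] at h1
  have ha' : (a : ZMod p) ≠ 0 := by
    rw [Ne, ZMod.natCast_eq_zero_iff]
    exact ha
  exact (mul_eq_zero.1 h1).resolve_left ha'

end Fermat.Agent.S14
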