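import Mathlib

/-!
# S14/DL : the density lemma (analytic input of the minimal class field theory)
-/

set_option autoImplicit false

open NumberField Ideal Filter Topology
open scoped ENNReal

namespace Fermat.Agent.S14

namespace DL

section zeta

variable (K : Type*) [Field K] [NumberField K]

/-- number of ideals of norm `n`. -/
noncomputable def cnt (n : ℕ) : ℕ := Nat.card {I : Ideal (𝓞 K) // absNorm I = n}

theorem tendsto_avg : Tendsto (fun n : ℕ ↦ (∑ k ∈ Finset.Icc 1 n, (cnt K k : ℝ)) / (n : ℝ)) atTop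
    (𝓝 (dedekindZeta_residue K)) := by
  unfold cnt
  refine ((Ideal.tendsto_norm_le_div_atTop₀ K).comp tendsto_natCast_atTop_atTop).congr fun n ↦ ?_
  simp only [Function.comp_apply, Nat.cast_le, ← Nat.cast_sum]
  congr
  rw [← add_left_inj 1, ← card_norm_le_eq_card_norm_le_add_one,
    show Finset.Icc 1 n = Finset.Ioc 0 n from Finset.Icc_succ_left_eq_Ioc _ _,
    show 1 = Nat.card {I : Ideal (𝓞 K) // absNorm I = 0} by simp [Ideal.absNorm_eq_zero_iff],
    Finset.sum_Ioc_add_eq_sum_Icc (n.zero_le),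
    ← Finset.card_preimage_eq_sum_card_image_eq (fun k _ ↦ finite_setOfPred_absNorm_eq k)]
  simp [Set.coe_eq_subtype]

theorem lseriesSummable {s : ℝ} (hs : 1 < s) :
    LSeriesSummable (fun n ↦ ((cnt K n : ℝ) : ℂ)) (s : ℂ) := by
  refine LSeriesSummable_of_sum_norm_bigO_and_nonneg (f := fun n => (cnt K n : ℝ)) ?_
    (fun _ => Nat.cast_nonneg _) zero_le_one (by simpa using hs)
  exact Asymptotics.isBigO_atTop_natCast_rpow_of_tendsto_div_rpow (a := dedekindZeta_residue K)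
    (by simpa using tendsto_avg K)

/-- the real terms of the Dedekind zeta function. -/
noncomputable def rterm (s : ℝ) (n : ℕ) : ℝ := if n = 0 then 0 else (cnt K n : ℝ) * (n : ℝ) ^ (-s)

theorem rterm_nonneg (s : ℝ) (n : ℕ) : 0 ≤ rterm K s n := by
  unfold rterm
  split_ifs
  · exact le_rfl
  · positivity

theorem term_eq (s : ℝ) (n : ℕ) :
    LSeries.term (fun n ↦ ((cnt K n : ℝ) : ℂ)) (s : ℂ) n = ((rterm K s n : ℝ) : ℂ) := by
  unfold rterm
  rw [LSeries.term_def]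
  split_ifs with h
  · simp
  · rw [Real.rpow_neg (Nat.cast_nonneg _), Complex.ofReal_mul, Complex.ofReal_inv,
      Complex.ofReal_cpow (Nat.cast_nonneg _), div_eq_mul_inv]
    simp

theorem summable_rterm {s : ℝ} (hs : 1 < s) : Summable (rterm K s) := by
  have h := lseriesSummable K hs
  unfold LSeriesSummable at h
  have h2 : LSeries.term (fun n ↦ ((cnt K n : ℝ) : ℂ)) (s : ℂ) = fun n => ((rterm K s n : ℝ) : ℂ) :=
    funext (term_eq K s)
  rw [h2] at h
  exact Complex.summable_ofReal.1 h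

/-- the real Dedekind zeta function. -/
noncomputable def rz (s : ℝ) : ℝ := ∑' n, rterm K s n

theorem dedekindZeta_eq (s : ℝ) : dedekindZeta K (s : ℂ) = ((rz K s : ℝ) : ℂ) := by
  unfold dedekindZeta rz LSeries
  rw [Complex.ofReal_tsum]
  refine tsum_congr fun n => ?_
  rw [← term_eq]
  simp [cnt]

theorem tendsto_rz : Tendsto (fun s : ℝ ↦ (s - 1) * rz K s) (𝓝[>] 1)
    (𝓝 (dedekindZeta_residue K)) := by
  have h := tendsto_sub_one_mul_dedekindZeta_nhdsGT K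
  simp_rw [dedekindZeta_eq] at h
  have h2 := (Complex.continuous_re.tendsto _).comp h
  refine (h2.congr fun s => ?_)
  simp only [Function.comp_apply]
  rw [← Complex.ofReal_one, ← Complex.ofReal_sub, ← Complex.ofReal_mul, Complex.ofReal_re]

/-- the `ℝ≥0∞`-valued zeta sum over the nonzero ideals satisfying `P`. -/
noncomputable def zs (P : Ideal (𝓞 K) → Prop) (s : ℝ) : ℝ≥0∞ :=
  ∑' I : {I : Ideal (𝓞 K) // I ≠ ⊥ ∧ P I}, ENNReal.ofReal ((absNorm I.1 : ℝ) ^ (-s))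

theorem zs_true_eq {s : ℝ} (hs : 1 < s) : zs K (fun _ => True) s = ENNReal.ofReal (rz K s) := by
  unfold zs rz
  rw [ENNReal.ofReal_tsum_of_nonneg (rterm_nonneg K s) (summable_rterm K hs)]
  let f : {I : Ideal (𝓞 K) // I ≠ ⊥ ∧ True} → ℕ := fun I => absNorm I.1
  rw [← (Equiv.sigmaFiberEquiv f).tsum_eq, ENNReal.tsum_sigma']
  refine tsum_congr fun n => ?_
  have h1 : ∀ x : {I // f I = n},
      ENNReal.ofReal ((absNorm ((Equiv.sigmaFiberEquiv f) ⟨n, x⟩).1 : ℝ) ^ (-s))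
        = ENNReal.ofReal ((n : ℝ) ^ (-s)) := by
    rintro ⟨I, hI⟩
    simp only [Equiv.sigmaFiberEquiv_apply]
    rw [show absNorm I.1 = n from hI]
  simp_rw [h1]
  unfold rterm
  split_ifs with hn
  · subst hn
    have : IsEmpty {I // f I = 0} := by
      constructor
      rintro ⟨⟨I, hI, ht⟩, h⟩
      exact hI (Ideal.absNorm_eq_zero_iff.1 h)
    simp
  · let e : {I // f I = n} ≃ {I : Ideal (𝓞 K) // absNorm I = n} :=
      ⟨fun x => ⟨x.1.1, x.2⟩, fun x => ⟨⟨x.1, fun h => hn (by rw [← x.2, h]; simp), trivial⟩, x.2⟩,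
        fun _ => rfl, fun _ => rfl⟩
    have hc : Nat.card {I // f I = n} = cnt K n := Nat.card_congr e
    have hfin : Finite {I : Ideal (𝓞 K) // absNorm I = n} := finite_setOfPred_absNorm_eq n
    have hfin2 : Finite {I // f I = n} := Finite.of_equiv _ e.symm
    let _ : Fintype {I // f I = n} := Fintype.ofFinite _
    rw [tsum_fintype, Finset.sum_const, Finset.card_univ, ← Nat.card_eq_fintype_card, hc,
      nsmul_eq_mul, ENNReal.ofReal_mul (Nat.cast_nonneg _), ENNReal.ofReal_natCast]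

/-- `I` has no prime factor in `T`. -/
def cop (T : Set (Ideal (𝓞 K))) (I : Ideal (𝓞 K)) : Prop :=
  ∀ v ∈ T, v.IsPrime → v ≠ ⊥ → ¬ I ≤ v

theorem two_le_absNorm {v : Ideal (𝓞 K)} (hv : v.IsPrime) (hv0 : v ≠ ⊥) : 2 ≤ absNorm v := by
  have h0 : absNorm v ≠ 0 := fun h => hv0 (Ideal.absNorm_eq_zero_iff.1 h)
  have h1 : absNorm v ≠ 1 := fun h => hv.ne_top (Ideal.absNorm_eq_one_iff.1 h)
  omega

theorem ofReal_rpow_le {v : Ideal (𝓞 K)} (hv : v.IsPrime) (hv0 : v ≠ ⊥) {s : ℝ} (hs : 1 ≤ s) :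
    ENNReal.ofReal ((absNorm v : ℝ) ^ (-s)) ≤ 2⁻¹ := by
  have h2 : (2 : ℝ) ≤ absNorm v := by exact_mod_cast two_le_absNorm K hv hv0
  have h3 : ((absNorm v : ℝ)) ^ (-s) ≤ (2 : ℝ)⁻¹ := by
    calc ((absNorm v : ℝ)) ^ (-s) ≤ (2 : ℝ) ^ (-s) :=
          Real.rpow_le_rpow_of_nonpos (by norm_num) h2 (by linarith)
      _ ≤ (2 : ℝ) ^ (-1 : ℝ) := Real.rpow_le_rpow_of_exponent_le (by norm_num) (by linarith)
      _ = (2 : ℝ)⁻¹ := by rw [Real.rpow_neg_one]
  calc ENNReal.ofReal ((absNorm v : ℝ) ^ (-s)) ≤ ENNReal.ofReal ((2 : ℝ)⁻¹) :=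
        ENNReal.ofReal_le_ofReal h3
    _ = 2⁻¹ := by
        rw [ENNReal.ofReal_inv_of_pos (by norm_num)]
        simp

theorem zs_le_insert (T : Set (Ideal (𝓞 K))) (v : Ideal (𝓞 K)) (hvT : v ∉ T) {s : ℝ}
    (hs : 1 ≤ s) : zs K (cop K T) s ≤ 2 * zs K (cop K (insert v T)) s := by
  by_cases hv : v.IsPrime ∧ v ≠ ⊥
  · obtain ⟨hvp, hv0⟩ := hv
    have hmax : v.IsMaximal := hvp.isMaximal hv0
    let ψ : ℕ × {I : Ideal (𝓞 K) // I ≠ ⊥ ∧ cop K (insert v T) I} →
        {I : Ideal (𝓞 K) // I ≠ ⊥ ∧ cop K T I} := fun x => ⟨v ^ x.1 * x.2.1, by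
      refine ⟨mul_ne_zero (pow_ne_zero _ hv0) x.2.2.1, ?_⟩
      intro w hw hwp hw0 hle
      rcases (Ideal.IsPrime.mul_le hwp).1 hle with h | h
      · have h1 : v ≤ w := Ideal.IsPrime.le_of_pow_le h
        exact hvT ((hmax.eq_of_le hwp.ne_top h1) ▸ hw)
      · exact x.2.2.2 w (Set.mem_insert_of_mem _ hw) hwp hw0 h⟩
    have hsurj : Function.Surjective ψ := by
      rintro ⟨I, hI0, hI⟩
      obtain ⟨n, a, hna, hIa⟩ := WfDvdMonoid.max_power_factor (α := Ideal (𝓞 K)) hI0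
        (Ideal.prime_of_isPrime hv0 hvp).irreducible
      refine ⟨⟨n, ⟨a, ?_, ?_⟩⟩, Subtype.ext hIa.symm⟩
      · rintro rfl
        apply hI0
        rw [hIa]
        simp
      · intro w hw hwp hw0 hle
        rcases Set.mem_insert_iff.1 hw with rfl | hw
        · exact hna (Ideal.dvd_iff_le.2 hle)
        · refine hI w hw hwp hw0 ?_
          rw [hIa]
          exact Ideal.mul_le_right.trans hle
    set x : ℝ≥0∞ := ENNReal.ofReal ((absNorm v : ℝ) ^ (-s)) with hx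
    have hterm : ∀ y : ℕ × {I : Ideal (𝓞 K) // I ≠ ⊥ ∧ cop K (insert v T) I},
        ENNReal.ofReal ((absNorm (ψ y).1 : ℝ) ^ (-s))
          = x ^ y.1 * ENNReal.ofReal ((absNorm y.2.1 : ℝ) ^ (-s)) := by
      intro y
      show ENNReal.ofReal ((absNorm (v ^ y.1 * y.2.1) : ℝ) ^ (-s)) = _
      rw [map_mul, map_pow, Nat.cast_mul, Nat.cast_pow,
        Real.mul_rpow (by positivity) (by positivity), ← Real.rpow_pow_comm (by positivity),
        ENNReal.ofReal_mul (by positivity), ENNReal.ofReal_pow (by positivity)]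
    calc zs K (cop K T) s
        ≤ ∑' y, ENNReal.ofReal ((absNorm (ψ y).1 : ℝ) ^ (-s)) :=
          ENNReal.tsum_le_tsum_comp_of_surjective hsurj _
      _ = ∑' y : ℕ × {I : Ideal (𝓞 K) // I ≠ ⊥ ∧ cop K (insert v T) I},
            x ^ y.1 * ENNReal.ofReal ((absNorm y.2.1 : ℝ) ^ (-s)) := tsum_congr hterm
      _ = (1 - x)⁻¹ * zs K (cop K (insert v T)) s := by
          rw [ENNReal.tsum_prod (f := fun n (I : {I : Ideal (𝓞 K) // I ≠ ⊥ ∧ cop K (insert v T) I})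
            => x ^ n * ENNReal.ofReal ((absNorm I.1 : ℝ) ^ (-s)))]
          simp_rw [ENNReal.tsum_mul_left]
          rw [ENNReal.tsum_mul_right, ENNReal.tsum_geometric]
          rfl
      _ ≤ 2 * zs K (cop K (insert v T)) s := by
          gcongr
          have h1 : (2 : ℝ≥0∞)⁻¹ ≤ 1 - x := by
            calc (2 : ℝ≥0∞)⁻¹ = 1 - 2⁻¹ := ENNReal.one_sub_inv_two.symm
              _ ≤ 1 - x := tsub_le_tsub_left (ofReal_rpow_le K hvp hv0 hs) _
          calc (1 - x)⁻¹ ≤ ((2 : ℝ≥0∞)⁻¹)⁻¹ := ENNReal.inv_le_inv.2 h1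
            _ = 2 := inv_inv _
  · have h : cop K (insert v T) = cop K T := by
      funext I
      apply propext
      constructor
      · intro h w hw
        exact h w (Set.mem_insert_of_mem _ hw)
      · intro h w hw hwp hw0
        rcases Set.mem_insert_iff.1 hw with rfl | hw
        · exact absurd ⟨hwp, hw0⟩ hv
        · exact h w hw hwp hw0
    rw [h]
    exact le_mul_of_one_le_left zero_le (by norm_num)

theorem zs_true_le {S : Set (Ideal (𝓞 K))} (hS : S.Finite) :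
    ∃ n : ℕ, ∀ s : ℝ, 1 ≤ s → zs K (fun _ => True) s ≤ 2 ^ n * zs K (cop K S) s := by
  induction S, hS using Set.Finite.induction_on with
  | empty =>
    refine ⟨0, fun s _ => ?_⟩
    have : cop K ∅ = fun _ => True := by
      funext I
      simp [cop]
    rw [this]
    simp
  | @insert v T hv _ ih =>
    obtain ⟨n, hn⟩ := ih
    refine ⟨n + 1, fun s hs => (hn s hs).trans ?_⟩
    rw [pow_succ, mul_assoc]
    gcongr
    exact zs_le_insert K T v hv hs

end zeta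

theorem multiset_recover {α β : Type*} (m₁ m₂ n₁ n₂ : Multiset α) (f g : α → β) (u : β → α)
    (G : α → Prop) (hm₁ : ∀ a ∈ m₁, G a) (hm₂ : ∀ a ∈ m₂, G a) (hn₁ : ∀ a ∈ n₁, G a)
    (hn₂ : ∀ a ∈ n₂, G a) (hf : ∀ a, G a → u (f a) = a) (hg : ∀ a, G a → u (g a) = a)
    (hfg : ∀ a, G a → f a ≠ g a) (heq : m₁.map f + m₂.map g = n₁.map f + n₂.map g) :
    m₁ = n₁ ∧ m₂ = n₂ := by
  classical
  have key : ∀ x y : Multiset α, (∀ a ∈ x, G a) → (∀ a ∈ y, G a) →
      (x.map f + y.map g).filter (fun b => b = f (u b)) = x.map f := by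
    intro x y hx hy
    rw [Multiset.filter_add, Multiset.filter_eq_self.2, Multiset.filter_eq_nil.2, add_zero]
    · intro b hb
      obtain ⟨a, ha, rfl⟩ := Multiset.mem_map.1 hb
      rw [hg a (hy a ha)]
      exact (hfg a (hy a ha)).symm
    · intro b hb
      obtain ⟨a, ha, rfl⟩ := Multiset.mem_map.1 hb
      rw [hf a (hx a ha)]
  have back : ∀ (x : Multiset α) (φ : α → β), (∀ a ∈ x, u (φ a) = a) → (x.map φ).map u = x := by
    intro x φ hx
    rw [Multiset.map_map]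
    conv_rhs => rw [← Multiset.map_id x]
    exact Multiset.map_congr rfl fun a ha => hx a ha
  have h1 : m₁.map f = n₁.map f := by
    rw [← key m₁ m₂ hm₁ hm₂, heq, key n₁ n₂ hn₁ hn₂]
  have h2 : m₂.map g = n₂.map g := by
    rw [h1] at heq
    exact add_left_cancel heq
  constructor
  · rw [← back m₁ f fun a ha => hf a (hm₁ a ha), h1, back n₁ f fun a ha => hf a (hn₁ a ha)]
  · rw [← back m₂ g fun a ha => hg a (hm₂ a ha), h2, back n₂ g fun a ha => hg a (hn₂ a ha)]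

section pairs

variable (k M : Type*) [Field k] [NumberField k] [Field M] [NumberField M] [Algebra k M]

open UniqueFactorizationMonoid in
theorem zs_mul_le (S : Set (Ideal (𝓞 k)))
    (h : ∀ q : Ideal (𝓞 k), q.IsPrime → q ≠ ⊥ → q ∉ S → ∃ Q₁ Q₂ : Ideal (𝓞 M),
      Q₁.IsPrime ∧ Q₂.IsPrime ∧ Q₁.LiesOver q ∧ Q₂.LiesOver q ∧ absNorm Q₁ = absNorm q ∧
        absNorm Q₂ = absNorm q ∧ Q₁ ≠ Q₂) (s : ℝ) :
    zs k (cop k S) s * zs k (cop k S) s ≤ zs M (fun _ => True) s := by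
  classical
  choose! Q₁ Q₂ hQ using h
  let G : Ideal (𝓞 k) → Prop := fun q => q.IsPrime ∧ q ≠ ⊥ ∧ q ∉ S
  have hG : ∀ I : {I : Ideal (𝓞 k) // I ≠ ⊥ ∧ cop k S I}, ∀ v ∈ normalizedFactors I.1, G v := by
    intro I v hv
    have hp := prime_of_normalized_factor v hv
    refine ⟨Ideal.isPrime_of_prime hp, hp.ne_zero, fun hvS => ?_⟩
    exact I.2.2 v hvS (Ideal.isPrime_of_prime hp) hp.ne_zero
      (Ideal.dvd_iff_le.1 (dvd_of_mem_normalizedFactors hv))
  have hne : ∀ q, G q → Q₁ q ≠ ⊥ ∧ Q₂ q ≠ ⊥ := by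
    intro q hq
    obtain ⟨-, -, -, -, h5, h6, -⟩ := hQ q hq.1 hq.2.1 hq.2.2
    have h0 : absNorm q ≠ 0 := fun h => hq.2.1 (Ideal.absNorm_eq_zero_iff.1 h)
    constructor
    · intro h
      rw [h] at h5
      exact h0 (by rw [← h5]; simp)
    · intro h
      rw [h] at h6
      exact h0 (by rw [← h6]; simp)
  have hpr₁ : ∀ I : {I : Ideal (𝓞 k) // I ≠ ⊥ ∧ cop k S I},
      ∀ Q ∈ (normalizedFactors I.1).map Q₁, Prime Q := by
    intro I Q hQ'
    obtain ⟨v, hv, rfl⟩ := Multiset.mem_map.1 hQ'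
    have hg := hG I v hv
    exact Ideal.prime_of_isPrime (hne v hg).1 (hQ v hg.1 hg.2.1 hg.2.2).1
  have hpr₂ : ∀ I : {I : Ideal (𝓞 k) // I ≠ ⊥ ∧ cop k S I},
      ∀ Q ∈ (normalizedFactors I.1).map Q₂, Prime Q := by
    intro I Q hQ'
    obtain ⟨v, hv, rfl⟩ := Multiset.mem_map.1 hQ'
    have hg := hG I v hv
    exact Ideal.prime_of_isPrime (hne v hg).2 (hQ v hg.1 hg.2.1 hg.2.2).2.1
  have hn0₁ : ∀ I : {I : Ideal (𝓞 k) // I ≠ ⊥ ∧ cop k S I},
      ((normalizedFactors I.1).map Q₁).prod ≠ 0 := fun I =>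
    Multiset.prod_ne_zero fun h0 => (hpr₁ I 0 h0).ne_zero rfl
  have hn0₂ : ∀ I : {I : Ideal (𝓞 k) // I ≠ ⊥ ∧ cop k S I},
      ((normalizedFactors I.1).map Q₂).prod ≠ 0 := fun I =>
    Multiset.prod_ne_zero fun h0 => (hpr₂ I 0 h0).ne_zero rfl
  let Ψ : {I : Ideal (𝓞 k) // I ≠ ⊥ ∧ cop k S I} × {I : Ideal (𝓞 k) // I ≠ ⊥ ∧ cop k S I} →
      {J : Ideal (𝓞 M) // J ≠ ⊥ ∧ True} := fun x =>
    ⟨((normalizedFactors x.1.1).map Q₁).prod * ((normalizedFactors x.2.1).map Q₂).prod,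
      mul_ne_zero (hn0₁ x.1) (hn0₂ x.2), trivial⟩
  have hinj : Function.Injective Ψ := by
    rintro ⟨I, I'⟩ ⟨J, J'⟩ hIJ
    have h1 : ((normalizedFactors I.1).map Q₁).prod * ((normalizedFactors I'.1).map Q₂).prod
        = ((normalizedFactors J.1).map Q₁).prod * ((normalizedFactors J'.1).map Q₂).prod :=
      congrArg Subtype.val hIJ
    have h2 := congrArg normalizedFactors h1
    rw [normalizedFactors_mul (hn0₁ I) (hn0₂ I'), normalizedFactors_mul (hn0₁ J) (hn0₂ J'),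
      normalizedFactors_prod_of_prime (hpr₁ I), normalizedFactors_prod_of_prime (hpr₂ I'),
      normalizedFactors_prod_of_prime (hpr₁ J), normalizedFactors_prod_of_prime (hpr₂ J')] at h2
    obtain ⟨e1, e2⟩ := multiset_recover _ _ _ _ Q₁ Q₂ (fun Q => Q.under (𝓞 k)) G
      (hG I) (hG I') (hG J) (hG J')
      (fun q hq => ((hQ q hq.1 hq.2.1 hq.2.2).2.2.1.over).symm)
      (fun q hq => ((hQ q hq.1 hq.2.1 hq.2.2).2.2.2.1.over).symm)
      (fun q hq => (hQ q hq.1 hq.2.1 hq.2.2).2.2.2.2.2.2) h2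
    have e1' : I = J := by
      apply Subtype.ext
      rw [← Ideal.prod_normalizedFactors_eq_self I.2.1, e1,
        Ideal.prod_normalizedFactors_eq_self J.2.1]
    have e2' : I' = J' := by
      apply Subtype.ext
      rw [← Ideal.prod_normalizedFactors_eq_self I'.2.1, e2,
        Ideal.prod_normalizedFactors_eq_self J'.2.1]
    rw [e1', e2']
  have hnorm₁ : ∀ I : {I : Ideal (𝓞 k) // I ≠ ⊥ ∧ cop k S I},
      absNorm ((normalizedFactors I.1).map Q₁).prod = absNorm I.1 := by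
    intro I
    conv_rhs => rw [← Ideal.prod_normalizedFactors_eq_self I.2.1]
    rw [map_multiset_prod, map_multiset_prod, Multiset.map_map]
    congr 1
    refine Multiset.map_congr rfl fun v hv => ?_
    have hg := hG I v hv
    exact (hQ v hg.1 hg.2.1 hg.2.2).2.2.2.2.1
  have hnorm₂ : ∀ I : {I : Ideal (𝓞 k) // I ≠ ⊥ ∧ cop k S I},
      absNorm ((normalizedFactors I.1).map Q₂).prod = absNorm I.1 := by
    intro I
    conv_rhs => rw [← Ideal.prod_normalizedFactors_eq_self I.2.1]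
    rw [map_multiset_prod, map_multiset_prod, Multiset.map_map]
    congr 1
    refine Multiset.map_congr rfl fun v hv => ?_
    have hg := hG I v hv
    exact (hQ v hg.1 hg.2.1 hg.2.2).2.2.2.2.2.1
  calc zs k (cop k S) s * zs k (cop k S) s
      = ∑' x : {I : Ideal (𝓞 k) // I ≠ ⊥ ∧ cop k S I} × {I : Ideal (𝓞 k) // I ≠ ⊥ ∧ cop k S I},
          ENNReal.ofReal ((absNorm x.1.1 : ℝ) ^ (-s)) * ENNReal.ofReal ((absNorm x.2.1 : ℝ) ^ (-s)) := by
        rw [ENNReal.tsum_prod (f := fun (I I' : {I : Ideal (𝓞 k) // I ≠ ⊥ ∧ cop k S I}) =>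
          ENNReal.ofReal ((absNorm I.1 : ℝ) ^ (-s)) * ENNReal.ofReal ((absNorm I'.1 : ℝ) ^ (-s)))]
        simp_rw [ENNReal.tsum_mul_left]
        rw [ENNReal.tsum_mul_right]
        rfl
    _ = ∑' x, ENNReal.ofReal ((absNorm (Ψ x).1 : ℝ) ^ (-s)) := by
        refine tsum_congr fun x => ?_
        show _ = ENNReal.ofReal ((absNorm (((normalizedFactors x.1.1).map Q₁).prod *
          ((normalizedFactors x.2.1).map Q₂).prod) : ℝ) ^ (-s))
        rw [map_mul, hnorm₁, hnorm₂, Nat.cast_mul, Real.mul_rpow (by positivity) (by positivity),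
          ENNReal.ofReal_mul (by positivity)]
    _ ≤ zs M (fun _ => True) s := ENNReal.tsum_comp_le_tsum_of_injective hinj _

end pairs

end DL

open DL in
/-- **(DL)** Outside any finite set `S` there is a prime of `k` which does not have two distinct
primes of degree one above it in `M`. -/
theorem exists_prime_no_two_deg_one (k M : Type*) [Field k] [NumberField k] [Field M]
    [NumberField M] [Algebra k M] (S : Set (Ideal (𝓞 k))) (hS : S.Finite) :
    ∃ q : Ideal (𝓞 k), q.IsPrime ∧ q ≠ ⊥ ∧ q ∉ S ∧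
      ∀ Q₁ Q₂ : Ideal (𝓞 M), Q₁.IsPrime → Q₂.IsPrime → Q₁.LiesOver q → Q₂.LiesOver q →
        Ideal.absNorm Q₁ = Ideal.absNorm q → Ideal.absNorm Q₂ = Ideal.absNorm q → Q₁ = Q₂ := by
  by_contra hcon
  have h : ∀ q : Ideal (𝓞 k), q.IsPrime → q ≠ ⊥ → q ∉ S → ∃ Q₁ Q₂ : Ideal (𝓞 M),
      Q₁.IsPrime ∧ Q₂.IsPrime ∧ Q₁.LiesOver q ∧ Q₂.LiesOver q ∧ absNorm Q₁ = absNorm q ∧
        absNorm Q₂ = absNorm q ∧ Q₁ ≠ Q₂ := by
    intro q h1 h2 h3
    by_contra hq
    apply hcon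
    refine ⟨q, h1, h2, h3, fun Q₁ Q₂ a1 a2 a3 a4 a5 a6 => ?_⟩
    by_contra hne
    exact hq ⟨Q₁, Q₂, a1, a2, a3, a4, a5, a6, hne⟩
  obtain ⟨n, hn⟩ := zs_true_le k hS
  have hnnk : ∀ s : ℝ, 0 ≤ rz k s := fun s => tsum_nonneg (rterm_nonneg k s)
  have hnnM : ∀ s : ℝ, 0 ≤ rz M s := fun s => tsum_nonneg (rterm_nonneg M s)
  have key : ∀ s : ℝ, 1 < s → rz k s * rz k s ≤ (2 ^ n * 2 ^ n) * rz M s := by
    intro s hs
    have h1 := hn s hs.le
    have h2 := zs_mul_le k M S h s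
    rw [zs_true_eq k hs] at h1
    rw [zs_true_eq M hs] at h2
    have h3 : ENNReal.ofReal (rz k s) * ENNReal.ofReal (rz k s)
        ≤ (2 ^ n * 2 ^ n) * ENNReal.ofReal (rz M s) := by
      calc ENNReal.ofReal (rz k s) * ENNReal.ofReal (rz k s)
          ≤ (2 ^ n * zs k (cop k S) s) * (2 ^ n * zs k (cop k S) s) := mul_le_mul' h1 h1
        _ = (2 ^ n * 2 ^ n) * (zs k (cop k S) s * zs k (cop k S) s) := by ring
        _ ≤ (2 ^ n * 2 ^ n) * ENNReal.ofReal (rz M s) := by gcongr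
    have h4 : ((2 : ℝ≥0∞) ^ n * 2 ^ n) = ENNReal.ofReal (2 ^ n * 2 ^ n) := by
      rw [ENNReal.ofReal_mul (by positivity), ENNReal.ofReal_pow (by norm_num)]
      simp
    rw [h4, ← ENNReal.ofReal_mul (hnnk s), ← ENNReal.ofReal_mul (by positivity)] at h3
    exact (ENNReal.ofReal_le_ofReal_iff (mul_nonneg (by positivity) (hnnM s))).1 h3
  have t1 := (tendsto_rz k).mul (tendsto_rz k)
  have t0 : Tendsto (fun s : ℝ => (2 ^ n * 2 ^ n : ℝ) * (s - 1)) (𝓝[>] 1) (𝓝 0) := by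
    have : Tendsto (fun s : ℝ => (2 ^ n * 2 ^ n : ℝ) * (s - 1)) (𝓝 1)
        (𝓝 ((2 ^ n * 2 ^ n : ℝ) * (1 - 1))) :=
      (Continuous.tendsto (by fun_prop) 1)
    rw [sub_self, mul_zero] at this
    exact tendsto_nhdsWithin_of_tendsto_nhds this
  have t2 := t0.mul (tendsto_rz M)
  rw [zero_mul] at t2
  have hle : dedekindZeta_residue k * dedekindZeta_residue k ≤ 0 := by
    refine le_of_tendsto_of_tendsto t1 t2 ?_
    filter_upwards [self_mem_nhdsWithin] with s hs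
    have hs' : (1 : ℝ) < s := hs
    have h5 := key s hs'
    have h6 : 0 ≤ (s - 1) * (s - 1) := by nlinarith
    calc (s - 1) * rz k s * ((s - 1) * rz k s) = ((s - 1) * (s - 1)) * (rz k s * rz k s) := by ring
      _ ≤ ((s - 1) * (s - 1)) * ((2 ^ n * 2 ^ n) * rz M s) := by gcongr
      _ = (2 ^ n * 2 ^ n : ℝ) * (s - 1) * ((s - 1) * rz M s) := by ring
  have hpos := dedekindZeta_residue_pos k
  nlinarith

end Fermat.Agent.S14
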