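import Fermat.Agent.S14.DL

/-!
# S14 : corollaries of the density lemma

* `exists_prime_stabilizer_nontrivial` (DL1): Galois form.
* `exists_prime_not_pow` (DL0): `u` not a `p`-th power in `k ∋ ζ_p`: there is a prime `q ∉ S` such
  that `u` is not a `p`-th power mod `q`.
* `exists_prime_pow_residue` (DL2): `u ∉ ⟨α⟩ k^{*p}`: there is `q ∉ S` with `α` a `p`-th power mod `q`
  and `u` not a `p`-th power mod `q`.
-/

set_option autoImplicit false
set_option linter.style.haveILetI false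

open NumberField Polynomial
open scoped Pointwise

namespace Fermat.Agent.S14

namespace DL2

universe u

/-- trivial decomposition group: the residue degree is one. -/
theorem absNorm_eq_of_stabilizer_trivial {k M : Type*} [Field k] [NumberField k] [Field M]
    [NumberField M] [Algebra k M] [IsGalois k M]
    (q : Ideal (𝓞 k)) [q.IsPrime] (Q : Ideal (𝓞 M)) [Q.IsPrime] [Q.LiesOver q]
    (h : ∀ σ : Gal(M/k), σ • Q = Q → σ = 1) : Ideal.absNorm Q = Ideal.absNorm q := by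
  have h1 := Ideal.card_stabilizer_eq_card_inertia_mul_finrank (G := Gal(M/k)) q Q
  have h2 : MulAction.stabilizer Gal(M/k) Q = ⊥ := by
    rw [eq_bot_iff]
    intro σ hσ
    exact Subgroup.mem_bot.2 (h σ hσ)
  rw [h2] at h1
  simp only [Subgroup.card_bot] at h1
  have h3 : Q.inertiaDeg (𝓞 k) = 1 := Nat.eq_one_of_mul_eq_one_left h1.symm
  have h4 := Ideal.absNorm_pow_inertiaDeg q Q
  rw [h3, pow_one] at h4
  exact h4.symm

/-- existence of the Kummer extension `k(x^{1/p})`. -/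
theorem exists_kummer_ext (p : ℕ) [Fact p.Prime] (k : Type u) [Field k] [NumberField k] (ζ : k)
    (hζ : IsPrimitiveRoot ζ p) (x : k) (hx : ∀ c : k, c ^ p ≠ x) :
    ∃ (M : Type u) (_ : Field M) (_ : NumberField M) (_ : Algebra k M) (_ : IsGalois k M) (y : M),
      y ^ p = algebraMap k M x ∧ (∀ σ : Gal(M/k), σ y = y → σ = 1) ∧ (∃ τ : Gal(M/k), τ ≠ 1) := by
  have hp : p.Prime := Fact.out
  have H : Irreducible (X ^ p - C x) := X_pow_sub_C_irreducible_of_prime hp hx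
  haveI := Fact.mk H
  have hζ' : (primitiveRoots p k).Nonempty := ⟨ζ, (mem_primitiveRoots hp.pos).2 hζ⟩
  letI : Algebra k (AdjoinRoot (X ^ p - C x)) := inferInstance
  haveI hsf : IsSplittingField k (AdjoinRoot (X ^ p - C x)) (X ^ p - C x) :=
    isSplittingField_AdjoinRoot_X_pow_sub_C hζ' H
  haveI hfd : FiniteDimensional k (AdjoinRoot (X ^ p - C x)) :=
    Polynomial.IsSplittingField.finiteDimensional _ (X ^ p - C x)
  haveI hnf : NumberField (AdjoinRoot (X ^ p - C x)) := NumberField.of_module_finite k _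
  haveI hgal : IsGalois k (AdjoinRoot (X ^ p - C x)) :=
    isGalois_of_isSplittingField_X_pow_sub_C hζ' H _
  refine ⟨AdjoinRoot (X ^ p - C x), inferInstance, hnf, inferInstance, hgal,
    AdjoinRoot.root _, ?_, ?_, ?_⟩
  · exact root_X_pow_sub_C_pow p x
  · intro σ hσ
    have : (σ : AdjoinRoot (X ^ p - C x) →ₐ[k] AdjoinRoot (X ^ p - C x)) = AlgHom.id k _ := by
      apply AdjoinRoot.algHom_ext
      simpa using hσ
    ext z
    have := congrArg (fun f => f z) this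
    simpa using this
  · by_contra hcon
    push Not at hcon
    have h1 : Nat.card Gal(AdjoinRoot (X ^ p - C x)/k) = p := by
      rw [IsGalois.card_aut_eq_finrank]
      exact finrank_of_isSplittingField_X_pow_sub_C hζ' H _
    have h2 : Nat.card Gal(AdjoinRoot (X ^ p - C x)/k) = 1 := by
      rw [Nat.card_eq_one_iff_unique]
      exact ⟨⟨fun a b => by rw [hcon a, hcon b]⟩, ⟨1⟩⟩
    rw [h1] at h2
    exact hp.one_lt.ne' h2

/-- an automorphism multiplies a `p`-th root by a power of `ζ`. -/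
theorem exists_smul_root {p : ℕ} [Fact p.Prime] {k M : Type*} [Field k] [Field M] [Algebra k M]
    {ζ : k} (hζ : IsPrimitiveRoot ζ p) {x : k} {y : M} (hy : y ^ p = algebraMap k M x)
    (σ : Gal(M/k)) : ∃ i : ℕ, i < p ∧ σ y = algebraMap k M (ζ ^ i) * y := by
  have hp : p.Prime := Fact.out
  by_cases hy0 : y = 0
  · exact ⟨0, hp.pos, by simp [hy0]⟩
  have hζM : IsPrimitiveRoot (algebraMap k M ζ) p :=
    hζ.map_of_injective (algebraMap k M).injective
  have h1 : (σ y / y) ^ p = 1 := by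
    rw [div_pow, ← map_pow, hy, AlgEquiv.commutes, div_self]
    rw [← hy]; exact pow_ne_zero _ hy0
  have : NeZero p := ⟨hp.ne_zero⟩
  obtain ⟨i, hi, hi2⟩ := hζM.eq_pow_of_pow_eq_one h1
  refine ⟨i, hi, ?_⟩
  rw [map_pow, hi2, div_mul_cancel₀ _ hy0]

/-- **Kummer theory**: `k^* ∩ M^{*p} = ⟨x⟩ k^{*p}` for `M = k(x^{1/p})`. -/
theorem kummer_eq_pow_mul_pow {p : ℕ} [Fact p.Prime] {k M : Type*} [Field k] [Field M]
    [Algebra k M] [FiniteDimensional k M] [IsGalois k M]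
    {ζ : k} (hζ : IsPrimitiveRoot ζ p) {x : k} {y : M} (hy : y ^ p = algebraMap k M x)
    (hgen : ∀ σ : Gal(M/k), σ y = y → σ = 1) {u : k} {t : M} (ht : t ^ p = algebraMap k M u) :
    ∃ (j : ℕ) (c : k), u = x ^ j * c ^ p := by
  have hp : p.Prime := Fact.out
  have hinj := (algebraMap k M).injective
  -- an element fixed by everything is in `k`
  have hfix : ∀ s : M, (∀ σ : Gal(M/k), σ s = s) → ∃ c : k, algebraMap k M c = s := by
    intro s hs
    have := (IsGalois.mem_bot_iff_fixed (F := k) (E := M) s).2 hs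
    exact IntermediateField.mem_bot.1 this
  by_cases hall : ∀ σ : Gal(M/k), σ y = y
  · obtain ⟨c, hc⟩ := hfix t (fun σ => by rw [hgen σ (hall σ)]; rfl)
    refine ⟨0, c, hinj ?_⟩
    rw [← ht, ← hc]; simp
  push Not at hall
  obtain ⟨σ₀, hσ₀⟩ := hall
  have hy0 : y ≠ 0 := by
    rintro rfl
    exact hσ₀ (map_zero _)
  obtain ⟨a, ha, hay⟩ := exists_smul_root hζ hy σ₀
  obtain ⟨b, hb, hbt⟩ := exists_smul_root hζ ht σ₀
  have ha0 : ¬ p ∣ a := by
    intro hdvd
    apply hσ₀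
    obtain ⟨m, rfl⟩ := hdvd
    rw [hay, pow_mul, hζ.pow_eq_one]; simp
  have hcop : Nat.Coprime a p := ((Nat.Prime.coprime_iff_not_dvd hp).2 ha0).symm
  -- for every residue `r` there is `m` with `a * m ≡ r mod p`
  have hsolve : ∀ r : ℕ, ∃ m : ℕ, ζ ^ (a * m) = ζ ^ r := by
    intro r
    obtain ⟨m, -, hm⟩ := Nat.exists_mul_mod_eq_one_of_coprime hcop hp.one_lt
    refine ⟨m * r, ?_⟩
    have h1 : ζ ^ (a * m) = ζ := by
      rw [← Nat.mod_add_div (a * m) p, hm, pow_add, pow_mul, hζ.pow_eq_one]; simp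
    rw [← mul_assoc, pow_mul, h1]
  have hpow : ∀ (m : ℕ), (σ₀ ^ m) y = algebraMap k M (ζ ^ (a * m)) * y := by
    intro m
    induction m with
    | zero => simp
    | succ m ih =>
      rw [pow_succ', AlgEquiv.mul_apply, ih, map_mul, AlgEquiv.commutes, hay, ← mul_assoc,
        ← map_mul, ← pow_add, Nat.mul_succ]
  obtain ⟨j, hj⟩ := hsolve b
  have hs₀ : σ₀ (t / y ^ j) = t / y ^ j := by
    rw [map_div₀, map_pow, hbt, hay, mul_pow, ← map_pow, ← pow_mul, hj]
    have : algebraMap k M (ζ ^ b) ≠ 0 := by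
      rw [_root_.map_ne_zero]; exact pow_ne_zero _ (hζ.ne_zero hp.ne_zero)
    field_simp
  have hs : ∀ σ : Gal(M/k), σ (t / y ^ j) = t / y ^ j := by
    intro σ
    obtain ⟨i, -, hi⟩ := exists_smul_root hζ hy σ
    obtain ⟨m, hm⟩ := hsolve i
    have h1 : ((σ₀ ^ m)⁻¹ * σ) y = y := by
      rw [AlgEquiv.mul_apply, hi, map_mul, AlgEquiv.commutes, ← hm]
      have h2 := hpow m
      have h3 : (σ₀ ^ m)⁻¹ ((σ₀ ^ m) y) = y := by
        rw [← AlgEquiv.mul_apply]; simp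
      rw [h2, map_mul, AlgEquiv.commutes] at h3
      exact h3
    have h2 := hgen _ h1
    have h3 : σ = σ₀ ^ m := by
      rw [inv_mul_eq_one] at h2; exact h2.symm
    rw [h3]
    clear h1 h2 h3 hm
    induction m with
    | zero => simp
    | succ m ih => rw [pow_succ', AlgEquiv.mul_apply, ih, hs₀]
  obtain ⟨c, hc⟩ := hfix _ hs
  refine ⟨j, c, hinj ?_⟩
  rw [map_mul, map_pow, map_pow, hc, ← hy, ← ht, div_pow, ← pow_mul, ← pow_mul, mul_comm p j]
  have : y ^ (j * p) ≠ 0 := pow_ne_zero _ hy0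
  field_simp

/-- in a finite field the `p`-th power classes form a cyclic group of order `1` or `p`. -/
theorem finite_field_pow_decomp {F : Type*} [Field F] [Finite F] (p : ℕ) [Fact p.Prime] (a u : F)
    (ha : ∀ z : F, a ≠ z ^ p) : ∃ (j : ℕ) (z : F), u = a ^ j * z ^ p := by
  have hp : p.Prime := Fact.out
  by_cases hu : u = 0
  · exact ⟨0, 0, by simp [hu, hp.ne_zero]⟩
  have ha0 : a ≠ 0 := by
    rintro rfl
    exact ha 0 (by simp [hp.ne_zero])
  obtain ⟨g, hg⟩ := IsCyclic.exists_generator (α := Fˣ)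
  obtain ⟨s, hs⟩ := Subgroup.mem_zpowers_iff.1 (hg (Units.mk0 a ha0))
  obtain ⟨t, ht⟩ := Subgroup.mem_zpowers_iff.1 (hg (Units.mk0 u hu))
  have hps : ¬ (p : ℤ) ∣ s := by
    rintro ⟨m, rfl⟩
    apply ha ((g ^ m : Fˣ) : F)
    have : Units.mk0 a ha0 = (g ^ m) ^ p := by
      rw [← hs, ← zpow_natCast, ← zpow_mul, mul_comm]
    have := congrArg (fun w : Fˣ => (w : F)) this
    simpa using this
  have hcop : IsCoprime s (p : ℤ) := by
    have := (Nat.prime_iff_prime_int.1 hp)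
    exact ((Prime.coprime_iff_not_dvd this).2 hps).symm
  obtain ⟨A, B, hAB⟩ := hcop
  -- A * s + B * p = 1; want j ≥ 0 with j s ≡ t mod p
  set j : ℕ := ((A * t) % p).toNat with hj
  have hj' : (j : ℤ) = (A * t) % p := by
    rw [hj, Int.toNat_of_nonneg]
    exact Int.emod_nonneg _ (by exact_mod_cast hp.ne_zero)
  have hdiv : (p : ℤ) ∣ t - j * s := by
    rw [hj']
    have h1 : (p : ℤ) ∣ A * t - (A * t) % p := Int.dvd_self_sub_emod
    have h2 : t - (A * t) % p * s = (A * t - (A * t) % p) * s + (B * t) * p := by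
      have : t = (A * s + B * p) * t := by rw [hAB, one_mul]
      linear_combination this
    rw [h2]
    exact dvd_add (Dvd.dvd.mul_right h1 _) (Dvd.intro_left _ rfl)
  obtain ⟨m, hm⟩ := hdiv
  refine ⟨j, ((g ^ m : Fˣ) : F), ?_⟩
  have : Units.mk0 u hu = (Units.mk0 a ha0) ^ j * (g ^ m) ^ p := by
    rw [← hs, ← ht, ← zpow_natCast, ← zpow_natCast, ← zpow_mul, ← zpow_mul, ← zpow_add]
    congr 1
    linear_combination hm
  have := congrArg (fun w : Fˣ => (w : F)) this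
  simpa using this

/-- `x ≡ z^p mod q`, `q ∤ p z`: the decomposition groups above `q` in `k(x^{1/p})` are trivial. -/
theorem stabilizer_trivial_of_pow_congr {p : ℕ} [Fact p.Prime] {k M : Type*} [Field k]
    [NumberField k] [Field M] [NumberField M] [Algebra k M]
    {ζ : k} (hζ : IsPrimitiveRoot ζ p)
    (q : Ideal (𝓞 k)) [q.IsPrime] (Q : Ideal (𝓞 M)) [Q.IsPrime] [Q.LiesOver q]
    (hpq : (p : 𝓞 k) ∉ q) {x z : 𝓞 k} (hz : z ∉ q) (hx : x - z ^ p ∈ q)
    {y : M} (hy : y ^ p = algebraMap k M (x : k))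
    (hgen : ∀ σ : Gal(M/k), σ y = y → σ = 1)
    (σ : Gal(M/k)) (hσ : σ • Q = Q) : σ = 1 := by
  have hp : p.Prime := Fact.out
  have : NeZero p := ⟨hp.ne_zero⟩
  have hmemQ : ∀ a : 𝓞 k, algebraMap (𝓞 k) (𝓞 M) a ∈ Q ↔ a ∈ q := by
    intro a
    rw [Ideal.LiesOver.over (p := q) (P := Q), Ideal.mem_comap]
  -- integral versions
  have hyint : IsIntegral ℤ y := by
    apply IsIntegral.of_pow hp.pos
    rw [hy]
    exact (RingOfIntegers.isIntegral_coe x).algebraMap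
  set Y : 𝓞 M := ⟨y, hyint⟩ with hY
  have hYc : (Y : M) = y := rfl
  set Z : 𝓞 k := hζ.toInteger with hZ
  have hZc : (Z : k) = ζ := rfl
  have hZprim : IsPrimitiveRoot Z p := hζ.toInteger_isPrimitiveRoot
  set ZM : 𝓞 M := algebraMap (𝓞 k) (𝓞 M) Z with hZM
  have hinj : Function.Injective (algebraMap (𝓞 k) (𝓞 M)) :=
    FaithfulSMul.algebraMap_injective _ _
  have hZMprim : IsPrimitiveRoot ZM p := hZprim.map_of_injective hinj
  have hYp : Y ^ p = algebraMap (𝓞 k) (𝓞 M) x := by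
    apply RingOfIntegers.ext
    change (Y : M) ^ p = algebraMap k M (x : k)
    rw [hYc, hy]
  have hfixk : ∀ a : 𝓞 k, σ • (algebraMap (𝓞 k) (𝓞 M) a) = algebraMap (𝓞 k) (𝓞 M) a := by
    intro a
    apply RingOfIntegers.ext
    change σ (algebraMap k M (a : k)) = algebraMap k M (a : k)
    exact σ.commutes _
  -- `x ∉ q`, `Y ∉ Q`
  have hxq : x ∉ q := by
    intro hxq
    have : z ^ p ∈ q := by
      have := Ideal.sub_mem _ hxq hx
      simpa using this
    exact hz (Ideal.IsPrime.mem_of_pow_mem inferInstance _ this)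
  have hYQ : Y ∉ Q := by
    intro h
    have : Y ^ p ∈ Q := Ideal.pow_mem_of_mem _ h _ hp.pos
    rw [hYp, hmemQ] at this
    exact hxq this
  -- the product
  have hprod := hZMprim.pow_sub_pow_eq_prod_sub_mul Y (algebraMap (𝓞 k) (𝓞 M) z) hp.pos
  have hmem : Y ^ p - (algebraMap (𝓞 k) (𝓞 M) z) ^ p ∈ Q := by
    rw [hYp, ← map_pow, ← map_sub, hmemQ]; exact hx
  rw [hprod, Ideal.IsPrime.prod_mem_iff] at hmem
  obtain ⟨ξ, hξ, hξQ⟩ := hmem
  rw [mem_nthRootsFinset hp.pos] at hξ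
  obtain ⟨i, -, rfl⟩ := hZMprim.eq_pow_of_pow_eq_one hξ
  obtain ⟨j, hj, hjy⟩ := exists_smul_root hζ hy σ
  have hσY : σ • Y = ZM ^ j * Y := by
    apply RingOfIntegers.ext
    change σ y = (algebraMap k M (Z : k)) ^ j * (Y : M)
    rw [hjy, map_pow, hZc, hYc]
  have h1 : σ • (Y - ZM ^ i * algebraMap (𝓞 k) (𝓞 M) z) ∈ Q := by
    have := Ideal.smul_mem_pointwise_smul σ _ Q hξQ
    rwa [hσ] at this
  rw [smul_sub, smul_mul', smul_pow', hfixk, hfixk, hσY] at h1
  have h2 := Ideal.sub_mem _ h1 hξQ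
  have h3 : (ZM ^ j - 1) * Y ∈ Q := by
    convert h2 using 1
    ring
  have h4 : ZM ^ j - 1 ∈ Q := (Ideal.IsPrime.mem_or_mem inferInstance h3).resolve_right hYQ
  -- hence `j = 0`
  have hj0 : j = 0 := by
    by_contra hj0
    have hcop : Nat.Coprime j p :=
      ((Nat.Prime.coprime_iff_not_dvd hp).2 (fun h => hj0 (Nat.eq_zero_of_dvd_of_lt h hj))).symm
    have hprim : IsPrimitiveRoot (ZM ^ j) p := hZMprim.pow_of_coprime j hcop
    have hsum := hprim.geom_sum_eq_zero hp.one_lt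
    have h5 : ∀ n : ℕ, (ZM ^ j) ^ n - 1 ∈ Q := by
      intro n
      exact Ideal.mem_of_dvd _ (sub_one_dvd_pow_sub_one _ n) h4
    have h6 : (∑ n ∈ Finset.range p, ((ZM ^ j) ^ n - 1)) ∈ Q := Ideal.sum_mem _ (fun n _ => h5 n)
    rw [Finset.sum_sub_distrib, hsum] at h6
    simp only [Finset.sum_const, Finset.card_range, nsmul_eq_mul, mul_one, zero_sub,
      neg_mem_iff] at h6
    have h7 : algebraMap (𝓞 k) (𝓞 M) (p : 𝓞 k) ∈ Q := by simpa using h6
    rw [hmemQ] at h7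
    exact hpq h7
  apply hgen
  rw [hjy, hj0]; simp


/-- the ideals containing a given nonzero element are finite in number. -/
theorem finite_setOf_mem {k : Type*} [Field k] [NumberField k] (x : 𝓞 k) (hx : x ≠ 0) :
    {q : Ideal (𝓞 k) | x ∈ q}.Finite := by
  apply (Ideal.finite_setOfPred_absNorm_le (S := 𝓞 k) (Ideal.absNorm (Ideal.span {x}))).subset
  intro q hq
  have h1 : Ideal.span {x} ≤ q := (Ideal.span_singleton_le_iff_mem q).2 hq
  have h2 := Ideal.absNorm_dvd_absNorm_of_le h1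
  have h3 : Ideal.absNorm (Ideal.span {x}) ≠ 0 := by
    rw [Ne, Ideal.absNorm_eq_zero_iff, Ideal.span_singleton_eq_bot]
    exact hx
  exact Nat.le_of_dvd (Nat.pos_of_ne_zero h3) h2

end DL2

/-- **DL1** (Galois form of the density lemma): in a nontrivial Galois extension there is a prime
outside `S` all of whose decomposition groups are nontrivial. -/
theorem exists_prime_stabilizer_nontrivial (k M : Type*) [Field k] [NumberField k] [Field M]
    [NumberField M] [Algebra k M] [IsGalois k M] (hnt : ∃ τ : Gal(M/k), τ ≠ 1)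
    (S : Set (Ideal (𝓞 k))) (hS : S.Finite) :
    ∃ q : Ideal (𝓞 k), q.IsPrime ∧ q ≠ ⊥ ∧ q ∉ S ∧
      ∀ Q : Ideal (𝓞 M), Q.IsPrime → Q.LiesOver q → ∃ σ : Gal(M/k), σ ≠ 1 ∧ σ • Q = Q := by
  obtain ⟨q, hq, hq0, hqS, H⟩ := exists_prime_no_two_deg_one k M S hS
  refine ⟨q, hq, hq0, hqS, ?_⟩
  intro Q hQ hQq
  by_contra hcon
  push Not at hcon
  have htriv : ∀ σ : Gal(M/k), σ • Q = Q → σ = 1 := by
    intro σ hσ
    by_contra h1
    exact hcon σ h1 hσ
  obtain ⟨τ, hτ⟩ := hnt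
  have hτQ : (τ • Q).IsPrime := inferInstance
  have hτQq : (τ • Q).LiesOver q := inferInstance
  have htriv' : ∀ σ : Gal(M/k), σ • (τ • Q) = τ • Q → σ = 1 := by
    intro σ hσ
    have : (τ⁻¹ * σ * τ) • Q = Q := by
      rw [mul_smul, mul_smul, hσ, inv_smul_smul]
    have h2 := htriv _ this
    have : σ = τ * (τ⁻¹ * σ * τ) * τ⁻¹ := by group
    rw [this, h2]; group
  have e1 := DL2.absNorm_eq_of_stabilizer_trivial q Q htriv
  have e2 := DL2.absNorm_eq_of_stabilizer_trivial q (τ • Q) htriv'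
  have := H (τ • Q) Q hτQ hQ hτQq hQq e2 e1
  exact hτ (htriv τ this)


/-- **DL0**: `u` is not a `p`-th power in `k ∋ ζ_p`: there is a prime `q ∉ S` such that `u` is not a
`p`-th power modulo `q`. -/
theorem exists_prime_not_pow (p : ℕ) [Fact p.Prime] (k : Type*) [Field k] [NumberField k] (ζ : k)
    (hζ : IsPrimitiveRoot ζ p) (u : 𝓞 k) (hu : ∀ c : k, c ^ p ≠ (u : k))
    (S : Set (Ideal (𝓞 k))) (hS : S.Finite) :
    ∃ q : Ideal (𝓞 k), q.IsPrime ∧ q ≠ ⊥ ∧ q ∉ S ∧ ∀ w : 𝓞 k, u - w ^ p ∉ q := by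
  have hp : p.Prime := Fact.out
  obtain ⟨M, _, _, _, _, y, hy, hgen, hnt⟩ := DL2.exists_kummer_ext p k ζ hζ (u : k) hu
  have hu0 : u ≠ 0 := by
    rintro rfl
    exact hu 0 (by simp [hp.ne_zero])
  have hpu : (p : 𝓞 k) * u ≠ 0 := mul_ne_zero (by exact_mod_cast hp.ne_zero) hu0
  have hfin : (S ∪ {q : Ideal (𝓞 k) | (p : 𝓞 k) * u ∈ q}).Finite :=
    hS.union (DL2.finite_setOf_mem _ hpu)
  obtain ⟨q, hq, hq0, hqS, H⟩ := exists_prime_stabilizer_nontrivial k M hnt _ hfin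
  refine ⟨q, hq, hq0, fun h => hqS (Or.inl h), ?_⟩
  intro w hw
  have hpuq : (p : 𝓞 k) * u ∉ q := fun h => hqS (Or.inr h)
  have hpq : (p : 𝓞 k) ∉ q := fun h => hpuq (Ideal.mul_mem_right _ _ h)
  have huq : u ∉ q := fun h => hpuq (Ideal.mul_mem_left _ _ h)
  have hwq : w ∉ q := by
    intro h
    apply huq
    have := Ideal.add_mem _ hw (Ideal.pow_mem_of_mem _ h _ hp.pos)
    simpa using this
  obtain ⟨⟨Q, hQ, hQq⟩⟩ := (inferInstance : Nonempty (Ideal.primesOver q (𝓞 M)))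
  obtain ⟨σ, hσ1, hσQ⟩ := H Q hQ hQq
  exact hσ1 (DL2.stabilizer_trivial_of_pow_congr hζ q Q hpq hwq hw hy hgen σ hσQ)

/-- **DL2**: `u ∉ ⟨α⟩ k^{*p}`: there is a prime `q ∉ S` such that `α` is a `p`-th power modulo `q`
and `u` is not. -/
theorem exists_prime_pow_residue (p : ℕ) [Fact p.Prime] (k : Type*) [Field k] [NumberField k]
    (ζ : k) (hζ : IsPrimitiveRoot ζ p) (α u : 𝓞 k)
    (hind : ∀ (j : ℕ) (c : k), (u : k) ≠ (α : k) ^ j * c ^ p)
    (S : Set (Ideal (𝓞 k))) (hS : S.Finite) :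
    ∃ q : Ideal (𝓞 k), q.IsPrime ∧ q ≠ ⊥ ∧ q ∉ S ∧ (∃ w : 𝓞 k, α - w ^ p ∈ q) ∧
      ∀ w : 𝓞 k, u - w ^ p ∉ q := by
  have hp : p.Prime := Fact.out
  have hu : ∀ c : k, c ^ p ≠ (u : k) := by
    intro c hc
    exact hind 0 c (by rw [← hc]; simp)
  by_cases hα : ∃ c : k, c ^ p = (α : k)
  · -- `α` is a `p`-th power
    obtain ⟨c, hc⟩ := hα
    have hcint : IsIntegral ℤ c := by
      apply IsIntegral.of_pow hp.pos
      rw [hc]
      exact RingOfIntegers.isIntegral_coe α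
    obtain ⟨q, hq, hq0, hqS, H⟩ := exists_prime_not_pow p k ζ hζ u hu S hS
    let C : 𝓞 k := ⟨c, hcint⟩
    refine ⟨q, hq, hq0, hqS, ⟨C, ?_⟩, H⟩
    have : α - C ^ p = 0 := by
      rw [sub_eq_zero]
      apply RingOfIntegers.ext
      change (α : k) = c ^ p
      exact hc.symm
    rw [this]
    exact Ideal.zero_mem _
  push Not at hα
  obtain ⟨M, _, _, _, _, y, hy, hgen, -⟩ := DL2.exists_kummer_ext p k ζ hζ (α : k) hα
  have hζM : IsPrimitiveRoot (algebraMap k M ζ) p :=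
    hζ.map_of_injective (algebraMap k M).injective
  have huM : ∀ t : M, t ^ p ≠ ((algebraMap (𝓞 k) (𝓞 M) u : 𝓞 M) : M) := by
    intro t ht
    have ht' : t ^ p = algebraMap k M (u : k) := ht
    obtain ⟨j, c, hjc⟩ := DL2.kummer_eq_pow_mul_pow hζ hy hgen ht'
    exact hind j c hjc
  have hfin : {Q : Ideal (𝓞 M) | Q.IsPrime ∧ Q.under (𝓞 k) ∈ S}.Finite := by
    have h1 : (⋃ q ∈ S, Ideal.primesOver q (𝓞 M)).Finite :=
      hS.biUnion (fun q _ => Algebra.QuasiFinite.finite_primesOver q)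
    apply h1.subset
    rintro Q ⟨hQ, hQS⟩
    exact Set.mem_biUnion hQS ⟨hQ, ⟨rfl⟩⟩
  obtain ⟨Q, hQ, hQ0, hQS, H⟩ := exists_prime_not_pow p M _ hζM _ huM _ hfin
  have hmemQ : ∀ a : 𝓞 k, algebraMap (𝓞 k) (𝓞 M) a ∈ Q ↔ a ∈ Q.under (𝓞 k) := by
    intro a
    rw [Ideal.under, Ideal.mem_comap]
  have hq0 : Q.under (𝓞 k) ≠ ⊥ := Ideal.under_ne_bot (𝓞 k) hQ0
  have hnot : ∀ w : 𝓞 k, u - w ^ p ∉ Q.under (𝓞 k) := by
    intro w hw
    apply H (algebraMap (𝓞 k) (𝓞 M) w)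
    rw [← map_pow, ← map_sub, hmemQ]
    exact hw
  refine ⟨Q.under (𝓞 k), inferInstance, hq0, fun h => hQS ⟨hQ, h⟩, ?_, hnot⟩
  by_contra hcon
  push Not at hcon
  have hmax : (Q.under (𝓞 k)).IsMaximal := Ideal.IsPrime.isMaximal inferInstance hq0
  letI : Field (𝓞 k ⧸ Q.under (𝓞 k)) := Ideal.Quotient.field _
  haveI : Finite (𝓞 k ⧸ Q.under (𝓞 k)) := Ideal.finiteQuotientOfFreeOfNeBot _ hq0
  have ha : ∀ z : 𝓞 k ⧸ Q.under (𝓞 k), Ideal.Quotient.mk _ α ≠ z ^ p := by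
    intro z hz
    obtain ⟨w, rfl⟩ := Ideal.Quotient.mk_surjective z
    rw [← map_pow, Ideal.Quotient.eq] at hz
    exact hcon w hz
  obtain ⟨j, z, hjz⟩ := DL2.finite_field_pow_decomp p (Ideal.Quotient.mk _ α)
    (Ideal.Quotient.mk _ u) ha
  obtain ⟨w, rfl⟩ := Ideal.Quotient.mk_surjective z
  rw [← map_pow, ← map_pow, ← map_mul, Ideal.Quotient.eq, ← hmemQ] at hjz
  have hyint : IsIntegral ℤ y := by
    apply IsIntegral.of_pow hp.pos
    rw [hy]
    exact (RingOfIntegers.isIntegral_coe α).algebraMap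
  let Y : 𝓞 M := ⟨y, hyint⟩
  have hYp : Y ^ p = algebraMap (𝓞 k) (𝓞 M) α := by
    apply RingOfIntegers.ext
    change y ^ p = algebraMap k M (α : k)
    exact hy
  apply H (Y ^ j * algebraMap (𝓞 k) (𝓞 M) w)
  rw [mul_pow, ← pow_mul, mul_comm j p, pow_mul, hYp]
  simpa using hjz

end Fermat.Agent.S14
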