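import Fermat.Agent.S14.Kummer
import Fermat.Agent.S14.DL2

/-!
# S14/DLsym : existence of primes with prescribed symbols   (the only analytic input)
Translation of `exists_prime_not_pow` / `exists_prime_pow_residue` (S14/DL2.lean) into the `sym` language.
-/

set_option autoImplicit false

open NumberField IsDedekindDomain

namespace Fermat.Agent.S14

variable {p : ℕ} [Fact p.Prime] {k : Type} [Field k] [NumberField k] {ζ : k}

namespace DLsym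

/-- every element is an integer times a `p`-th power. -/
theorem exists_integer_mul_pow (p : ℕ) [Fact p.Prime] (x : k) :
    ∃ u b : 𝓞 k, b ≠ 0 ∧ (u : k) = x * (b : k) ^ p := by
  have hp : p.Prime := Fact.out
  obtain ⟨a, b, hb, rfl⟩ := IsFractionRing.div_surjective (A := 𝓞 k) x
  have hb0 : b ≠ 0 := nonZeroDivisors.ne_zero hb
  have hb0' : (algebraMap (𝓞 k) k b) ≠ 0 := by
    rw [Ne, FaithfulSMul.algebraMap_eq_zero_iff]; exact hb0
  refine ⟨a * b ^ (p - 1), b, hb0, ?_⟩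
  have h1 : ((a * b ^ (p - 1) : 𝓞 k) : k) = algebraMap (𝓞 k) k a * (algebraMap (𝓞 k) k b) ^ (p - 1) := by
    rw [← map_pow, ← map_mul]
  rw [h1]
  have h2 : (algebraMap (𝓞 k) k b) ^ p = (algebraMap (𝓞 k) k b) ^ (p - 1) * algebraMap (𝓞 k) k b := by
    rw [← pow_succ, Nat.sub_add_cancel hp.one_le]
  change _ = _ * (algebraMap (𝓞 k) k b) ^ p
  rw [h2]
  field_simp

/-- the symbol of an integer prime to `v` vanishes iff it is a `p`-th power residue. -/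
theorem sym_coe_eq_zero_iff (hζ : IsPrimitiveRoot ζ p) (v : Pr k) (hv : ord v (p : k) = 0)
    {u : 𝓞 k} (hu : u ∉ v.asIdeal) :
    sym p ζ v (u : k) = 0 ↔ ∃ w : 𝓞 k, u - w ^ p ∈ v.asIdeal := by
  have hp : p.Prime := Fact.out
  have hu0 : u ≠ 0 := by
    rintro rfl; exact hu (Ideal.zero_mem _)
  have hu0' : (u : k) ≠ 0 := by
    rw [Ne, FaithfulSMul.algebraMap_eq_zero_iff]; exact hu0
  have hou : ord v (u : k) = 0 := (ord_eq_zero_iff v hu0).2 hu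
  rw [sym_eq_zero_iff hζ v hv hu0' hou]
  constructor
  · rintro ⟨z, hz0, hz, hc⟩
    obtain ⟨w, hw⟩ := exists_integer_cong v 1 (x := z) hz.ge
    refine ⟨w, ?_⟩
    have h1 : Cong v 1 (u : k) ((w : k) ^ p) := hc.trans (hw.pow hz.ge (ord_nonneg v w) p)
    have h2 : Cong v 1 (u : k) ((w ^ p : 𝓞 k) : k) := by
      have : ((w ^ p : 𝓞 k) : k) = (w : k) ^ p := map_pow _ _ _
      rw [this]; exact h1
    rw [cong_integer_iff, pow_one] at h2
    exact h2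
  · rintro ⟨w, hw⟩
    have hwv : w ∉ v.asIdeal := by
      intro h
      apply hu
      have := Ideal.add_mem _ hw (Ideal.pow_mem_of_mem _ h _ hp.pos)
      simpa using this
    have hw0 : w ≠ 0 := by
      rintro rfl; exact hwv (Ideal.zero_mem _)
    refine ⟨(w : k), ?_, (ord_eq_zero_iff v hw0).2 hwv, ?_⟩
    · rw [Ne, FaithfulSMul.algebraMap_eq_zero_iff]; exact hw0
    · have h2 : Cong v 1 (u : k) ((w ^ p : 𝓞 k) : k) := by
        rw [cong_integer_iff, pow_one]; exact hw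
      have : ((w ^ p : 𝓞 k) : k) = (w : k) ^ p := map_pow _ _ _
      rwa [this] at h2

/-- transfer from `u = x b^p` to `x`. -/
theorem transfer (hζ : IsPrimitiveRoot ζ p) (v : Pr k) (hv : ord v (p : k) = 0) {x : k}
    {u b : 𝓞 k} (hub : (u : k) = x * (b : k) ^ p) (hu : u ∉ v.asIdeal) (hb : b ∉ v.asIdeal) :
    ord v x = 0 ∧ sym p ζ v x = sym p ζ v (u : k) := by
  have hu0 : u ≠ 0 := by
    rintro rfl; exact hu (Ideal.zero_mem _)
  have hb0 : b ≠ 0 := by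
    rintro rfl; exact hb (Ideal.zero_mem _)
  have hu0' : (u : k) ≠ 0 := by
    rw [Ne, FaithfulSMul.algebraMap_eq_zero_iff]; exact hu0
  have hb0' : (b : k) ≠ 0 := by
    rw [Ne, FaithfulSMul.algebraMap_eq_zero_iff]; exact hb0
  have hou : ord v (u : k) = 0 := (ord_eq_zero_iff v hu0).2 hu
  have hob : ord v (b : k) = 0 := (ord_eq_zero_iff v hb0).2 hb
  have hx0 : x ≠ 0 := by
    rintro rfl
    rw [zero_mul] at hub
    exact hu0' hub
  have hbp0 : (b : k) ^ p ≠ 0 := pow_ne_zero _ hb0'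
  have hobp : ord v ((b : k) ^ p) = 0 := by rw [ord_pow, hob, mul_zero]
  have hox : ord v x = 0 := by
    have := ord_mul v hx0 hbp0
    rw [← hub, hou, hobp, add_zero] at this
    exact this.symm
  refine ⟨hox, ?_⟩
  rw [hub, sym_mul hζ v hv hx0 hox hbp0 hobp, sym_pow hζ v hv hb0' hob]
  simp

end DLsym

open DLsym

theorem DL (hζ : IsPrimitiveRoot ζ p) {x : k} (hx : ¬ ∃ y : k, y ^ p = x) (S : Finset (Pr k)) :
    ∃ v : Pr k, v ∉ S ∧ ord v (p : k) = 0 ∧ ord v x = 0 ∧ sym p ζ v x ≠ 0 := by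
  have hp : p.Prime := Fact.out
  obtain ⟨u, b, hb0, hub⟩ := exists_integer_mul_pow p x
  have hb0' : (b : k) ≠ 0 := by
    rw [Ne, FaithfulSMul.algebraMap_eq_zero_iff]; exact hb0
  have hu : ∀ c : k, c ^ p ≠ (u : k) := by
    intro c hc
    apply hx
    refine ⟨c / (b : k), ?_⟩
    rw [div_pow, hc, hub]
    field_simp
  have hu0 : u ≠ 0 := by
    rintro rfl
    exact hu 0 (by simp [hp.ne_zero])
  have hp0 : (p : 𝓞 k) ≠ 0 := by exact_mod_cast hp.ne_zero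
  have hfin : ((fun v : Pr k => v.asIdeal) '' (S : Set (Pr k)) ∪
      {q : Ideal (𝓞 k) | (p : 𝓞 k) * u * b ∈ q}).Finite :=
    (S.finite_toSet.image _).union
      (DL2.finite_setOf_mem _ (mul_ne_zero (mul_ne_zero hp0 hu0) hb0))
  obtain ⟨q, hq, hq0, hqS, H⟩ := exists_prime_not_pow p k ζ hζ u hu _ hfin
  set v : Pr k := ⟨q, hq, hq0⟩ with hvdef
  have hmem : (p : 𝓞 k) * u * b ∉ q := fun h => hqS (Or.inr h)
  have hbq : b ∉ v.asIdeal := fun h => hmem (Ideal.mul_mem_left _ _ h)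
  have huq : u ∉ v.asIdeal := fun h => hmem (Ideal.mul_mem_right _ _ (Ideal.mul_mem_left _ _ h))
  have hpq : (p : 𝓞 k) ∉ v.asIdeal :=
    fun h => hmem (Ideal.mul_mem_right _ _ (Ideal.mul_mem_right _ _ h))
  have hv : ord v (p : k) = 0 := by
    have := (ord_eq_zero_iff v hp0).2 hpq
    simpa using this
  obtain ⟨h1, h2⟩ := transfer hζ v hv hub huq hbq
  refine ⟨v, fun h => hqS (Or.inl ⟨v, h, rfl⟩), hv, h1, ?_⟩
  rw [h2, Ne, sym_coe_eq_zero_iff hζ v hv huq]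
  rintro ⟨w, hw⟩
  exact H w hw

theorem DL2 (hζ : IsPrimitiveRoot ζ p) {x₁ x₂ : k} (h₂ : x₂ ≠ 0)
    (h : ∀ j : ℕ, ¬ ∃ y : k, y ^ p = x₁ * x₂ ^ j) (S : Finset (Pr k)) :
    ∃ v : Pr k, v ∉ S ∧ ord v (p : k) = 0 ∧ ord v x₁ = 0 ∧ ord v x₂ = 0 ∧
      sym p ζ v x₁ ≠ 0 ∧ sym p ζ v x₂ = 0 := by
  have hp : p.Prime := Fact.out
  obtain ⟨u₁, b₁, hb₁, hub₁⟩ := exists_integer_mul_pow p x₁
  obtain ⟨u₂, b₂, hb₂, hub₂⟩ := exists_integer_mul_pow p x₂
  have hb₁' : (b₁ : k) ≠ 0 := by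
    rw [Ne, FaithfulSMul.algebraMap_eq_zero_iff]; exact hb₁
  have hb₂' : (b₂ : k) ≠ 0 := by
    rw [Ne, FaithfulSMul.algebraMap_eq_zero_iff]; exact hb₂
  have hind : ∀ (j : ℕ) (c : k), (u₁ : k) ≠ (u₂ : k) ^ j * c ^ p := by
    intro j c hc
    apply h ((p - 1) * j)
    refine ⟨x₂ ^ j * (b₂ : k) ^ j * c / (b₁ : k), ?_⟩
    rw [hub₁, hub₂] at hc
    have h3 : x₁ = (x₂ * (b₂ : k) ^ p) ^ j * c ^ p / (b₁ : k) ^ p := by
      rw [← hc]; field_simp
    have h4 : x₂ ^ (p * j) = x₂ ^ j * x₂ ^ ((p - 1) * j) := by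
      rw [← pow_add]
      congr 1
      obtain ⟨m, rfl⟩ : ∃ m, p = m + 1 := ⟨p - 1, (Nat.sub_add_cancel hp.one_le).symm⟩
      simp only [Nat.add_sub_cancel]
      ring
    rw [h3, div_pow, mul_pow, mul_pow, mul_pow, ← pow_mul, ← pow_mul, ← pow_mul, mul_comm j p, h4]
    ring
  have hu₁ : u₁ ≠ 0 := by
    rintro rfl
    exact hind 0 0 (by simp [hp.ne_zero])
  have hu₂ : u₂ ≠ 0 := by
    rintro rfl
    have : (0 : k) = x₂ * (b₂ : k) ^ p := by simpa using hub₂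
    exact mul_ne_zero h₂ (pow_ne_zero _ hb₂') this.symm
  have hp0 : (p : 𝓞 k) ≠ 0 := by exact_mod_cast hp.ne_zero
  have hfin : ((fun v : Pr k => v.asIdeal) '' (S : Set (Pr k)) ∪
      {q : Ideal (𝓞 k) | (p : 𝓞 k) * (u₁ * b₁) * (u₂ * b₂) ∈ q}).Finite :=
    (S.finite_toSet.image _).union
      (DL2.finite_setOf_mem _
        (mul_ne_zero (mul_ne_zero hp0 (mul_ne_zero hu₁ hb₁)) (mul_ne_zero hu₂ hb₂)))
  obtain ⟨q, hq, hq0, hqS, ⟨w₂, hw₂⟩, H⟩ := exists_prime_pow_residue p k ζ hζ u₂ u₁ hind _ hfin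
  set v : Pr k := ⟨q, hq, hq0⟩ with hvdef
  have hmem : (p : 𝓞 k) * (u₁ * b₁) * (u₂ * b₂) ∉ q := fun h => hqS (Or.inr h)
  have hb₂q : b₂ ∉ v.asIdeal :=
    fun h => hmem (Ideal.mul_mem_left _ _ (Ideal.mul_mem_left _ _ h))
  have hu₂q : u₂ ∉ v.asIdeal :=
    fun h => hmem (Ideal.mul_mem_left _ _ (Ideal.mul_mem_right _ _ h))
  have hb₁q : b₁ ∉ v.asIdeal :=
    fun h => hmem (Ideal.mul_mem_right _ _ (Ideal.mul_mem_left _ _ (Ideal.mul_mem_left _ _ h)))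
  have hu₁q : u₁ ∉ v.asIdeal :=
    fun h => hmem (Ideal.mul_mem_right _ _ (Ideal.mul_mem_left _ _ (Ideal.mul_mem_right _ _ h)))
  have hpq : (p : 𝓞 k) ∉ v.asIdeal :=
    fun h => hmem (Ideal.mul_mem_right _ _ (Ideal.mul_mem_right _ _ h))
  have hv : ord v (p : k) = 0 := by
    have := (ord_eq_zero_iff v hp0).2 hpq
    simpa using this
  obtain ⟨h1, h2⟩ := transfer hζ v hv hub₁ hu₁q hb₁q
  obtain ⟨h1', h2'⟩ := transfer hζ v hv hub₂ hu₂q hb₂q
  refine ⟨v, fun h => hqS (Or.inl ⟨v, h, rfl⟩), hv, h1, h1', ?_, ?_⟩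
  · rw [h2, Ne, sym_coe_eq_zero_iff hζ v hv hu₁q]
    rintro ⟨w, hw⟩
    exact H w hw
  · rw [h2', sym_coe_eq_zero_iff hζ v hv hu₂q]
    exact ⟨w₂, hw₂⟩

end Fermat.Agent.S14
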