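import Mathlib

/-!
# S14 : common definitions  ("completion free class field theory in the language of divisors and
power residue symbols")

`k` : a number field (always in `Type`).  `Pr k` its finite primes, `Dv k` its divisors
(= fractional ideals, written additively), `ord v x`, `dv x`.
-/

set_option autoImplicit false

open NumberField IsDedekindDomain
open scoped nonZeroDivisors

namespace Fermat.Agent.S14

/-- the finite primes of a number field. -/
abbrev Pr (k : Type) [Field k] [NumberField k] : Type := HeightOneSpectrum (𝓞 k)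

/-- divisors (= fractional ideals, additively). -/
abbrev Dv (k : Type) [Field k] [NumberField k] : Type := Pr k →₀ ℤ

section base

variable {k : Type} [Field k] [NumberField k]

/-- the order of `x` at `v`  (`0` for `x = 0`). -/
noncomputable def ord (v : Pr k) (x : k) : ℤ :=
  FractionalIdeal.count k v (FractionalIdeal.spanSingleton (𝓞 k)⁰ x)

/-- the divisor of `x`. -/
noncomputable def dv (x : k) : Dv k :=
  Finsupp.ofSupportFinite (fun v => ord v x)
    (FractionalIdeal.finite_factors (FractionalIdeal.spanSingleton (𝓞 k)⁰ x))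

/-- `x ≡ y mod v^n` (for elements of the field). -/
def Cong (v : Pr k) (n : ℕ) (x y : k) : Prop := x = y ∨ (n : ℤ) ≤ ord v (x - y)

/-- the norm of a prime. -/
noncomputable def Nv (v : Pr k) : ℕ := Ideal.absNorm v.asIdeal

variable (k) in
/-- principal divisors. -/
noncomputable def Prin : AddSubgroup (Dv k) := AddSubgroup.closure {D | ∃ x : k, x ≠ 0 ∧ dv x = D}

/-- the power residue symbol, written additively:  `x ^ ((Nv - 1)/p) ≡ ζ ^ sym  mod v`
(meaningful for `ord v x = 0`, `ord v p = 0`, `ζ` a primitive `p`-th root of unity). -/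
noncomputable def sym (p : ℕ) (ζ : k) (v : Pr k) (x : k) : ZMod p :=
  open Classical in
  if h : ∃ j : ZMod p, Cong v 1 (x ^ ((Nv v - 1) / p)) (ζ ^ j.val) then h.choose else 0

/-- `ψ_α^Sg (D) = ∑_{v ∉ Sg} D(v) sym(α, v)`. -/
noncomputable def psi (p : ℕ) (ζ α : k) (Sg : Finset (Pr k)) : Dv k →+ ZMod p :=
  open Classical in
  Finsupp.liftAddHom fun v =>
    (if v ∈ Sg then (0 : ℤ →+ ZMod p) else (zmultiplesHom (ZMod p)) (sym p ζ v α))

/-- `N_α^Sg = ⟨ v : v ∉ Sg, sym(α, v) = 0 ⟩ + p Dv`. -/
noncomputable def Nrm (p : ℕ) (ζ α : k) (Sg : Finset (Pr k)) : AddSubgroup (Dv k) :=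
  AddSubgroup.closure ({D | ∃ v : Pr k, v ∉ Sg ∧ sym p ζ v α = 0 ∧ D = Finsupp.single v 1} ∪
    {D | ∃ E : Dv k, D = p • E})

/-- `H_α^Sg = Prin + N_α^Sg`. -/
noncomputable def Hgp (p : ℕ) (ζ α : k) (Sg : Finset (Pr k)) : AddSubgroup (Dv k) := Prin k ⊔ Nrm p ζ α Sg

/-- `Sg` contains the primes above `p` and the primes where `α` is not a unit. -/
def Good (p : ℕ) (α : k) (Sg : Finset (Pr k)) : Prop :=
  ∀ v : Pr k, v ∉ Sg → ord v (p : k) = 0 ∧ ord v α = 0

end base

section ext

variable {k : Type} [Field k] [NumberField k] {M : Type} [Field M] [NumberField M] [Algebra k M]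

variable (k) in
/-- the prime of `k` below `w`. -/
noncomputable def below (w : Pr M) : Pr k :=
  ⟨w.asIdeal.under (𝓞 k), inferInstance, Ideal.under_ne_bot (𝓞 k) w.ne_bot⟩

variable (k) in
/-- residue degree. -/
noncomputable def fdeg (w : Pr M) : ℕ := w.asIdeal.inertiaDeg (𝓞 k)

variable (k) in
/-- ramification index. -/
noncomputable def eidx (w : Pr M) : ℕ := w.asIdeal.ramificationIdx (𝓞 k)

variable (k M) in
/-- the norm of divisors: `w ↦ f(w|v) v`. -/
noncomputable def nm : Dv M →+ Dv k :=
  Finsupp.liftAddHom fun w =>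
    (Finsupp.singleAddHom (below k w)).comp ((zmultiplesHom ℤ) (fdeg k w : ℤ))

/-- the action of automorphisms on primes. -/
noncomputable def gal (σ : M ≃ₐ[k] M) (w : Pr M) : Pr M :=
  ⟨w.asIdeal.map (galRestrict (𝓞 k) k M (𝓞 M) σ),
    Ideal.map_isPrime_of_equiv _, by
      rw [Ne, Ideal.map_eq_bot_iff_of_injective (AlgEquiv.injective _)]; exact w.ne_bot⟩

end ext

end Fermat.Agent.S14
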