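import Fermat.Agent.S14.Defs

/-!
# S14/DvBasic : `ord`, `dv`, principal divisors, approximation   (one number field)
All statements are standard; they are reduced to `FractionalIdeal.count_*`, the adic valuations
`HeightOneSpectrum.valuation`, `ClassGroup` finiteness and the Chinese remainder theorem.
Auxiliary lemmas: namespace `Fermat.Agent.S14.DvBasic`.
-/

set_option autoImplicit false

open NumberField IsDedekindDomain
open scoped nonZeroDivisors

namespace Fermat.Agent.S14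

variable {k : Type} [Field k] [NumberField k]

namespace DvBasic

theorem span_ne_zero {x : k} (hx : x ≠ 0) :
    FractionalIdeal.spanSingleton (𝓞 k)⁰ x ≠ 0 :=
  FractionalIdeal.spanSingleton_ne_zero_iff.mpr hx

end DvBasic

open DvBasic

theorem ord_zero (v : Pr k) : ord v (0 : k) = 0 := by
  simp [ord, FractionalIdeal.count_zero]
theorem ord_one (v : Pr k) : ord v (1 : k) = 0 := by
  simp [ord, FractionalIdeal.count_one]
theorem ord_mul (v : Pr k) {x y : k} (hx : x ≠ 0) (hy : y ≠ 0) : ord v (x * y) = ord v x + ord v y := by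
  unfold ord
  rw [← FractionalIdeal.spanSingleton_mul_spanSingleton,
    FractionalIdeal.count_mul k v (span_ne_zero hx) (span_ne_zero hy)]
theorem ord_inv (v : Pr k) (x : k) : ord v x⁻¹ = - ord v x := by
  unfold ord
  rw [← FractionalIdeal.spanSingleton_inv, FractionalIdeal.count_inv]
theorem ord_div (v : Pr k) {x y : k} (hx : x ≠ 0) (hy : y ≠ 0) : ord v (x / y) = ord v x - ord v y := by
  rw [div_eq_mul_inv, ord_mul v hx (inv_ne_zero hy), ord_inv, sub_eq_add_neg]
theorem ord_pow (v : Pr k) (x : k) (n : ℕ) : ord v (x ^ n) = n * ord v x := by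
  unfold ord
  rw [← FractionalIdeal.spanSingleton_pow, FractionalIdeal.count_pow]
theorem ord_neg (v : Pr k) (x : k) : ord v (-x) = ord v x := by
  unfold ord
  congr 1
  apply FractionalIdeal.coeToSubmodule_injective
  simp only [FractionalIdeal.coe_spanSingleton]
  rw [← Set.neg_singleton, Submodule.span_neg]

namespace DvBasic

theorem ord_coe (v : Pr k) {a : 𝓞 k} (ha : a ≠ 0) :
    ord v (a : k) = ((Associates.mk v.asIdeal).count (Associates.mk (Ideal.span {a})).factors : ℤ) := by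
  unfold ord
  have h : FractionalIdeal.spanSingleton (𝓞 k)⁰ (a : k) = ((Ideal.span {a} : Ideal (𝓞 k)) : FractionalIdeal (𝓞 k)⁰ k) :=
    (FractionalIdeal.coeIdeal_span_singleton a).symm
  rw [h, FractionalIdeal.count_coe]
  simpa using ha

theorem val_coe (v : Pr k) {a : 𝓞 k} (ha : a ≠ 0) :
    v.valuation k (a : k) = WithZero.exp (- ord v (a : k)) := by
  rw [ord_coe v ha]
  have := v.valuation_of_algebraMap (K := k) a
  rw [v.intValuation_if_neg ha] at this
  exact this

theorem val_eq (v : Pr k) {x : k} (hx : x ≠ 0) :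
    v.valuation k x = WithZero.exp (- ord v x) := by
  obtain ⟨n, d, hd, rfl⟩ := IsFractionRing.div_surjective (A := 𝓞 k) x
  have hd0 : d ≠ 0 := nonZeroDivisors.ne_zero hd
  have hn0 : n ≠ 0 := by
    rintro rfl
    simp at hx
  have hd1 : (algebraMap (𝓞 k) k d) ≠ 0 := by simpa using hd0
  have hn1 : (algebraMap (𝓞 k) k n) ≠ 0 := by simpa using hn0
  rw [map_div₀, ord_div v hn1 hd1]
  have h1 := val_coe v hn0
  have h2 := val_coe v hd0
  rw [show (algebraMap (𝓞 k) k n) = (n : k) from rfl, show (algebraMap (𝓞 k) k d) = (d : k) from rfl,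
    h1, h2, ← WithZero.exp_sub]
  congr 1
  ring

theorem val_le_iff (v : Pr k) {x : k} (hx : x ≠ 0) (n : ℤ) :
    v.valuation k x ≤ WithZero.exp (-n) ↔ n ≤ ord v x := by
  rw [val_eq v hx, WithZero.exp_le_exp, neg_le_neg_iff]

end DvBasic

theorem ord_nonneg (v : Pr k) (a : 𝓞 k) : 0 ≤ ord v (a : k) := by
  by_cases ha : a = 0
  · subst ha
    simp [ord_zero]
  · rw [ord_coe v ha]
    positivity
theorem le_ord_iff (v : Pr k) {a : 𝓞 k} (ha : a ≠ 0) (n : ℕ) :
    (n : ℤ) ≤ ord v (a : k) ↔ a ∈ v.asIdeal ^ n := by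
  have ha' : (a : k) ≠ 0 := by simpa using ha
  rw [← v.intValuation_le_pow_iff_mem, ← val_le_iff v ha', ← v.valuation_of_algebraMap (K := k)]
theorem ord_eq_zero_iff (v : Pr k) {a : 𝓞 k} (ha : a ≠ 0) : ord v (a : k) = 0 ↔ a ∉ v.asIdeal := by
  have h := le_ord_iff v ha 1
  rw [pow_one] at h
  rw [← h]
  have := ord_nonneg v a
  push_cast
  omega
theorem ord_add (v : Pr k) {x y : k} (hx : x ≠ 0) (hy : y ≠ 0) (hxy : x + y ≠ 0) :
    min (ord v x) (ord v y) ≤ ord v (x + y) := by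
  have h := (v.valuation k).map_add x y
  rw [val_eq v hx, val_eq v hy, val_eq v hxy] at h
  rcases le_max_iff.mp h with h | h
  · rw [WithZero.exp_le_exp, neg_le_neg_iff] at h
    exact (min_le_left _ _).trans h
  · rw [WithZero.exp_le_exp, neg_le_neg_iff] at h
    exact (min_le_right _ _).trans h
theorem ord_add_of_lt (v : Pr k) {x y : k} (hx : x ≠ 0) (hy : y ≠ 0) (h : ord v x < ord v y) :
    ord v (x + y) = ord v x := by
  have hlt : v.valuation k y < v.valuation k x := by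
    rw [val_eq v hx, val_eq v hy, WithZero.exp_lt_exp]
    omega
  have h1 := (v.valuation k).map_add_eq_of_lt_left hlt
  have hxy : x + y ≠ 0 := by
    intro h0
    rw [h0, map_zero] at h1
    exact ((v.valuation k).ne_zero_iff.mpr hx) h1.symm
  rw [val_eq v hx, val_eq v hxy, WithZero.exp_inj] at h1
  omega
theorem ord_rootOfUnity (v : Pr k) {x : k} {n : ℕ} (hn : n ≠ 0) (hx : x ^ n = 1) : ord v x = 0 := by
  have h := ord_pow v x n
  rw [hx, ord_one] at h
  have : (n : ℤ) ≠ 0 := by exact_mod_cast hn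
  rcases mul_eq_zero.mp h.symm with h | h
  · exact absurd h this
  · exact h
/-- elements which are integral at all primes are integers. -/
theorem exists_integer_of_ord_nonneg {x : k} (h : ∀ v : Pr k, 0 ≤ ord v x) : ∃ a : 𝓞 k, (a : k) = x := by
  by_cases hx : x = 0
  · exact ⟨0, by simp [hx]⟩
  have := HeightOneSpectrum.mem_integers_of_valuation_le_one (R := 𝓞 k) k x (fun v => by
    have := (val_le_iff v hx 0).mpr (h v)
    simpa using this)
  obtain ⟨a, ha⟩ := this
  exact ⟨a, ha⟩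
theorem ord_unit (v : Pr k) (u : (𝓞 k)ˣ) : ord v ((u : 𝓞 k) : k) = 0 := by
  have h1 := ord_nonneg v (u : 𝓞 k)
  have h2 := ord_nonneg v ((u⁻¹ : (𝓞 k)ˣ) : 𝓞 k)
  have h3 : (((u⁻¹ : (𝓞 k)ˣ) : 𝓞 k) : k) = ((u : 𝓞 k) : k)⁻¹ := by
    simp
  rw [h3, ord_inv] at h2
  omega
theorem exists_unit_of_ord_eq_zero {x : k} (hx : x ≠ 0) (h : ∀ v : Pr k, ord v x = 0) :
    ∃ u : (𝓞 k)ˣ, ((u : 𝓞 k) : k) = x := by
  obtain ⟨a, ha⟩ := exists_integer_of_ord_nonneg (x := x) (fun v => (h v).ge)
  obtain ⟨b, hb⟩ := exists_integer_of_ord_nonneg (x := x⁻¹) (fun v => by rw [ord_inv, h v]; simp)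
  have hab : a * b = 1 := by
    apply RingOfIntegers.ext
    change (a : k) * (b : k) = 1
    rw [ha, hb, mul_inv_cancel₀ hx]
  exact ⟨⟨a, b, hab, by rw [mul_comm]; exact hab⟩, ha⟩

theorem dv_apply (x : k) (v : Pr k) : dv x v = ord v x := rfl
theorem dv_one : dv (1 : k) = 0 := by
  ext v; simp [dv_apply, ord_one]
theorem dv_mul {x y : k} (hx : x ≠ 0) (hy : y ≠ 0) : dv (x * y) = dv x + dv y := by
  ext v; simp [dv_apply, ord_mul v hx hy]
theorem dv_inv (x : k) : dv x⁻¹ = - dv x := by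
  ext v; simp [dv_apply, ord_inv]
theorem dv_div {x y : k} (hx : x ≠ 0) (hy : y ≠ 0) : dv (x / y) = dv x - dv y := by
  ext v; simp [dv_apply, ord_div v hx hy]
theorem dv_pow (x : k) (n : ℕ) : dv (x ^ n) = n • dv x := by
  ext v; simp [dv_apply, ord_pow]
theorem mem_Prin_iff (D : Dv k) : D ∈ Prin k ↔ ∃ x : k, x ≠ 0 ∧ dv x = D := by
  constructor
  · intro h
    unfold Prin at h
    induction h using AddSubgroup.closure_induction with
    | mem D hD => exact hD
    | zero => exact ⟨1, one_ne_zero, dv_one⟩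
    | add D E _ _ hD hE =>
      obtain ⟨x, hx, rfl⟩ := hD
      obtain ⟨y, hy, rfl⟩ := hE
      exact ⟨x * y, mul_ne_zero hx hy, dv_mul hx hy⟩
    | neg D _ hD =>
      obtain ⟨x, hx, rfl⟩ := hD
      exact ⟨x⁻¹, inv_ne_zero hx, dv_inv x⟩
  · intro h
    exact AddSubgroup.subset_closure h


namespace DvBasic

/-- the fractional ideal attached to a divisor. -/
noncomputable def toFI (D : Dv k) : FractionalIdeal (𝓞 k)⁰ k :=
  D.prod (fun v e => (v.asIdeal : FractionalIdeal (𝓞 k)⁰ k) ^ e)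

theorem toFI_ne_zero (D : Dv k) : toFI D ≠ 0 := by
  unfold toFI
  rw [Finsupp.prod, Finset.prod_ne_zero_iff]
  intro v _
  exact zpow_ne_zero _ (FractionalIdeal.coeIdeal_ne_zero.mpr v.ne_bot)

theorem count_toFI (D : Dv k) (v : Pr k) : FractionalIdeal.count k v (toFI D) = D v :=
  FractionalIdeal.count_finsuppProd k v D

end DvBasic

/-- finiteness of the class group. -/
theorem finite_quot_Prin : Finite (Dv k ⧸ Prin k) := by
  let f : Dv k → ClassGroup (𝓞 k) :=
    fun D => ClassGroup.mk k (Units.mk0 (toFI D) (toFI_ne_zero D))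
  have key : ∀ D E, f D = f E → -D + E ∈ Prin k := by
    intro D E h
    have h1 : ClassGroup.mk k ((Units.mk0 (toFI E) (toFI_ne_zero E)) *
        (Units.mk0 (toFI D) (toFI_ne_zero D))⁻¹) = 1 := by
      rw [map_mul, map_inv]
      exact mul_inv_eq_one.mpr h.symm
    rw [ClassGroup.mk_eq_one_iff] at h1
    obtain ⟨x, hx⟩ := h1.principal
    have hx' : toFI E * (toFI D)⁻¹ = FractionalIdeal.spanSingleton (𝓞 k)⁰ x := by
      apply FractionalIdeal.coeToSubmodule_injective
      change ((toFI E * (toFI D)⁻¹ : FractionalIdeal (𝓞 k)⁰ k) : Submodule (𝓞 k) k) =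
        ((FractionalIdeal.spanSingleton (𝓞 k)⁰ x : FractionalIdeal (𝓞 k)⁰ k) : Submodule (𝓞 k) k)
      rw [FractionalIdeal.coe_spanSingleton, ← hx]
      simp
    have hx0 : x ≠ 0 := by
      rintro rfl
      rw [FractionalIdeal.spanSingleton_zero] at hx'
      exact mul_ne_zero (toFI_ne_zero E) (inv_ne_zero (toFI_ne_zero D)) hx'
    rw [mem_Prin_iff]
    refine ⟨x, hx0, ?_⟩
    ext v
    rw [dv_apply]
    unfold ord
    rw [← hx', FractionalIdeal.count_mul k v (toFI_ne_zero E) (inv_ne_zero (toFI_ne_zero D)),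
      FractionalIdeal.count_inv, count_toFI, count_toFI]
    simp [add_comm]
  apply Finite.of_injective (fun q : Dv k ⧸ Prin k => f q.out)
  intro q q' h
  have := key _ _ h
  rw [← QuotientAddGroup.out_eq' q, ← QuotientAddGroup.out_eq' q']
  exact QuotientAddGroup.eq.mpr this

/-! ### congruences -/

namespace DvBasic

theorem cong_iff_val (v : Pr k) (n : ℕ) (x y : k) :
    Cong v n x y ↔ v.valuation k (x - y) ≤ WithZero.exp (-(n : ℤ)) := by
  unfold Cong
  by_cases h : x = y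
  · subst h
    simp
  · have h' : x - y ≠ 0 := sub_ne_zero.mpr h
    rw [val_le_iff v h']
    simp [h]

theorem val_le_one (v : Pr k) {x : k} (hx : 0 ≤ ord v x) : v.valuation k x ≤ 1 := by
  by_cases h : x = 0
  · subst h
    simp
  · have := (val_le_iff v h 0).mpr hx
    simpa using this

theorem val_eq_one (v : Pr k) {x : k} (hx0 : x ≠ 0) (hx : ord v x = 0) : v.valuation k x = 1 := by
  rw [val_eq v hx0, hx]
  simp

end DvBasic

theorem Cong.refl (v : Pr k) (n : ℕ) (x : k) : Cong v n x x := Or.inl rfl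
theorem Cong.symm {v : Pr k} {n : ℕ} {x y : k} (h : Cong v n x y) : Cong v n y x := by
  rw [cong_iff_val] at h ⊢
  rwa [Valuation.map_sub_swap]
theorem Cong.trans {v : Pr k} {n : ℕ} {x y z : k} (h : Cong v n x y) (h' : Cong v n y z) :
    Cong v n x z := by
  rw [cong_iff_val] at h h' ⊢
  have := (v.valuation k).map_add_le h h'
  rwa [sub_add_sub_cancel] at this
theorem Cong.mono {v : Pr k} {n m : ℕ} (hmn : m ≤ n) {x y : k} (h : Cong v n x y) : Cong v m x y := by
  rw [cong_iff_val] at h ⊢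
  refine h.trans ?_
  rw [WithZero.exp_le_exp]
  omega
theorem Cong.add {v : Pr k} {n : ℕ} {x y x' y' : k} (h : Cong v n x y) (h' : Cong v n x' y') :
    Cong v n (x + x') (y + y') := by
  rw [cong_iff_val] at h h' ⊢
  have := (v.valuation k).map_add_le h h'
  rwa [show x - y + (x' - y') = x + x' - (y + y') by ring] at this
/-- multiplication of congruences between elements which are integral at `v`. -/
theorem Cong.mul {v : Pr k} {n : ℕ} {x y x' y' : k} (h : Cong v n x y) (h' : Cong v n x' y')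
    (hx : 0 ≤ ord v x) (hy' : 0 ≤ ord v y') : Cong v n (x * x') (y * y') := by
  rw [cong_iff_val] at h h' ⊢
  have h1 : v.valuation k (x * (x' - y')) ≤ WithZero.exp (-(n : ℤ)) := by
    rw [map_mul]
    calc _ ≤ 1 * WithZero.exp (-(n : ℤ)) := mul_le_mul' (val_le_one v hx) h'
      _ = _ := one_mul _
  have h2 : v.valuation k ((x - y) * y') ≤ WithZero.exp (-(n : ℤ)) := by
    rw [map_mul]
    calc _ ≤ WithZero.exp (-(n : ℤ)) * 1 := mul_le_mul' h (val_le_one v hy')
      _ = _ := mul_one _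
  have := (v.valuation k).map_add_le h1 h2
  rwa [show x * (x' - y') + (x - y) * y' = x * x' - y * y' by ring] at this
theorem Cong.pow {v : Pr k} {n : ℕ} {x y : k} (h : Cong v n x y) (hx : 0 ≤ ord v x) (hy : 0 ≤ ord v y)
    (m : ℕ) : Cong v n (x ^ m) (y ^ m) := by
  induction m with
  | zero => simpa using Cong.refl v n 1
  | succ m ih =>
    rw [pow_succ, pow_succ]
    refine Cong.mul ih h ?_ hy
    rw [ord_pow]
    positivity
/-- `x ≡ y mod v`, `y` a unit at `v`  ⇒  `x` is a unit at `v`. -/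
theorem Cong.ord_eq_zero {v : Pr k} {n : ℕ} (hn : 1 ≤ n) {x y : k} (h : Cong v n x y) (hy0 : y ≠ 0)
    (hy : ord v y = 0) : x ≠ 0 ∧ ord v x = 0 := by
  rw [cong_iff_val] at h
  have h1 : v.valuation k (x - y) < v.valuation k y := by
    rw [val_eq_one v hy0 hy]
    refine h.trans_lt ?_
    rw [← WithZero.exp_zero, WithZero.exp_lt_exp]
    omega
  have h2 := (v.valuation k).map_add_eq_of_lt_left h1
  rw [add_sub_cancel, val_eq_one v hy0 hy] at h2
  have hx0 : x ≠ 0 := by
    rintro rfl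
    simp at h2
  refine ⟨hx0, ?_⟩
  rw [val_eq v hx0, ← WithZero.exp_zero, WithZero.exp_inj] at h2
  omega
theorem cong_integer_iff (v : Pr k) (n : ℕ) (a b : 𝓞 k) :
    Cong v n (a : k) (b : k) ↔ a - b ∈ v.asIdeal ^ n := by
  rw [cong_iff_val, ← v.intValuation_le_pow_iff_mem, ← v.valuation_of_algebraMap (K := k)]
  rfl
/-- an element which is integral at `v` is congruent to an integer. -/
theorem exists_integer_cong (v : Pr k) (n : ℕ) {x : k} (hx : 0 ≤ ord v x) :
    ∃ a : 𝓞 k, Cong v n x (a : k) := by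
  obtain ⟨a, ha⟩ := v.exists_valuation_sub_lt_of_integer (val_le_one v hx)
    (Units.mk0 (WithZero.exp (-(n : ℤ))) WithZero.exp_ne_zero)
  refine ⟨a, Cong.symm ?_⟩
  rw [cong_iff_val]
  exact ha.le


namespace DvBasic

/-- CRT for integers, with a nonzero solution. -/
theorem approx_int (S : Finset (Pr k)) (b : Pr k → 𝓞 k) (e : Pr k → ℕ) :
    ∃ y : 𝓞 k, y ≠ 0 ∧ ∀ v ∈ S, y - b v ∈ v.asIdeal ^ e v := by
  obtain ⟨y, hy⟩ := IsDedekindDomain.exists_forall_sub_mem_ideal (s := S)
    (fun v : Pr k => v.asIdeal) e (fun v _ => v.prime)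
    (fun v _ w _ hvw h => hvw (HeightOneSpectrum.ext h)) (fun v => b v.1)
  by_cases hy0 : y = 0
  · have hne : (∏ v ∈ S, v.asIdeal ^ e v) ≠ ⊥ := by
      rw [← Ideal.zero_eq_bot, Finset.prod_ne_zero_iff]
      intro v _
      exact pow_ne_zero _ v.ne_bot
    obtain ⟨t, ht, ht0⟩ := Submodule.exists_mem_ne_zero_of_ne_bot hne
    refine ⟨t, ht0, fun v hv => ?_⟩
    have h1 := hy v hv
    rw [hy0] at h1
    have h2 : t ∈ v.asIdeal ^ e v :=
      Ideal.le_of_dvd (Finset.dvd_prod_of_mem (fun v : Pr k => v.asIdeal ^ e v) hv) ht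
    have := Ideal.add_mem _ h2 h1
    simpa [sub_eq_add_neg] using this
  · exact ⟨y, hy0, hy⟩

end DvBasic

/-- weak approximation. -/
theorem approx (S : Finset (Pr k)) (a : Pr k → k) (n : ℕ) :
    ∃ x : k, x ≠ 0 ∧ ∀ v ∈ S, Cong v n x (a v) := by
  obtain ⟨⟨d, hd⟩, hda⟩ := IsLocalization.exist_integer_multiples (𝓞 k)⁰ S a
  have hd0 : d ≠ 0 := nonZeroDivisors.ne_zero hd
  have hd1 : (d : k) ≠ 0 := by simpa using hd0
  choose! b hb using hda
  obtain ⟨y, hy0, hy⟩ := approx_int S b (fun v => n + (ord v (d : k)).toNat)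
  have hy1 : (y : k) ≠ 0 := by simpa using hy0
  refine ⟨(y : k) / (d : k), div_ne_zero hy1 hd1, fun v hv => ?_⟩
  have h1 := (cong_integer_iff v _ y (b v)).mpr (hy v hv)
  have h2 : ((b v : 𝓞 k) : k) = (d : k) * a v := by
    have := hb v hv
    simpa [Algebra.smul_def] using this
  rw [h2] at h1
  rcases h1 with h1 | h1
  · left
    rw [h1]
    field_simp
  · by_cases h3 : (y : k) / (d : k) = a v
    · exact Or.inl h3
    · right
      have h4 : (y : k) / (d : k) - a v ≠ 0 := sub_ne_zero.mpr h3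
      have h5 : (y : k) - (d : k) * a v = (d : k) * ((y : k) / (d : k) - a v) := by
        field_simp
      rw [h5, ord_mul v hd1 h4] at h1
      have h6 := ord_nonneg v d
      push_cast at h1
      rw [Int.toNat_of_nonneg h6] at h1
      omega

namespace DvBasic

theorem ord_zpow (v : Pr k) (x : k) (n : ℤ) : ord v (x ^ n) = n * ord v x := by
  unfold ord
  rw [← FractionalIdeal.count_zpow]
  congr 1
  cases n with
  | ofNat n => simp [FractionalIdeal.spanSingleton_pow]
  | negSucc n =>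
    rw [zpow_negSucc, zpow_negSucc, FractionalIdeal.spanSingleton_pow,
      FractionalIdeal.spanSingleton_inv]

theorem exists_uniformizer (v : Pr k) : ∃ π : k, π ≠ 0 ∧ ord v π = 1 := by
  obtain ⟨π, hπ⟩ := v.valuation_exists_uniformizer k
  have h0 : π ≠ 0 := by
    rintro rfl
    rw [map_zero] at hπ
    exact WithZero.exp_ne_zero hπ.symm
  refine ⟨π, h0, ?_⟩
  rw [val_eq v h0, WithZero.exp_inj] at hπ
  omega

end DvBasic

theorem exists_ord_eq (S : Finset (Pr k)) (e : Pr k → ℤ) : ∃ x : k, x ≠ 0 ∧ ∀ v ∈ S, ord v x = e v := by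
  choose π hπ0 hπ using fun v : Pr k => exists_uniformizer v
  obtain ⟨x, hx0, hx⟩ := approx S (fun v => π v ^ e v) (∑ v ∈ S, (e v).toNat + 1)
  refine ⟨x, hx0, fun v hv => ?_⟩
  have h1 : ord v (π v ^ e v) = e v := by rw [ord_zpow, hπ, mul_one]
  rcases hx v hv with h | h
  · rw [h, h1]
  · by_cases h2 : x = π v ^ e v
    · rw [h2, h1]
    · have h3 : x - π v ^ e v ≠ 0 := sub_ne_zero.mpr h2
      have h4 : (e v).toNat ≤ ∑ v ∈ S, (e v).toNat :=
        Finset.single_le_sum (f := fun v => (e v).toNat) (fun _ _ => Nat.zero_le _) hv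
      have h5 : ord v (π v ^ e v) < ord v (x - π v ^ e v) := by
        rw [h1]
        have := Int.self_le_toNat (e v)
        have h6 : ((e v).toNat : ℤ) ≤ ((∑ v ∈ S, (e v).toNat : ℕ) : ℤ) := by exact_mod_cast h4
        rw [Nat.cast_add, Nat.cast_one] at h
        omega
      have := ord_add_of_lt v (zpow_ne_zero _ (hπ0 v)) h3 h5
      rw [add_sub_cancel] at this
      rw [this, h1]
/-- moving lemma. -/
theorem exists_move (S : Finset (Pr k)) (D : Dv k) : ∃ x : k, x ≠ 0 ∧ ∀ v ∈ S, (D + dv x) v = 0 := by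
  obtain ⟨x, hx0, hx⟩ := exists_ord_eq S (fun v => - D v)
  refine ⟨x, hx0, fun v hv => ?_⟩
  rw [Finsupp.add_apply, dv_apply, hx v hv]
  ring

/-! ### residue fields -/
theorem Nv_eq_card (v : Pr k) : Nv v = Nat.card (𝓞 k ⧸ v.asIdeal) := by
  unfold Nv
  rw [Ideal.absNorm_apply, Submodule.cardQuot_apply]
theorem two_le_Nv (v : Pr k) : 2 ≤ Nv v := by
  have h0 : Nv v ≠ 0 := by
    unfold Nv
    rw [Ne, Ideal.absNorm_eq_zero_iff]
    exact v.ne_bot
  have h1 : Nv v ≠ 1 := by
    unfold Nv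
    rw [Ne, Ideal.absNorm_eq_one_iff]
    exact v.isPrime.ne_top
  omega

namespace DvBasic

theorem pow_Nv_sub_one_int (v : Pr k) {a : 𝓞 k} (ha : a ∉ v.asIdeal) :
    a ^ (Nv v - 1) - 1 ∈ v.asIdeal := by
  have _ : v.asIdeal.IsMaximal := v.isMaximal
  let _ : Field (𝓞 k ⧸ v.asIdeal) := Ideal.Quotient.field v.asIdeal
  have hfin : Finite (𝓞 k ⧸ v.asIdeal) := by
    apply Nat.finite_of_card_ne_zero
    rw [← Nv_eq_card]
    have := two_le_Nv v
    omega
  let _ : Fintype (𝓞 k ⧸ v.asIdeal) := Fintype.ofFinite _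
  have h1 : Ideal.Quotient.mk v.asIdeal a ≠ 0 := by
    rwa [Ne, Ideal.Quotient.eq_zero_iff_mem]
  have h2 := FiniteField.pow_card_sub_one_eq_one _ h1
  rw [← Nat.card_eq_fintype_card, ← Nv_eq_card] at h2
  rw [← Ideal.Quotient.eq_zero_iff_mem, map_sub, map_pow, h2, map_one, sub_self]

end DvBasic

/-- Fermat. -/
theorem cong_pow_Nv_sub_one (v : Pr k) {x : k} (hx0 : x ≠ 0) (hx : ord v x = 0) :
    Cong v 1 (x ^ (Nv v - 1)) 1 := by
  obtain ⟨a, ha⟩ := exists_integer_cong v 1 hx.ge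
  obtain ⟨ha0, ha1⟩ := Cong.ord_eq_zero le_rfl ha.symm hx0 hx
  have ha0' : a ≠ 0 := by
    rintro rfl
    exact ha0 rfl
  have ha2 : a ∉ v.asIdeal := (ord_eq_zero_iff v ha0').mp ha1
  have h1 := Cong.pow ha hx.ge ha1.ge (Nv v - 1)
  refine h1.trans ?_
  have h2 := pow_Nv_sub_one_int v ha2
  rw [← pow_one v.asIdeal, ← cong_integer_iff] at h2
  simpa using h2


namespace DvBasic

theorem exists_zeta_int {p : ℕ} [Fact p.Prime] {ζ : k} (hζ : IsPrimitiveRoot ζ p) (v : Pr k)
    (hv : ord v (p : k) = 0) :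
    ∃ z : 𝓞 k, (z : k) = ζ ∧ z ∉ v.asIdeal ∧ IsPrimitiveRoot (Ideal.Quotient.mk v.asIdeal z) p := by
  have hp0 : p ≠ 0 := (Fact.out : p.Prime).ne_zero
  obtain ⟨z, hz⟩ := exists_integer_of_ord_nonneg (x := ζ)
    (fun w => (ord_rootOfUnity w hp0 hζ.pow_eq_one).ge)
  have hzp : z ^ p = 1 := by
    apply RingOfIntegers.ext
    change (z : k) ^ p = 1
    rw [hz, hζ.pow_eq_one]
  have hsum : ∑ i ∈ Finset.range p, z ^ i = 0 := by
    apply RingOfIntegers.ext
    have := hζ.geom_sum_eq_zero (Fact.out : p.Prime).one_lt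
    rw [← hz] at this
    change algebraMap (𝓞 k) k (∑ i ∈ Finset.range p, z ^ i) = algebraMap (𝓞 k) k 0
    rw [map_zero, map_sum, ← this]
    simp
  have hpv : (p : 𝓞 k) ∉ v.asIdeal := by
    have hp1 : (p : 𝓞 k) ≠ 0 := by exact_mod_cast hp0
    rw [← ord_eq_zero_iff v hp1]
    simpa using hv
  have hzv : z ∉ v.asIdeal := by
    intro h
    have := Ideal.pow_mem_of_mem _ h p (Nat.pos_of_ne_zero hp0)
    rw [hzp] at this
    exact v.isPrime.ne_top ((Ideal.eq_top_iff_one _).mpr this)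
  refine ⟨z, hz, hzv, ?_⟩
  have h1 : (Ideal.Quotient.mk v.asIdeal z) ^ p = 1 := by
    rw [← map_pow, hzp, map_one]
  have h2 : Ideal.Quotient.mk v.asIdeal z ≠ 1 := by
    intro h
    have h3 := congrArg (Ideal.Quotient.mk v.asIdeal) hsum
    rw [map_sum, map_zero] at h3
    simp only [map_pow, h, one_pow, Finset.sum_const, Finset.card_range, nsmul_eq_mul, mul_one] at h3
    rw [← map_natCast (Ideal.Quotient.mk v.asIdeal), Ideal.Quotient.eq_zero_iff_mem] at h3
    exact hpv h3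
  have h3 := orderOf_eq_prime h1 h2
  have h4 := IsPrimitiveRoot.orderOf (Ideal.Quotient.mk v.asIdeal z)
  rwa [h3] at h4

end DvBasic

/-- the `p`-th roots of unity are distinct mod `v ∤ p`. -/
theorem dvd_Nv_sub_one {p : ℕ} [Fact p.Prime] {ζ : k} (hζ : IsPrimitiveRoot ζ p) (v : Pr k)
    (hv : ord v (p : k) = 0) : p ∣ Nv v - 1 := by
  obtain ⟨z, _, hzv, hprim⟩ := exists_zeta_int hζ v hv
  apply hprim.dvd_of_pow_eq_one
  have := pow_Nv_sub_one_int v hzv
  rw [← Ideal.Quotient.eq_zero_iff_mem, map_sub, map_pow, map_one, sub_eq_zero] at this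
  exact this
theorem zeta_pow_inj {p : ℕ} [Fact p.Prime] {ζ : k} (hζ : IsPrimitiveRoot ζ p) (v : Pr k)
    (hv : ord v (p : k) = 0) {i j : ZMod p} (h : Cong v 1 (ζ ^ i.val) (ζ ^ j.val)) : i = j := by
  obtain ⟨z, hz, _, hprim⟩ := exists_zeta_int hζ v hv
  have h1 : Cong v 1 ((z ^ i.val : 𝓞 k) : k) ((z ^ j.val : 𝓞 k) : k) := by
    simpa [hz] using h
  rw [cong_integer_iff, pow_one, ← Ideal.Quotient.eq_zero_iff_mem, map_sub, map_pow, map_pow,
    sub_eq_zero] at h1
  have := hprim.pow_inj (ZMod.val_lt i) (ZMod.val_lt j) h1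
  exact ZMod.val_injective p this
/-- only finitely many primes divide a nonzero element. -/
theorem finite_ord_ne_zero (x : k) : {v : Pr k | ord v x ≠ 0}.Finite :=
  Filter.eventually_cofinite.mp
    (FractionalIdeal.finite_factors (FractionalIdeal.spanSingleton (𝓞 k)⁰ x))
/-- `∏ Nv^{ord_v x} = |N x|`, for integers. -/
theorem absNorm_eq_prod (a : 𝓞 k) (ha : a ≠ 0) :
    ((Algebra.norm ℤ a).natAbs : ℕ) = (dv (a : k)).prod fun v e => Nv v ^ e.toNat := by
  have hI : (Ideal.span {a} : Ideal (𝓞 k)) ≠ 0 := by simpa using ha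
  have h1 := Ideal.finprod_heightOneSpectrum_factorization hI
  have h2 : ∀ v : Pr k, v.maxPowDividing (Ideal.span {a}) = v.asIdeal ^ (ord v (a : k)).toNat := by
    intro v
    rw [ord_coe v ha]
    rfl
  rw [finprod_eq_prod_of_mulSupport_subset (s := (dv (a : k)).support)] at h1
  · rw [← Ideal.absNorm_span_singleton, ← h1, map_prod, Finsupp.prod]
    refine Finset.prod_congr rfl fun v _ => ?_
    rw [h2, map_pow, dv_apply]
    rfl
  · intro v hv
    rw [Function.mem_mulSupport, h2] at hv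
    rw [Finset.mem_coe, Finsupp.mem_support_iff, dv_apply]
    intro h
    rw [h] at hv
    simp at hv

end Fermat.Agent.S14
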