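import Fermat.Agent.S14.DvBasic

/-!
# S14/DvExt : primes, orders and divisors in an extension `M / k` of number fields
Auxiliary lemmas: namespace `Fermat.Agent.S14.DvExt`.
-/

set_option autoImplicit false
set_option linter.unusedSectionVars false

open NumberField IsDedekindDomain
open scoped nonZeroDivisors Pointwise

namespace Fermat.Agent.S14

variable {k : Type} [Field k] [NumberField k] {M : Type} [Field M] [NumberField M] [Algebra k M]

namespace DvExt

instance liesOver_below (w : Pr M) : w.asIdeal.LiesOver (below k w).asIdeal := ⟨rfl⟩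

instance isMaximal_asIdeal (v : Pr k) : v.asIdeal.IsMaximal := v.isMaximal

/-- build a prime from a prime ideal over `v`. -/
lemma below_mk (v : Pr k) (P : Ideal (𝓞 M)) [hP : P.IsPrime] [hl : P.LiesOver v.asIdeal]
    (h0 : P ≠ ⊥) : below k (⟨P, hP, h0⟩ : Pr M) = v :=
  HeightOneSpectrum.ext (hl.over).symm

lemma ne_bot_of_over (v : Pr k) (P : Ideal (𝓞 M)) [hl : P.LiesOver v.asIdeal] : P ≠ ⊥ :=
  Ideal.ne_bot_of_liesOver_of_ne_bot v.ne_bot P

/-- every nonzero element is a quotient of nonzero integers. -/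
lemma exists_div (x : k) (hx : x ≠ 0) : ∃ a b : 𝓞 k, a ≠ 0 ∧ b ≠ 0 ∧ x = (a : k) / (b : k) := by
  obtain ⟨a, b, hb, rfl⟩ := IsFractionRing.div_surjective (A := 𝓞 k) x
  have hb0 : b ≠ 0 := nonZeroDivisors.ne_zero hb
  refine ⟨a, b, ?_, hb0, rfl⟩
  rintro rfl
  apply hx
  simp

lemma coe_ne_zero {a : 𝓞 k} (ha : a ≠ 0) : (a : k) ≠ 0 := by
  simpa using ha

/-- `ord` of integers as a multiplicity. -/
lemma emult_eq (v : Pr k) {a : 𝓞 k} (ha : a ≠ 0) :
    emultiplicity v.asIdeal (Ideal.span {a}) = ((ord v (a : k)).toNat : ℕ∞) := by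
  have h0 := ord_nonneg v a
  rw [emultiplicity_eq_coe]
  constructor
  · rw [Ideal.dvd_span_singleton, ← le_ord_iff v ha]
    omega
  · rw [Ideal.dvd_span_singleton, ← le_ord_iff v ha]
    push_cast
    omega

end DvExt

open DvExt

theorem exists_over (v : Pr k) : ∃ w : Pr M, below k w = v := by
  obtain ⟨⟨P, hP, hl⟩⟩ := (inferInstance : Nonempty (v.asIdeal.primesOver (𝓞 M)))
  exact ⟨⟨P, hP, ne_bot_of_over v P⟩, below_mk v P _⟩

theorem finite_over (v : Pr k) : {w : Pr M | below k w = v}.Finite := by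
  have hfin : (v.asIdeal.primesOver (𝓞 M)).Finite := Algebra.QuasiFinite.finite_primesOver v.asIdeal
  refine Set.Finite.of_injOn (f := fun w : Pr M => w.asIdeal) ?_ ?_ hfin
  · intro w hw
    have hw' : below k w = v := hw
    exact ⟨w.isPrime, ⟨by rw [← hw']; rfl⟩⟩
  · intro w _ w' _ h
    exact HeightOneSpectrum.ext h

theorem fdeg_pos (w : Pr M) : 0 < fdeg k w := Ideal.inertiaDeg_pos _ _
theorem eidx_pos (w : Pr M) : 0 < eidx k w := Ideal.ramificationIdx_pos _ _

namespace DvExt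

lemma ord_algebraMap_int (w : Pr M) {a : 𝓞 k} (ha : a ≠ 0) :
    ord w (algebraMap k M (a : k)) = eidx k w * ord (below k w) (a : k) := by
  have ha' : algebraMap (𝓞 k) (𝓞 M) a ≠ 0 := by
    rw [Ne, FaithfulSMul.algebraMap_eq_zero_iff]
    exact ha
  have h1 := emult_eq w ha'
  have h2 := emult_eq (below k w) ha
  have h3 := Ideal.IsDedekindDomain.emultiplicity_map_eq_ramificationIdx'_mul
    (R := 𝓞 k) (S := 𝓞 M) (v := (below k w).asIdeal) (w := w.asIdeal) (I := Ideal.span {a})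
    (by rw [Ne, Ideal.span_singleton_eq_bot]; exact ha) (below k w).irreducible w.irreducible w.ne_bot
  rw [Ideal.map_span, Set.image_singleton, h1, h2,
    Ideal.ramificationIdx'_eq_ramificationIdx _ _ (below k w).ne_bot] at h3
  have h4 : (ord w ((algebraMap (𝓞 k) (𝓞 M) a : 𝓞 M) : M)).toNat
      = w.asIdeal.ramificationIdx (𝓞 k) * (ord (below k w) (a : k)).toNat := by
    exact_mod_cast h3
  have h5 := ord_nonneg w (algebraMap (𝓞 k) (𝓞 M) a)
  have h6 := ord_nonneg (below k w) a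
  have h7 : ((algebraMap (𝓞 k) (𝓞 M) a : 𝓞 M) : M) = algebraMap k M (a : k) := rfl
  rw [h7] at h4 h5
  have h8 : (((ord w (algebraMap k M (a : k))).toNat : ℕ) : ℤ)
      = (w.asIdeal.ramificationIdx (𝓞 k) : ℤ) * (((ord (below k w) (a : k)).toNat : ℕ) : ℤ) := by
    exact_mod_cast h4
  rw [Int.toNat_of_nonneg h5, Int.toNat_of_nonneg h6] at h8
  exact h8

end DvExt

theorem ord_algebraMap (w : Pr M) (x : k) :
    ord w (algebraMap k M x) = eidx k w * ord (below k w) x := by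
  by_cases hx : x = 0
  · subst hx
    rw [map_zero, ord_zero, ord_zero, mul_zero]
  obtain ⟨a, b, ha, hb, rfl⟩ := exists_div x hx
  have ha' : algebraMap k M (a : k) ≠ 0 := by
    rw [Ne, FaithfulSMul.algebraMap_eq_zero_iff]; exact coe_ne_zero ha
  have hb' : algebraMap k M (b : k) ≠ 0 := by
    rw [Ne, FaithfulSMul.algebraMap_eq_zero_iff]; exact coe_ne_zero hb
  rw [map_div₀, ord_div w ha' hb', ord_div _ (coe_ne_zero ha) (coe_ne_zero hb),
    ord_algebraMap_int w ha, ord_algebraMap_int w hb, mul_sub]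

theorem Nv_eq_pow (w : Pr M) : Nv w = Nv (below k w) ^ fdeg k w :=
  (Ideal.absNorm_pow_inertiaDeg (below k w).asIdeal w.asIdeal).symm

theorem nm_single (w : Pr M) (n : ℤ) :
    nm k M (Finsupp.single w n) = Finsupp.single (below k w) (fdeg k w * n) := by
  simp [nm, mul_comm]

namespace DvExt

/-- the divisor of an ideal. -/
noncomputable def dvI (I : Ideal (𝓞 k)) : Dv k :=
  Finsupp.ofSupportFinite (fun v => FractionalIdeal.count k v (I : FractionalIdeal (𝓞 k)⁰ k))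
    (FractionalIdeal.finite_factors _)

lemma dvI_apply (I : Ideal (𝓞 k)) (v : Pr k) :
    dvI I v = FractionalIdeal.count k v (I : FractionalIdeal (𝓞 k)⁰ k) := rfl

lemma dvI_mul {I J : Ideal (𝓞 k)} (hI : I ≠ ⊥) (hJ : J ≠ ⊥) : dvI (I * J) = dvI I + dvI J := by
  ext v
  rw [Finsupp.add_apply, dvI_apply, dvI_apply, dvI_apply, FractionalIdeal.coeIdeal_mul,
    FractionalIdeal.count_mul]
  · rwa [Ne, FractionalIdeal.coeIdeal_eq_zero]
  · rwa [Ne, FractionalIdeal.coeIdeal_eq_zero]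

lemma dvI_top : dvI (⊤ : Ideal (𝓞 k)) = 0 := by
  ext v
  rw [dvI_apply, FractionalIdeal.coeIdeal_top, FractionalIdeal.count_one]
  rfl

lemma dvI_prime (v : Pr k) : dvI v.asIdeal = Finsupp.single v 1 := by
  classical
  ext w
  rw [dvI_apply, FractionalIdeal.count_maximal, Finsupp.single_apply]

lemma dvI_pow {I : Ideal (𝓞 k)} (hI : I ≠ ⊥) (n : ℕ) : dvI (I ^ n) = n • dvI I := by
  induction n with
  | zero => rw [pow_zero, Ideal.one_eq_top, dvI_top, zero_smul]
  | succ n ih => rw [pow_succ, dvI_mul (pow_ne_zero n hI) hI, ih, succ_nsmul]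

lemma dvI_span (a : 𝓞 k) : dvI (Ideal.span {a}) = dv (a : k) := by
  ext v
  rw [dvI_apply, dv_apply, ord, FractionalIdeal.coeIdeal_span_singleton]

lemma nm_dvI (I : Ideal (𝓞 M)) (hI : I ≠ ⊥) : nm k M (dvI I) = dvI (Ideal.relNorm (𝓞 k) I) := by
  induction I using UniqueFactorizationMonoid.induction_on_prime with
  | h₁ => exact absurd rfl hI
  | h₂ I hu =>
    rw [Ideal.isUnit_iff] at hu
    subst hu
    rw [dvI_top, map_zero, Ideal.relNorm_top, dvI_top]
  | h₃ I P hI0 hP ih =>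
    have hP0 : P ≠ ⊥ := hP.ne_zero
    have hPp : P.IsPrime := Ideal.isPrime_of_prime hP
    set w : Pr M := ⟨P, hPp, hP0⟩ with hw
    have hPw : P = w.asIdeal := rfl
    have hrel : Ideal.relNorm (𝓞 k) P = (below k w).asIdeal ^ fdeg k w := by
      rw [hPw]
      have : w.asIdeal.LiesOver (below k w).asIdeal := liesOver_below w
      have : w.asIdeal.IsMaximal := w.isMaximal
      exact Ideal.relNorm_eq_pow_of_isMaximal w.asIdeal (below k w).asIdeal
    rw [dvI_mul hP0 hI0, map_add, ih hI0, map_mul, dvI_mul, hrel, dvI_pow (below k w).ne_bot,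
      dvI_prime, hPw, dvI_prime, nm_single]
    · simp
    · rw [Ne, Ideal.relNorm_eq_bot_iff]; exact hP0
    · rw [Ne, Ideal.relNorm_eq_bot_iff]; exact hI0

lemma nm_dv_int {a : 𝓞 M} (ha : a ≠ 0) : nm k M (dv (a : M)) = dv (Algebra.norm k (a : M)) := by
  rw [← dvI_span, nm_dvI _ (by rw [Ne, Ideal.span_singleton_eq_bot]; exact ha),
    Ideal.relNorm_singleton, dvI_span]
  congr 1
  exact Algebra.algebraMap_intNorm (A := 𝓞 k) (K := k) (L := M) (B := 𝓞 M) a

end DvExt

theorem nm_dv {z : M} (hz : z ≠ 0) : nm k M (dv z) = dv (Algebra.norm k z) := by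
  obtain ⟨a, b, ha, hb, rfl⟩ := exists_div z hz
  have ha' := coe_ne_zero ha
  have hb' := coe_ne_zero hb
  have hNa : Algebra.norm k (a : M) ≠ 0 := by rwa [Ne, Algebra.norm_eq_zero_iff]
  have hNb : Algebra.norm k (b : M) ≠ 0 := by rwa [Ne, Algebra.norm_eq_zero_iff]
  have hN : Algebra.norm k ((a : M) / (b : M)) = Algebra.norm k (a : M) / Algebra.norm k (b : M) := by
    rw [eq_div_iff hNb, ← map_mul, div_mul_cancel₀ _ hb']
  rw [dv_div ha' hb', map_sub, nm_dv_int ha, nm_dv_int hb, hN, dv_div hNa hNb]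

namespace DvExt

lemma finrank_int : Module.finrank (𝓞 k) (𝓞 M) = Module.finrank k M :=
  (IsFractionRing.finrank_eq (𝓞 k) k (𝓞 M) M).symm

end DvExt

theorem eidx_mul_fdeg_le (w : Pr M) : eidx k w * fdeg k w ≤ Module.finrank k M := by
  classical
  have hfin : (((below k w).asIdeal).primesOver (𝓞 M)).Finite :=
    Algebra.QuasiFinite.finite_primesOver _
  let _ : Fintype (((below k w).asIdeal).primesOver (𝓞 M)) := hfin.fintype
  have h := Ideal.sum_ramification_inertia_eq_finrank (below k w).asIdeal (𝓞 M)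
  rw [finrank_int] at h
  rw [← h]
  exact Finset.single_le_sum (f := fun q : ((below k w).asIdeal).primesOver (𝓞 M) =>
    q.1.ramificationIdx (𝓞 k) * q.1.inertiaDeg (𝓞 k)) (fun _ _ => Nat.zero_le _)
    (Finset.mem_univ (⟨w.asIdeal, w.isPrime, liesOver_below w⟩ :
      ((below k w).asIdeal).primesOver (𝓞 M)))

theorem cong_algebraMap (w : Pr M) {n : ℕ} {x y : k} (h : Cong (below k w) n x y) :
    Cong w n (algebraMap k M x) (algebraMap k M y) := by
  rcases h with h | h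
  · exact Or.inl (by rw [h])
  · right
    rw [← map_sub, ord_algebraMap]
    have he : (1 : ℤ) ≤ eidx k w := by exact_mod_cast eidx_pos (k := k) w
    have hn : (0 : ℤ) ≤ n := Int.natCast_nonneg n
    nlinarith

theorem cong_of_algebraMap (w : Pr M) {x y : k} (h : Cong w 1 (algebraMap k M x) (algebraMap k M y)) :
    Cong (below k w) 1 x y := by
  rcases h with h | h
  · exact Or.inl (FaithfulSMul.algebraMap_injective k M h)
  · right
    rw [← map_sub, ord_algebraMap] at h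
    have he : (1 : ℤ) ≤ eidx k w := by exact_mod_cast eidx_pos (k := k) w
    by_contra hlt
    rw [not_le] at hlt
    have h0 : ord (below k w) (x - y) ≤ 0 := by
      have : ((1 : ℕ) : ℤ) = 1 := rfl
      omega
    have : (eidx k w : ℤ) * ord (below k w) (x - y) ≤ 0 :=
      mul_nonpos_of_nonneg_of_nonpos (by omega) h0
    have h1 : ((1 : ℕ) : ℤ) = 1 := rfl
    omega

/-- residue degree one: every `w`-integral element is congruent to an element of `k`. -/
theorem exists_cong_of_fdeg_one (w : Pr M) (h : fdeg k w = 1) {z : M} (hz : 0 ≤ ord w z) :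
    ∃ x : k, 0 ≤ ord (below k w) x ∧ Cong w 1 z (algebraMap k M x) := by
  obtain ⟨a, ha⟩ := exists_integer_cong w 1 hz
  have h1 : Module.finrank (𝓞 k ⧸ (below k w).asIdeal) (𝓞 M ⧸ w.asIdeal) = 1 := by
    rw [← Ideal.inertiaDeg_eq_of_isMaximal (below k w).asIdeal w.asIdeal]
    exact h
  let _ : Field (𝓞 k ⧸ (below k w).asIdeal) := Ideal.Quotient.field _
  let _ : Field (𝓞 M ⧸ w.asIdeal) := Ideal.Quotient.field _
  have h2 : (⊥ : Subalgebra (𝓞 k ⧸ (below k w).asIdeal) (𝓞 M ⧸ w.asIdeal)) = ⊤ :=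
    Subalgebra.bot_eq_top_of_finrank_eq_one h1
  have h3 : Ideal.Quotient.mk w.asIdeal a ∈
      (⊥ : Subalgebra (𝓞 k ⧸ (below k w).asIdeal) (𝓞 M ⧸ w.asIdeal)) := by
    rw [h2]; trivial
  rw [Algebra.mem_bot] at h3
  obtain ⟨b', hb'⟩ := h3
  obtain ⟨b, rfl⟩ := Ideal.Quotient.mk_surjective b'
  refine ⟨(b : k), ord_nonneg _ b, ha.trans ?_⟩
  have h4 : a - algebraMap (𝓞 k) (𝓞 M) b ∈ w.asIdeal ^ 1 := by
    rw [pow_one, ← Ideal.Quotient.eq]
    exact hb'.symm
  exact (cong_integer_iff w 1 a (algebraMap (𝓞 k) (𝓞 M) b)).mpr h4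

/-! ### Galois action  (`gal σ w = σ(w)`) -/

namespace DvExt

instance smulCommClass_gal : SMulCommClass (M ≃ₐ[k] M) (𝓞 k) (𝓞 M) where
  smul_comm σ r x := by
    apply Subtype.ext
    show σ (algebraMap k M (r : k) * (x : M)) = algebraMap k M (r : k) * σ (x : M)
    rw [map_mul, AlgEquiv.commutes]

lemma smul_eq_galRestrict (σ : M ≃ₐ[k] M) (x : 𝓞 M) :
    galRestrict (𝓞 k) k M (𝓞 M) σ x = σ • x := by
  apply Subtype.ext
  exact algebraMap_galRestrict_apply (𝓞 k) σ x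

lemma gal_asIdeal (σ : M ≃ₐ[k] M) (w : Pr M) : (gal σ w).asIdeal = σ • w.asIdeal := by
  rw [Ideal.pointwise_smul_def]
  show w.asIdeal.map (galRestrict (𝓞 k) k M (𝓞 M) σ) = _
  apply le_antisymm
  · rw [Ideal.map_le_iff_le_comap]
    intro x hx
    rw [Ideal.mem_comap, smul_eq_galRestrict]
    exact Ideal.mem_map_of_mem (MulSemiringAction.toRingHom (M ≃ₐ[k] M) (𝓞 M) σ) hx
  · rw [Ideal.map_le_iff_le_comap]
    intro x hx
    rw [Ideal.mem_comap]
    have : (MulSemiringAction.toRingHom (M ≃ₐ[k] M) (𝓞 M) σ) x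
        = galRestrict (𝓞 k) k M (𝓞 M) σ x := (smul_eq_galRestrict σ x).symm
    rw [this]
    exact Ideal.mem_map_of_mem _ hx

lemma mem_gal_pow (σ : M ≃ₐ[k] M) (w : Pr M) (n : ℕ) (a : 𝓞 M) :
    σ • a ∈ (gal σ w).asIdeal ^ n ↔ a ∈ w.asIdeal ^ n := by
  rw [gal_asIdeal, ← smul_pow', Ideal.smul_mem_pointwise_smul_iff]

end DvExt

theorem gal_one (w : Pr M) : gal (1 : M ≃ₐ[k] M) w = w := by
  apply HeightOneSpectrum.ext
  rw [gal_asIdeal, one_smul]

theorem gal_mul (σ τ : M ≃ₐ[k] M) (w : Pr M) : gal (σ * τ) w = gal σ (gal τ w) := by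
  apply HeightOneSpectrum.ext
  rw [gal_asIdeal, gal_asIdeal, gal_asIdeal, mul_smul]

theorem below_gal (σ : M ≃ₐ[k] M) (w : Pr M) : below k (gal σ w) = below k w := by
  apply HeightOneSpectrum.ext
  show (gal σ w).asIdeal.under (𝓞 k) = w.asIdeal.under (𝓞 k)
  rw [gal_asIdeal]
  exact Ideal.under_smul (𝓞 k) w.asIdeal σ

namespace DvExt

lemma ord_gal_int (σ : M ≃ₐ[k] M) (w : Pr M) {a : 𝓞 M} (ha : a ≠ 0) :
    ord (gal σ w) (σ (a : M)) = ord w (a : M) := by
  have ha' : σ • a ≠ 0 := by rwa [Ne, smul_eq_zero_iff_eq]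
  have h1 : ∀ n : ℕ, (n : ℤ) ≤ ord (gal σ w) ((σ • a : 𝓞 M) : M) ↔ (n : ℤ) ≤ ord w (a : M) := by
    intro n
    rw [le_ord_iff _ ha', le_ord_iff _ ha, mem_gal_pow]
  have h2 := ord_nonneg (gal σ w) (σ • a)
  have h3 := ord_nonneg w a
  have h4 : ((σ • a : 𝓞 M) : M) = σ (a : M) := rfl
  rw [h4] at h1 h2
  have h5 := (h1 (ord (gal σ w) (σ (a : M))).toNat).mp (by omega)
  have h6 := (h1 (ord w (a : M)).toNat).mpr (by omega)
  omega

end DvExt

theorem ord_gal (σ : M ≃ₐ[k] M) (w : Pr M) (z : M) : ord (gal σ w) (σ z) = ord w z := by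
  by_cases hz : z = 0
  · subst hz
    rw [map_zero, ord_zero, ord_zero]
  obtain ⟨a, b, ha, hb, rfl⟩ := exists_div z hz
  have ha' := coe_ne_zero ha
  have hb' := coe_ne_zero hb
  rw [map_div₀, ord_div _ ((map_ne_zero σ).mpr ha') ((map_ne_zero σ).mpr hb'), ord_div _ ha' hb',
    ord_gal_int σ w ha, ord_gal_int σ w hb]

theorem cong_gal (σ : M ≃ₐ[k] M) (w : Pr M) {n : ℕ} {x y : M} (h : Cong w n x y) :
    Cong (gal σ w) n (σ x) (σ y) := by
  rcases h with h | h
  · exact Or.inl (by rw [h])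
  · right
    rw [← map_sub, ord_gal]
    exact h

theorem fdeg_gal (σ : M ≃ₐ[k] M) (w : Pr M) : fdeg k (gal σ w) = fdeg k w := by
  unfold fdeg
  rw [gal_asIdeal, Ideal.inertiaDeg_smul]

theorem eidx_gal (σ : M ≃ₐ[k] M) (w : Pr M) : eidx k (gal σ w) = eidx k w := by
  unfold eidx
  rw [gal_asIdeal, Ideal.ramificationIdx_smul]

theorem Nv_gal (σ : M ≃ₐ[k] M) (w : Pr M) : Nv (gal σ w) = Nv w := by
  rw [Nv_eq_pow (k := k) (gal σ w), Nv_eq_pow (k := k) w, below_gal, fdeg_gal]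

variable [IsGalois k M]

theorem exists_gal_eq {w w' : Pr M} (h : below k w = below k w') : ∃ σ : M ≃ₐ[k] M, gal σ w = w' := by
  have : w'.asIdeal.LiesOver (below k w).asIdeal := by rw [h]; infer_instance
  obtain ⟨σ, hσ⟩ := Ideal.exists_smul_eq_of_isGaloisGroup (below k w).asIdeal w.asIdeal w'.asIdeal
    (M ≃ₐ[k] M)
  exact ⟨σ, HeightOneSpectrum.ext (by rw [gal_asIdeal, hσ])⟩

namespace DvExt

lemma gal_eq_iff (σ : M ≃ₐ[k] M) (w : Pr M) : gal σ w = w ↔ σ ∈ MulAction.stabilizer (M ≃ₐ[k] M) w.asIdeal := by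
  rw [MulAction.mem_stabilizer_iff, ← gal_asIdeal]
  exact ⟨fun h => by rw [h], fun h => HeightOneSpectrum.ext h⟩

lemma eIn_eq (w : Pr M) : (below k w).asIdeal.ramificationIdxIn (𝓞 M) = eidx k w :=
  Ideal.ramificationIdxIn_eq_ramificationIdx (below k w).asIdeal w.asIdeal (M ≃ₐ[k] M)

lemma fIn_eq (w : Pr M) : (below k w).asIdeal.inertiaDegIn (𝓞 M) = fdeg k w :=
  Ideal.inertiaDegIn_eq_inertiaDeg (below k w).asIdeal w.asIdeal (M ≃ₐ[k] M)

end DvExt

/-- the decomposition group has order `e f`. -/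
theorem card_stab (w : Pr M) : Nat.card {σ : M ≃ₐ[k] M // gal σ w = w} = eidx k w * fdeg k w := by
  have h := Ideal.card_stabilizer_eq (G := M ≃ₐ[k] M) (below k w).asIdeal w.asIdeal
  rw [eIn_eq, fIn_eq] at h
  rw [← h]
  exact Nat.card_congr (Equiv.subtypeEquivRight (fun σ => gal_eq_iff σ w))

namespace DvExt

lemma mem_inertia_iff (σ : M ≃ₐ[k] M) (w : Pr M) :
    (∀ z : M, 0 ≤ ord w z → Cong w 1 (σ z) z) ↔ σ ∈ w.asIdeal.inertia (M ≃ₐ[k] M) := by
  constructor
  · intro h x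
    have h1 := h (x : M) (ord_nonneg w x)
    have h2 : Cong w 1 ((σ • x : 𝓞 M) : M) (x : M) := h1
    rw [cong_integer_iff, pow_one] at h2
    exact h2
  · intro h z hz
    obtain ⟨a, ha⟩ := exists_integer_cong w 1 hz
    have hst : gal σ w = w := (gal_eq_iff σ w).mpr (Ideal.inertia_le_stabilizer (M := M ≃ₐ[k] M) w.asIdeal h)
    have h1 := cong_gal σ w ha
    rw [hst] at h1
    have h2 : Cong w 1 ((σ • a : 𝓞 M) : M) (a : M) := by
      rw [cong_integer_iff, pow_one]
      exact h a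
    exact (h1.trans h2).trans ha.symm

end DvExt

/-- the inertia group has order `e`. -/
theorem card_inertia (w : Pr M) :
    Nat.card {σ : M ≃ₐ[k] M // ∀ z : M, 0 ≤ ord w z → Cong w 1 (σ z) z} = eidx k w := by
  have h := Ideal.card_inertia_eq_ramificationIdxIn (G := M ≃ₐ[k] M) (below k w).asIdeal w.asIdeal
  rw [eIn_eq] at h
  rw [← h]
  exact Nat.card_congr (Equiv.subtypeEquivRight (fun σ => mem_inertia_iff σ w))

theorem efg (w : Pr M) :
    eidx k w * fdeg k w * Nat.card {w' : Pr M // below k w' = below k w} = Module.finrank k M := by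
  have h := Ideal.ncard_primesOver_mul_ramificationIdxIn_mul_inertiaDegIn (below k w).asIdeal (𝓞 M)
    (M ≃ₐ[k] M)
  rw [eIn_eq, fIn_eq, IsGalois.card_aut_eq_finrank] at h
  rw [← h, mul_comm]
  congr 1
  rw [← Nat.card_coe_set_eq]
  refine Nat.card_congr ⟨fun w' => ⟨w'.1.asIdeal, w'.1.isPrime, ⟨(congrArg HeightOneSpectrum.asIdeal w'.2).symm⟩⟩,
    fun P => ⟨⟨P.1, P.2.1, ?_⟩, ?_⟩, ?_, ?_⟩
  · have := P.2.2
    exact ne_bot_of_over (below k w) P.1
  · have := P.2.2
    have := P.2.1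
    exact below_mk (below k w) P.1 _
  · intro w'; rfl
  · intro P; rfl

/-- trivial decomposition group ⇒ split. -/
theorem split_of_stab (w : Pr M) (h : ∀ σ : M ≃ₐ[k] M, gal σ w = w → σ = 1) :
    eidx k w = 1 ∧ fdeg k w = 1 := by
  have h1 := card_stab (k := k) w
  have : Subsingleton {σ : M ≃ₐ[k] M // gal σ w = w} :=
    ⟨fun a b => Subtype.ext ((h a.1 a.2).trans (h b.1 b.2).symm)⟩
  have h2 : Nat.card {σ : M ≃ₐ[k] M // gal σ w = w} ≤ 1 := Finite.card_le_one_iff_subsingleton.mpr this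
  have h3 := eidx_pos (k := k) w
  have h4 := fdeg_pos (k := k) w
  rw [h1] at h2
  have h5 : eidx k w * fdeg k w = 1 := le_antisymm h2 (Nat.mul_pos h3 h4)
  exact ⟨Nat.eq_one_of_mul_eq_one_right h5, Nat.eq_one_of_mul_eq_one_left h5⟩

/-- trivial inertia group ⇒ unramified. -/
theorem unram_of_inertia (w : Pr M)
    (h : ∀ σ : M ≃ₐ[k] M, (∀ z : M, 0 ≤ ord w z → Cong w 1 (σ z) z) → σ = 1) : eidx k w = 1 := by
  have h1 := card_inertia (k := k) w
  have : Subsingleton {σ : M ≃ₐ[k] M // ∀ z : M, 0 ≤ ord w z → Cong w 1 (σ z) z} :=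
    ⟨fun a b => Subtype.ext ((h a.1 a.2).trans (h b.1 b.2).symm)⟩
  have h2 : Nat.card {σ : M ≃ₐ[k] M // ∀ z : M, 0 ≤ ord w z → Cong w 1 (σ z) z} ≤ 1 :=
    Finite.card_le_one_iff_subsingleton.mpr this
  have h3 := eidx_pos (k := k) w
  omega

/-- prime degree: split, inert or ramified. -/
theorem trichotomy {p : ℕ} [Fact p.Prime] (hdeg : Module.finrank k M = p) (w : Pr M) :
    (eidx k w = 1 ∧ fdeg k w = 1) ∨ (eidx k w = 1 ∧ fdeg k w = p) ∨ (eidx k w = p ∧ fdeg k w = 1) := by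
  have hp : p.Prime := Fact.out
  have h := efg (k := k) w
  rw [hdeg] at h
  have h1 : eidx k w * fdeg k w ∣ p := ⟨_, h.symm⟩
  have h2 : eidx k w ∣ p := (Dvd.intro _ rfl).trans h1
  have h3 : fdeg k w ∣ p := (Dvd.intro_left _ rfl).trans h1
  rcases (Nat.dvd_prime hp).mp h2 with he | he <;> rcases (Nat.dvd_prime hp).mp h3 with hf | hf
  · exact Or.inl ⟨he, hf⟩
  · exact Or.inr (Or.inl ⟨he, hf⟩)
  · exact Or.inr (Or.inr ⟨he, hf⟩)
  · exfalso
    rw [he, hf] at h1
    have := Nat.le_of_dvd hp.pos h1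
    have h2 := hp.two_le
    nlinarith

/-- not split ⇒ the prime above is unique, i.e. fixed by the Galois group. -/
theorem gal_eq_self_of_not_split {p : ℕ} [Fact p.Prime] (hdeg : Module.finrank k M = p) (w : Pr M)
    (h : ¬ (eidx k w = 1 ∧ fdeg k w = 1)) (σ : M ≃ₐ[k] M) : gal σ w = w := by
  have hef : eidx k w * fdeg k w = p := by
    rcases trichotomy hdeg w with h1 | h1 | h1
    · exact absurd h1 h
    · rw [h1.1, h1.2, one_mul]
    · rw [h1.1, h1.2, mul_one]
  have h1 := card_stab (k := k) w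
  rw [hef, ← hdeg, ← IsGalois.card_aut_eq_finrank] at h1
  by_contra hne
  have h2 : Nat.card {σ : M ≃ₐ[k] M // gal σ w = w} < Nat.card (M ≃ₐ[k] M) :=
    Finite.card_subtype_lt (x := σ) hne
  omega

/-- `dv` of an element of `k`, seen in `M`, pushed down again. -/
theorem nm_dv_algebraMap (x : k) : nm k M (dv (algebraMap k M x)) = Module.finrank k M • dv x := by
  by_cases hx : x = 0
  · subst hx
    have h0 : ∀ (F : Type) [Field F] [NumberField F], dv (0 : F) = 0 := by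
      intro F _ _
      ext v
      rw [dv_apply, ord_zero]
      rfl
    rw [map_zero, h0, h0, map_zero, smul_zero]
  · rw [nm_dv ((map_ne_zero _).mpr hx), Algebra.norm_algebraMap, dv_pow]

/-- the norm is the product of the conjugates. -/
theorem algebraMap_norm (z : M) : algebraMap k M (Algebra.norm k z) = ∏ σ : M ≃ₐ[k] M, σ z :=
  Algebra.norm_eq_prod_automorphisms k z

end Fermat.Agent.S14
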