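import Fermat.Agent.S14.DLsym

/-!
# S14/ExistsT : the selection of the auxiliary primes `T` (step (T) of the second inequality)
Greedy construction: as long as `#T + 1 < d` the kernel of `u ↦ (sym(u,v))_{v ∈ T}` on `U_S` is strictly bigger than `⟨α⟩ U_S^p`
(count indices), and `DL2` gives a new prime.
-/

set_option autoImplicit false

open NumberField IsDedekindDomain

namespace Fermat.Agent.S14

variable {p : ℕ} [Fact p.Prime] {k : Type} [Field k] [NumberField k] {ζ : k}

namespace ExistsT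

/-- the symbols at a finite set of primes outside `S`, as a homomorphism on the `S`-units. -/
noncomputable def phi (hζ : IsPrimitiveRoot ζ p) (S : Finset (Pr k))
    (hSp : ∀ v : Pr k, ord v (p : k) ≠ 0 → v ∈ S) (T : Finset {v : Pr k // v ∉ S}) :
    US S →* Multiplicative (T → ZMod p) where
  toFun u := Multiplicative.ofAdd fun v => sym p ζ v.1.1 ((u : kˣ) : k)
  map_one' := by
    rw [← ofAdd_zero]
    congr 1
    funext v
    have hv : ord v.1.1 (p : k) = 0 := by
      by_contra h
      exact v.1.2 (hSp _ h)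
    simpa using sym_one hζ v.1.1 hv
  map_mul' a b := by
    rw [← ofAdd_add]
    congr 1
    funext v
    have hv : ord v.1.1 (p : k) = 0 := by
      by_contra h
      exact v.1.2 (hSp _ h)
    simpa using sym_mul hζ v.1.1 hv (a : kˣ).ne_zero (a.2 _ v.1.2) (b : kˣ).ne_zero (b.2 _ v.1.2)

theorem mem_ker_phi (hζ : IsPrimitiveRoot ζ p) (S : Finset (Pr k))
    (hSp : ∀ v : Pr k, ord v (p : k) ≠ 0 → v ∈ S) (T : Finset {v : Pr k // v ∉ S}) (u : US S) :
    u ∈ (phi hζ S hSp T).ker ↔ ∀ v ∈ T, sym p ζ v.1 ((u : kˣ) : k) = 0 := by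
  rw [MonoidHom.mem_ker]
  constructor
  · intro h v hv
    have := congrArg (fun f : Multiplicative (T → ZMod p) => (Multiplicative.toAdd f) ⟨v, hv⟩) h
    simpa [phi] using this
  · intro h
    change Multiplicative.ofAdd _ = _
    rw [← ofAdd_zero]
    congr 1
    funext v
    exact h v.1 v.2

/-- the index count. -/
theorem index_le (hζ : IsPrimitiveRoot ζ p) (S : Finset (Pr k))
    (hSp : ∀ v : Pr k, ord v (p : k) ≠ 0 → v ∈ S) (α : US S) (T : Finset {v : Pr k // v ∉ S})
    (hαT : ∀ v ∈ T, sym p ζ v.1 ((α : kˣ) : k) = 0)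
    (H : ∀ u : US S, (∀ v ∈ T, sym p ζ v.1 ((u : kˣ) : k) = 0) →
      ∃ (j : ℤ) (y : US S), u = α ^ j * y ^ p) :
    ((powMonoidHom p : US S →* US S).range).index ≤ p ^ (T.card + 1) := by
  have hp : p.Prime := Fact.out
  have : NeZero p := ⟨hp.ne_zero⟩
  set P := (powMonoidHom p : US S →* US S).range with hP
  set K := (phi hζ S hSp T).ker with hK
  have hPK : P ≤ K := by
    rintro _ ⟨y, rfl⟩
    rw [hK, MonoidHom.mem_ker, powMonoidHom_apply, map_pow]
    apply Multiplicative.toAdd.injective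
    rw [toAdd_pow, toAdd_one]
    funext v
    simp
  have h1 : P.relIndex K * K.index = P.index := Subgroup.relIndex_mul_index hPK
  have h2 : K.index ≤ p ^ T.card := by
    rw [hK, Subgroup.index_ker]
    calc Nat.card (phi hζ S hSp T).range ≤ Nat.card (Multiplicative (T → ZMod p)) :=
          Subgroup.card_le_card_group _
      _ = p ^ T.card := by
          rw [Nat.card_congr (Multiplicative.toAdd (α := T → ZMod p)), Nat.card_fun, Nat.card_zmod,
            Nat.card_eq_fintype_card, Fintype.card_coe]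
  have hαK : α ∈ K := (mem_ker_phi hζ S hSp T α).2 hαT
  have h3 : P.relIndex K ≤ p := by
    rw [Subgroup.relIndex, Subgroup.index]
    set g : K ⧸ P.subgroupOf K := QuotientGroup.mk ⟨α, hαK⟩ with hg
    have hgen : ∀ x : K ⧸ P.subgroupOf K, x ∈ Subgroup.zpowers g := by
      intro x
      obtain ⟨⟨u, hu⟩, rfl⟩ := QuotientGroup.mk_surjective x
      obtain ⟨j, y, hjy⟩ := H u ((mem_ker_phi hζ S hSp T u).1 hu)
      refine ⟨j, ?_⟩
      change g ^ j = _
      rw [hg, ← QuotientGroup.mk_zpow, QuotientGroup.eq, Subgroup.mem_subgroupOf]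
      refine ⟨y, ?_⟩
      simp only [powMonoidHom_apply, Subgroup.coe_mul, InvMemClass.coe_inv,
        SubgroupClass.coe_zpow]
      rw [hjy]
      group
    have hgp : g ^ p = 1 := by
      rw [hg, ← QuotientGroup.mk_pow, QuotientGroup.eq_one_iff, Subgroup.mem_subgroupOf]
      exact ⟨α, rfl⟩
    rw [← orderOf_eq_card_of_forall_mem_zpowers hgen]
    exact orderOf_le_of_pow_eq_one hp.pos hgp
  calc P.index = P.relIndex K * K.index := h1.symm
    _ ≤ p * p ^ T.card := Nat.mul_le_mul h3 h2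
    _ = p ^ (T.card + 1) := by rw [pow_succ, mul_comm]

end ExistsT

open ExistsT

/-- (T)  Linear algebra + `DL2`. -/
theorem exists_T (hp : p ≠ 2) (hζ : IsPrimitiveRoot ζ p) (S : Finset (Pr k))
    (hSp : ∀ v : Pr k, ord v (p : k) ≠ 0 → v ∈ S) (α : kˣ) (hαS : α ∈ US S)
    (hα : ¬ ∃ y : k, y ^ p = (α : k)) (d : ℕ)
    (hd : ((powMonoidHom p : US S →* US S).range).index = p ^ d) :
    ∃ T : Finset (Pr k), Disjoint S T ∧ T.card + 1 = d ∧ (∀ v ∈ T, sym p ζ v (α : k) = 0) ∧
      ∀ c : Pr k → ZMod p, ∃ u : kˣ, u ∈ US S ∧ ∀ v ∈ T, sym p ζ v (u : k) = c v := by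
  have hpp : p.Prime := Fact.out
  have hordp : ∀ v : Pr k, v ∉ S → ord v (p : k) = 0 := by
    intro v hv
    by_contra h
    exact hv (hSp _ h)
  -- the inductive claim
  have key : ∀ n : ℕ, n + 1 ≤ d → ∃ T : Finset {v : Pr k // v ∉ S}, T.card = n ∧
      (∀ v ∈ T, sym p ζ v.1 (α : k) = 0) ∧
      ∀ c : {v : Pr k // v ∉ S} → ZMod p, ∃ u : US S, ∀ v ∈ T, sym p ζ v.1 ((u : kˣ) : k) = c v := by
    intro n
    induction n with
    | zero =>
      intro _
      exact ⟨∅, rfl, by simp, fun c => ⟨1, by simp⟩⟩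
    | succ n ih =>
      intro hn
      obtain ⟨T, hTc, hTα, hTs⟩ := ih (by omega)
      -- a new element
      have hex : ∃ u : US S, (∀ v ∈ T, sym p ζ v.1 ((u : kˣ) : k) = 0) ∧
          ∀ j : ℕ, ¬ ∃ y : k, y ^ p = ((u : kˣ) : k) * (α : k) ^ j := by
        by_contra hcon
        push Not at hcon
        have hle := index_le hζ S hSp ⟨α, hαS⟩ T hTα (by
          intro u hu
          obtain ⟨j, y, hy⟩ := hcon u hu
          have hy0 : y ≠ 0 := by
            rintro rfl
            rw [zero_pow hpp.ne_zero] at hy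
            exact mul_ne_zero (u : kˣ).ne_zero (pow_ne_zero _ α.ne_zero) hy.symm
          have hyS : Units.mk0 y hy0 ∈ US S := by
            intro v hv
            have h1 : ord v (y ^ p) = 0 := by
              rw [hy, ord_mul v (u : kˣ).ne_zero (pow_ne_zero _ α.ne_zero), ord_pow, u.2 v hv,
                hαS v hv]
              simp
            rw [ord_pow] at h1
            have h2 : (p : ℤ) ≠ 0 := by exact_mod_cast hpp.ne_zero
            exact (mul_eq_zero.1 h1).resolve_left h2
          refine ⟨-(j : ℤ), ⟨Units.mk0 y hy0, hyS⟩, ?_⟩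
          have h3 : (⟨Units.mk0 y hy0, hyS⟩ : US S) ^ p = u * (⟨α, hαS⟩ : US S) ^ j := by
            apply Subtype.ext
            apply Units.ext
            simp only [Subgroup.coe_mul, SubgroupClass.coe_pow, Units.val_mul,
              Units.val_pow_eq_pow_val, Units.val_mk0]
            exact hy
          rw [h3, zpow_neg, zpow_natCast, mul_comm u, inv_mul_cancel_left])
        rw [hd, hTc] at hle
        have := (Nat.pow_le_pow_iff_right hpp.one_lt).1 hle
        omega
      obtain ⟨u, huT, hu⟩ := hex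
      obtain ⟨v, hvS, hvp, -, -, hvu, hvα⟩ := DL2 hζ α.ne_zero hu S
      have hvT : (⟨v, hvS⟩ : {v : Pr k // v ∉ S}) ∉ T := fun h => hvu (huT ⟨v, hvS⟩ h)
      refine ⟨Finset.cons ⟨v, hvS⟩ T hvT, by rw [Finset.card_cons, hTc], ?_, ?_⟩
      · intro w hw
        rcases Finset.mem_cons.1 hw with rfl | hw
        · exact hvα
        · exact hTα w hw
      · intro c
        obtain ⟨u₀, hu₀⟩ := hTs c
        set m : ℕ := ((c ⟨v, hvS⟩ - sym p ζ v ((u₀ : kˣ) : k)) / sym p ζ v ((u : kˣ) : k)).val with hm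
        have hsym : ∀ w : Pr k, w ∉ S → sym p ζ w (((u₀ * u ^ m : US S) : kˣ) : k) =
            sym p ζ w ((u₀ : kˣ) : k) + m * sym p ζ w ((u : kˣ) : k) := by
          intro w hw
          have h1 : (((u₀ * u ^ m : US S) : kˣ) : k) = ((u₀ : kˣ) : k) * ((u : kˣ) : k) ^ m := by
            simp
          rw [h1, sym_mul hζ w (hordp w hw) (u₀ : kˣ).ne_zero (u₀.2 w hw)
            (pow_ne_zero _ (u : kˣ).ne_zero) (by rw [ord_pow, u.2 w hw, mul_zero]),
            sym_pow hζ w (hordp w hw) (u : kˣ).ne_zero (u.2 w hw)]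
        refine ⟨u₀ * u ^ m, ?_⟩
        intro w hw
        rw [hsym w.1 w.2]
        rcases Finset.mem_cons.1 hw with rfl | hw
        · rw [hm, ZMod.natCast_zmod_val, div_mul_cancel₀ _ hvu]
          ring
        · rw [huT w hw, hu₀ w hw]
          ring
  -- `d ≥ 1`
  have hd1 : 1 ≤ d := by
    by_contra h
    have hd0 : d = 0 := by omega
    rw [hd0, pow_zero, Subgroup.index_eq_one] at hd
    have : (⟨α, hαS⟩ : US S) ∈ (powMonoidHom p : US S →* US S).range := by rw [hd]; trivial
    obtain ⟨y, hy⟩ := this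
    apply hα
    refine ⟨((y : kˣ) : k), ?_⟩
    have := congrArg (fun z : US S => ((z : kˣ) : k)) hy
    simpa using this
  obtain ⟨T, hTc, hTα, hTs⟩ := key (d - 1) (by omega)
  refine ⟨T.map ⟨Subtype.val, Subtype.val_injective⟩, ?_, ?_, ?_, ?_⟩
  · rw [Finset.disjoint_right]
    intro v hv
    obtain ⟨w, -, rfl⟩ := Finset.mem_map.1 hv
    exact w.2
  · rw [Finset.card_map, hTc]; omega
  · intro v hv
    obtain ⟨w, hw, rfl⟩ := Finset.mem_map.1 hv
    exact hTα w hw
  · intro c
    obtain ⟨u, hu⟩ := hTs (fun w => c w.1)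
    refine ⟨u, u.2, ?_⟩
    intro v hv
    obtain ⟨w, hw, rfl⟩ := Finset.mem_map.1 hv
    exact hu w hw

end Fermat.Agent.S14
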