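import Mathlib

/-!
# S14/GaussCore : the element `γ(χ) = g(χ)^p` (a product of Jacobi sums) and its power residue symbol

`F` a finite field, `χ : MulChar F R` of prime order `p`.
* `gam p χ = χ(-1) #F ∏_{i=1}^{p-2} J(χ,χ^i)`
* `gam_pow_mul` : `gam p χ ^ ((#(R/q) - 1)/p) * χ (#(R/q)) ≡ 1 mod q`
* `dvd_gam`, `gam_mul_gam_inv : gam p χ * gam p χ⁻¹ = #F ^ p`
-/

set_option autoImplicit false
set_option linter.unusedSectionVars false
set_option linter.style.haveILetI false

namespace Fermat.Agent.S14.GaussCore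

open Finset MulChar AddChar

variable {F : Type*} [Field F] [Fintype F]

/-- `γ(χ) = χ(-1) #F ∏_{i=1}^{p-2} J(χ,χ^i)  (= g(χ)^p)`. -/
noncomputable def gam {R : Type*} [CommRing R] (p : ℕ) (χ : MulChar F R) : R :=
  χ (-1) * (Fintype.card F : R) * ∏ i ∈ Ico 1 (p - 1), jacobiSum χ (χ ^ i)

theorem gam_map {R R' : Type*} [CommRing R] [CommRing R'] (f : R →+* R') (p : ℕ)
    (χ : MulChar F R) : f (gam p χ) = gam p (χ.ringHomComp f) := by
  unfold gam
  rw [map_mul, map_mul, map_natCast, map_prod]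
  congr 1
  refine Finset.prod_congr rfl fun i _ => ?_
  rw [ringHomComp_pow, jacobiSum_ringHomComp]

theorem dvd_gam {R : Type*} [CommRing R] (p : ℕ) (χ : MulChar F R) :
    (Fintype.card F : R) ∣ gam p χ :=
  Dvd.dvd.mul_right (Dvd.intro_left _ rfl) _

theorem gaussSum_pow_eq_gam {R : Type*} [CommRing R] [IsDomain R] {p : ℕ} (hp : 2 ≤ p)
    {χ : MulChar F R} (hχ : orderOf χ = p) {ψ : AddChar F R} (hψ : ψ.IsPrimitive) :
    gaussSum χ ψ ^ p = gam p χ := by
  have := gaussSum_pow_eq_prod_jacobiSum (χ := χ) (ψ := ψ) (by rw [hχ]; exact hp) hψ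
  rw [hχ] at this
  exact this

theorem orderOf_ringHomComp {R R' : Type*} [CommRing R] [CommRing R'] {f : R →+* R'}
    (hf : Function.Injective f) (χ : MulChar F R) :
    orderOf (χ.ringHomComp f) = orderOf χ := by
  refine orderOf_eq_orderOf_iff.mpr fun n => ?_
  rw [ringHomComp_pow, ringHomComp_eq_one_iff hf]

theorem gaussSum_frob_iter {R' : Type*} [CommRing R'] (ℓ : ℕ) [Fact ℓ.Prime] [CharP R' ℓ]
    (χ : MulChar F R') (ψ : AddChar F R') (f : ℕ) :
    gaussSum χ ψ ^ (ℓ ^ f) = gaussSum (χ ^ (ℓ ^ f)) (ψ ^ (ℓ ^ f)) := by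
  induction f with
  | zero => simp
  | succ f ih => rw [pow_succ, pow_mul, ih, gaussSum_frob, ← pow_mul, ← pow_mul]

theorem ne_one_of_orderOf {R : Type*} [CommRing R] {p : ℕ} (hp : p.Prime) {χ : MulChar F R}
    (hχ : orderOf χ = p) : χ ≠ 1 := by
  intro h
  rw [h, orderOf_one] at hχ
  exact hp.one_lt.ne hχ

/-- a character of prime order `p` with values in a finite field `F'`: `p ∣ #F' - 1`. -/
theorem dvd_card_sub_one {F' : Type*} [Field F'] [Fintype F'] {p : ℕ} (hp : p.Prime)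
    {χ : MulChar F F'} (hχ : orderOf χ = p) : p ∣ Fintype.card F' - 1 := by
  have hne : χ ≠ 1 := ne_one_of_orderOf hp hχ
  obtain ⟨a, ha⟩ := MulChar.ne_one_iff.mp hne
  have hpow : (χ a) ^ p = 1 := by
    rw [← MulChar.pow_apply_coe, ← hχ, pow_orderOf_eq_one, MulChar.one_apply_coe]
  have hu : IsUnit (χ a) := a.isUnit.map χ
  obtain ⟨u, hu'⟩ := hu
  have h1 : u ^ p = 1 := by
    apply Units.ext
    rw [Units.val_pow_eq_pow_val, hu', hpow, Units.val_one]
  have h2 : u ≠ 1 := by
    intro h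
    apply ha
    rw [← hu', h, Units.val_one]
  haveI := Fact.mk hp
  have h3 : orderOf u = p := orderOf_eq_prime h1 h2
  classical
  rw [← h3, ← Fintype.card_units]
  exact orderOf_dvd_card

/-- the Frobenius congruence for `γ(χ)`, over a finite field. -/
theorem gam_pow_mul_field {F' : Type*} [Field F'] [Fintype F'] {p : ℕ} (hp : p.Prime)
    {χ : MulChar F F'} (hχ : orderOf χ = p) (hm : (Fintype.card F : F') ≠ 0) :
    gam p χ ^ ((Fintype.card F' - 1) / p) * χ ((Fintype.card F' : ℕ) : F) = 1 := by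
  obtain ⟨n, hpF, hcF⟩ := FiniteField.card F (ringChar F)
  obtain ⟨n', hp', hc'⟩ := FiniteField.card F' (ringChar F')
  have hch₁ : ringChar F' ≠ ringChar F := by
    intro h
    apply hm
    rw [hcF, ← h, Nat.cast_pow, ringChar.Nat.cast_ringChar]
    exact zero_pow n.pos.ne'
  let ψ := FiniteField.primitiveChar F F' hch₁
  let FF' := CyclotomicField ψ.n F'
  have hchar := Algebra.ringChar_eq F' FF'
  haveI := Fact.mk hp'
  haveI : CharP FF' (ringChar F') := by rw [hchar]; exact ringChar.charP FF'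
  have hinj : Function.Injective (algebraMap F' FF') := (algebraMap F' FF').injective
  set χ' : MulChar F FF' := χ.ringHomComp (algebraMap F' FF') with hχ'def
  have hχ' : orderOf χ' = p := by rw [hχ'def, orderOf_ringHomComp hinj, hχ]
  have hne : χ' ≠ 1 := ne_one_of_orderOf hp hχ'
  have hdvd : p ∣ Fintype.card F' - 1 := dvd_card_sub_one hp hχ
  have hcard1 : 1 ≤ Fintype.card F' := Fintype.card_pos
  set N := Fintype.card F' with hN
  set g := gaussSum χ' ψ.char with hg
  have hmF : ((Fintype.card F : ℕ) : FF') ≠ 0 := by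
    rw [← map_natCast (algebraMap F' FF')]
    exact fun h => hm (hinj (by rw [h, map_zero]))
  have hg0 : g ≠ 0 := gaussSum_ne_zero_of_nontrivial hmF hne ψ.prim
  have hgp : g ^ p = gam p χ' := gaussSum_pow_eq_gam hp.two_le hχ' ψ.prim
  -- `N` is a unit in `F`
  have hNunit : IsUnit ((N : ℕ) : F) := by
    rw [hc', Nat.cast_pow]
    apply IsUnit.pow
    rw [isUnit_iff_ne_zero]
    intro h
    have h1 : ringChar F ∣ ringChar F' := (ringChar.spec F _).mp h
    exact hch₁ ((Nat.prime_dvd_prime_iff_eq hpF hp').mp h1).symm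
  have hχN : χ' ^ N = χ' := by
    obtain ⟨c, hc⟩ := hdvd
    have : N = 1 + p * c := by omega
    rw [this, pow_add, pow_one, pow_mul, ← hχ', pow_orderOf_eq_one, one_pow, mul_one]
  have hfrob : g ^ N = χ'⁻¹ ((N : ℕ) : F) * g := by
    have h1 : g ^ N = gaussSum (χ' ^ N) (ψ.char ^ N) := by
      rw [hc']
      exact gaussSum_frob_iter (ringChar F') χ' ψ.char n'
    rw [h1, hχN, pow_mulShift]
    have := gaussSum_mulShift_eq χ' ψ.char hNunit.unit
    rw [hNunit.unit_spec] at this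
    exact this
  have hgN1 : g ^ (N - 1) = χ'⁻¹ ((N : ℕ) : F) := by
    have : g ^ (N - 1) * g = χ'⁻¹ ((N : ℕ) : F) * g := by
      rw [← pow_succ, Nat.sub_add_cancel hcard1, hfrob]
    exact mul_right_cancel₀ hg0 this
  apply hinj
  rw [map_mul, map_pow, gam_map, map_one, ← hχ'def, ← hgp, ← pow_mul, Nat.mul_div_cancel' hdvd, hgN1,
    ← MulChar.ringHomComp_apply, ← hχ'def, MulChar.inv_apply_eq_inv]
  exact Ring.inverse_mul_cancel _ (hNunit.map χ')

/-- reduction mod `q ∌ p` does not change the order `p` of a character. -/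
theorem orderOf_ringHomComp_of_notMem {R R' : Type*} [CommRing R] [IsDomain R] [CommRing R']
    [Nontrivial R'] {p : ℕ} (hp : p.Prime) {χ : MulChar F R} (hχ : orderOf χ = p) (f : R →+* R')
    (hpf : (p : R') ≠ 0) : orderOf (χ.ringHomComp f) = p := by
  haveI := Fact.mk hp
  refine orderOf_eq_prime ?_ ?_
  · rw [ringHomComp_pow, ← hχ, pow_orderOf_eq_one, ringHomComp_one]
  · intro h
    obtain ⟨a, ha⟩ := MulChar.ne_one_iff.mp (ne_one_of_orderOf hp hχ)
    have hpow : (χ a) ^ p = 1 := by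
      rw [← MulChar.pow_apply_coe, ← hχ, pow_orderOf_eq_one, MulChar.one_apply_coe]
    have hsum : ∑ i ∈ range p, (χ a) ^ i = 0 := by
      have h1 := geom_sum_mul (χ a) p
      rw [hpow, sub_self] at h1
      exact (mul_eq_zero.mp h1).resolve_right (sub_ne_zero.mpr ha)
    have h2 : f (χ a) = 1 := by
      rw [← MulChar.ringHomComp_apply, h, MulChar.one_apply_coe]
    apply hpf
    have h3 := congrArg f hsum
    rw [map_sum, map_zero] at h3
    simpa [map_pow, h2] using h3

/-- **(G1)** the Frobenius congruence for `γ(χ)`. -/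
theorem gam_pow_mul {R : Type*} [CommRing R] [IsDomain R] {p : ℕ} (hp : p.Prime)
    {χ : MulChar F R} (hχ : orderOf χ = p) (q : Ideal R) [q.IsMaximal] [Finite (R ⧸ q)]
    (hm : (Fintype.card F : R) ∉ q) (hpq : (p : R) ∉ q) :
    p ∣ Nat.card (R ⧸ q) - 1 ∧
    gam p χ ^ ((Nat.card (R ⧸ q) - 1) / p) * χ ((Nat.card (R ⧸ q) : ℕ) : F) - 1 ∈ q := by
  letI := Ideal.Quotient.field q
  letI := Fintype.ofFinite (R ⧸ q)
  have hp' : ((p : ℕ) : R ⧸ q) ≠ 0 := by
    rw [← map_natCast (Ideal.Quotient.mk q), Ne, Ideal.Quotient.eq_zero_iff_mem]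
    exact hpq
  have hm' : ((Fintype.card F : ℕ) : R ⧸ q) ≠ 0 := by
    rw [← map_natCast (Ideal.Quotient.mk q), Ne, Ideal.Quotient.eq_zero_iff_mem]
    exact hm
  have hord := orderOf_ringHomComp_of_notMem hp hχ (Ideal.Quotient.mk q) hp'
  have key := gam_pow_mul_field hp hord hm'
  rw [Nat.card_eq_fintype_card]
  refine ⟨dvd_card_sub_one hp hord, ?_⟩
  rw [← Ideal.Quotient.eq_zero_iff_mem, map_sub, map_mul, map_pow, gam_map, map_one,
    ← MulChar.ringHomComp_apply, key, sub_self]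

/-- **(G2)** `γ(χ) γ(χ⁻¹) = #F ^ p`. -/
theorem gam_mul_gam_inv {R : Type*} [CommRing R] [IsDomain R] {p : ℕ} (hp : p.Prime)
    {χ : MulChar F R} (hχ : orderOf χ = p) (hm : (Fintype.card F : R) ≠ 0) :
    gam p χ * gam p χ⁻¹ = (Fintype.card F : R) ^ p := by
  obtain ⟨n, hpF, hcF⟩ := FiniteField.card F (ringChar F)
  let F' := FractionRing R
  have hinj0 : Function.Injective (algebraMap R F') := IsFractionRing.injective R F'
  have hch₁ : ringChar F' ≠ ringChar F := by
    intro h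
    apply hm
    apply hinj0
    rw [map_natCast, map_zero, hcF, ← h, Nat.cast_pow, ringChar.Nat.cast_ringChar]
    exact zero_pow n.pos.ne'
  let ψ := FiniteField.primitiveChar F F' hch₁
  let FF' := CyclotomicField ψ.n F'
  let f : R →+* FF' := (algebraMap F' FF').comp (algebraMap R F')
  have hinj : Function.Injective f := (algebraMap F' FF').injective.comp hinj0
  set χ' : MulChar F FF' := χ.ringHomComp f with hχ'def
  have hχ' : orderOf χ' = p := by rw [hχ'def, orderOf_ringHomComp hinj, hχ]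
  have hne : χ' ≠ 1 := ne_one_of_orderOf hp hχ'
  have hinv : χ' ^ (orderOf χ' - 1) = χ'⁻¹ := by
    refine (inv_eq_of_mul_eq_one_right ?_).symm
    rw [← pow_succ', Nat.sub_one_add_one_eq_of_pos χ'.orderOf_pos, pow_orderOf_eq_one]
  have h1 := gaussSum_mul_gaussSum_pow_orderOf_sub_one hne ψ.prim
  rw [hinv] at h1
  have hχ'inv : orderOf χ'⁻¹ = p := by rw [orderOf_inv, hχ']
  have hg1 := gaussSum_pow_eq_gam hp.two_le hχ' ψ.prim
  have hg2 := gaussSum_pow_eq_gam hp.two_le hχ'inv ψ.prim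
  have hneg : (χ' (-1)) ^ p = 1 := by
    have : ((-1 : Fˣ) : F) = -1 := by simp
    rw [← this, ← MulChar.pow_apply_coe, ← hχ', pow_orderOf_eq_one, MulChar.one_apply_coe]
  apply hinj
  rw [map_mul, gam_map, gam_map, ← ringHomComp_inv, ← hχ'def, ← hg1, ← hg2, ← mul_pow, h1, mul_pow, hneg,
    one_mul, map_pow, map_natCast]

end Fermat.Agent.S14.GaussCore
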