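import Fermat.Agent.S14.Sym
import Fermat.Agent.S14.GaussCore

/-!
# S14/Gauss : the element `γ_m = g(χ)^p ∈ 𝓞_K`, `K = ℚ(ζ_p)`, `m ≡ 1 mod p` prime
-/

set_option autoImplicit false
set_option linter.unusedSectionVars false
set_option linter.style.haveILetI false

open NumberField IsDedekindDomain

namespace Fermat.Agent.S14

namespace Gauss

/-- a rational prime `m ≠ p` is unramified in `ℚ(ζ_p)`. -/
theorem natCast_notMem_sq {p m : ℕ} [Fact p.Prime] [Fact m.Prime] (hmp : m ≠ p) {K : Type} [Field K]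
    [NumberField K] [IsCyclotomicExtension {p} ℚ K] (v : Pr K) (hv : (m : 𝓞 K) ∈ v.asIdeal) :
    (m : 𝓞 K) ∉ v.asIdeal ^ 2 := by
  have hm : m.Prime := Fact.out
  have hp : p.Prime := Fact.out
  have hmax : (Ideal.span {(m : ℤ)}).IsMaximal := by
    have : Prime (m : ℤ) := Nat.prime_iff_prime_int.mp hm
    exact (Ideal.span_singleton_prime this.ne_zero).mpr this |>.isMaximal
      (by simpa using this.ne_zero)
  have hle : Ideal.span {(m : ℤ)} ≤ v.asIdeal.under ℤ := by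
    rw [Ideal.span_singleton_le_iff_mem, Ideal.mem_comap]
    simpa using hv
  have hne : v.asIdeal.under ℤ ≠ ⊤ := (Ideal.IsPrime.under ℤ v.asIdeal).ne_top
  haveI : v.asIdeal.LiesOver (Ideal.span {(m : ℤ)}) := ⟨hmax.eq_of_le hne hle⟩
  have h1 := IsCyclotomicExtension.Rat.ramificationIdx_eq_of_not_dvd m K v.asIdeal (m := p)
    (fun h => hmp ((Nat.prime_dvd_prime_iff_eq hm hp).mp h))
  have hbot : Ideal.span {(m : ℤ)} ≠ ⊥ := by
    simpa using hm.ne_zero
  have h2 := Ideal.ramificationIdx'_eq_ramificationIdx (Ideal.span {(m : ℤ)}) v.asIdeal hbot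
  have hmap : Ideal.map (algebraMap ℤ (𝓞 K)) (Ideal.span {(m : ℤ)}) = Ideal.span {(m : 𝓞 K)} := by
    rw [Ideal.map_span, Set.image_singleton]
    simp
  have h3 := Ideal.ramificationIdx'_ne_one_iff (p := Ideal.span {(m : ℤ)}) (P := v.asIdeal)
    (by rw [hmap, Ideal.span_singleton_le_iff_mem]; exact hv)
  intro hsq
  apply h3.mpr (by rw [hmap, Ideal.span_singleton_le_iff_mem]; exact hsq)
  rw [h2, h1]

/-- the kernel of a character of prime order `p` consists of the `p`-th powers. -/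
theorem exists_pow_eq_of_apply_eq_one {F R : Type*} [Field F] [Fintype F] [CommRing R] [IsDomain R]
    {p : ℕ} (hp : p.Prime) {χ : MulChar F R} (hχ : orderOf χ = p) {a : F} (ha : a ≠ 0)
    (h : χ a = 1) : ∃ c : F, c ^ p = a := by
  haveI := Fact.mk hp
  obtain ⟨g, hg⟩ := IsCyclic.exists_generator (α := Fˣ)
  have hpow : ∀ u : Fˣ, ∃ n : ℕ, g ^ n = u := fun u =>
    (mem_powers_iff_mem_zpowers.mpr (hg u))
  have hg1 : χ g ≠ 1 := by
    intro h1
    apply GaussCore.ne_one_of_orderOf hp hχ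
    rw [MulChar.eq_one_iff]
    intro u
    obtain ⟨n, rfl⟩ := hpow u
    rw [Units.val_pow_eq_pow_val, map_pow, h1, one_pow]
  have hgp : (χ g) ^ p = 1 := by
    rw [← MulChar.pow_apply_coe, ← hχ, pow_orderOf_eq_one, MulChar.one_apply_coe]
  have hord : orderOf (χ g) = p := orderOf_eq_prime hgp hg1
  obtain ⟨n, hn⟩ := hpow (Units.mk0 a ha)
  have ha' : a = (g : F) ^ n := by
    rw [← Units.val_pow_eq_pow_val, hn, Units.val_mk0]
  rw [ha', map_pow] at h
  have hdvd : p ∣ n := hord ▸ orderOf_dvd_of_pow_eq_one h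
  obtain ⟨t, rfl⟩ := hdvd
  exact ⟨(g : F) ^ t, by rw [ha', ← pow_mul, mul_comm]⟩

end Gauss

open Gauss in
theorem exists_gamma {p : ℕ} [Fact p.Prime] (hp : p ≠ 2) {K : Type} [Field K] [NumberField K]
    [IsCyclotomicExtension {p} ℚ K] {ζ : K} (hζ : IsPrimitiveRoot ζ p) {m : ℕ} (hm : m.Prime)
    (hmp : m % p = 1) :
    ∃ (γ : K) (lg : ZMod m → ZMod p), γ ≠ 0 ∧
      (∀ a b : ZMod m, a ≠ 0 → b ≠ 0 → lg (a * b) = lg a + lg b) ∧
      (∀ a : ZMod m, a ≠ 0 → (lg a = 0 ↔ ∃ c : ZMod m, c ^ p = a)) ∧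
      (∀ v : Pr K, ord v (m : K) = 0 → ord v γ = 0) ∧
      (∀ v : Pr K, ord v (m : K) ≠ 0 → ¬ (p : ℤ) ∣ ord v γ) ∧
      (∀ v : Pr K, ord v (m : K) = 0 → ord v (p : K) = 0 → sym p ζ v γ = - lg (Nv v : ZMod m)) := by
  classical
  have hpp : p.Prime := Fact.out
  haveI := Fact.mk hm
  have hne_mp : m ≠ p := by
    rintro rfl
    rw [Nat.mod_self] at hmp
    exact zero_ne_one hmp
  set z : 𝓞 K := hζ.toInteger with hzdef
  have hz : IsPrimitiveRoot z p := hζ.toInteger_isPrimitiveRoot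
  have hzζ : (z : K) = ζ := rfl
  have hdvd : p ∣ Fintype.card (ZMod m) - 1 := by
    rw [ZMod.card]
    exact (Nat.modEq_iff_dvd' hm.one_lt.le).mp (by rw [Nat.ModEq, hmp, Nat.mod_eq_of_lt hpp.one_lt])
  obtain ⟨χ, hχ⟩ := MulChar.exists_mulChar_orderOf (ZMod m) hdvd hz
  have hχp : χ ^ p = 1 := by rw [← hχ, pow_orderOf_eq_one]
  have hex : ∀ a : ZMod m, a ≠ 0 → ∃ j : ZMod p, χ a = z ^ j.val := by
    intro a ha
    obtain ⟨k, hk, hk'⟩ := MulChar.exists_apply_eq_pow hχp hz ha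
    exact ⟨(k : ZMod p), by rw [ZMod.val_natCast_of_lt hk, hk']⟩
  let lg : ZMod m → ZMod p := fun a => if h : a ≠ 0 then (hex a h).choose else 0
  have hlg : ∀ a : ZMod m, a ≠ 0 → χ a = z ^ (lg a).val := by
    intro a ha
    simp only [lg, dif_pos ha]
    exact (hex a ha).choose_spec
  have huniq : ∀ i j : ZMod p, z ^ i.val = z ^ j.val → i = j := by
    intro i j h
    exact ZMod.val_injective p (hz.pow_inj (ZMod.val_lt i) (ZMod.val_lt j) h)
  have hzcast : ∀ n : ℕ, z ^ n = z ^ ((n : ZMod p)).val := by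
    intro n
    rw [ZMod.val_natCast]
    exact pow_eq_pow_mod n hz.pow_eq_one
  set g : 𝓞 K := GaussCore.gam p χ with hgdef
  set g' : 𝓞 K := GaussCore.gam p χ⁻¹ with hg'def
  have hm0 : (m : 𝓞 K) ≠ 0 := by exact_mod_cast hm.ne_zero
  have hp0 : (p : 𝓞 K) ≠ 0 := by exact_mod_cast hpp.ne_zero
  have hgg' : g * g' = (m : 𝓞 K) ^ p := by
    have := GaussCore.gam_mul_gam_inv hpp hχ (by rw [ZMod.card]; exact hm0)
    rwa [ZMod.card] at this
  have hg0 : g ≠ 0 := by
    intro h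
    rw [h, zero_mul] at hgg'
    exact pow_ne_zero p hm0 hgg'.symm
  have hg'0 : g' ≠ 0 := by
    intro h
    rw [h, mul_zero] at hgg'
    exact pow_ne_zero p hm0 hgg'.symm
  have hgK : (g : K) ≠ 0 := by simpa using hg0
  have hg'K : (g' : K) ≠ 0 := by simpa using hg'0
  have hmK : ((m : 𝓞 K) : K) = (m : K) := by simp
  have hpK : ((p : 𝓞 K) : K) = (p : K) := by simp
  have hsum : ∀ v : Pr K, ord v (g : K) + ord v (g' : K) = p * ord v (m : K) := by
    intro v
    rw [← ord_mul v hgK hg'K, ← ord_pow, ← hmK]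
    congr 1
    exact_mod_cast congrArg (fun x : 𝓞 K => (x : K)) hgg'
  have hmg : (m : 𝓞 K) ∣ g := by
    have := GaussCore.dvd_gam p χ
    rwa [ZMod.card] at this
  have hmg' : (m : 𝓞 K) ∣ g' := by
    have := GaussCore.dvd_gam p χ⁻¹
    rwa [ZMod.card] at this
  refine ⟨(g : K), lg, hgK, ?_, ?_, ?_, ?_, ?_⟩
  · intro a b ha hb
    apply huniq
    rw [← hlg (a * b) (mul_ne_zero ha hb), map_mul, hlg a ha, hlg b hb, ← pow_add, hzcast]
    congr 2
    rw [Nat.cast_add, ZMod.natCast_zmod_val, ZMod.natCast_zmod_val]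
  · intro a ha
    constructor
    · intro h
      apply exists_pow_eq_of_apply_eq_one hpp hχ ha
      rw [hlg a ha, h, ZMod.val_zero, pow_zero]
    · rintro ⟨c, rfl⟩
      apply huniq
      rw [← hlg _ ha, map_pow, ZMod.val_zero, pow_zero]
      have hc : c ≠ 0 := by
        rintro rfl
        exact ha (zero_pow hpp.ne_zero)
      rw [← MulChar.pow_apply' χ hpp.ne_zero, hχp, MulChar.one_apply (isUnit_iff_ne_zero.mpr hc)]
  · intro v hv
    have h1 := hsum v
    rw [hv, mul_zero] at h1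
    have h2 := ord_nonneg v g
    have h3 := ord_nonneg v g'
    omega
  · intro v hv
    have hmem : (m : 𝓞 K) ∈ v.asIdeal := by
      by_contra h
      exact hv (by rw [← hmK]; exact (ord_eq_zero_iff v hm0).mpr h)
    have hnsq := natCast_notMem_sq hne_mp v hmem
    have hord1 : ord v (m : K) = 1 := by
      have h1 : (1 : ℤ) ≤ ord v ((m : 𝓞 K) : K) := by
        have := (le_ord_iff v hm0 1).mpr (by rwa [pow_one])
        exact_mod_cast this
      have h2 : ¬ (2 : ℤ) ≤ ord v ((m : 𝓞 K) : K) := by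
        intro h
        exact hnsq ((le_ord_iff v hm0 2).mp (by exact_mod_cast h))
      rw [← hmK]
      omega
    have hge : ∀ x : 𝓞 K, x ≠ 0 → (m : 𝓞 K) ∣ x → (1 : ℤ) ≤ ord v (x : K) := by
      intro x hx hdx
      have := (le_ord_iff v hx 1).mpr (by rw [pow_one]; exact Ideal.mem_of_dvd _ hdx hmem)
      exact_mod_cast this
    have h1 := hge g hg0 hmg
    have h2 := hge g' hg'0 hmg'
    have h3 := hsum v
    rw [hord1, mul_one] at h3
    rintro ⟨t, ht⟩
    have hp1 : (1 : ℤ) < p := by exact_mod_cast hpp.one_lt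
    rw [ht] at h1 h3
    have ht1 : 1 ≤ t := by
      by_contra hlt
      have : t ≤ 0 := by omega
      nlinarith
    nlinarith
  · intro v hvm hvp
    have hmv : (m : 𝓞 K) ∉ v.asIdeal := (ord_eq_zero_iff v hm0).mp (by rw [hmK]; exact hvm)
    have hpv : (p : 𝓞 K) ∉ v.asIdeal := (ord_eq_zero_iff v hp0).mp (by rw [hpK]; exact hvp)
    haveI : v.asIdeal.IsMaximal := v.isMaximal
    haveI : Finite (𝓞 K ⧸ v.asIdeal) := Ideal.finiteQuotientOfFreeOfNeBot v.asIdeal v.ne_bot
    obtain ⟨-, key⟩ := GaussCore.gam_pow_mul hpp hχ v.asIdeal (by rw [ZMod.card]; exact hmv) hpv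
    rw [← Nv_eq_card, ← hgdef] at key
    have hN0 : ((Nv v : ℕ) : ZMod m) ≠ 0 := by
      intro h
      rw [h, MulChar.map_zero, mul_zero, zero_sub] at key
      exact v.isPrime.ne_top ((Ideal.eq_top_iff_one _).mpr (by simpa using key))
    rw [hlg _ hN0] at key
    set l := lg ((Nv v : ℕ) : ZMod m) with hl
    apply sym_eq_of_cong hζ v hvp
    have hzz : z ^ l.val * z ^ (-l).val = 1 := by
      rw [← pow_add, hzcast, Nat.cast_add, ZMod.natCast_zmod_val, ZMod.natCast_zmod_val, add_neg_cancel,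
        ZMod.val_zero, pow_zero]
    have hmem : g ^ ((Nv v - 1) / p) - z ^ (-l).val ∈ v.asIdeal ^ 1 := by
      rw [pow_one]
      have : g ^ ((Nv v - 1) / p) - z ^ (-l).val
          = (g ^ ((Nv v - 1) / p) * z ^ l.val - 1) * z ^ (-l).val := by
        rw [sub_mul, mul_assoc, hzz, mul_one, one_mul]
      rw [this]
      exact Ideal.mul_mem_right _ _ key
    have := (cong_integer_iff v 1 _ _).mpr hmem
    simpa [hzζ] using this

end Fermat.Agent.S14
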