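import Mathlib

/-!
# S14/Herbrand : Chevalley's rank lemma for the Herbrand quotient of a cyclic group of prime order

`A` a finitely generated abelian group, `σ` an endomorphism with `σ ^ p = 1`, `D = σ - 1`,
`N = ∑_{i<p} σ^i`, `h0 = (ker D : N A)`, `hm1 = (ker N : D A)`.  Then
`h0 ^ (p-1) * p ^ rk A = hm1 ^ (p-1) * p ^ (p * rk (ker D))`.
No hexagon lemma: with `Y = A / (ker D + ker N)` one has `h0 #Y = #(ker D / p ker D)` and
`hm1 #Y = #(ker N / D ker N)`.
-/

set_option autoImplicit false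

open Module

namespace Fermat.Agent.S14.Herbrand

section chi

variable {X : Type*} [AddCommGroup X]

/-- an endomorphism with finite kernel and cokernel. -/
structure Good (φ : X →+ X) : Prop where
  i_ne : φ.range.index ≠ 0
  k_ne : Nat.card φ.ker ≠ 0

theorem comp_aux (φ ψ : X →+ X) : ∃ s ρ c : ℕ,
    (φ.comp ψ).range.index = s * φ.range.index ∧ ρ * s = ψ.range.index ∧
    c * ρ = Nat.card φ.ker ∧ Nat.card ψ.ker * c = Nat.card (φ.comp ψ).ker := by
  refine ⟨(ψ.range ⊔ φ.ker).index, ψ.range.relIndex φ.ker, Nat.card ↥(ψ.range ⊓ φ.ker), ?_, ?_, ?_, ?_⟩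
  · rw [← AddMonoidHom.map_range, AddSubgroup.index_map]
  · rw [← AddSubgroup.relIndex_sup_left (K := ψ.range) (H := φ.ker)]
    exact AddSubgroup.relIndex_mul_index le_sup_left
  · have := AddSubgroup.relIndex_mul_relIndex ⊥ (ψ.range ⊓ φ.ker) φ.ker bot_le inf_le_right
    rwa [AddSubgroup.relIndex_bot_left, AddSubgroup.relIndex_bot_left,
      AddSubgroup.inf_relIndex_right] at this
  · have hk : (φ.comp ψ).ker = φ.ker.comap ψ := (AddMonoidHom.comap_ker φ ψ).symm
    have hle : ψ.ker ≤ (φ.comp ψ).ker := by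
      intro x hx
      rw [AddMonoidHom.mem_ker] at hx ⊢
      rw [AddMonoidHom.comp_apply, hx, map_zero]
    have := AddSubgroup.relIndex_mul_relIndex ⊥ ψ.ker (φ.comp ψ).ker bot_le hle
    rw [AddSubgroup.relIndex_bot_left, AddSubgroup.relIndex_bot_left,
      AddSubgroup.relIndex_ker, hk, AddSubgroup.map_comap_eq] at this
    exact this

theorem index_comp (φ ψ : X →+ X) :
    (φ.comp ψ).range.index * Nat.card φ.ker * Nat.card ψ.ker
      = Nat.card (φ.comp ψ).ker * φ.range.index * ψ.range.index := by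
  obtain ⟨s, ρ, c, h1, h2, h3, h4⟩ := comp_aux φ ψ
  rw [h1, ← h2, ← h3, ← h4]
  ring

theorem Good.comp {φ ψ : X →+ X} (hφ : Good φ) (hψ : Good ψ) : Good (φ.comp ψ) := by
  obtain ⟨s, ρ, c, h1, h2, h3, h4⟩ := comp_aux φ ψ
  have hs : s ≠ 0 := by
    rintro rfl
    exact hψ.i_ne (by rw [← h2, mul_zero])
  have hc : c ≠ 0 := by
    rintro rfl
    exact hφ.k_ne (by rw [← h3, zero_mul])
  exact ⟨by rw [h1]; exact mul_ne_zero hs hφ.i_ne, by rw [← h4]; exact mul_ne_zero hψ.k_ne hc⟩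

end chi

section nsmul

variable (X : Type*) [AddCommGroup X] [Module.Finite ℤ X]

theorem finrank_eq_zero_of_nsmul {Z : Type*} [AddCommGroup Z] [Module.Finite ℤ Z] {n : ℕ}
    (hn : n ≠ 0) (h : ∀ z : Z, n • z = 0) : finrank ℤ Z = 0 := by
  rw [Module.finrank_eq_zero_iff_isTorsion]
  intro z
  refine ⟨⟨(n : ℤ), ?_⟩, ?_⟩
  · rw [mem_nonZeroDivisors_iff_ne_zero]
    exact_mod_cast hn
  · show (n : ℤ) • z = 0
    rw [natCast_zsmul]
    exact h z

theorem nsmul_index {n : ℕ} (hn : n ≠ 0) :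
    Good (nsmulAddMonoidHom (α := X) n) ∧
    (nsmulAddMonoidHom (α := X) n).range.index
      = n ^ finrank ℤ X * Nat.card (nsmulAddMonoidHom (α := X) n).ker := by
  set μ := nsmulAddMonoidHom (α := X) n with hμ
  set Ts : Submodule ℤ X := Submodule.torsion ℤ X with hTs
  set T : AddSubgroup X := Ts.toAddSubgroup with hT
  have hfinT : Finite Ts := Module.finite_of_fg_torsion _ (Submodule.torsion_isTorsion)
  have hfinT' : Finite T := hfinT
  set π : X →+ (X ⧸ Ts) := Ts.mkQ.toAddMonoidHom with hπ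
  have hπs : Function.Surjective π := Ts.mkQ_surjective
  have hπk : π.ker = T := by
    ext x
    rw [AddMonoidHom.mem_ker]
    exact Submodule.Quotient.mk_eq_zero Ts
  set μY := nsmulAddMonoidHom (α := X ⧸ Ts) n with hμY
  have hrange : μY.range = μ.range.map π := by
    rw [AddMonoidHom.map_range]
    have h1 : π.comp μ = μY.comp π := by
      ext x
      simp [hμ, hμY]
    rw [h1, ← AddMonoidHom.map_range, AddMonoidHom.range_eq_top.mpr hπs, ← AddMonoidHom.range_eq_map]
  have h1 : μY.range.index = (μ.range ⊔ T).index := by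
    rw [hrange, AddSubgroup.index_map, hπk, AddMonoidHom.range_eq_top.mpr hπs, AddSubgroup.index_top,
      mul_one]
  have h2 : μ.range.relIndex T * (μ.range ⊔ T).index = μ.range.index := by
    rw [← AddSubgroup.relIndex_sup_left (K := μ.range) (H := T)]
    exact AddSubgroup.relIndex_mul_index le_sup_left
  have hinf : μ.range ⊓ T = T.map μ := by
    ext x
    constructor
    · rintro ⟨⟨y, rfl⟩, hy⟩
      refine ⟨y, ?_, rfl⟩
      obtain ⟨a, ha⟩ := hy
      have hn' : (n : ℤ) ∈ nonZeroDivisors ℤ := by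
        rw [mem_nonZeroDivisors_iff_ne_zero]
        exact_mod_cast hn
      refine ⟨a * ⟨(n : ℤ), hn'⟩, ?_⟩
      have : a • μ y = 0 := ha
      show ((a : ℤ) * (n : ℤ)) • y = 0
      rw [mul_smul, natCast_zsmul]
      exact this
    · rintro ⟨y, hy, rfl⟩
      exact ⟨⟨y, rfl⟩, T.nsmul_mem hy n⟩
  have hkle : μ.ker ≤ T := by
    intro x hx
    refine ⟨⟨(n : ℤ), ?_⟩, ?_⟩
    · rw [mem_nonZeroDivisors_iff_ne_zero]
      exact_mod_cast hn
    · show (n : ℤ) • x = 0
      rw [natCast_zsmul]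
      exact hx
  have h3 : Nat.card ↥(T.map μ) * (T.map μ).relIndex T = Nat.card T := by
    have hle : T.map μ ≤ T := by rw [← hinf]; exact inf_le_right
    have := AddSubgroup.relIndex_mul_relIndex ⊥ (T.map μ) T bot_le hle
    rwa [AddSubgroup.relIndex_bot_left, AddSubgroup.relIndex_bot_left] at this
  have h4 : Nat.card μ.ker * Nat.card ↥(T.map μ) = Nat.card T := by
    have := AddSubgroup.relIndex_mul_relIndex ⊥ μ.ker T bot_le hkle
    rwa [AddSubgroup.relIndex_bot_left, AddSubgroup.relIndex_bot_left,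
      AddSubgroup.relIndex_ker] at this
  have hT0 : Nat.card T ≠ 0 := Nat.card_pos.ne'
  have hc0 : Nat.card ↥(T.map μ) ≠ 0 := by
    intro h
    rw [h, zero_mul] at h3
    exact hT0 h3.symm
  have hk0 : Nat.card μ.ker ≠ 0 := by
    intro h
    rw [h, zero_mul] at h4
    exact hT0 h4.symm
  have h5 : μ.range.relIndex T = Nat.card μ.ker := by
    rw [← AddSubgroup.inf_relIndex_right, hinf]
    apply Nat.eq_of_mul_eq_mul_left (Nat.pos_of_ne_zero hc0)
    rw [h3, ← h4, mul_comm]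
  have h6 : μY.range.index = n ^ finrank ℤ (X ⧸ Ts) := AddSubgroup.index_range_nsmul _ n
  have h7 : finrank ℤ (X ⧸ Ts) = finrank ℤ X := by
    have := Submodule.finrank_quotient_add_finrank Ts
    have h0 : finrank ℤ Ts = 0 := by
      rw [Module.finrank_eq_zero_iff_isTorsion]
      exact Submodule.torsion_isTorsion
    omega
  have h8 : μ.range.index = n ^ finrank ℤ X * Nat.card μ.ker := by
    rw [← h2, h5, ← h1, h6, h7, mul_comm]
  refine ⟨⟨?_, hk0⟩, h8⟩
  rw [h8]
  exact mul_ne_zero (pow_ne_zero _ hn) hk0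

end nsmul

section poly

open Polynomial

/-- `∏_{i<n} (1 - X^(i+1))`. -/
noncomputable def PP (n : ℕ) : ℤ[X] := ∏ i ∈ Finset.range n, (1 - X ^ (i + 1))

theorem PP_succ (n : ℕ) : PP (n + 1) = PP n * (1 - X ^ (n + 1)) := by
  rw [PP, PP, Finset.prod_range_succ]

theorem PP_eq (p : ℕ) (hp : p.Prime) :
    ∃ Q : ℤ[X], PP (p - 1) = C (p : ℤ) + (∑ i ∈ Finset.range p, X ^ i) * Q := by
  have hζ := Complex.isPrimitiveRoot_exp p hp.ne_zero
  set ζ := Complex.exp (2 * Real.pi * Complex.I / p) with hζdef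
  have hp1 : p - 1 + 1 = p := Nat.sub_add_cancel hp.one_le
  have h0 : aeval ζ (PP (p - 1) - C (p : ℤ)) = 0 := by
    have h1 : IsPrimitiveRoot ζ (p - 1 + 1) := by rw [hp1]; exact hζ
    have h2 := h1.prod_one_sub_pow_eq_order
    rw [map_sub, PP, map_prod, aeval_C]
    simp only [map_sub, map_one, map_pow, aeval_X]
    rw [h2]
    have : ((p - 1 : ℕ) : ℂ) + 1 = (p : ℂ) := by exact_mod_cast congrArg (Nat.cast : ℕ → ℂ) hp1
    rw [this]
    simp
  have h3 : minpoly ℤ ζ ∣ PP (p - 1) - C (p : ℤ) := minpoly.isIntegrallyClosed_dvd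
    (hζ.isIntegral hp.pos) h0
  rw [← cyclotomic_eq_minpoly hζ hp.pos] at h3
  have : Fact p.Prime := ⟨hp⟩
  rw [cyclotomic_prime] at h3
  obtain ⟨Q, hQ⟩ := h3
  exact ⟨Q, by rw [← hQ]; ring⟩

end poly

section cyc

variable {C : Type*} [AddCommGroup C]

/-- range of an element of `AddMonoid.End`. -/
abbrev rg (f : AddMonoid.End C) : AddSubgroup C := AddMonoidHom.range (f : C →+ C)

/-- kernel of an element of `AddMonoid.End`. -/
abbrev kr (f : AddMonoid.End C) : AddSubgroup C := AddMonoidHom.ker (f : C →+ C)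

lemma rg_mul_le (a b : AddMonoid.End C) : rg (a * b) ≤ rg a := by
  rintro _ ⟨x, rfl⟩
  exact ⟨b x, rfl⟩

lemma kr_le_mul (a b : AddMonoid.End C) : kr b ≤ kr (a * b) := by
  intro x hx
  have hx' : b x = 0 := hx
  show a (b x) = 0
  rw [hx', map_zero]

lemma rg_neg (a : AddMonoid.End C) : rg (-a) = rg a := by
  ext y
  constructor
  · rintro ⟨x, rfl⟩
    exact ⟨-x, by rw [map_neg]; rfl⟩
  · rintro ⟨x, rfl⟩
    refine ⟨-x, ?_⟩
    show -(a (-x)) = a x
    rw [map_neg, neg_neg]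

lemma kr_neg (a : AddMonoid.End C) : kr (-a) = kr a := by
  ext y
  show -(a y) = 0 ↔ a y = 0
  exact neg_eq_zero

lemma one_sub_pow_same {p : ℕ} (hp : p.Prime) {σ : AddMonoid.End C} (hσ : σ ^ p = 1) {j : ℕ}
    (hj0 : 0 < j) (hjp : j < p) :
    rg (1 - σ ^ j) = rg (1 - σ) ∧ kr (1 - σ ^ j) = kr (1 - σ) := by
  have hcop : Nat.Coprime j p := (Nat.coprime_of_lt_prime hj0.ne' hjp hp).symm
  obtain ⟨m, -, hm⟩ := Nat.exists_mul_mod_eq_one_of_coprime hcop hp.one_lt
  have h1 : (σ ^ j) ^ m = σ := by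
    rw [← pow_mul, pow_eq_pow_mod _ hσ, hm, pow_one]
  have a1 : (1 - σ) * ∑ i ∈ Finset.range j, σ ^ i = 1 - σ ^ j := mul_neg_geom_sum σ j
  have a2 : (∑ i ∈ Finset.range j, σ ^ i) * (1 - σ) = 1 - σ ^ j := geom_sum_mul_neg σ j
  have b1 : (1 - σ ^ j) * ∑ i ∈ Finset.range m, (σ ^ j) ^ i = 1 - σ := by
    rw [mul_neg_geom_sum, h1]
  have b2 : (∑ i ∈ Finset.range m, (σ ^ j) ^ i) * (1 - σ ^ j) = 1 - σ := by
    rw [geom_sum_mul_neg, h1]
  constructor
  · apply le_antisymm
    · rw [← a1]; exact rg_mul_le _ _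
    · conv_lhs => rw [← b1]
      exact rg_mul_le _ _
  · apply le_antisymm
    · conv_rhs => rw [← b2]
      exact kr_le_mul _ _
    · rw [← a2]; exact kr_le_mul _ _

open Polynomial in
theorem cyc_index [Module.Finite ℤ C] {p : ℕ} (hp : p.Prime) (σ : AddMonoid.End C)
    (hN : ∑ i ∈ Finset.range p, σ ^ i = 0) :
    (rg (σ - 1)).index ≠ 0 ∧ Nat.card (kr (σ - 1)) ≠ 0 ∧
    (rg (σ - 1)).index ^ (p - 1) = p ^ finrank ℤ C * Nat.card (kr (σ - 1)) ^ (p - 1) := by
  have hσ : σ ^ p = 1 := by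
    have := mul_geom_sum σ p
    rw [hN, mul_zero] at this
    exact (sub_eq_zero.mp this.symm)
  have hr : rg (σ - 1) = rg (1 - σ) := by rw [← neg_sub, rg_neg]
  have hk : kr (σ - 1) = kr (1 - σ) := by rw [← neg_sub, kr_neg]
  rw [hr, hk]
  obtain ⟨⟨gi, gk⟩, hidx⟩ := nsmul_index C hp.ne_zero
  obtain ⟨Q, hQ⟩ := PP_eq p hp
  have hp1 : p - 1 + 1 = p := Nat.sub_add_cancel hp.one_le
  have hev : ∀ n, aeval σ (1 - X ^ (n + 1) : ℤ[X]) = 1 - σ ^ (n + 1) := by
    intro n; simp
  have htop : (aeval σ (PP (p - 1)) : AddMonoid.End C) = (p : AddMonoid.End C) := by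
    rw [hQ, map_add, map_mul, map_sum]
    simp only [map_pow, aeval_X, hN, zero_mul, add_zero, aeval_C]
    simp
  have hpe : ((p : AddMonoid.End C) : C →+ C) = nsmulAddMonoidHom p := by
    ext x
    rw [AddMonoid.End.natCast_apply]
    rfl
  -- `1 - σ` is good
  have hfac : ∃ R : AddMonoid.End C, (p : AddMonoid.End C) = (1 - σ) * R ∧
      (p : AddMonoid.End C) = R * (1 - σ) := by
    obtain ⟨n, hn⟩ : ∃ n, p - 1 = n + 1 ∨ p - 1 = 0 + 1 := ⟨p - 2, by
      have := hp.two_le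
      omega⟩
    have hcomm : ∀ P R : ℤ[X], aeval σ P * aeval σ R = aeval σ R * aeval σ P := by
      intro P R
      rw [← map_mul, ← map_mul, mul_comm]
    have hdvd : (1 - X : ℤ[X]) ∣ PP (p - 1) := by
      rw [PP]
      have : (1 - X : ℤ[X]) = 1 - X ^ (0 + 1) := by simp
      rw [this]
      apply Finset.dvd_prod_of_mem (fun i => (1 - X ^ (i + 1) : ℤ[X]))
      rw [Finset.mem_range]
      have := hp.two_le
      omega
    obtain ⟨R, hR⟩ := hdvd
    refine ⟨aeval σ R, ?_, ?_⟩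
    · rw [← htop, hR, map_mul]; simp
    · rw [← htop, hR, map_mul, hcomm]; simp
  obtain ⟨R, hR1, hR2⟩ := hfac
  have i0 : (rg (1 - σ)).index ≠ 0 := by
    have hle : rg (p : AddMonoid.End C) ≤ rg (1 - σ) := by rw [hR1]; exact rg_mul_le _ _
    have hd := AddSubgroup.index_dvd_of_le hle
    intro h
    rw [h, zero_dvd_iff] at hd
    apply gi
    rw [← hpe]
    exact hd
  have k0 : Nat.card (kr (1 - σ)) ≠ 0 := by
    have hle : kr (1 - σ) ≤ kr (p : AddMonoid.End C) := by
      conv_rhs => rw [hR2]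
      exact kr_le_mul _ _
    have hd := AddSubgroup.card_dvd_of_le hle
    intro h
    rw [h, zero_dvd_iff] at hd
    apply gk
    rw [← hpe]
    exact hd
  refine ⟨i0, k0, ?_⟩
  -- induction
  have key : ∀ n, n ≤ p - 1 → Good ((aeval σ (PP n) : AddMonoid.End C) : C →+ C) ∧
      (rg (aeval σ (PP n))).index * Nat.card (kr (1 - σ)) ^ n
        = Nat.card (kr (aeval σ (PP n))) * (rg (1 - σ)).index ^ n := by
    intro n
    induction n with
    | zero =>
      intro _
      have h1 : (aeval σ (PP 0) : AddMonoid.End C) = 1 := by simp [PP]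
      have hr1 : rg (1 : AddMonoid.End C) = ⊤ := by
        rw [eq_top_iff]
        intro x _
        exact ⟨x, rfl⟩
      have hk1 : kr (1 : AddMonoid.End C) = ⊥ := by
        rw [eq_bot_iff]
        intro x hx
        exact hx
      rw [h1]
      refine ⟨⟨?_, ?_⟩, ?_⟩
      · show (rg (1 : AddMonoid.End C)).index ≠ 0
        rw [hr1]; simp
      · show Nat.card (kr (1 : AddMonoid.End C)) ≠ 0
        rw [hk1]; simp
      · rw [hr1, hk1]; simp
    | succ n ih =>
      intro hn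
      obtain ⟨g, e⟩ := ih (by omega)
      obtain ⟨s1, s2⟩ := one_sub_pow_same hp hσ (j := n + 1) (by omega) (by omega)
      have hmul : (aeval σ (PP (n + 1)) : AddMonoid.End C)
          = aeval σ (PP n) * (1 - σ ^ (n + 1)) := by
        rw [PP_succ, map_mul, hev]
      have g2 : Good ((1 - σ ^ (n + 1) : AddMonoid.End C) : C →+ C) :=
        ⟨by show (rg (1 - σ ^ (n + 1))).index ≠ 0
            rw [s1]; exact i0,
         by show Nat.card (kr (1 - σ ^ (n + 1))) ≠ 0
            rw [s2]; exact k0⟩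
      have hc := index_comp ((aeval σ (PP n) : AddMonoid.End C) : C →+ C)
        ((1 - σ ^ (n + 1) : AddMonoid.End C) : C →+ C)
      have hg := g.comp g2
      rw [hmul]
      refine ⟨hg, ?_⟩
      have hc' : (rg (aeval σ (PP n) * (1 - σ ^ (n + 1)))).index * Nat.card (kr (aeval σ (PP n)))
          * Nat.card (kr (1 - σ)) = Nat.card (kr (aeval σ (PP n) * (1 - σ ^ (n + 1))))
          * (rg (aeval σ (PP n))).index * (rg (1 - σ)).index := by
        rw [← s1, ← s2]
        exact hc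
      apply Nat.eq_of_mul_eq_mul_left (Nat.pos_of_ne_zero g.k_ne)
      show Nat.card (kr (aeval σ (PP n))) * _ = Nat.card (kr (aeval σ (PP n))) * _
      calc Nat.card (kr (aeval σ (PP n))) * ((rg (aeval σ (PP n) * (1 - σ ^ (n + 1)))).index
            * Nat.card (kr (1 - σ)) ^ (n + 1))
          = ((rg (aeval σ (PP n) * (1 - σ ^ (n + 1)))).index * Nat.card (kr (aeval σ (PP n)))
              * Nat.card (kr (1 - σ))) * Nat.card (kr (1 - σ)) ^ n := by ring
        _ = Nat.card (kr (aeval σ (PP n) * (1 - σ ^ (n + 1)))) * (rg (1 - σ)).index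
              * ((rg (aeval σ (PP n))).index * Nat.card (kr (1 - σ)) ^ n) := by rw [hc']; ring
        _ = _ := by rw [e]; ring
  obtain ⟨-, e⟩ := key (p - 1) le_rfl
  rw [htop] at e
  have e1 : (rg (p : AddMonoid.End C)).index = p ^ finrank ℤ C * Nat.card (kr (p : AddMonoid.End C)) := by
    show (AddMonoidHom.range ((p : AddMonoid.End C) : C →+ C)).index = _ * Nat.card
      (AddMonoidHom.ker ((p : AddMonoid.End C) : C →+ C))
    rw [hpe]
    exact hidx
  have k1 : Nat.card (kr (p : AddMonoid.End C)) ≠ 0 := by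
    show Nat.card (AddMonoidHom.ker ((p : AddMonoid.End C) : C →+ C)) ≠ 0
    rw [hpe]
    exact gk
  rw [e1] at e
  apply Nat.eq_of_mul_eq_mul_left (Nat.pos_of_ne_zero k1)
  rw [← e]
  ring

end cyc

section restr

variable {A : Type*} [AddCommGroup A]

/-- restriction of an endomorphism to a stable subgroup. -/
def restr (f : AddMonoid.End A) (S : AddSubgroup A) (h : ∀ x ∈ S, f x ∈ S) : AddMonoid.End S :=
  AddMonoidHom.mk' (fun x => ⟨f x, h x x.2⟩) (fun x y => Subtype.ext (by simp))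

@[simp] lemma restr_apply (f : AddMonoid.End A) (S : AddSubgroup A) (h : ∀ x ∈ S, f x ∈ S) (x : S) :
    ((restr f S h x : S) : A) = f x := rfl

lemma restr_index (f : AddMonoid.End A) (S : AddSubgroup A) (h : ∀ x ∈ S, f x ∈ S) :
    (rg (restr f S h)).index = (S.map (f : A →+ A)).relIndex S := by
  rw [AddSubgroup.relIndex]
  congr 1
  ext x
  rw [AddSubgroup.mem_addSubgroupOf]
  constructor
  · rintro ⟨y, rfl⟩
    exact ⟨y, y.2, rfl⟩
  · rintro ⟨y, hy, hyx⟩
    exact ⟨⟨y, hy⟩, Subtype.ext hyx⟩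

lemma restr_card_ker (f : AddMonoid.End A) (S : AddSubgroup A) (h : ∀ x ∈ S, f x ∈ S) :
    Nat.card (kr (restr f S h)) = Nat.card ↥(kr f ⊓ S) := by
  refine Nat.card_congr ⟨fun x => ⟨x.1.1, ?_, x.1.2⟩, fun x => ⟨⟨x.1, x.2.2⟩, ?_⟩, ?_, ?_⟩
  · have := x.2
    exact congrArg Subtype.val this
  · exact Subtype.ext x.2.1
  · intro x; rfl
  · intro x; rfl

lemma restr_pow (f : AddMonoid.End A) (S : AddSubgroup A) (h : ∀ x ∈ S, f x ∈ S) (n : ℕ) (x : S) :
    (((restr f S h) ^ n) x : A) = (f ^ n) (x : A) := by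
  induction n generalizing x with
  | zero => rfl
  | succ n ih =>
    rw [pow_succ, pow_succ]
    exact ih _

end restr

section rank

variable {A : Type*} [AddCommGroup A] [Module.Finite ℤ A]

instance finite_addSubgroup (S : AddSubgroup A) : Module.Finite ℤ S :=
  inferInstanceAs (Module.Finite ℤ (AddSubgroup.toIntSubmodule S))

/-- sandwich: `n T ≤ S ≤ T` implies equal ranks. -/
lemma finrank_eq_of_sandwich {n : ℕ} (hn : n ≠ 0) (S T : Submodule ℤ A) (hST : S ≤ T)
    (h : ∀ x ∈ T, n • x ∈ S) : finrank ℤ S = finrank ℤ T := by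
  have h1 := Submodule.finrank_quotient_add_finrank (S.comap T.subtype)
  have h2 : finrank ℤ (T ⧸ S.comap T.subtype) = 0 := by
    apply finrank_eq_zero_of_nsmul hn
    intro z
    obtain ⟨x, rfl⟩ := Submodule.Quotient.mk_surjective _ z
    rw [← Submodule.Quotient.mk_smul, Submodule.Quotient.mk_eq_zero]
    exact h x x.2
  have h3 : finrank ℤ (S.comap T.subtype) = finrank ℤ S :=
    (Submodule.comapSubtypeEquivOfLe hST).finrank_eq
  omega

lemma finrank_ker_add_range (f : A →+ A) :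
    finrank ℤ f.ker + finrank ℤ f.range = finrank ℤ A := by
  have h1 := Submodule.finrank_quotient_add_finrank (LinearMap.ker f.toIntLinearMap)
  have h2 : finrank ℤ (A ⧸ LinearMap.ker f.toIntLinearMap) = finrank ℤ (LinearMap.range f.toIntLinearMap) :=
    (LinearMap.quotKerEquivRange f.toIntLinearMap).finrank_eq
  have h3 : finrank ℤ (LinearMap.ker f.toIntLinearMap) = finrank ℤ f.ker := rfl
  have h4 : finrank ℤ (LinearMap.range f.toIntLinearMap) = finrank ℤ f.range := rfl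
  omega

end rank

lemma arith {p i k c : ℕ} (hp : p.Prime) (hk : k ≠ 0)
    (h : i ^ (p - 1) = p ^ c * k ^ (p - 1)) : ∃ c', c = (p - 1) * c' ∧ i = p ^ c' * k := by
  have : Fact p.Prime := ⟨hp⟩
  have hp1 : p - 1 ≠ 0 := by have := hp.two_le; omega
  have hv := congrArg (padicValNat p) h
  rw [padicValNat.pow, padicValNat.mul (pow_ne_zero _ hp.ne_zero) (pow_ne_zero _ hk),
    padicValNat.prime_pow, padicValNat.pow] at hv
  have hle : padicValNat p k ≤ padicValNat p i := by
    by_contra hlt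
    rw [not_le] at hlt
    have : (p - 1) * padicValNat p i < (p - 1) * padicValNat p k :=
      Nat.mul_lt_mul_of_pos_left hlt (Nat.pos_of_ne_zero hp1)
    omega
  obtain ⟨c', hc'⟩ := Nat.exists_eq_add_of_le hle
  have hc : c = (p - 1) * c' := by
    rw [hc', mul_add] at hv
    omega
  refine ⟨c', hc, ?_⟩
  apply Nat.pow_left_injective (n := p - 1) hp1
  show i ^ (p - 1) = (p ^ c' * k) ^ (p - 1)
  rw [h, hc, mul_pow, ← pow_mul, mul_comm c']

section main

variable {A : Type*} [AddCommGroup A] [Module.Finite ℤ A]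

/-- the norm element `∑_{i<p} σ^i`. -/
abbrev Nm (p : ℕ) (σ : AddMonoid.End A) : AddMonoid.End A := ∑ i ∈ Finset.range p, σ ^ i

omit [Module.Finite ℤ A] in
lemma Nm_apply (p : ℕ) (σ : AddMonoid.End A) (x : A) :
    Nm p σ x = ∑ i ∈ Finset.range p, (σ ^ i) x := by
  rw [Nm]
  exact map_sum (AddMonoidHom.eval x : (A →+ A) →+ A) _ _

omit [Module.Finite ℤ A] in
lemma pow_fix (σ : AddMonoid.End A) {x : A} (hx : x ∈ kr (σ - 1)) (n : ℕ) : (σ ^ n) x = x := by
  have h1 : σ x = x := sub_eq_zero.mp hx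
  induction n with
  | zero => rfl
  | succ n ih =>
    rw [pow_succ]
    show (σ ^ n) (σ x) = x
    rw [h1, ih]

omit [Module.Finite ℤ A] in
lemma Nm_fix (p : ℕ) (σ : AddMonoid.End A) {x : A} (hx : x ∈ kr (σ - 1)) : Nm p σ x = p • x := by
  rw [Nm_apply, Finset.sum_congr rfl (fun i _ => pow_fix σ hx i)]
  simp

theorem herbrand {p : ℕ} (hp : p.Prime) (σ : AddMonoid.End A) (hσ : σ ^ p = 1) :
    ∃ c : ℕ, finrank ℤ A = finrank ℤ (kr (σ - 1)) + (p - 1) * c ∧
      (rg (Nm p σ)).relIndex (kr (σ - 1)) ≠ 0 ∧ (rg (σ - 1)).relIndex (kr (Nm p σ)) ≠ 0 ∧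
      (rg (Nm p σ)).relIndex (kr (σ - 1)) * p ^ c
        = (rg (σ - 1)).relIndex (kr (Nm p σ)) * p ^ finrank ℤ (kr (σ - 1)) := by
  set D : AddMonoid.End A := σ - 1 with hD
  set N : AddMonoid.End A := Nm p σ with hN
  set X := kr D with hX
  set C := kr N with hC
  have hDN : D * N = 0 := by
    rw [hD, hN, Nm, mul_geom_sum, hσ, sub_self]
  have hND : N * D = 0 := by
    rw [hD, hN, Nm, geom_sum_mul, hσ, sub_self]
  have hNX : rg N ≤ X := by
    rintro _ ⟨x, rfl⟩
    show (D * N) x = 0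
    rw [hDN]; rfl
  have hDC : rg D ≤ C := by
    rintro _ ⟨x, rfl⟩
    show (N * D) x = 0
    rw [hND]; rfl
  set y := (X ⊔ C).index with hy
  -- the `N` side
  have hmapN : (X ⊔ C).map (N : A →+ A) = X.map (N : A →+ A) := by
    rw [AddSubgroup.map_sup, (AddSubgroup.map_eq_bot_iff C).mpr le_rfl, sup_bot_eq]
  have hmapD : (X ⊔ C).map (D : A →+ A) = C.map (D : A →+ A) := by
    rw [AddSubgroup.map_sup, (AddSubgroup.map_eq_bot_iff X).mpr le_rfl, bot_sup_eq]
  have hyN : (X.map (N : A →+ A)).relIndex (rg N) = y := by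
    rw [← hmapN, rg, AddMonoidHom.range_eq_map, AddSubgroup.relIndex_map_map]
    have e1 : X ⊔ C ⊔ (N : A →+ A).ker = X ⊔ C := by
      rw [sup_assoc]
      congr 1
      exact sup_idem C
    rw [e1, top_sup_eq, AddSubgroup.relIndex_top_right]
  have hyD : (C.map (D : A →+ A)).relIndex (rg D) = y := by
    rw [← hmapD, rg, AddMonoidHom.range_eq_map, AddSubgroup.relIndex_map_map]
    have e1 : X ⊔ C ⊔ (D : A →+ A).ker = X ⊔ C := by
      rw [sup_comm X C, sup_assoc]
      congr 1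
      exact sup_idem X
    rw [e1, top_sup_eq, AddSubgroup.relIndex_top_right]
  have hN1 : y * (rg N).relIndex X = (X.map (N : A →+ A)).relIndex X := by
    rw [← hyN]
    exact AddSubgroup.relIndex_mul_relIndex _ _ _ (AddSubgroup.map_le_range _ _) hNX
  have hD1 : y * (rg D).relIndex C = (C.map (D : A →+ A)).relIndex C := by
    rw [← hyD]
    exact AddSubgroup.relIndex_mul_relIndex _ _ _ (AddSubgroup.map_le_range _ _) hDC
  -- restrictions
  have sN : ∀ x ∈ X, N x ∈ X := fun x _ => hNX ⟨x, rfl⟩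
  have sD : ∀ x ∈ C, D x ∈ C := fun x _ => hDC ⟨x, rfl⟩
  have hcomm : N * σ = σ * N := by
    rw [hN, Nm, Finset.sum_mul, Finset.mul_sum]
    exact Finset.sum_congr rfl (fun i _ => by rw [← pow_succ, ← pow_succ'])
  have sσ : ∀ x ∈ C, σ x ∈ C := by
    intro x hx
    show (N * σ) x = 0
    rw [hcomm]
    show σ (N x) = 0
    have hx' : N x = 0 := hx
    rw [hx', map_zero]
  have rN : ((restr N X sN : AddMonoid.End X) : X →+ X) = nsmulAddMonoidHom p := by
    ext x
    exact Nm_fix p σ x.2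
  have rD : restr D C sD = restr σ C sσ - 1 := by
    ext x
    rfl
  have rsum : ∑ i ∈ Finset.range p, (restr σ C sσ) ^ i = 0 := by
    ext x
    have h1 := Nm_apply p (restr σ C sσ) x
    rw [Nm] at h1
    rw [h1, AddSubgroup.val_finsetSum,
      Finset.sum_congr rfl (fun i _ => restr_pow σ C sσ i x), ← Nm_apply]
    exact x.2
  obtain ⟨⟨gi, gk⟩, hidx⟩ := nsmul_index X hp.ne_zero
  obtain ⟨ci, ck, cidx⟩ := cyc_index hp (restr σ C sσ) rsum
  rw [← rD] at ci ck cidx
  rw [← rN] at gi gk hidx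
  have gi' : (rg (restr N X sN)).index ≠ 0 := gi
  have gk' : Nat.card (kr (restr N X sN)) ≠ 0 := gk
  have hidx' : (rg (restr N X sN)).index = p ^ finrank ℤ X * Nat.card (kr (restr N X sN)) := hidx
  rw [restr_index] at gi' hidx' ci cidx
  rw [restr_card_ker] at gk' hidx' ck cidx
  have hinf : (kr D ⊓ C) = (kr N ⊓ X) := inf_comm _ _
  rw [hinf] at ck cidx
  set k := Nat.card ↥(kr N ⊓ X) with hk
  rw [← hN1] at gi' hidx'
  rw [← hD1] at ci cidx
  obtain ⟨c, hc, hcidx⟩ := arith hp ck cidx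
  -- ranks
  have hr1 := finrank_ker_add_range (N : A →+ A)
  have hr2 : finrank ℤ (rg N) = finrank ℤ X :=
    finrank_eq_of_sandwich hp.ne_zero (AddSubgroup.toIntSubmodule (rg N))
      (AddSubgroup.toIntSubmodule X) hNX (fun x hx => ⟨x, Nm_fix p σ hx⟩)
  have hy0 : y ≠ 0 := left_ne_zero_of_mul gi'
  refine ⟨c, ?_, right_ne_zero_of_mul gi', right_ne_zero_of_mul ci, ?_⟩
  · rw [← hr1, ← hc, hr2, add_comm]
  · apply Nat.eq_of_mul_eq_mul_left (Nat.pos_of_ne_zero hy0)
    rw [← mul_assoc, ← mul_assoc, hidx', hcidx]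
    ring

end main

section cor

variable {A : Type*} [AddCommGroup A] [Module.Finite ℤ A]

/-- version with prescribed ranks. -/
theorem herbrand_rank {p : ℕ} (hp : p.Prime) (σ : AddMonoid.End A) (hσ : σ ^ p = 1) {a r : ℕ}
    (ha : finrank ℤ (kr (σ - 1)) = a) (hr : finrank ℤ A = a + (p - 1) * r) :
    (rg (Nm p σ)).relIndex (kr (σ - 1)) ≠ 0 ∧ (rg (σ - 1)).relIndex (kr (Nm p σ)) ≠ 0 ∧
      (rg (σ - 1)).relIndex (kr (Nm p σ)) * p ^ a = (rg (Nm p σ)).relIndex (kr (σ - 1)) * p ^ r := by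
  obtain ⟨c, h1, h2, h3, h4⟩ := herbrand hp σ hσ
  have hp1 : 0 < p - 1 := by have := hp.two_le; omega
  have hc : c = r := by
    rw [ha, hr] at h1
    exact (Nat.eq_of_mul_eq_mul_left hp1 (Nat.add_left_cancel h1)).symm
  subst hc
  rw [ha] at h4
  exact ⟨h2, h3, h4.symm⟩

end cor

section mul

variable {E : Type*} [CommGroup E]

/-- multiplicative norm `x ↦ ∏_{i<p} s^i x`. -/
def mNm (p : ℕ) (s : E →* E) : E →* E where
  toFun x := ∏ i ∈ Finset.range p, (s ^[i]) x
  map_one' := by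
    apply Finset.prod_eq_one
    intro i _
    exact iterate_map_one s i
  map_mul' x y := by
    rw [← Finset.prod_mul_distrib]
    exact Finset.prod_congr rfl (fun i _ => iterate_map_mul s i x y)

/-- `x ↦ s x / x`. -/
def mDl (s : E →* E) : E →* E where
  toFun x := s x / x
  map_one' := by simp
  map_mul' x y := by rw [map_mul, mul_div_mul_comm]

@[simp] lemma mNm_apply (p : ℕ) (s : E →* E) (x : E) :
    mNm p s x = ∏ i ∈ Finset.range p, (s ^[i]) x := rfl

@[simp] lemma mDl_apply (s : E →* E) (x : E) : mDl s x = s x / x := rfl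

/-- `s` as an element of `AddMonoid.End (Additive E)`. -/
def addEnd (s : E →* E) : AddMonoid.End (Additive E) := MonoidHom.toAdditive s

lemma toAdditive_pow (s : E →* E) (n : ℕ) (x : Additive E) :
    ((addEnd s) ^ n) x = Additive.ofMul ((s ^[n]) x.toMul) := by
  induction n generalizing x with
  | zero => rfl
  | succ n ih =>
    rw [pow_succ, Function.iterate_succ_apply]
    exact ih _

/-- multiplicative form of `herbrand`. -/
theorem herbrand_mul [Module.Finite ℤ (Additive E)] {p : ℕ} (hp : p.Prime) (s : E →* E)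
    (hs : ∀ x, (s ^[p]) x = x) :
    ∃ c : ℕ, finrank ℤ (Additive E) = finrank ℤ (Additive (mDl s).ker) + (p - 1) * c ∧
      (mNm p s).range.relIndex (mDl s).ker ≠ 0 ∧ (mDl s).range.relIndex (mNm p s).ker ≠ 0 ∧
      (mNm p s).range.relIndex (mDl s).ker * p ^ c
        = (mDl s).range.relIndex (mNm p s).ker * p ^ finrank ℤ (Additive (mDl s).ker) := by
  set σ : AddMonoid.End (Additive E) := addEnd s with hσdef
  have hσ : σ ^ p = 1 := by
    ext x
    rw [toAdditive_pow, hs]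
    rfl
  have hD : σ - 1 = addEnd (mDl s) := rfl
  have hN : Nm p σ = addEnd (mNm p s) := by
    ext x
    rw [Nm_apply, Finset.sum_congr rfl (fun i _ => toAdditive_pow s i x)]
    rfl
  have e1 : rg (Nm p σ) = Subgroup.toAddSubgroup (mNm p s).range := by rw [hN]; rfl
  have e2 : kr (Nm p σ) = Subgroup.toAddSubgroup (mNm p s).ker := by rw [hN]; rfl
  have e3 : rg (σ - 1) = Subgroup.toAddSubgroup (mDl s).range := by rw [hD]; rfl
  have e4 : kr (σ - 1) = Subgroup.toAddSubgroup (mDl s).ker := by rw [hD]; rfl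
  have e5 : finrank ℤ (kr (σ - 1)) = finrank ℤ (Additive (mDl s).ker) := by rw [e4]; rfl
  obtain ⟨c, h1, h2, h3, h4⟩ := herbrand hp σ hσ
  rw [e1, e2, e3, e4, Subgroup.relIndex_toAddSubgroup, Subgroup.relIndex_toAddSubgroup] at *
  exact ⟨c, h1, h2, h3, h4⟩

/-- multiplicative form with prescribed ranks. -/
theorem herbrand_mul_rank [Module.Finite ℤ (Additive E)] {p : ℕ} (hp : p.Prime) (s : E →* E)
    (hs : ∀ x, (s ^[p]) x = x) {a r : ℕ} (ha : finrank ℤ (Additive (mDl s).ker) = a)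
    (hr : finrank ℤ (Additive E) = a + (p - 1) * r) :
    (mNm p s).range.relIndex (mDl s).ker ≠ 0 ∧ (mDl s).range.relIndex (mNm p s).ker ≠ 0 ∧
      (mDl s).range.relIndex (mNm p s).ker * p ^ a = (mNm p s).range.relIndex (mDl s).ker * p ^ r := by
  obtain ⟨c, h1, h2, h3, h4⟩ := herbrand_mul hp s hs
  have hp1 : 0 < p - 1 := by have := hp.two_le; omega
  have hc : c = r := by
    rw [ha, hr] at h1
    exact (Nat.eq_of_mul_eq_mul_left hp1 (Nat.add_left_cancel h1)).symm
  subst hc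
  rw [ha] at h4
  exact ⟨h2, h3, h4.symm⟩

end mul

end Fermat.Agent.S14.Herbrand
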