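import Fermat.Agent.S14.SigmaH
import Fermat.Agent.S14.Kummer

/-!
# S14/HgpNeTop : `Hgp ≠ ⊤` for an everywhere unramified `M = k(α^{1/p})`  (USE 2), from the `SigmaH` core.
-/

set_option autoImplicit false
set_option linter.unusedSectionVars false

open NumberField IsDedekindDomain

namespace Fermat.Agent.S14

variable {p : ℕ} [Fact p.Prime] {k : Type} [Field k] [NumberField k] {ζ : k}

namespace HgpNeTop

variable {M : Type} [Field M] [NumberField M] [Algebra k M] [IsGalois k M]

/-- `eidx = 1` ⇒ trivial inertia group. -/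
lemma inertia_eq_bot (w : Pr M) (h : eidx k w = 1) : w.asIdeal.inertia (M ≃ₐ[k] M) = ⊥ := by
  have h1 := Ideal.card_inertia_eq_ramificationIdxIn (G := M ≃ₐ[k] M) (below k w).asIdeal w.asIdeal
  rw [DvExt.eIn_eq, h] at h1
  exact Subgroup.eq_bot_of_card_eq _ h1

lemma smul_mem_range_nm (hdeg : Module.finrank k M = p) (E : Dv k) : p • E ∈ (nm k M).range := by
  induction E using Finsupp.induction_linear with
  | zero => rw [smul_zero]; exact zero_mem _
  | add f g hf hg => rw [smul_add]; exact add_mem hf hg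
  | single v n =>
    obtain ⟨w, rfl⟩ := exists_over (M := M) v
    rcases trichotomy hdeg w with h | h | h
    · refine ⟨Finsupp.single w (p * n), ?_⟩
      rw [nm_single, h.2, Finsupp.smul_single]
      simp
    · refine ⟨Finsupp.single w n, ?_⟩
      rw [nm_single, h.2, Finsupp.smul_single]
      simp
    · refine ⟨Finsupp.single w (p * n), ?_⟩
      rw [nm_single, h.2, Finsupp.smul_single]
      simp

end HgpNeTop

open HgpNeTop

/-- (USE 2 of msg 226)  `V ≠ 0` for an everywhere unramified `M = k(α^{1/p})`. -/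
theorem Hgp_ne_top (hp : p ≠ 2) (hζ : IsPrimitiveRoot ζ p)
    {M : Type} [Field M] [NumberField M] [Algebra k M] [IsGalois k M]
    (hdeg : Module.finrank k M = p) (hunr : ∀ w : Pr M, eidx k w = 1) {α : k}
    (hα : ¬ ∃ y : k, y ^ p = α) {θ : M} (hθ : θ ^ p = algebraMap k M α) (Sg : Finset (Pr k))
    (hSg : Good p α Sg) : Hgp p ζ α Sg ≠ ⊤ := by
  have hcore := prin_sup_range_nm_ne_top (k := k) (M := M) p hp hdeg ζ hζ hunr
  intro htop
  apply hcore
  rw [eq_top_iff, ← htop, Hgp]
  apply sup_le_sup_left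
  rw [Nrm, AddSubgroup.closure_le]
  rintro D (⟨v, hv, hs, rfl⟩ | ⟨E, rfl⟩)
  · obtain ⟨w, rfl⟩ := exists_over (M := M) v
    have h := kummer_split hζ hdeg hα hθ w (hSg _ hv).1 (hSg _ hv).2 hs
    refine ⟨Finsupp.single w 1, ?_⟩
    rw [nm_single, h.2]
    simp
  · exact smul_mem_range_nm hdeg E

end Fermat.Agent.S14
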