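import Fermat.Agent.S14.DvBasic
import Fermat.Agent.S14.DefsLoc
import Fermat.Agent.S14.Loc2

/-!
# S14/Loc1 : (LOC1)  `(kˣ : k_{S,p}) ≤ p^(2 #S + n)`

`x ↦ (ord_v x mod p, class of the unit part in (𝓞/v^n)ˣ/p)` is injective on `kˣ / K_v`, and
`#(𝓞/v^(pm+1))ˣ[p] ≤ p Nv^((p-1)m)` because `x^p - 1 = ∏ (x - η)`.
-/

set_option autoImplicit false

open NumberField IsDedekindDomain Module

namespace Fermat.Agent.S14

variable {k : Type} [Field k] [NumberField k]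

namespace Loc1

theorem ord_prod (v : Pr k) {ι : Type*} (s : Finset ι) (a : ι → k) (ha : ∀ j ∈ s, a j ≠ 0) :
    ord v (∏ j ∈ s, a j) = ∑ j ∈ s, ord v (a j) := by
  classical
  induction s using Finset.induction_on with
  | empty => simpa using ord_one v
  | insert i s hi ih =>
    rw [Finset.prod_insert hi, Finset.sum_insert hi,
      ord_mul v (ha i (Finset.mem_insert_self i s))
        (Finset.prod_ne_zero_iff.2 fun j hj => ha j (Finset.mem_insert_of_mem hj)),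
      ih fun j hj => ha j (Finset.mem_insert_of_mem hj)]

/-- if `∏ a_j ∈ v^(#s m + 1)` then some `a_j ∈ v^(m+1)`. -/
theorem exists_mem_pow_of_prod_mem (v : Pr k) {ι : Type*} (s : Finset ι) (a : ι → 𝓞 k) (m : ℕ)
    (h : ∏ j ∈ s, a j ∈ v.asIdeal ^ (s.card * m + 1)) : ∃ j ∈ s, a j ∈ v.asIdeal ^ (m + 1) := by
  by_contra hcon
  push Not at hcon
  have hne : ∀ j ∈ s, a j ≠ 0 := fun j hj h0 => hcon j hj (h0 ▸ Ideal.zero_mem _)
  have hne' : ∀ j ∈ s, ((a j : 𝓞 k) : k) ≠ 0 := fun j hj =>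
    fun h0 => hne j hj (RingOfIntegers.coe_injective (by simpa using h0))
  have hprod : ∏ j ∈ s, a j ≠ 0 := Finset.prod_ne_zero_iff.2 hne
  have h1 := (le_ord_iff v hprod _).2 h
  have h2 : ((∏ j ∈ s, a j : 𝓞 k) : k) = ∏ j ∈ s, ((a j : 𝓞 k) : k) := by
    simp
  rw [h2, ord_prod v s _ hne'] at h1
  have h3 : ∀ j ∈ s, ord v ((a j : 𝓞 k) : k) ≤ m := by
    intro j hj
    by_contra hlt
    push Not at hlt
    exact hcon j hj ((le_ord_iff v (hne j hj) (m + 1)).1 (by push_cast; omega))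
  have h4 : ∑ j ∈ s, ord v ((a j : 𝓞 k) : k) ≤ s.card * m := by
    calc _ ≤ ∑ _j ∈ s, (m : ℤ) := Finset.sum_le_sum h3
      _ = s.card * m := by simp
  push_cast at h1
  omega

theorem card_quot_pow (v : Pr k) (n : ℕ) : Nat.card (𝓞 k ⧸ v.asIdeal ^ n) = Nv v ^ n := by
  rw [Nv, ← map_pow, Ideal.absNorm_apply, Submodule.cardQuot_apply]

instance finite_quot_pow (v : Pr k) (n : ℕ) : Finite (𝓞 k ⧸ v.asIdeal ^ n) := by
  apply Nat.finite_of_card_ne_zero
  rw [card_quot_pow]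
  exact pow_ne_zero _ (by have := two_le_Nv v; omega)

theorem card_map_pow (v : Pr k) {m n : ℕ} (hmn : m ≤ n) :
    Nat.card ((v.asIdeal ^ m).map (Ideal.Quotient.mk (v.asIdeal ^ n))) = Nv v ^ (n - m) := by
  have h1 := Submodule.card_eq_card_quotient_mul_card
    ((v.asIdeal ^ m).map (Ideal.Quotient.mk (v.asIdeal ^ n)))
  have e := DoubleQuot.quotQuotEquivQuotOfLE (Ideal.pow_le_pow_right hmn :
    v.asIdeal ^ n ≤ v.asIdeal ^ m)
  rw [Nat.card_congr e.toEquiv, card_quot_pow, card_quot_pow] at h1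
  have hN : 0 < Nv v ^ m := pow_pos (by have := two_le_Nv v; omega) _
  have h2 : Nv v ^ n = Nv v ^ (n - m) * Nv v ^ m := by
    rw [← pow_add, Nat.sub_add_cancel hmn]
  rw [h2] at h1
  exact (Nat.eq_of_mul_eq_mul_right hN h1).symm

theorem card_torsion_le (p : ℕ) [hp : Fact p.Prime] {ζ : 𝓞 k} (hζ : IsPrimitiveRoot ζ p)
    (v : Pr k) (m : ℕ) :
    Nat.card (powMonoidHom p : (𝓞 k ⧸ v.asIdeal ^ (p * m + 1))ˣ →*
      (𝓞 k ⧸ v.asIdeal ^ (p * m + 1))ˣ).ker ≤ p * Nv v ^ ((p - 1) * m) := by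
  classical
  set n := p * m + 1 with hn
  set I := (v.asIdeal ^ (m + 1)).map (Ideal.Quotient.mk (v.asIdeal ^ n)) with hI
  set s := Polynomial.nthRootsFinset p (1 : 𝓞 k) with hs
  have hcard : s.card = p := hζ.card_nthRootsFinset
  have hmn : m + 1 ≤ n := by
    have := hp.out.one_le
    have : m ≤ p * m := Nat.le_mul_of_pos_left m hp.out.pos
    omega
  have key : ∀ g : (powMonoidHom p : (𝓞 k ⧸ v.asIdeal ^ n)ˣ →* (𝓞 k ⧸ v.asIdeal ^ n)ˣ).ker,
      ∃ η : s, ((g : (𝓞 k ⧸ v.asIdeal ^ n)ˣ) : 𝓞 k ⧸ v.asIdeal ^ n) -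
        Ideal.Quotient.mk (v.asIdeal ^ n) η ∈ I := by
    rintro ⟨g, hg⟩
    obtain ⟨x, hx⟩ := Ideal.Quotient.mk_surjective (g : 𝓞 k ⧸ v.asIdeal ^ n)
    have hg' : g ^ p = 1 := hg
    have h1 : x ^ p - 1 ∈ v.asIdeal ^ n := by
      rw [← Ideal.Quotient.eq_zero_iff_mem, map_sub, map_pow, map_one, hx, ← Units.val_pow_eq_pow_val,
        hg', Units.val_one, sub_self]
    have h2 : x ^ p - 1 = ∏ η ∈ s, (x - η) := by
      have := hζ.pow_sub_pow_eq_prod_sub_mul x 1 hp.out.pos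
      simpa using this
    rw [h2, hn, ← hcard] at h1
    obtain ⟨η, hη, hmem⟩ := exists_mem_pow_of_prod_mem v s (fun η => x - η) m h1
    refine ⟨⟨η, hη⟩, ?_⟩
    rw [← hx, ← map_sub]
    exact Ideal.mem_map_of_mem _ hmem
  choose f hf using key
  have hinj : Function.Injective (fun g => ((f g, ⟨_, hf g⟩) : s × I)) := by
    intro g g' h
    have h1 : f g = f g' := congrArg Prod.fst h
    have h2 := congrArg (fun z : s × I => (z.2 : 𝓞 k ⧸ v.asIdeal ^ n)) h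
    simp only [h1, sub_left_inj] at h2
    exact Subtype.ext (Units.ext h2)
  have hfin : Finite I := inferInstance
  calc _ ≤ Nat.card (s × I) := Nat.card_le_card_of_injective _ hinj
    _ = p * Nv v ^ ((p - 1) * m) := by
      rw [Nat.card_prod, card_map_pow v hmn, Nat.card_eq_fintype_card, Fintype.card_coe, hcard]
      congr 2
      rw [hn, Nat.sub_mul, one_mul]
      omega

theorem index_range_eq_card_ker {G : Type*} [CommGroup G] [Finite G] (f : G →* G) :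
    f.range.index = Nat.card f.ker := by
  have h1 := f.range.card_mul_index
  have h2 := f.ker.card_mul_index
  rw [Subgroup.index_ker] at h2
  have h3 : 0 < Nat.card f.range := Nat.card_pos
  have h4 : Nat.card f.range * f.range.index = Nat.card f.range * Nat.card f.ker := by
    rw [h1, ← h2, mul_comm]
  exact Nat.eq_of_mul_eq_mul_left h3 h4

theorem index_le_of_fun {Γ X : Type*} [Group Γ] [Finite X] (K : Subgroup Γ) (F : Γ → X)
    (hF : ∀ x y, F x = F y → x⁻¹ * y ∈ K) : K.index ≠ 0 ∧ K.index ≤ Nat.card X := by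
  have hinj : Function.Injective (fun q : Γ ⧸ K => F q.out) := by
    intro q q' h
    have := hF _ _ h
    rw [← QuotientGroup.eq, QuotientGroup.out_eq', QuotientGroup.out_eq'] at this
    exact this
  have : Finite (Γ ⧸ K) := Finite.of_injective _ hinj
  exact ⟨Subgroup.index_ne_zero_of_finite, Nat.card_le_card_of_injective _ hinj⟩

theorem cong_div_one {v : Pr k} {n : ℕ} {s t : k} (h : Cong v n s t) (ht0 : t ≠ 0)
    (ht : ord v t = 0) : Cong v n (s / t) 1 := by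
  by_cases hst : s = t
  · left; rw [hst, div_self ht0]
  · rcases h with h | h
    · exact absurd h hst
    · right
      have : s / t - 1 = (s - t) / t := by field_simp
      rw [this, ord_div v (sub_ne_zero.2 hst) ht0, ht, sub_zero]
      exact h

theorem one_le_nloc (p : ℕ) (v : Pr k) : 1 ≤ nloc p v := Nat.le_add_left _ _

/-- the subgroup of local `p`-th powers at `v`. -/
def Kv (p : ℕ) (v : Pr k) : Subgroup kˣ where
  carrier := {x | LocPow p v (x : k)}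
  one_mem' := ⟨1, one_ne_zero, Or.inl (by simp)⟩
  mul_mem' := by
    rintro x y ⟨z, hz, h⟩ ⟨w, hw, h'⟩
    refine ⟨z * w, mul_ne_zero hz hw, ?_⟩
    have h1 := (Cong.ord_eq_zero (one_le_nloc p v) h one_ne_zero (ord_one v)).2
    have h2 := Cong.mul h h' h1.ge (ord_one v).ge
    have e : ((x * y : kˣ) : k) / (z * w) ^ p = (x : k) / z ^ p * ((y : k) / w ^ p) := by
      rw [Units.val_mul, mul_pow]; field_simp
    rw [e]; simpa using h2
  inv_mem' := by
    rintro x ⟨z, hz, h⟩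
    refine ⟨z⁻¹, inv_ne_zero hz, ?_⟩
    obtain ⟨h0, h1⟩ := Cong.ord_eq_zero (one_le_nloc p v) h one_ne_zero (ord_one v)
    have h2 := cong_div_one h.symm h0 h1
    have e : ((x⁻¹ : kˣ) : k) / z⁻¹ ^ p = 1 / ((x : k) / z ^ p) := by
      rw [Units.val_inv_eq_inv_val, inv_pow]; field_simp
    rw [e]; exact h2

theorem mem_Kv {p : ℕ} {v : Pr k} {x : kˣ} : x ∈ Kv p v ↔ LocPow p v (x : k) := Iff.rfl

theorem isUnit_mk_of_not_mem (v : Pr k) (n : ℕ) {A : 𝓞 k} (hA : A ∉ v.asIdeal) :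
    IsUnit (Ideal.Quotient.mk (v.asIdeal ^ n) A) := by
  by_contra hnu
  obtain ⟨𝔪, h𝔪, hmem⟩ := exists_max_ideal_of_mem_nonunits hnu
  have hprime : (𝔪.comap (Ideal.Quotient.mk (v.asIdeal ^ n))).IsPrime := Ideal.comap_isPrime _ _
  have hle : v.asIdeal ^ n ≤ 𝔪.comap (Ideal.Quotient.mk (v.asIdeal ^ n)) := by
    intro x hx
    rw [Ideal.mem_comap, Ideal.Quotient.eq_zero_iff_mem.2 hx]
    exact 𝔪.zero_mem
  have hle' := hprime.le_of_pow_le hle
  have heq := v.isMaximal.eq_of_le hprime.ne_top hle'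
  exact hA (heq ▸ hmem)

theorem not_mem_of_isUnit_mk (v : Pr k) {n : ℕ} (hn : 1 ≤ n) {A : 𝓞 k}
    (hA : IsUnit (Ideal.Quotient.mk (v.asIdeal ^ n) A)) : A ∉ v.asIdeal := by
  intro hmem
  obtain ⟨d, hd⟩ := hA.exists_right_inv
  obtain ⟨D, rfl⟩ := Ideal.Quotient.mk_surjective d
  rw [← map_mul, ← map_one (Ideal.Quotient.mk (v.asIdeal ^ n)), Ideal.Quotient.eq] at hd
  have h1 : A * D - 1 ∈ v.asIdeal := Ideal.pow_le_self (by omega) hd
  have h2 : (1 : 𝓞 k) ∈ v.asIdeal := by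
    have := v.asIdeal.sub_mem (v.asIdeal.mul_mem_right D hmem) h1
    simpa using this
  exact v.isPrime.ne_top ((Ideal.eq_top_iff_one _).2 h2)

theorem exists_data (v : Pr k) (n : ℕ) (hn : 1 ≤ n) {π : k} (hπ : ord v π = 1) (x : kˣ) :
    ∃ A : 𝓞 k, A ∉ v.asIdeal ∧ Cong v n ((x : k) / π ^ (ord v (x : k))) (A : k) := by
  have hπ0 : π ≠ 0 := by
    rintro rfl
    rw [ord_zero] at hπ; omega
  have hu0 : (x : k) / π ^ (ord v (x : k)) ≠ 0 := div_ne_zero x.ne_zero (zpow_ne_zero _ hπ0)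
  have hu : ord v ((x : k) / π ^ (ord v (x : k))) = 0 := by
    rw [ord_div v x.ne_zero (zpow_ne_zero _ hπ0), DvBasic.ord_zpow, hπ]; ring
  obtain ⟨A, hA⟩ := exists_integer_cong v n hu.ge
  obtain ⟨hA0, hA1⟩ := Cong.ord_eq_zero hn hA.symm hu0 hu
  have hA0' : A ≠ 0 := by
    rintro rfl
    exact hA0 (by simp)
  exact ⟨A, (ord_eq_zero_iff v hA0').1 hA1, hA⟩

theorem mem_Kv_of_data (p : ℕ) (v : Pr k) {π : k} (hπ : ord v π = 1)
    (x y : kˣ) {A B C : 𝓞 k} (hA : A ∉ v.asIdeal) (hC : C ∉ v.asIdeal)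
    (hxA : Cong v (nloc p v) ((x : k) / π ^ (ord v (x : k))) (A : k))
    (hyB : Cong v (nloc p v) ((y : k) / π ^ (ord v (y : k))) (B : k))
    (hABC : A * C ^ p - B ∈ v.asIdeal ^ (nloc p v)) (b : ℤ)
    (hb : ord v (y : k) - ord v (x : k) = p * b) : x⁻¹ * y ∈ Kv p v := by
  have hπ0 : π ≠ 0 := by
    rintro rfl
    rw [ord_zero] at hπ; omega
  have hA0 : A ≠ 0 := fun h => hA (h ▸ v.asIdeal.zero_mem)
  have hC0 : C ≠ 0 := fun h => hC (h ▸ v.asIdeal.zero_mem)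
  have hC0' : (C : k) ≠ 0 := fun h => hC0 (RingOfIntegers.coe_injective (by simpa using h))
  have hA0' : (A : k) ≠ 0 := fun h => hA0 (RingOfIntegers.coe_injective (by simpa using h))
  have hCo : ord v (C : k) = 0 := (ord_eq_zero_iff v hC0).2 hC
  have hAo : ord v (A : k) = 0 := (ord_eq_zero_iff v hA0).2 hA
  obtain ⟨hux0, hux⟩ := Cong.ord_eq_zero (one_le_nloc p v) hxA hA0' hAo
  set ux := (x : k) / π ^ (ord v (x : k)) with hux_def
  set uy := (y : k) / π ^ (ord v (y : k)) with huy_def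
  have hCp : ord v ((C : k) ^ p) = 0 := by rw [ord_pow, hCo, mul_zero]
  have h1 : Cong v (nloc p v) ((A : k) * (C : k) ^ p) (B : k) := by
    have := (cong_integer_iff v (nloc p v) (A * C ^ p) B).2 hABC
    simpa using this
  have h2 : Cong v (nloc p v) (ux * (C : k) ^ p) ((A : k) * (C : k) ^ p) :=
    Cong.mul hxA (Cong.refl v _ _) hux.ge hCp.ge
  have h3 : Cong v (nloc p v) uy (ux * (C : k) ^ p) := hyB.trans (h1.symm.trans h2.symm)
  have ht0 : ux * (C : k) ^ p ≠ 0 := mul_ne_zero hux0 (pow_ne_zero _ hC0')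
  have hto : ord v (ux * (C : k) ^ p) = 0 := by
    rw [ord_mul v hux0 (pow_ne_zero _ hC0'), hux, hCp, add_zero]
  have h4 := cong_div_one h3 ht0 hto
  refine ⟨(C : k) * π ^ b, mul_ne_zero hC0' (zpow_ne_zero _ hπ0), ?_⟩
  have e : ((x⁻¹ * y : kˣ) : k) / ((C : k) * π ^ b) ^ p = uy / (ux * (C : k) ^ p) := by
    have hy : ord v (y : k) = ord v (x : k) + b * p := by linarith
    have hx0 : (x : k) ≠ 0 := x.ne_zero
    rw [hux_def, huy_def, hy, zpow_add₀ hπ0, zpow_mul, zpow_natCast, Units.val_mul,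
      Units.val_inv_eq_inv_val, mul_pow]
    have h5 : π ^ (ord v (x : k)) ≠ 0 := zpow_ne_zero _ hπ0
    have h6 : π ^ b ≠ 0 := zpow_ne_zero _ hπ0
    field_simp
  rw [e]; exact h4

/-- the local index bound in terms of the unit group of `𝓞 k / v^n`. -/
theorem index_Kv_le (p : ℕ) [hp : Fact p.Prime] (v : Pr k) :
    (Kv p v).index ≠ 0 ∧ (Kv p v).index ≤ p * Nat.card (powMonoidHom p :
      (𝓞 k ⧸ v.asIdeal ^ (nloc p v))ˣ →* (𝓞 k ⧸ v.asIdeal ^ (nloc p v))ˣ).ker := by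
  classical
  obtain ⟨π, -, hπ⟩ := DvBasic.exists_uniformizer v
  set n := nloc p v with hn
  have hn1 : 1 ≤ n := one_le_nloc p v
  choose A hA hxA using exists_data v n hn1 hπ
  let G := (𝓞 k ⧸ v.asIdeal ^ n)ˣ
  let R : Subgroup G := (powMonoidHom p : G →* G).range
  let U : kˣ → G := fun x => (isUnit_mk_of_not_mem v n (hA x)).unit
  let F : kˣ → ZMod p × (G ⧸ R) := fun x => ((ord v (x : k) : ZMod p), QuotientGroup.mk (U x))
  have hF : ∀ x y, F x = F y → x⁻¹ * y ∈ Kv p v := by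
    intro x y h
    have h1 : ((ord v (x : k) : ℤ) : ZMod p) = ((ord v (y : k) : ℤ) : ZMod p) := congrArg Prod.fst h
    have h2 : (QuotientGroup.mk (U x) : G ⧸ R) = QuotientGroup.mk (U y) := congrArg Prod.snd h
    obtain ⟨b, hb⟩ := (ZMod.intCast_eq_intCast_iff_dvd_sub _ _ p).1 h1
    obtain ⟨c, hc⟩ := QuotientGroup.eq.1 h2
    obtain ⟨C, hC⟩ := Ideal.Quotient.mk_surjective (c : 𝓞 k ⧸ v.asIdeal ^ n)
    have hCv : C ∉ v.asIdeal := not_mem_of_isUnit_mk v hn1 (hC ▸ c.isUnit)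
    refine mem_Kv_of_data p v hπ x y (hA x) hCv (hxA x) (hxA y) ?_ b hb
    have hc' : U x * c ^ p = U y := by
      have : c ^ p = (U x)⁻¹ * U y := hc
      rw [this, mul_inv_cancel_left]
    have hUx : ∀ x, ((U x : (𝓞 k ⧸ v.asIdeal ^ n)ˣ) : 𝓞 k ⧸ v.asIdeal ^ n) =
        Ideal.Quotient.mk (v.asIdeal ^ n) (A x) := fun x => IsUnit.unit_spec _
    have hc'' : Ideal.Quotient.mk (v.asIdeal ^ n) (A x) * (Ideal.Quotient.mk (v.asIdeal ^ n) C) ^ p =
        Ideal.Quotient.mk (v.asIdeal ^ n) (A y) := by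
      rw [hC, ← hUx x, ← hUx y, ← hc', Units.val_mul, Units.val_pow_eq_pow_val]
    rw [← map_pow, ← map_mul, Ideal.Quotient.eq] at hc''
    exact hc''
  have hfin : Finite (ZMod p × (G ⧸ R)) := inferInstance
  obtain ⟨h0, h1⟩ := index_le_of_fun (Kv p v) F hF
  refine ⟨h0, h1.trans (le_of_eq ?_)⟩
  rw [Nat.card_prod, Nat.card_zmod]
  congr 1
  exact index_range_eq_card_ker (powMonoidHom p : G →* G)

theorem val_zeta_pow {p : ℕ} [Fact p.Prime] {ζ : k} (hζ : IsPrimitiveRoot ζ p) (v : Pr k) :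
    v.valuation k (p : k) = v.valuation k (ζ - 1) ^ (p - 1) := by
  have hp := (Fact.out : p.Prime)
  obtain ⟨n, rfl⟩ : ∃ n, p = n + 1 := ⟨p - 1, (Nat.succ_pred_eq_of_pos hp.pos).symm⟩
  have h := hζ.prod_one_sub_pow_eq_order
  have h2 : ((n + 1 : ℕ) : k) = ∏ j ∈ Finset.range n, (1 - ζ ^ (j + 1)) := by
    rw [h]; push_cast; ring
  rw [h2, map_prod, Nat.add_sub_cancel]
  rw [Finset.prod_congr rfl (g := fun _ => v.valuation k (ζ - 1))]
  · simp
  · intro j hj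
    apply Loc2.valuation_root_sub v hζ
    · simp
    · rw [← pow_mul, mul_comm, pow_mul, hζ.pow_eq_one, one_pow]
    · intro h3
      have := hζ.pow_ne_one_of_pos_of_lt (Nat.succ_ne_zero j) (by simp at hj; omega)
      exact this h3.symm

theorem ord_p_eq {p : ℕ} [Fact p.Prime] {ζ : k} (hζ : IsPrimitiveRoot ζ p) (v : Pr k) :
    ord v (p : k) = ((p - 1 : ℕ) : ℤ) * ord v (ζ - 1) := by
  have hp := (Fact.out : p.Prime)
  have hp0 : (p : k) ≠ 0 := Nat.cast_ne_zero.2 hp.ne_zero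
  have hζ1 : ζ - 1 ≠ 0 := sub_ne_zero.2 (hζ.ne_one hp.one_lt)
  have h := val_zeta_pow hζ v
  rw [DvBasic.val_eq v hp0, DvBasic.val_eq v hζ1, ← WithZero.exp_nsmul, WithZero.exp_inj] at h
  rw [nsmul_eq_mul] at h
  linarith

theorem exists_nloc_eq {p : ℕ} [Fact p.Prime] {ζ : k} (hζ : IsPrimitiveRoot ζ p) (v : Pr k) :
    ∃ m : ℕ, nloc p v = p * m + 1 ∧ (ord v (p : k)).toNat = (p - 1) * m := by
  have hp := (Fact.out : p.Prime)
  have hnn : 0 ≤ ord v (ζ - 1) := by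
    have := ord_nonneg v (hζ.toInteger - 1)
    simpa using this
  obtain ⟨e, he⟩ := Int.eq_ofNat_of_zero_le hnn
  have h1 : (ord v (p : k)).toNat = (p - 1) * e := by
    rw [ord_p_eq hζ v, he, ← Nat.cast_mul, Int.toNat_natCast]
  refine ⟨e, ?_, h1⟩
  unfold nloc
  rw [h1, show p * ((p - 1) * e) = (p * e) * (p - 1) by ring,
    Nat.mul_div_cancel _ (by have := hp.two_le; omega)]

theorem index_Kv_le' {p : ℕ} [Fact p.Prime] {ζ : k} (hζ : IsPrimitiveRoot ζ p) (v : Pr k) :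
    (Kv p v).index ≠ 0 ∧ (Kv p v).index ≤ p ^ 2 * Nv v ^ (ord v (p : k)).toNat := by
  obtain ⟨m, hm1, hm2⟩ := exists_nloc_eq hζ v
  obtain ⟨h0, h1⟩ := index_Kv_le p v
  refine ⟨h0, ?_⟩
  rw [hm1] at h1
  have h2 := card_torsion_le p hζ.toInteger_isPrimitiveRoot v m
  rw [hm2]
  calc _ ≤ _ := h1
    _ ≤ p * (p * Nv v ^ ((p - 1) * m)) := Nat.mul_le_mul_left _ h2
    _ = _ := by ring

theorem prod_Nv_le (p : ℕ) [Fact p.Prime] (S : Finset (Pr k)) :
    ∏ v ∈ S, Nv v ^ (ord v (p : k)).toNat ≤ p ^ Module.finrank ℚ k := by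
  classical
  have hp := (Fact.out : p.Prime)
  have hp0 : (p : 𝓞 k) ≠ 0 := Nat.cast_ne_zero.2 hp.ne_zero
  have h := absNorm_eq_prod (p : 𝓞 k) hp0
  have h1 : (Algebra.norm ℤ (p : 𝓞 k)).natAbs = p ^ Module.finrank ℚ k := by
    have : (p : 𝓞 k) = algebraMap ℤ (𝓞 k) (p : ℤ) := by simp
    rw [this, Algebra.norm_algebraMap, RingOfIntegers.rank, Int.natAbs_pow, Int.natAbs_natCast]
  have hc : (((p : 𝓞 k) : 𝓞 k) : k) = (p : k) := by simp
  rw [h1, hc] at h
  rw [h, Finsupp.prod]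
  have h2 : ∏ v ∈ (dv (p : k)).support, Nv v ^ ((dv (p : k)) v).toNat =
      ∏ v ∈ S ∪ (dv (p : k)).support, Nv v ^ (ord v (p : k)).toNat := by
    refine Finset.prod_subset Finset.subset_union_right ?_
    intro v _ hv
    rw [Finsupp.notMem_support_iff] at hv
    rw [hv]; simp
  rw [h2]
  refine Finset.prod_le_prod_of_subset_of_one_le' Finset.subset_union_left ?_
  intro v _ _
  exact Nat.one_le_pow _ _ (by have := two_le_Nv v; omega)

end Loc1

set_option linter.unusedVariables false in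
open Loc1 in
/-- (LOC1) `k_{S,p}` is a subgroup of `kˣ` of index `≤ p^(2 #S + n)`. -/
theorem KSp_index {p : ℕ} [Fact p.Prime] {ζ : k} (hp : p ≠ 2) (hζ : IsPrimitiveRoot ζ p)
    (S : Finset (Pr k)) :
    ∃ H : Subgroup kˣ, (H : Set kˣ) = KSp p S ∧ H.index ≠ 0 ∧
      H.index ≤ p ^ (2 * S.card + Module.finrank ℚ k) := by
  classical
  refine ⟨⨅ v : S, Kv p (v : Pr k), ?_, ?_, ?_⟩
  · ext x
    simp only [Subgroup.coe_iInf, Set.mem_iInter, SetLike.mem_coe, mem_Kv, Subtype.forall, KSp,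
      Set.mem_ofPred_eq]
  · exact Subgroup.index_iInf_ne_zero fun v => (index_Kv_le' hζ (v : Pr k)).1
  · calc _ ≤ ∏ v : S, (Kv p (v : Pr k)).index := Subgroup.index_iInf_le _
      _ ≤ ∏ v : S, p ^ 2 * Nv (v : Pr k) ^ (ord (v : Pr k) (p : k)).toNat :=
        Finset.prod_le_prod' fun v _ => (index_Kv_le' hζ (v : Pr k)).2
      _ = ∏ v ∈ S, p ^ 2 * Nv v ^ (ord v (p : k)).toNat :=
        Finset.prod_coe_sort S fun v => p ^ 2 * Nv v ^ (ord v (p : k)).toNat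
      _ = p ^ (2 * S.card) * ∏ v ∈ S, Nv v ^ (ord v (p : k)).toNat := by
        rw [Finset.prod_mul_distrib, Finset.prod_const, ← pow_mul]
      _ ≤ p ^ (2 * S.card) * p ^ Module.finrank ℚ k := Nat.mul_le_mul_left _ (prod_Nv_le p S)
      _ = _ := by rw [pow_add]

end Fermat.Agent.S14
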