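import Mathlib

set_option autoImplicit false

/-!
# S14: the `p`-th power residue symbol in a finite field (API-neutral core)

`F` a finite field, `z : F` a primitive `p`-th root of unity.  For `x ≠ 0`,
`symF p z x : ZMod p` is the unique `c` with `x ^ ((#F - 1) / p) = z ^ c`.
-/

namespace Fermat.Agent.S14.SymCore

variable {F : Type*} [Field F] [Finite F] (p : ℕ) [Fact p.Prime]

theorem pow_val_natCast {M : Type*} [Monoid M] {z : M} (hz : z ^ p = 1) (a : ℕ) :
    z ^ ((a : ZMod p).val) = z ^ a := by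
  rw [ZMod.val_natCast]
  conv_rhs => rw [← Nat.div_add_mod a p, pow_add, pow_mul, hz, one_pow, one_mul]

theorem card_sub_one_eq {z : F} (hz : IsPrimitiveRoot z p) :
    p * ((Nat.card F - 1) / p) = Nat.card F - 1 := by
  have hp : p ≠ 0 := (Fact.out : p.Prime).ne_zero
  have : Fintype F := Fintype.ofFinite F
  have hz0 : z ≠ 0 := hz.ne_zero hp
  have h1 : z ^ (Nat.card F - 1) = 1 := by
    rw [Nat.card_eq_fintype_card]; exact FiniteField.pow_card_sub_one_eq_one z hz0
  exact Nat.mul_div_cancel' (hz.dvd_of_pow_eq_one _ h1)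

theorem exists_pow_eq {z : F} (hz : IsPrimitiveRoot z p) {x : F} (hx : x ≠ 0) :
    ∃ c : ZMod p, x ^ ((Nat.card F - 1) / p) = z ^ c.val := by
  have hp : p ≠ 0 := (Fact.out : p.Prime).ne_zero
  have : NeZero p := ⟨hp⟩
  have : Fintype F := Fintype.ofFinite F
  have h1 : (x ^ ((Nat.card F - 1) / p)) ^ p = 1 := by
    rw [← pow_mul, mul_comm, card_sub_one_eq p hz, Nat.card_eq_fintype_card]
    exact FiniteField.pow_card_sub_one_eq_one x hx
  obtain ⟨i, _, hi⟩ := hz.eq_pow_of_pow_eq_one h1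
  exact ⟨(i : ZMod p), by rw [pow_val_natCast p hz.pow_eq_one, hi]⟩

open Classical in
/-- The `p`-th power residue symbol (additive, values in `ZMod p`); `0` if `x = 0`. -/
noncomputable def symF (z x : F) : ZMod p :=
  if h : x ≠ 0 ∧ ∃ c : ZMod p, x ^ ((Nat.card F - 1) / p) = z ^ c.val then h.2.choose else 0

@[simp] theorem symF_zero (z : F) : symF p z 0 = 0 := by
  simp [symF]

theorem symF_spec {z : F} (hz : IsPrimitiveRoot z p) {x : F} (hx : x ≠ 0) :
    x ^ ((Nat.card F - 1) / p) = z ^ (symF p z x).val := by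
  have h : x ≠ 0 ∧ ∃ c : ZMod p, x ^ ((Nat.card F - 1) / p) = z ^ c.val :=
    ⟨hx, exists_pow_eq p hz hx⟩
  rw [symF, dif_pos h]
  exact h.2.choose_spec

theorem val_inj_of_pow_eq {z : F} (hz : IsPrimitiveRoot z p) {a b : ZMod p}
    (h : z ^ a.val = z ^ b.val) : a = b := by
  have : NeZero p := ⟨(Fact.out : p.Prime).ne_zero⟩
  exact ZMod.val_injective p (hz.pow_inj (ZMod.val_lt a) (ZMod.val_lt b) h)

theorem symF_eq_of_pow_eq {z : F} (hz : IsPrimitiveRoot z p) {x : F} (hx : x ≠ 0) (a : ℕ)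
    (h : x ^ ((Nat.card F - 1) / p) = z ^ a) : symF p z x = (a : ZMod p) := by
  apply val_inj_of_pow_eq p hz
  rw [← symF_spec p hz hx, h, pow_val_natCast p hz.pow_eq_one]

theorem symF_mul {z : F} (hz : IsPrimitiveRoot z p) {x y : F} (hx : x ≠ 0) (hy : y ≠ 0) :
    symF p z (x * y) = symF p z x + symF p z y := by
  have : NeZero p := ⟨(Fact.out : p.Prime).ne_zero⟩
  have := symF_eq_of_pow_eq p hz (mul_ne_zero hx hy) ((symF p z x).val + (symF p z y).val)
    (by rw [mul_pow, symF_spec p hz hx, symF_spec p hz hy, pow_add])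
  rw [this]; simp

@[simp] theorem symF_one {z : F} (hz : IsPrimitiveRoot z p) : symF p z 1 = 0 := by
  have := symF_eq_of_pow_eq p hz (one_ne_zero) 0 (by simp)
  simpa using this

theorem symF_pow {z : F} (hz : IsPrimitiveRoot z p) {x : F} (hx : x ≠ 0) (n : ℕ) :
    symF p z (x ^ n) = n * symF p z x := by
  induction n with
  | zero => simp [symF_one p hz]
  | succ n ih =>
    rw [pow_succ, symF_mul p hz (pow_ne_zero n hx) hx, ih]; push_cast; ring

theorem symF_inv {z : F} (hz : IsPrimitiveRoot z p) {x : F} (hx : x ≠ 0) :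
    symF p z x⁻¹ = - symF p z x := by
  have h := symF_mul p hz hx (inv_ne_zero hx)
  rw [mul_inv_cancel₀ hx, symF_one p hz] at h
  exact (neg_eq_of_add_eq_zero_right h.symm).symm

theorem symF_pow_p {z : F} (hz : IsPrimitiveRoot z p) (y : F) : symF p z (y ^ p) = 0 := by
  have hp : p ≠ 0 := (Fact.out : p.Prime).ne_zero
  rcases eq_or_ne y 0 with rfl | hy
  · simp [hp]
  · rw [symF_pow p hz hy]; simp

theorem symF_eq_zero_iff {z : F} (hz : IsPrimitiveRoot z p) {x : F} (hx : x ≠ 0) :
    symF p z x = 0 ↔ ∃ y : F, y ^ p = x := by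
  have hp : p ≠ 0 := (Fact.out : p.Prime).ne_zero
  constructor
  · intro h
    have h1 : x ^ ((Nat.card F - 1) / p) = 1 := by
      rw [symF_spec p hz hx, h]; simp
    have : Fintype F := Fintype.ofFinite F
    obtain ⟨g, hg⟩ := IsCyclic.exists_monoid_generator (α := Fˣ)
    obtain ⟨k, hk⟩ := hg (Units.mk0 x hx)
    have hord : orderOf g = Nat.card F - 1 := by
      rw [orderOf_eq_card_of_forall_mem_powers hg, Nat.card_units]
    have h2 : g ^ (k * ((Nat.card F - 1) / p)) = 1 := by
      rw [pow_mul]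
      have hk' : g ^ k = Units.mk0 x hx := hk
      rw [hk']
      ext; simpa using h1
    have h3 : p * ((Nat.card F - 1) / p) ∣ k * ((Nat.card F - 1) / p) := by
      have h3' := orderOf_dvd_of_pow_eq_one h2
      rw [hord] at h3'
      rwa [card_sub_one_eq p hz]
    have hm : 0 < (Nat.card F - 1) / p := by
      rcases Nat.eq_zero_or_pos ((Nat.card F - 1) / p) with h0 | h0
      · exfalso
        have := card_sub_one_eq p hz
        rw [h0, mul_zero] at this
        have h4 : 1 < Nat.card F := Finite.one_lt_card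
        omega
      · exact h0
    have h4 : p ∣ k := Nat.dvd_of_mul_dvd_mul_right hm h3
    obtain ⟨j, rfl⟩ := h4
    refine ⟨((g ^ j : Fˣ) : F), ?_⟩
    have hk' : g ^ (p * j) = Units.mk0 x hx := hk
    have := congrArg (fun u : Fˣ => (u : F)) hk'
    simp only [Units.val_pow_eq_pow_val, Units.val_mk0] at this
    rw [Units.val_pow_eq_pow_val, ← pow_mul, mul_comm j p, this]
  · rintro ⟨y, rfl⟩
    exact symF_pow_p p hz y

theorem exists_symF_eq {z : F} (hz : IsPrimitiveRoot z p) (c : ZMod p) :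
    ∃ x : F, x ≠ 0 ∧ symF p z x = c := by
  have hp : p.Prime := Fact.out
  have : NeZero p := ⟨hp.ne_zero⟩
  have : Fintype F := Fintype.ofFinite F
  obtain ⟨g, hg⟩ := IsCyclic.exists_monoid_generator (α := Fˣ)
  have hord : orderOf g = Nat.card F - 1 := by
    rw [orderOf_eq_card_of_forall_mem_powers hg, Nat.card_units]
  have hg0 : (g : F) ≠ 0 := g.ne_zero
  have hne : symF p z (g : F) ≠ 0 := by
    intro h0
    obtain ⟨y, hy⟩ := (symF_eq_zero_iff p hz hg0).1 h0
    have hy0 : y ≠ 0 := by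
      rintro rfl
      rw [zero_pow hp.ne_zero] at hy
      exact hg0 hy.symm
    obtain ⟨j, hj⟩ := hg (Units.mk0 y hy0)
    have hj' : g ^ j = Units.mk0 y hy0 := hj
    have h1 : g ^ (j * p) = g ^ 1 := by
      rw [pow_mul, hj', pow_one]; ext; simpa using hy
    have h2 := (pow_eq_pow_iff_modEq).1 h1
    rw [hord, ← card_sub_one_eq p hz] at h2
    have h3 : j * p ≡ 1 [MOD p] := h2.of_mul_right _
    have h4 : (0 : ℕ) ≡ 1 [MOD p] := by
      have : j * p ≡ 0 [MOD p] := (Nat.modEq_zero_iff_dvd).2 (Dvd.intro_left j rfl)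
      exact this.symm.trans h3
    have h5 := (Nat.modEq_zero_iff_dvd.1 h4.symm)
    exact hp.one_lt.ne' (Nat.dvd_one.1 h5)
  refine ⟨(g : F) ^ (c * (symF p z (g : F))⁻¹).val, pow_ne_zero _ hg0, ?_⟩
  rw [symF_pow p hz hg0, ZMod.natCast_val, ZMod.cast_id', id, mul_assoc, inv_mul_cancel₀ hne, mul_one]

theorem geom_aux (q f : ℕ) (hq1 : 1 ≤ q) :
    (∑ j ∈ Finset.range f, q ^ j) * (q - 1) + 1 = q ^ f := by
  induction f with
  | zero => simp
  | succ n ih =>
    rw [Finset.sum_range_succ, add_mul, add_right_comm, ih, pow_succ]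
    obtain ⟨r, rfl⟩ := Nat.exists_eq_add_of_le hq1
    simp only [Nat.add_sub_cancel_left]
    ring

/-- Base change: if `#F₂ = #F ^ f` then the symbol is multiplied by `f`. -/
theorem symF_map {F₂ : Type*} [Field F₂] [Finite F₂] (i : F →+* F₂) (f : ℕ)
    (hf : Nat.card F₂ = Nat.card F ^ f) {z : F} (hz : IsPrimitiveRoot z p) (x : F) :
    symF p (i z) (i x) = f * symF p z x := by
  have hp : p.Prime := Fact.out
  rcases eq_or_ne x 0 with rfl | hx
  · simp
  have hz2 : IsPrimitiveRoot (i z) p := hz.map_of_injective i.injective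
  have hx2 : i x ≠ 0 := (map_ne_zero i).2 hx
  set q := Nat.card F with hq
  set m := (q - 1) / p with hm
  have hqm : p * m = q - 1 := card_sub_one_eq p hz
  have hq1 : 1 ≤ q := Nat.one_le_iff_ne_zero.2 (Nat.card_pos.ne')
  set S := ∑ j ∈ Finset.range f, q ^ j with hS
  have hgeom : S * (q - 1) = q ^ f - 1 := by
    have := geom_aux q f hq1
    rw [← this, hS]; simp
  have hdiv : (Nat.card F₂ - 1) / p = m * S := by
    rw [hf, ← hgeom, ← hqm]
    rw [show S * (p * m) = p * (m * S) by ring]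
    exact Nat.mul_div_cancel_left _ hp.pos
  have hSmod : (S : ZMod p) = f := by
    have hq' : (q : ZMod p) = 1 := by
      have : ((q - 1 : ℕ) : ZMod p) = 0 := by
        rw [← hqm]; simp
      rw [Nat.cast_sub hq1, Nat.cast_one, sub_eq_zero] at this
      exact this
    rw [hS]; push_cast; rw [hq']; simp
  have := symF_eq_of_pow_eq p hz2 hx2 ((symF p z x).val * S) (by
    rw [hdiv, pow_mul, ← map_pow, symF_spec p hz hx, map_pow, ← pow_mul])
  rw [this]
  have : NeZero p := ⟨hp.ne_zero⟩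
  push_cast
  rw [hSmod, ZMod.natCast_val, ZMod.cast_id', id, mul_comm]

end Fermat.Agent.S14.SymCore
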