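import Fermat.Agent.S14.DvBasic
import Fermat.Agent.S14.SymCore

/-!
# S14/SymBasic : the power residue symbol `sym`, `psi`, `Nrm`, `Hgp` over one number field
(everything of the `Sym` interface which does not need `DvExt`).
Auxiliary lemmas: namespace `Fermat.Agent.S14.Sym`.
-/

set_option autoImplicit false
set_option linter.unusedSectionVars false
set_option linter.style.haveILetI false
set_option linter.ambiguousOpen false

open NumberField IsDedekindDomain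
open scoped nonZeroDivisors

namespace Fermat.Agent.S14

variable {k : Type} [Field k] [NumberField k] {p : ℕ} [Fact p.Prime] {ζ : k}

theorem sym_unique (hζ : IsPrimitiveRoot ζ p) (v : Pr k) (hv : ord v (p : k) = 0) {x : k} {j : ZMod p}
    (h : Cong v 1 (x ^ ((Nv v - 1) / p)) (ζ ^ j.val)) : sym p ζ v x = j := by
  have hex : ∃ j : ZMod p, Cong v 1 (x ^ ((Nv v - 1) / p)) (ζ ^ j.val) := ⟨j, h⟩
  rw [sym, dif_pos hex]
  exact zeta_pow_inj hζ v hv (hex.choose_spec.symm.trans h)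

theorem sym_eq_of_cong (hζ : IsPrimitiveRoot ζ p) (v : Pr k) (hv : ord v (p : k) = 0) {x : k}
    {j : ZMod p} (h : Cong v 1 (x ^ ((Nv v - 1) / p)) (ζ ^ j.val)) : sym p ζ v x = j :=
  sym_unique hζ v hv h

namespace Sym

attribute [local instance] Ideal.Quotient.field

theorem exists_integer_zeta (hζ : IsPrimitiveRoot ζ p) : ∃ z : 𝓞 k, (z : k) = ζ :=
  ⟨⟨ζ, hζ.isIntegral (Fact.out : p.Prime).pos⟩, rfl⟩

theorem ord_zeta_pow (hζ : IsPrimitiveRoot ζ p) (v : Pr k) (n : ℕ) : ord v (ζ ^ n) = 0 :=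
  ord_rootOfUnity v (Fact.out : p.Prime).ne_zero
    (by rw [← pow_mul, mul_comm, pow_mul, hζ.pow_eq_one, one_pow])

theorem isPrimitiveRoot_mk (hζ : IsPrimitiveRoot ζ p) (v : Pr k) (hv : ord v (p : k) = 0)
    {z : 𝓞 k} (hz : (z : k) = ζ) :
    IsPrimitiveRoot (Ideal.Quotient.mk v.asIdeal z) p := by
  have hp : p.Prime := Fact.out
  rw [IsPrimitiveRoot.iff_orderOf]
  apply orderOf_eq_prime
  · rw [← map_pow]
    have : z ^ p = 1 := by
      apply FaithfulSMul.algebraMap_injective (𝓞 k) k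
      rw [map_pow, map_one]
      have h0 : algebraMap (𝓞 k) k z = ζ := hz
      rw [h0, hζ.pow_eq_one]
    rw [this, map_one]
  · intro h1
    rw [← map_one (Ideal.Quotient.mk v.asIdeal), Ideal.Quotient.eq] at h1
    have h2 : Cong v 1 ((z : 𝓞 k) : k) ((1 : 𝓞 k) : k) := by
      rw [cong_integer_iff, pow_one]; exact h1
    have h3 : Cong v 1 (ζ ^ (1 : ZMod p).val) (ζ ^ (0 : ZMod p).val) := by
      have : Fact (1 < p) := ⟨hp.one_lt⟩
      rw [ZMod.val_one, ZMod.val_zero, pow_one, pow_zero, ← hz]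
      simpa using h2
    have h4 := zeta_pow_inj hζ v hv h3
    have : Fact (1 < p) := ⟨hp.one_lt⟩
    exact one_ne_zero h4

/-- the bridge to the finite field symbol. -/
theorem sym_integer (hζ : IsPrimitiveRoot ζ p) (v : Pr k) (hv : ord v (p : k) = 0)
    {z : 𝓞 k} (hz : (z : k) = ζ) {a : 𝓞 k} (ha : a ∉ v.asIdeal) :
    sym p ζ v (a : k) =
      SymCore.symF p (Ideal.Quotient.mk v.asIdeal z) (Ideal.Quotient.mk v.asIdeal a) := by
  apply sym_unique hζ v hv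
  have hprim := isPrimitiveRoot_mk hζ v hv hz
  have ha' : Ideal.Quotient.mk v.asIdeal a ≠ 0 := by
    rwa [Ne, Ideal.Quotient.eq_zero_iff_mem]
  have h := SymCore.symF_spec p hprim ha'
  rw [← Nv_eq_card, ← map_pow, ← map_pow, Ideal.Quotient.eq] at h
  rw [← hz, ← map_pow, ← map_pow, cong_integer_iff, pow_one]
  exact h

theorem exists_integer_unit (v : Pr k) {x : k} (hx0 : x ≠ 0) (hx : ord v x = 0) :
    ∃ a : 𝓞 k, a ∉ v.asIdeal ∧ Cong v 1 x (a : k) := by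
  obtain ⟨a, ha⟩ := exists_integer_cong v 1 hx.ge
  obtain ⟨h0, h1⟩ := ha.symm.ord_eq_zero le_rfl hx0 hx
  have ha0 : a ≠ 0 := by
    rintro rfl; exact h0 (map_zero _)
  exact ⟨a, (ord_eq_zero_iff v ha0).1 h1, ha⟩

theorem integer_unit (v : Pr k) {a : 𝓞 k} (ha : a ∉ v.asIdeal) :
    (a : k) ≠ 0 ∧ ord v (a : k) = 0 := by
  have ha0 : a ≠ 0 := by
    rintro rfl; exact ha (Ideal.zero_mem _)
  refine ⟨?_, (ord_eq_zero_iff v ha0).2 ha⟩
  intro h
  exact ha0 (FaithfulSMul.algebraMap_injective (𝓞 k) k (by rw [map_zero]; exact h))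

end Sym

open Sym

theorem sym_spec (hζ : IsPrimitiveRoot ζ p) (v : Pr k) (hv : ord v (p : k) = 0) {x : k} (hx0 : x ≠ 0)
    (hx : ord v x = 0) : Cong v 1 (x ^ ((Nv v - 1) / p)) (ζ ^ (sym p ζ v x).val) := by
  obtain ⟨a, ha, hxa⟩ := exists_integer_unit v hx0 hx
  obtain ⟨z, hz⟩ := exists_integer_zeta hζ
  have hex : ∃ j : ZMod p, Cong v 1 (x ^ ((Nv v - 1) / p)) (ζ ^ j.val) := by
    letI := Ideal.Quotient.field v.asIdeal
    refine ⟨SymCore.symF p (Ideal.Quotient.mk v.asIdeal z) (Ideal.Quotient.mk v.asIdeal a), ?_⟩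
    refine (hxa.pow hx.ge (integer_unit v ha).2.ge _).trans ?_
    have hprim := isPrimitiveRoot_mk hζ v hv hz
    have ha' : Ideal.Quotient.mk v.asIdeal a ≠ 0 := by
      rwa [Ne, Ideal.Quotient.eq_zero_iff_mem]
    have h := SymCore.symF_spec p hprim ha'
    rw [← Nv_eq_card, ← map_pow, ← map_pow, Ideal.Quotient.eq] at h
    rw [← hz, ← map_pow, ← map_pow, cong_integer_iff, pow_one]
    exact h
  rw [sym, dif_pos hex]
  exact hex.choose_spec

theorem sym_congr (hζ : IsPrimitiveRoot ζ p) (v : Pr k) (hv : ord v (p : k) = 0) {x y : k}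
    (h : Cong v 1 x y) (hy0 : y ≠ 0) (hy : ord v y = 0) : sym p ζ v x = sym p ζ v y := by
  obtain ⟨_, hx⟩ := h.ord_eq_zero le_rfl hy0 hy
  exact sym_unique hζ v hv ((h.pow hx.ge hy.ge _).trans (sym_spec hζ v hv hy0 hy))

theorem sym_one (hζ : IsPrimitiveRoot ζ p) (v : Pr k) (hv : ord v (p : k) = 0) :
    sym p ζ v 1 = 0 := by
  apply sym_unique hζ v hv
  simp only [one_pow, ZMod.val_zero, pow_zero]
  exact Cong.refl v 1 1

theorem sym_mul (hζ : IsPrimitiveRoot ζ p) (v : Pr k) (hv : ord v (p : k) = 0) {x y : k}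
    (hx0 : x ≠ 0) (hx : ord v x = 0) (hy0 : y ≠ 0) (hy : ord v y = 0) :
    sym p ζ v (x * y) = sym p ζ v x + sym p ζ v y := by
  have : NeZero p := ⟨(Fact.out : p.Prime).ne_zero⟩
  apply sym_unique hζ v hv
  have h1 := sym_spec hζ v hv hx0 hx
  have h2 := sym_spec hζ v hv hy0 hy
  have h3 := h1.mul h2 (by rw [ord_pow, hx, mul_zero]) (ord_zeta_pow hζ v _).ge
  rw [← mul_pow, ← pow_add, ← SymCore.pow_val_natCast p hζ.pow_eq_one] at h3
  simpa using h3

theorem sym_pow (hζ : IsPrimitiveRoot ζ p) (v : Pr k) (hv : ord v (p : k) = 0) {x : k}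
    (hx0 : x ≠ 0) (hx : ord v x = 0) (n : ℕ) : sym p ζ v (x ^ n) = n * sym p ζ v x := by
  induction n with
  | zero => simp [sym_one hζ v hv]
  | succ n ih =>
    rw [pow_succ, sym_mul hζ v hv (pow_ne_zero n hx0) (by rw [ord_pow, hx, mul_zero]) hx0 hx, ih]
    push_cast; ring

theorem sym_inv (hζ : IsPrimitiveRoot ζ p) (v : Pr k) (hv : ord v (p : k) = 0) {x : k}
    (hx0 : x ≠ 0) (hx : ord v x = 0) : sym p ζ v x⁻¹ = - sym p ζ v x := by
  have h := sym_mul hζ v hv hx0 hx (inv_ne_zero hx0) (by rw [ord_inv, hx, neg_zero])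
  rw [mul_inv_cancel₀ hx0, sym_one hζ v hv] at h
  exact (neg_eq_of_add_eq_zero_right h.symm).symm

theorem sym_div (hζ : IsPrimitiveRoot ζ p) (v : Pr k) (hv : ord v (p : k) = 0) {x y : k}
    (hx0 : x ≠ 0) (hx : ord v x = 0) (hy0 : y ≠ 0) (hy : ord v y = 0) :
    sym p ζ v (x / y) = sym p ζ v x - sym p ζ v y := by
  rw [div_eq_mul_inv, sym_mul hζ v hv hx0 hx (inv_ne_zero hy0) (by rw [ord_inv, hy, neg_zero]),
    sym_inv hζ v hv hy0 hy, sub_eq_add_neg]

/-- `p`-th powers of `v`-units have trivial symbol. -/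
theorem sym_pow_p (hζ : IsPrimitiveRoot ζ p) (v : Pr k) (hv : ord v (p : k) = 0) {y : k}
    (hy0 : y ≠ 0) (hy : ord v y = 0) : sym p ζ v (y ^ p) = 0 := by
  rw [sym_pow hζ v hv hy0 hy]; simp

theorem sym_zeta (hζ : IsPrimitiveRoot ζ p) (v : Pr k) (hv : ord v (p : k) = 0) :
    sym p ζ v ζ = (((Nv v - 1) / p : ℕ) : ZMod p) := by
  apply sym_unique hζ v hv
  rw [SymCore.pow_val_natCast p hζ.pow_eq_one]
  exact Cong.refl v 1 _

/-- integral form (the shape of `DL2`). -/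
theorem sym_integer_eq_zero_iff (hζ : IsPrimitiveRoot ζ p) (v : Pr k) (hv : ord v (p : k) = 0)
    {a : 𝓞 k} (ha : a ∉ v.asIdeal) :
    sym p ζ v (a : k) = 0 ↔ ∃ w : 𝓞 k, a - w ^ p ∈ v.asIdeal := by
  letI := Ideal.Quotient.field v.asIdeal
  obtain ⟨z, hz⟩ := exists_integer_zeta hζ
  have hprim := isPrimitiveRoot_mk hζ v hv hz
  have ha' : Ideal.Quotient.mk v.asIdeal a ≠ 0 := by
    rwa [Ne, Ideal.Quotient.eq_zero_iff_mem]
  rw [sym_integer hζ v hv hz ha, SymCore.symF_eq_zero_iff p hprim ha']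
  constructor
  · rintro ⟨y, hy⟩
    obtain ⟨w, rfl⟩ := Ideal.Quotient.mk_surjective y
    refine ⟨w, ?_⟩
    rw [← Ideal.Quotient.eq, map_pow, hy]
  · rintro ⟨w, hw⟩
    refine ⟨Ideal.Quotient.mk v.asIdeal w, ?_⟩
    rw [← Ideal.Quotient.eq, map_pow] at hw
    exact hw.symm

/-- trivial symbol `↔` `p`-th power residue. -/
theorem sym_eq_zero_iff_exists_integer (hζ : IsPrimitiveRoot ζ p) (v : Pr k) (hv : ord v (p : k) = 0)
    {x : k} (hx0 : x ≠ 0) (hx : ord v x = 0) :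
    sym p ζ v x = 0 ↔ ∃ a : 𝓞 k, Cong v 1 x ((a : k) ^ p) := by
  obtain ⟨b, hb, hxb⟩ := exists_integer_unit v hx0 hx
  obtain ⟨hb0, hb1⟩ := integer_unit v hb
  rw [sym_congr hζ v hv hxb hb0 hb1, sym_integer_eq_zero_iff hζ v hv hb]
  constructor
  · rintro ⟨w, hw⟩
    refine ⟨w, hxb.trans ?_⟩
    rw [← map_pow, cong_integer_iff, pow_one]
    exact hw
  · rintro ⟨a, ha⟩
    refine ⟨a, ?_⟩
    have := hxb.symm.trans ha
    rwa [← map_pow, cong_integer_iff, pow_one] at this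

/-- `sym = 0` iff `x` is a `p`-th power residue. -/
theorem sym_eq_zero_iff (hζ : IsPrimitiveRoot ζ p) (v : Pr k) (hv : ord v (p : k) = 0) {x : k}
    (hx0 : x ≠ 0) (hx : ord v x = 0) :
    sym p ζ v x = 0 ↔ ∃ z : k, z ≠ 0 ∧ ord v z = 0 ∧ Cong v 1 x (z ^ p) := by
  constructor
  · intro h
    obtain ⟨a, ha⟩ := (sym_eq_zero_iff_exists_integer hζ v hv hx0 hx).1 h
    obtain ⟨h0, h1⟩ := ha.symm.ord_eq_zero le_rfl hx0 hx
    have ha0 : (a : k) ≠ 0 := fun h => h0 (by rw [h, zero_pow (Fact.out : p.Prime).ne_zero])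
    refine ⟨a, ha0, ?_, ha⟩
    rw [ord_pow] at h1
    rcases mul_eq_zero.1 h1 with h2 | h2
    · exact absurd (by exact_mod_cast h2) (Fact.out : p.Prime).ne_zero
    · exact h2
  · rintro ⟨z, hz0, hz, h⟩
    rw [sym_congr hζ v hv h (pow_ne_zero _ hz0) (by rw [ord_pow, hz, mul_zero]),
      sym_pow_p hζ v hv hz0 hz]

/-- the symbol is onto (integral form). -/
theorem exists_integer_sym_eq (hζ : IsPrimitiveRoot ζ p) (v : Pr k) (hv : ord v (p : k) = 0)
    (c : ZMod p) : ∃ a : 𝓞 k, a ∉ v.asIdeal ∧ sym p ζ v (a : k) = c := by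
  letI := Ideal.Quotient.field v.asIdeal
  obtain ⟨z, hz⟩ := exists_integer_zeta hζ
  have hprim := isPrimitiveRoot_mk hζ v hv hz
  obtain ⟨x, hx0, hx⟩ := SymCore.exists_symF_eq p hprim c
  obtain ⟨a, rfl⟩ := Ideal.Quotient.mk_surjective x
  have ha : a ∉ v.asIdeal := by
    rwa [Ne, Ideal.Quotient.eq_zero_iff_mem] at hx0
  exact ⟨a, ha, by rw [sym_integer hζ v hv hz ha, hx]⟩

theorem exists_sym_eq (hζ : IsPrimitiveRoot ζ p) (v : Pr k) (hv : ord v (p : k) = 0) (c : ZMod p) :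
    ∃ x : k, x ≠ 0 ∧ ord v x = 0 ∧ sym p ζ v x = c := by
  obtain ⟨a, ha, h⟩ := exists_integer_sym_eq hζ v hv c
  exact ⟨a, (integer_unit v ha).1, (integer_unit v ha).2, h⟩

/-! ### `psi`, `Nrm`, `Hgp` -/

theorem psi_single_of_notMem (α : k) (Sg : Finset (Pr k)) {v : Pr k} (hv : v ∉ Sg) (n : ℤ) :
    psi p ζ α Sg (Finsupp.single v n) = n * sym p ζ v α := by
  rw [psi, Finsupp.liftAddHom_apply_single, if_neg hv, zmultiplesHom_apply, zsmul_eq_mul]

theorem psi_single_of_mem (α : k) (Sg : Finset (Pr k)) {v : Pr k} (hv : v ∈ Sg) (n : ℤ) :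
    psi p ζ α Sg (Finsupp.single v n) = 0 := by
  rw [psi, Finsupp.liftAddHom_apply_single, if_pos hv, AddMonoidHom.zero_apply]

open Classical in
theorem psi_single (α : k) (Sg : Finset (Pr k)) (v : Pr k) (n : ℤ) :
    psi p ζ α Sg (Finsupp.single v n) = if v ∈ Sg then 0 else (n : ZMod p) * sym p ζ v α := by
  split_ifs with h
  · exact psi_single_of_mem α Sg h n
  · exact psi_single_of_notMem α Sg h n

open Classical in
theorem psi_apply (α : k) (Sg : Finset (Pr k)) (D : Dv k) :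
    psi p ζ α Sg D = D.sum fun v n => if v ∈ Sg then 0 else (n : ZMod p) * sym p ζ v α := by
  rw [psi, Finsupp.liftAddHom_apply]
  refine Finsupp.sum_congr fun v _ => ?_
  split_ifs
  · rfl
  · rw [zmultiplesHom_apply, zsmul_eq_mul]

theorem psi_eq_zero_of_mem_Nrm (α : k) (Sg : Finset (Pr k)) {D : Dv k} (hD : D ∈ Nrm p ζ α Sg) :
    psi p ζ α Sg D = 0 := by
  rw [Nrm] at hD
  induction hD using AddSubgroup.closure_induction with
  | mem D hD =>
    rcases hD with ⟨v, hv, hs, rfl⟩ | ⟨E, rfl⟩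
    · rw [psi_single_of_notMem α Sg hv, hs, mul_zero]
    · rw [map_nsmul, nsmul_eq_mul, CharP.cast_eq_zero, zero_mul]
  | zero => exact map_zero _
  | add D E _ _ hD hE => rw [map_add, hD, hE, add_zero]
  | neg D _ hD => rw [map_neg, hD, neg_zero]

theorem smul_mem_Nrm (α : k) (Sg : Finset (Pr k)) (D : Dv k) : p • D ∈ Nrm p ζ α Sg :=
  AddSubgroup.subset_closure (Or.inr ⟨D, rfl⟩)

theorem single_mem_Nrm_of_sym_eq_zero (α : k) (Sg : Finset (Pr k)) {v : Pr k} (hv : v ∉ Sg)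
    (h : sym p ζ v α = 0) (n : ℤ) : Finsupp.single v n ∈ Nrm p ζ α Sg := by
  have h1 : Finsupp.single v (1 : ℤ) ∈ Nrm p ζ α Sg :=
    AddSubgroup.subset_closure (Or.inl ⟨v, hv, h, rfl⟩)
  have h2 := AddSubgroup.zsmul_mem _ h1 n
  rwa [Finsupp.smul_single, smul_eq_mul, mul_one] at h2

theorem single_mem_Nrm (α : k) (Sg : Finset (Pr k)) {v : Pr k} (hv : v ∉ Sg) {n : ℤ}
    (h : (n : ZMod p) * sym p ζ v α = 0) : Finsupp.single v n ∈ Nrm p ζ α Sg := by
  rcases mul_eq_zero.1 h with h | h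
  · obtain ⟨m, rfl⟩ := (ZMod.intCast_zmod_eq_zero_iff_dvd n p).1 h
    have := smul_mem_Nrm (p := p) (ζ := ζ) α Sg (Finsupp.single v m)
    rwa [Finsupp.smul_single, nsmul_eq_mul] at this
  · exact single_mem_Nrm_of_sym_eq_zero α Sg hv h n

theorem Nrm_mono (α : k) {Sg Sg' : Finset (Pr k)} (h : Sg ⊆ Sg') : Nrm p ζ α Sg' ≤ Nrm p ζ α Sg := by
  rw [Nrm, Nrm]
  apply AddSubgroup.closure_mono
  rintro D (⟨v, hv, hs, rfl⟩ | ⟨E, rfl⟩)
  · exact Or.inl ⟨v, fun hv' => hv (h hv'), hs, rfl⟩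
  · exact Or.inr ⟨E, rfl⟩

theorem Hgp_mono (α : k) {Sg Sg' : Finset (Pr k)} (h : Sg ⊆ Sg') : Hgp p ζ α Sg' ≤ Hgp p ζ α Sg :=
  sup_le_sup_left (Nrm_mono α h) _

/-- enlarging `Sg` does not change `psi` on divisors prime to the new primes. -/
theorem psi_eq_of_subset (α : k) {Sg Sg' : Finset (Pr k)} (h : Sg ⊆ Sg') {D : Dv k}
    (hD : ∀ v ∈ Sg', D v = 0) : psi p ζ α Sg' D = psi p ζ α Sg D := by
  classical
  rw [psi_apply, psi_apply]
  refine Finsupp.sum_congr fun v hv => ?_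
  have hv' : v ∉ Sg' := fun hv' => (Finsupp.mem_support_iff.1 hv) (hD v hv')
  rw [if_neg hv', if_neg fun hv'' => hv' (h hv'')]

theorem Nrm_le_Hgp (α : k) (Sg : Finset (Pr k)) : Nrm p ζ α Sg ≤ Hgp p ζ α Sg := le_sup_right

theorem Prin_le_Hgp (α : k) (Sg : Finset (Pr k)) : Prin k ≤ Hgp p ζ α Sg := le_sup_left

end Fermat.Agent.S14
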