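import Fermat.Agent.S14.SUnits
import Fermat.Agent.S14.SymBasic
import Fermat.Agent.S14.Loc1

/-!
# S14/KSpIndex : (LOC1)  `(kˣ : k_{S,p}) ≤ p^{2#S + n}`
The theorem `Fermat.Agent.S14.KSp_index` is proved in `S14/Loc1.lean`; this file only re-exports it
(and checks that the statement is the one used by `S14/SI.lean`).
-/

set_option autoImplicit false

open NumberField IsDedekindDomain

namespace Fermat.Agent.S14

variable {p : ℕ} [Fact p.Prime] {k : Type} [Field k] [NumberField k] {ζ : k}

/-- (LOC1), statement check. -/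
example (hp : p ≠ 2) (hζ : IsPrimitiveRoot ζ p) (S : Finset (Pr k)) :
    ∃ H : Subgroup kˣ, (H : Set kˣ) = KSp p S ∧ H.index ≠ 0 ∧
      H.index ≤ p ^ (2 * S.card + Module.finrank ℚ k) := KSp_index hp hζ S

end Fermat.Agent.S14
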