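import Fermat.Agent.S14.SigmaH
import Fermat.Agent.S14.Kummer

/-!
# S14/LemmaB : Lemma B of the second inequality (USE 1), from the `SigmaH` core `lemmaB_core`.
-/

set_option autoImplicit false
set_option linter.unusedSectionVars false

open NumberField IsDedekindDomain

namespace Fermat.Agent.S14

variable {p : ℕ} [Fact p.Prime] {k : Type} [Field k] [NumberField k] {ζ : k}

namespace LemmaB

variable {M : Type} [Field M] [NumberField M] [Algebra k M] [IsGalois k M]

/-- `eidx = 1` ⇒ trivial inertia group. -/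
lemma inertia_eq_bot (w : Pr M) (h : eidx k w = 1) : w.asIdeal.inertia (M ≃ₐ[k] M) = ⊥ := by
  have h1 := Ideal.card_inertia_eq_ramificationIdxIn (G := M ≃ₐ[k] M) (below k w).asIdeal w.asIdeal
  rw [DvExt.eIn_eq, h] at h1
  exact Subgroup.eq_bot_of_card_eq _ h1

/-- split ⇒ trivial decomposition group. -/
lemma stab_trivial (w : Pr M) (h : eidx k w = 1 ∧ fdeg k w = 1) (σ : M ≃ₐ[k] M) (hσ : gal σ w = w) :
    σ = 1 := by
  have h1 := card_stab (k := k) w
  rw [h.1, h.2, mul_one] at h1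
  have h2 : Subsingleton {σ : M ≃ₐ[k] M // gal σ w = w} :=
    (Nat.card_eq_one_iff_unique.mp h1).1
  have h3 := h2.elim ⟨σ, hσ⟩ ⟨1, gal_one w⟩
  exact congrArg Subtype.val h3

/-- unramified when `v ∤ p` and `p ∣ ord_v x`. -/
lemma unram_of_dvd (hζ : IsPrimitiveRoot ζ p) (hdeg : Module.finrank k M = p) {x : k} (hx0 : x ≠ 0)
    (hx : ¬ ∃ y : k, y ^ p = x) {θ : M} (hθ : θ ^ p = algebraMap k M x) (w : Pr M)
    (hp : ord (below k w) (p : k) = 0) (hd : (p : ℤ) ∣ ord (below k w) x) : eidx k w = 1 := by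
  obtain ⟨m, hm⟩ := hd
  obtain ⟨π, hπ0, hπ⟩ := exists_ord_eq {below k w} (fun _ => -m)
  have hπ' : ord (below k w) π = -m := hπ _ (Finset.mem_singleton_self _)
  set x' : k := x * π ^ p with hx'
  have hx'0 : x' ≠ 0 := mul_ne_zero hx0 (pow_ne_zero _ hπ0)
  have h1 : ord (below k w) x' = 0 := by
    rw [hx', ord_mul _ hx0 (pow_ne_zero _ hπ0), ord_pow, hπ', hm]
    ring
  have h2 : ¬ ∃ y : k, y ^ p = x' := by
    rintro ⟨y, hy⟩
    apply hx
    refine ⟨y / π, ?_⟩
    rw [div_pow, hy, hx', mul_div_cancel_right₀ _ (pow_ne_zero _ hπ0)]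
  have h3 : (θ * algebraMap k M π) ^ p = algebraMap k M x' := by
    rw [mul_pow, hθ, hx', map_mul, map_pow]
  by_cases hs : sym p ζ (below k w) x' = 0
  · exact (kummer_split hζ hdeg h2 h3 w hp h1 hs).1
  · exact (kummer_inert hζ hdeg h2 h3 w hp h1 hs).1

lemma ord_prod' (w : Pr M) {ι : Type*} (s : Finset ι) (a : ι → M) (ha : ∀ j ∈ s, a j ≠ 0) :
    ord w (∏ j ∈ s, a j) = ∑ j ∈ s, ord w (a j) := by
  classical
  induction s using Finset.induction_on with
  | empty => simp [ord_one]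
  | insert i s hi ih =>
    rw [Finset.prod_insert hi, Finset.sum_insert hi,
      ord_mul w (ha i (Finset.mem_insert_self i s))
        (Finset.prod_ne_zero_iff.mpr fun j hj => ha j (Finset.mem_insert_of_mem hj)),
      ih fun j hj => ha j (Finset.mem_insert_of_mem hj)]

lemma cong_prod (w : Pr M) {ι : Type*} (s : Finset ι) (a : ι → M) (b : M) (hb : 0 ≤ ord w b)
    (ha : ∀ j ∈ s, 0 ≤ ord w (a j)) (h : ∀ j ∈ s, Cong w 1 (a j) b) :
    Cong w 1 (∏ j ∈ s, a j) (b ^ s.card) := by
  classical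
  induction s using Finset.induction_on with
  | empty => simpa using Cong.refl w 1 (1 : M)
  | insert i s hi ih =>
    rw [Finset.prod_insert hi, Finset.card_insert_of_notMem hi, pow_succ']
    refine Cong.mul (h i (Finset.mem_insert_self i s))
      (ih (fun j hj => ha j (Finset.mem_insert_of_mem hj)) (fun j hj => h j (Finset.mem_insert_of_mem hj)))
      (ha i (Finset.mem_insert_self i s)) ?_
    rw [ord_pow]
    positivity

/-- norms of elements which are units at a totally ramified prime are `p`-th power residues. -/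
lemma sym_norm_eq_zero (hζ : IsPrimitiveRoot ζ p) (hdeg : Module.finrank k M = p) (w : Pr M)
    (hp : ord (below k w) (p : k) = 0) (he : eidx k w = p ∧ fdeg k w = 1) {η : M} (hη0 : η ≠ 0)
    (hu : ord (below k w) (Algebra.norm k η) = 0) :
    sym p ζ (below k w) (Algebra.norm k η) = 0 := by
  have hp1 : p.Prime := Fact.out
  have hns : ¬ (eidx k w = 1 ∧ fdeg k w = 1) := by
    rintro ⟨h1, -⟩
    rw [he.1] at h1
    exact hp1.one_lt.ne' h1
  have hfix : ∀ σ : M ≃ₐ[k] M, gal σ w = w := gal_eq_self_of_not_split hdeg w hns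
  have hordσ : ∀ σ : M ≃ₐ[k] M, ord w (σ η) = ord w η := by
    intro σ
    have := ord_gal σ w η
    rwa [hfix σ] at this
  have hcard : (Finset.univ : Finset (M ≃ₐ[k] M)).card = p := by
    rw [Finset.card_univ, ← Nat.card_eq_fintype_card, IsGalois.card_aut_eq_finrank, hdeg]
  have hN0 : Algebra.norm k η ≠ 0 := by rwa [Ne, Algebra.norm_eq_zero_iff]
  -- `ord_w η = 0`
  have h1 : ord w η = 0 := by
    have h2 := ord_algebraMap w (Algebra.norm k η)
    rw [hu, mul_zero, algebraMap_norm, ord_prod' w _ _ (fun σ _ => (map_ne_zero σ).mpr hη0),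
      Finset.sum_congr rfl (fun σ _ => hordσ σ), Finset.sum_const, hcard] at h2
    have h3 : (p : ℤ) * ord w η = 0 := by simpa using h2
    rcases mul_eq_zero.mp h3 with h4 | h4
    · exact absurd (by exact_mod_cast h4) hp1.ne_zero
    · exact h4
  obtain ⟨y, hy0, hy⟩ := exists_cong_of_fdeg_one w he.2 (z := η) h1.ge
  have hyM : 0 ≤ ord w (algebraMap k M y) := by
    rw [ord_algebraMap]
    positivity
  have h5 : Cong w 1 (∏ σ : M ≃ₐ[k] M, σ η) ((algebraMap k M y) ^ (Finset.univ : Finset (M ≃ₐ[k] M)).card) := by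
    refine cong_prod w _ _ _ hyM (fun σ _ => (hordσ σ).ge.trans' h1.ge) ?_
    intro σ _
    have h6 := cong_gal σ w hy
    rwa [hfix σ, AlgEquiv.commutes] at h6
  rw [hcard, ← algebraMap_norm, ← map_pow] at h5
  have h7 := cong_of_algebraMap w h5
  have h8 := (h7.symm).ord_eq_zero le_rfl hN0 hu
  have hy1 : y ≠ 0 := by
    rintro rfl
    exact h8.1 (zero_pow hp1.ne_zero)
  have hy2 : ord (below k w) y = 0 := by
    have := h8.2
    rw [ord_pow] at this
    rcases mul_eq_zero.mp this with h4 | h4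
    · exact absurd (by exact_mod_cast h4) hp1.ne_zero
    · exact h4
  exact (sym_eq_zero_iff hζ _ hp hN0 hu).mpr ⟨y, hy1, hy2, h7⟩

end LemmaB

open LemmaB

open Classical in
/-- (Lemma B) -/
theorem lemmaB (hp : p ≠ 2) (hζ : IsPrimitiveRoot ζ p) (S T : Finset (Pr k))
    (hSp : ∀ v : Pr k, ord v (p : k) ≠ 0 → v ∈ S)
    (hScl : ∀ D : Dv k, ∃ x : k, x ≠ 0 ∧ ∀ v : Pr k, v ∉ S → (D + dv x) v = 0)
    (hST : Disjoint S T)
    (honto : ∀ c : Pr k → ZMod p, ∃ u : kˣ, u ∈ US S ∧ ∀ v ∈ T, sym p ζ v (u : k) = c v)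
    (x : kˣ) (hx : x ∈ US (S ∪ T)) (hx' : x ∈ KSp p S) : ∃ y : k, y ^ p = (x : k) := by
  by_contra hnp
  obtain ⟨M, _, _, _, _, θ, hdeg, hθ⟩ := exists_kummer hζ hnp
  set T' : Finset (Pr k) := T.filter (fun v => ¬ (p : ℤ) ∣ ord v (x : k)) with hT'
  have hT'T : T' ⊆ T := Finset.filter_subset _ _
  have hST' : Disjoint S T' := Finset.disjoint_of_subset_right hT'T hST
  have hpS : ∀ v : Pr k, v ∉ S → ord v (p : k) = 0 := fun v hv => by
    by_contra h
    exact hv (hSp v h)
  have hnotS : ∀ v ∈ T', v ∉ S := fun v hv hvS => (Finset.disjoint_left.mp hST') hvS hv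
  -- the homomorphism `φ`
  let φ : US S →* Multiplicative (T' → ZMod p) :=
    { toFun := fun u => Multiplicative.ofAdd (fun v => sym p ζ v.1 ((u : kˣ) : k))
      map_one' := by
        apply congrArg Multiplicative.ofAdd
        funext v
        exact sym_one hζ v.1 (hpS _ (hnotS _ v.2))
      map_mul' := by
        intro a b
        rw [← ofAdd_add]
        apply congrArg Multiplicative.ofAdd
        funext v
        have hv : v.1 ∉ S := hnotS _ v.2
        exact sym_mul hζ v.1 (hpS _ (hnotS _ v.2)) (a : kˣ).ne_zero (a.2 _ hv) (b : kˣ).ne_zero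
          (b.2 _ hv) }
  refine lemmaB_core (k := k) (M := M) p hp hdeg ζ hζ S T' hST' ?_ ?_ ?_ φ ?_ ?_
  · -- primes of `S` split
    intro w hw σ hσ
    exact stab_trivial w (kummer_loc2 hζ hdeg hnp hθ w (hx' _ hw)) σ hσ
  · -- unramified outside `S ∪ T'`
    intro w hwS hwT'
    apply unram_of_dvd hζ hdeg x.ne_zero hnp hθ w (hpS _ hwS)
    by_cases hwT : below k w ∈ T
    · by_contra hd
      exact hwT' (Finset.mem_filter.mpr ⟨hwT, hd⟩)
    · rw [hx (below k w) (by simp [hwS, hwT])]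
      exact dvd_zero _
  · -- class group
    intro D
    obtain ⟨c, hc0, hc⟩ := hScl (-D)
    refine ⟨c, hc0, fun v hv => ?_⟩
    have := hc v hv
    rw [Finsupp.add_apply, Finsupp.neg_apply, dv_apply] at this
    omega
  · -- surjectivity
    intro c
    obtain ⟨u, hu, huc⟩ := honto (fun v => if h : v ∈ T' then (Multiplicative.toAdd c) ⟨v, h⟩ else 0)
    refine ⟨⟨u, hu⟩, ?_⟩
    apply Multiplicative.toAdd.injective
    funext v
    have := huc v.1 (hT'T v.2)
    rw [dif_pos v.2] at this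
    exact this
  · -- norms are killed
    intro u η _ hN
    apply Multiplicative.toAdd.injective
    funext v
    obtain ⟨w, hw⟩ := exists_over (M := M) v.1
    have hv2 : ¬ (p : ℤ) ∣ ord v.1 (x : k) := (Finset.mem_filter.mp v.2).2
    have hram := kummer_ram hζ hdeg hθ w (by rw [hw]; exact hv2)
    have hvS : v.1 ∉ S := hnotS _ v.2
    have h1 := sym_norm_eq_zero hζ hdeg w (by rw [hw]; exact hpS _ (hnotS _ v.2)) hram η.ne_zero
      (by rw [hw, hN]; exact u.2 _ hvS)
    rw [hw, hN] at h1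
    exact h1

end Fermat.Agent.S14
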