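import Fermat.Agent.S14.SUnits
import Fermat.Agent.S14.KSpIndex
import Fermat.Agent.S14.LemmaB
import Fermat.Agent.S14.ExistsT
import Fermat.Agent.S14.HgpNeTop

/-!
# S14/SI : the second inequality  `(Dv k : Prin + N_α^Σ) ≤ p`      (k ∋ ζ_p any number field, p odd)

`θ : kˣ → Dv k / H`, `y ↦` class of the prime-to-`S` part of `dv y`, is onto and kills `K = k_{S,p}` and
`U = U_{S ∪ T}`; `(kˣ : K U) (U : U ∩ K) = (kˣ : K) ≤ p^(2 #S + n)` and `U ∩ K = U^p` (Lemma B).
-/

set_option autoImplicit false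
set_option linter.unusedSectionVars false

open NumberField IsDedekindDomain

namespace Fermat.Agent.S14

variable {p : ℕ} [Fact p.Prime] {k : Type} [Field k] [NumberField k] {ζ : k}

namespace SIaux

/-- abstract count. -/
theorem card_mul_le {Γ Q : Type*} [CommGroup Γ] [Group Q] (θ : Γ →* Q)
    (hθ : Function.Surjective θ) (K U P : Subgroup Γ) (hK : K ≤ θ.ker) (hU : U ≤ θ.ker)
    (hK0 : K.index ≠ 0) (hKU : K ⊓ U ≤ P) :
    Nat.card Q ≠ 0 ∧ Nat.card Q * P.relIndex U ≤ K.index := by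
  have hW : K ⊔ U ≤ θ.ker := sup_le hK hU
  have h1 : θ.ker.index = Nat.card Q := by
    rw [Subgroup.index_ker, MonoidHom.range_eq_top.2 hθ, Subgroup.card_top]
  have h2 : K.relIndex (K ⊔ U) * (K ⊔ U).index = K.index := Subgroup.relIndex_mul_index le_sup_left
  have hW0 : (K ⊔ U).index ≠ 0 := fun h => hK0 (by rw [← h2, h, mul_zero])
  have hR0 : K.relIndex (K ⊔ U) ≠ 0 := fun h => hK0 (by rw [← h2, h, zero_mul])
  have h3 : θ.ker.index ∣ (K ⊔ U).index := Subgroup.index_dvd_of_le hW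
  have h4 : K.relIndex (K ⊔ U) = (K ⊓ U).relIndex U := by
    rw [Subgroup.relIndex_sup_left, Subgroup.inf_relIndex_right]
  have h5 : P.relIndex U ∣ (K ⊓ U).relIndex U := Subgroup.relIndex_dvd_of_le_left U hKU
  rw [h1] at h3
  refine ⟨fun h => hW0 (Nat.eq_zero_of_zero_dvd (h ▸ h3)), ?_⟩
  rw [← h2, mul_comm]
  exact Nat.mul_le_mul (Nat.le_of_dvd (Nat.pos_of_ne_zero hR0) (h4 ▸ h5))
    (Nat.le_of_dvd (Nat.pos_of_ne_zero hW0) h3)

theorem mem_of_forall_single (A : AddSubgroup (Dv k)) (F : Dv k)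
    (h : ∀ v, Finsupp.single v (F v) ∈ A) : F ∈ A := by
  rw [← Finsupp.sum_single F]
  exact AddSubgroup.sum_mem _ fun v _ => h v

/-- `x ↦ dv x` as a homomorphism. -/
noncomputable def dvHom : kˣ →* Multiplicative (Dv k) where
  toFun x := Multiplicative.ofAdd (dv (x : k))
  map_one' := by rw [Units.val_one, dv_one]; rfl
  map_mul' x y := by rw [Units.val_mul, dv_mul x.ne_zero y.ne_zero]; rfl

open Classical in
/-- `x ↦` class of the prime-to-`S` part of `dv x`. -/
noncomputable def theta (S : Finset (Pr k)) (H : AddSubgroup (Dv k)) :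
    kˣ →* Multiplicative (Dv k ⧸ H) :=
  (AddMonoidHom.toMultiplicative
    ((QuotientAddGroup.mk' H).comp (Finsupp.filterAddHom fun v => v ∉ S))).comp dvHom

open Classical in
theorem mem_ker_theta (S : Finset (Pr k)) (H : AddSubgroup (Dv k)) (x : kˣ) :
    x ∈ (theta S H).ker ↔ Finsupp.filter (fun v => v ∉ S) (dv (x : k)) ∈ H := by
  rw [MonoidHom.mem_ker]
  exact QuotientAddGroup.eq_zero_iff _

/-- a finite set of primes generating the class group. -/
theorem exists_S (Sg : Finset (Pr k)) : ∃ S : Finset (Pr k), Sg ⊆ S ∧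
    ∀ D : Dv k, ∃ x : k, x ≠ 0 ∧ ∀ v : Pr k, v ∉ S → (D + dv x) v = 0 := by
  classical
  have := finite_quot_Prin (k := k)
  have := Fintype.ofFinite (Dv k ⧸ Prin k)
  refine ⟨Sg ∪ Finset.univ.biUnion fun c : Dv k ⧸ Prin k => (Quotient.out c).support,
    Finset.subset_union_left, ?_⟩
  intro D
  set c : Dv k ⧸ Prin k := QuotientAddGroup.mk D with hc
  have h1 : -D + Quotient.out c ∈ Prin k := by
    rw [← QuotientAddGroup.eq, QuotientAddGroup.out_eq']
  obtain ⟨x, hx, hxD⟩ := (mem_Prin_iff _).1 h1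
  refine ⟨x, hx, fun v hv => ?_⟩
  rw [hxD, add_neg_cancel_left]
  by_contra hne
  apply hv
  apply Finset.mem_union_right
  rw [Finset.mem_biUnion]
  exact ⟨c, Finset.mem_univ _, Finsupp.mem_support_iff.2 hne⟩

open Classical in
theorem theta_surjective (S : Finset (Pr k)) (H : AddSubgroup (Dv k)) (hH : Prin k ≤ H)
    (hScl : ∀ D : Dv k, ∃ x : k, x ≠ 0 ∧ ∀ v : Pr k, v ∉ S → (D + dv x) v = 0) :
    Function.Surjective (theta S H) := by
  intro q
  obtain ⟨D, hD⟩ := QuotientAddGroup.mk_surjective (Multiplicative.toAdd q)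
  obtain ⟨x₁, hx₁, h₁⟩ := exists_move S D
  obtain ⟨x₂, hx₂, h₂⟩ := hScl (D + dv x₁)
  refine ⟨(Units.mk0 x₂ hx₂)⁻¹, ?_⟩
  apply Multiplicative.toAdd.injective
  rw [← hD]
  show (QuotientAddGroup.mk (Finsupp.filter (fun v => v ∉ S)
    (dv (((Units.mk0 x₂ hx₂)⁻¹ : kˣ) : k))) : Dv k ⧸ H) = QuotientAddGroup.mk D
  have h3 : Finsupp.filter (fun v => v ∉ S) (dv (((Units.mk0 x₂ hx₂)⁻¹ : kˣ) : k)) =
      D + dv x₁ := by
    ext v
    rw [Units.val_inv_eq_inv_val, Units.val_mk0, dv_inv, Finsupp.filter_apply]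
    split_ifs with hv
    · exact (h₁ v hv).symm
    · have := h₂ v hv
      rw [Finsupp.add_apply] at this
      rw [Finsupp.neg_apply]
      linarith
  rw [h3, QuotientAddGroup.eq]
  have : -(D + dv x₁) + D = -dv x₁ := by abel
  rw [this]
  exact H.neg_mem (hH ((mem_Prin_iff _).2 ⟨x₁, hx₁, rfl⟩))

theorem dvd_ord_of_LocPow {v : Pr k} {x : k} (hx : x ≠ 0) (h : LocPow p v x) :
    ∃ m : ℤ, ord v x = p * m := by
  obtain ⟨z, hz, hc⟩ := h
  have h1 := (Cong.ord_eq_zero (Loc1.one_le_nloc p v) hc one_ne_zero (ord_one v)).2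
  rw [ord_div v hx (pow_ne_zero _ hz), ord_pow] at h1
  exact ⟨ord v z, by linarith⟩

open Classical in
theorem KSp_le_ker (α : k) (S : Finset (Pr k)) {x : kˣ} (hx : x ∈ KSp p S) :
    x ∈ (theta S (Hgp p ζ α S)).ker := by
  rw [mem_ker_theta]
  have h1 : dv (x : k) ∈ Hgp p ζ α S :=
    Prin_le_Hgp α S ((mem_Prin_iff _).2 ⟨x, x.ne_zero, rfl⟩)
  have h2 : Finsupp.filter (fun v => v ∈ S) (dv (x : k)) ∈ Hgp p ζ α S := by
    apply Nrm_le_Hgp α S
    apply mem_of_forall_single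
    intro v
    rw [Finsupp.filter_apply]
    split_ifs with hv
    · obtain ⟨m, hm⟩ := dvd_ord_of_LocPow x.ne_zero (hx v hv)
      have := smul_mem_Nrm (p := p) (ζ := ζ) α S (Finsupp.single v m)
      rw [dv_apply, hm]
      rwa [Finsupp.smul_single, nsmul_eq_mul] at this
    · rw [Finsupp.single_zero]; exact AddSubgroup.zero_mem _
  have h3 := Finsupp.filter_add_filter_not (dv (x : k)) (fun v => v ∈ S)
  have h4 : Finsupp.filter (fun v => v ∉ S) (dv (x : k)) =
      dv (x : k) - Finsupp.filter (fun v => v ∈ S) (dv (x : k)) := by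
    rw [eq_sub_iff_add_eq, add_comm]; exact h3
  rw [h4]
  exact AddSubgroup.sub_mem _ h1 h2

open Classical in
theorem US_le_ker (α : k) (S T : Finset (Pr k))
    (hT : ∀ v ∈ T, sym p ζ v α = 0) {x : kˣ} (hx : x ∈ US (S ∪ T)) :
    x ∈ (theta S (Hgp p ζ α S)).ker := by
  rw [mem_ker_theta]
  apply Nrm_le_Hgp α S
  apply mem_of_forall_single
  intro v
  rw [Finsupp.filter_apply]
  split_ifs with hv
  · rw [Finsupp.single_zero]; exact AddSubgroup.zero_mem _
  · by_cases hvT : v ∈ T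
    · exact single_mem_Nrm_of_sym_eq_zero α S hv (hT v hvT) _
    · have : v ∉ S ∪ T := by simp [hv, hvT]
      rw [dv_apply, hx v this, Finsupp.single_zero]; exact AddSubgroup.zero_mem _

/-- the `p`-th powers of `U`, as a subgroup of the ambient group. -/
theorem relIndex_pow {Γ : Type*} [CommGroup Γ] (U : Subgroup Γ) (n : ℕ) :
    (((powMonoidHom n : U →* U).range).map U.subtype).relIndex U =
      ((powMonoidHom n : U →* U).range).index := by
  rw [Subgroup.relIndex, Subgroup.subgroupOf, Subgroup.comap_map_eq_self_of_injective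
    U.subtype_injective]

/-- the case where `α` is not a `p`-th power and `S` generates the class group. -/
theorem SI_big (hp : p ≠ 2) (hζ : IsPrimitiveRoot ζ p) {α : k} (hα : α ≠ 0) (S : Finset (Pr k))
    (hS : Good p α S)
    (hScl : ∀ D : Dv k, ∃ x : k, x ≠ 0 ∧ ∀ v : Pr k, v ∉ S → (D + dv x) v = 0)
    (hnp : ¬ ∃ y : k, y ^ p = α) : (Hgp p ζ α S).index ≠ 0 ∧ (Hgp p ζ α S).index ≤ p := by
  classical
  have hpp := (Fact.out : p.Prime)
  have hSp : ∀ v : Pr k, ord v (p : k) ≠ 0 → v ∈ S := fun v hv => by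
    by_contra h
    exact hv (hS v h).1
  have hαS : Units.mk0 α hα ∈ US S := fun v hv => (hS v hv).2
  obtain ⟨T, hST, hTc, hTs, honto⟩ := exists_T hp hζ S hSp (Units.mk0 α hα) hαS hnp
    (Units.rank k + S.card + 1) (index_pow_range_US p hζ S)
  obtain ⟨K, hK, hK0, hKle⟩ := KSp_index hp hζ S
  set H := Hgp p ζ α S with hH
  set U := US (S ∪ T) with hU
  set P := ((powMonoidHom p : U →* U).range).map U.subtype with hP
  have hKU : K ⊓ U ≤ P := by
    intro x hx
    have hxK : x ∈ KSp p S := by rw [← hK]; exact hx.1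
    obtain ⟨y, hy⟩ := lemmaB hp hζ S T hSp hScl hST honto x hx.2 hxK
    have hy0 : y ≠ 0 := by
      rintro rfl
      rw [zero_pow hpp.ne_zero] at hy
      exact x.ne_zero hy.symm
    have hyU : Units.mk0 y hy0 ∈ U := by
      intro v hv
      have h1 := hx.2 v hv
      rw [← hy, ord_pow] at h1
      have h2 : (p : ℤ) ≠ 0 := by exact_mod_cast hpp.ne_zero
      exact (mul_eq_zero.1 h1).resolve_left h2
    refine ⟨⟨x, hx.2⟩, ⟨⟨Units.mk0 y hy0, hyU⟩, ?_⟩, rfl⟩
    apply Subtype.ext; apply Units.ext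
    simpa using hy
  obtain ⟨h0, h1⟩ := card_mul_le (theta S H) (theta_surjective S H (Prin_le_Hgp α S) hScl) K U P
    (fun x hx => KSp_le_ker α S (by rw [← hK]; exact hx))
    (fun x hx => US_le_ker α S T hTs hx) hK0 hKU
  have hcard : Nat.card (Multiplicative (Dv k ⧸ H)) = H.index := rfl
  rw [hcard] at h0 h1
  refine ⟨h0, ?_⟩
  rw [hP, relIndex_pow, index_pow_range_US p hζ (S ∪ T), Finset.card_union_of_disjoint hST] at h1
  have h2 : 2 < p := lt_of_le_of_ne hpp.two_le (Ne.symm hp)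
  have h3 := two_mul_rank_add_one p h2 hζ
  have h4 : 2 * S.card + Module.finrank ℚ k = (Units.rank k + (S.card + T.card) + 1) + 1 := by
    omega
  rw [h4, pow_succ] at hKle
  have h5 := h1.trans hKle
  rw [mul_comm] at h5
  exact Nat.le_of_mul_le_mul_left h5 (pow_pos hpp.pos _)

end SIaux

open SIaux in
theorem SI (hp : p ≠ 2) (hζ : IsPrimitiveRoot ζ p) {α : k} (hα : α ≠ 0) (Sg : Finset (Pr k))
    (hSg : Good p α Sg) : (Hgp p ζ α Sg).index ≠ 0 ∧ (Hgp p ζ α Sg).index ≤ p := by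
  have hpp := (Fact.out : p.Prime)
  by_cases hnp : ∃ y : k, y ^ p = α
  · obtain ⟨y, rfl⟩ := hnp
    have hy0 : y ≠ 0 := fun h => hα (by rw [h, zero_pow hpp.ne_zero])
    have htop : Hgp p ζ (y ^ p) Sg = ⊤ := by
      rw [eq_top_iff]
      intro D _
      obtain ⟨x, hx, hxD⟩ := exists_move Sg D
      have h1 : D + dv x ∈ Hgp p ζ (y ^ p) Sg := by
        apply Nrm_le_Hgp
        apply mem_of_forall_single
        intro v
        by_cases hv : v ∈ Sg
        · rw [hxD v hv, Finsupp.single_zero]; exact AddSubgroup.zero_mem _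
        · apply single_mem_Nrm_of_sym_eq_zero _ _ hv
          have h2 := (hSg v hv).2
          rw [ord_pow] at h2
          have h3 : (p : ℤ) ≠ 0 := by exact_mod_cast hpp.ne_zero
          exact sym_pow_p hζ v (hSg v hv).1 hy0 ((mul_eq_zero.1 h2).resolve_left h3)
      have h2 : dv x ∈ Hgp p ζ (y ^ p) Sg := Prin_le_Hgp _ _ ((mem_Prin_iff _).2 ⟨x, hx, rfl⟩)
      have := AddSubgroup.sub_mem _ h1 h2
      rwa [add_sub_cancel_right] at this
    rw [htop, AddSubgroup.index_top]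
    exact ⟨one_ne_zero, hpp.one_le⟩
  · obtain ⟨S, hSS, hScl⟩ := exists_S Sg
    have hS : Good p α S := fun v hv => hSg v fun h => hv (hSS h)
    obtain ⟨h0, h1⟩ := SI_big hp hζ hα S hS hScl hnp
    have h2 : (Hgp p ζ α Sg).index ∣ (Hgp p ζ α S).index :=
      AddSubgroup.index_dvd_of_le (Hgp_mono α hSS)
    exact ⟨fun h => h0 (Nat.eq_zero_of_zero_dvd (h ▸ h2)),
      (Nat.le_of_dvd (Nat.pos_of_ne_zero h0) h2).trans h1⟩

end Fermat.Agent.S14
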