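import Fermat.Agent.S14.Cyc
import Fermat.Agent.S14.SI

/-!
# S14/Link : two primes which split in `k' = K((α^a γ_m)^{1/p})` are proportional in `V = Dv K / H`
-/

set_option autoImplicit false

open NumberField IsDedekindDomain

namespace Fermat.Agent.S14

namespace Link

/-- elements of `Nrm` have coefficients divisible by `p` at the primes of `Sg`. -/
theorem dvd_of_mem_Nrm {p : ℕ} {k : Type} [Field k] [NumberField k] {ζ α : k} {Sg : Finset (Pr k)}
    {N : Dv k} (hN : N ∈ Nrm p ζ α Sg) {v : Pr k} (hv : v ∈ Sg) : (p : ℤ) ∣ N v := by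
  unfold Nrm at hN
  induction hN using AddSubgroup.closure_induction with
  | mem x hx =>
    rcases hx with ⟨w, hw, -, rfl⟩ | ⟨E, rfl⟩
    · have : w ≠ v := fun h => hw (h ▸ hv)
      rw [Finsupp.single_eq_of_ne' this]
      exact dvd_zero _
    · rw [Finsupp.smul_apply]
      exact ⟨E v, by simp⟩
  | zero => simp
  | add x y _ _ hx hy => rw [Finsupp.add_apply]; exact dvd_add hx hy
  | neg x _ hx => rw [Finsupp.neg_apply]; exact (dvd_neg).mpr hx

/-- abstract: a subgroup of index `≤ p` on which (intersected with `X`) a functional `ψ` vanishes contains the kernel of `ψ` in `X`,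
as soon as `ψ ≠ 0` on `X`. -/
theorem mem_of_index_le {A : Type*} [AddCommGroup A] {p : ℕ} [Fact p.Prime] (H X : AddSubgroup A)
    (hH0 : H.index ≠ 0) (hHp : H.index ≤ p) (ψ : A →+ ZMod p)
    (hψ : ∀ D ∈ X, D ∈ H → ψ D = 0) {R : A} (hRX : R ∈ X) (hR : ψ R ≠ 0) {D : A} (hDX : D ∈ X)
    (hD : ψ D = 0) : D ∈ H := by
  have : H.FiniteIndex := ⟨hH0⟩
  have hfin : Finite (A ⧸ H) := AddSubgroup.finite_quotient_of_finiteIndex
  let F : ZMod p → A ⧸ H := fun j => QuotientAddGroup.mk (j.val • R)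
  have hinj : Function.Injective F := by
    intro i j hij
    have h1 : -(i.val • R) + j.val • R ∈ H := QuotientAddGroup.eq.mp hij
    have h2 : -(i.val • R) + j.val • R ∈ X :=
      X.add_mem (X.neg_mem (X.nsmul_mem hRX _)) (X.nsmul_mem hRX _)
    have h3 := hψ _ h2 h1
    rw [map_add, map_neg, map_nsmul, map_nsmul, nsmul_eq_mul, nsmul_eq_mul, ZMod.natCast_zmod_val,
      ZMod.natCast_zmod_val, ← sub_eq_neg_add, ← sub_mul] at h3
    rcases mul_eq_zero.mp h3 with h4 | h4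
    · exact (sub_eq_zero.mp h4).symm
    · exact absurd h4 hR
  have hcard : Nat.card (A ⧸ H) ≤ Nat.card (ZMod p) := by
    rw [Nat.card_zmod]; exact hHp
  obtain ⟨j, hj⟩ := (hinj.bijective_of_nat_card_le hcard).2 (QuotientAddGroup.mk D)
  have h1 : -(j.val • R) + D ∈ H := QuotientAddGroup.eq.mp hj
  have h2 : -(j.val • R) + D ∈ X := X.add_mem (X.neg_mem (X.nsmul_mem hRX _)) hDX
  have h3 := hψ _ h2 h1
  rw [map_add, map_neg, map_nsmul, nsmul_eq_mul, ZMod.natCast_zmod_val, hD, add_zero,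
    neg_eq_zero] at h3
  rcases mul_eq_zero.mp h3 with h4 | h4
  · rw [h4] at h1
    simpa using h1
  · exact absurd h4 hR

/-- a rational prime is not a unit. -/
theorem exists_ord_ne_zero {K : Type} [Field K] [NumberField K] {m : ℕ} (hm : m.Prime) :
    ∃ v : Pr K, ord v (m : K) ≠ 0 := by
  by_contra hcon
  push Not at hcon
  have hm0 : (m : K) ≠ 0 := Nat.cast_ne_zero.mpr hm.ne_zero
  obtain ⟨u, hu⟩ := exists_unit_of_ord_eq_zero hm0 hcon
  have h1 : ((u : 𝓞 K)) = (m : 𝓞 K) := by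
    apply RingOfIntegers.ext
    rw [hu]; simp
  have h2 : IsUnit ((m : ℕ) : 𝓞 K) := h1 ▸ u.isUnit
  have h3 : IsUnit (Algebra.norm ℤ ((m : ℕ) : 𝓞 K)) := h2.map (Algebra.norm ℤ)
  have h4 : ((m : ℕ) : 𝓞 K) = algebraMap ℤ (𝓞 K) (m : ℤ) := by simp
  rw [h4, Algebra.norm_algebraMap] at h3
  have h5 : IsUnit (m : ℤ) := by
    have hn : Module.finrank ℤ (𝓞 K) ≠ 0 := by
      rw [RingOfIntegers.rank]; exact Module.finrank_pos.ne'
    exact (isUnit_pow_iff hn).mp h3
  rw [Int.isUnit_iff] at h5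
  have := hm.two_le
  omega

end Link

open Link in
theorem link {p : ℕ} [Fact p.Prime] (hp : p ≠ 2) {K : Type} [Field K] [NumberField K]
    [IsCyclotomicExtension {p} ℚ K] {ζ : K} (hζ : IsPrimitiveRoot ζ p) {m : ℕ} (hm : m.Prime)
    (hmp : m % p = 1) {α : K} (hα0 : α ≠ 0) (Sg : Finset (Pr K)) (hSg : Good p α Sg)
    (hαm : ∀ v : Pr K, ord v (m : K) ≠ 0 → ord v α = 0)
    {γ : K} {lg : ZMod m → ZMod p} (hγ0 : γ ≠ 0)
    (hlg_mul : ∀ a b : ZMod m, a ≠ 0 → b ≠ 0 → lg (a * b) = lg a + lg b)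
    (hlg_zero : ∀ a : ZMod m, a ≠ 0 → (lg a = 0 ↔ ∃ c : ZMod m, c ^ p = a))
    (hγ_unit : ∀ v : Pr K, ord v (m : K) = 0 → ord v γ = 0)
    (hγ_ram : ∀ v : Pr K, ord v (m : K) ≠ 0 → ¬ (p : ℤ) ∣ ord v γ)
    (hγ_sym : ∀ v : Pr K, ord v (m : K) = 0 → ord v (p : K) = 0 →
      sym p ζ v γ = - lg (Nv v : ZMod m))
    {a : ℕ} (ha : ¬ p ∣ a) {r q : Pr K} (hr : r ∉ Sg) (hq : q ∉ Sg)
    (hrm : ord r (m : K) = 0) (hqm : ord q (m : K) = 0)
    (hsr : sym p ζ r (α ^ a * γ) = 0) (hsq : sym p ζ q (α ^ a * γ) = 0)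
    (hne : sym p ζ r α ≠ 0) {cr cq : ℤ} (hcr : (cr : ZMod p) = sym p ζ r α)
    (hcq : (cq : ZMod p) = sym p ζ q α) :
    Finsupp.single r cq - Finsupp.single q cr ∈ Hgp p ζ α Sg := by
  classical
  have hβ0 : α ^ a * γ ≠ 0 := mul_ne_zero (pow_ne_zero _ hα0) hγ0
  -- β is not a p-th power
  have hβ : ¬ ∃ y : K, y ^ p = α ^ a * γ := by
    rintro ⟨y, hy⟩
    obtain ⟨v, hv⟩ := exists_ord_ne_zero (K := K) hm
    apply hγ_ram v hv
    have h1 : ord v (α ^ a * γ) = ord v γ := by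
      rw [ord_mul v (pow_ne_zero _ hα0) hγ0, ord_pow, hαm v hv, mul_zero, zero_add]
    rw [← h1, ← hy, ord_pow]
    exact dvd_mul_right _ _
  obtain ⟨k', _, _, _, _, θ, hdeg, hθ⟩ := exists_kummer hζ hβ
  -- the bad primes
  let Sg1 : Finset (Pr K) := Sg ∪ (finite_ord_ne_zero (m : K)).toFinset
  have hfin : {w : Pr k' | below K w ∈ Sg1}.Finite := by
    have : {w : Pr k' | below K w ∈ Sg1} = ⋃ v ∈ Sg1, {w : Pr k' | below K w = v} := by
      ext w; simp
    rw [this]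
    exact Set.Finite.biUnion Sg1.finite_toSet fun v _ => finite_over v
  let Sg' : Finset (Pr k') := hfin.toFinset
  have hmem' : ∀ w : Pr k', w ∈ Sg' ↔ below K w ∈ Sg1 := fun w => by simp [Sg']
  have hmem1 : ∀ v : Pr K, v ∈ Sg1 ↔ v ∈ Sg ∨ ord v (m : K) ≠ 0 := fun v => by simp [Sg1]
  have hSg' : ∀ w : Pr k', w ∉ Sg' → ord (below K w) (p : K) = 0 ∧ ord (below K w) (m : K) = 0 ∧
      ord (below K w) α = 0 := by
    intro w hw
    rw [hmem', hmem1, not_or, not_not] at hw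
    exact ⟨(hSg _ hw.1).1, hw.2, (hSg _ hw.1).2⟩
  set ζ' := algebraMap K k' ζ with hζ'def
  set α' := algebraMap K k' α with hα'def
  have hζ' : IsPrimitiveRoot ζ' p := hζ.map_of_injective (algebraMap K k').injective
  have hα'0 : α' ≠ 0 := (map_ne_zero _).mpr hα0
  have hgood' : Good p α' Sg' := by
    intro w hw
    obtain ⟨h1, -, h3⟩ := hSg' w hw
    constructor
    · have : ((p : ℕ) : k') = algebraMap K k' (p : K) := by simp
      rw [this, ord_algebraMap, h1, mul_zero]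
    · rw [hα'def, ord_algebraMap, h3, mul_zero]
  obtain ⟨hI0, hIp⟩ := SI hp hζ' hα'0 Sg' hgood'
  -- the primes above r, q
  obtain ⟨R, hR⟩ := exists_over (M := k') r
  obtain ⟨Q, hQ⟩ := exists_over (M := k') q
  have hβr : ord r (α ^ a * γ) = 0 := by
    rw [ord_mul r (pow_ne_zero _ hα0) hγ0, ord_pow, (hSg r hr).2, hγ_unit r hrm]; simp
  have hβq : ord q (α ^ a * γ) = 0 := by
    rw [ord_mul q (pow_ne_zero _ hα0) hγ0, ord_pow, (hSg q hq).2, hγ_unit q hqm]; simp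
  have hRs := kummer_split hζ hdeg hβ hθ R (by rw [hR]; exact (hSg r hr).1) (by rw [hR]; exact hβr)
    (by rw [hR]; exact hsr)
  have hQs := kummer_split hζ hdeg hβ hθ Q (by rw [hQ]; exact (hSg q hq).1) (by rw [hQ]; exact hβq)
    (by rw [hQ]; exact hsq)
  have hRS : R ∉ Sg' := by
    rw [hmem', hR, hmem1, not_or, not_not]; exact ⟨hr, hrm⟩
  have hQS : Q ∉ Sg' := by
    rw [hmem', hQ, hmem1, not_or, not_not]; exact ⟨hq, hqm⟩
  have hsymR : sym p ζ' R α' = sym p ζ r α := by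
    rw [hζ'def, hα'def, sym_algebraMap hζ R (by rw [hR]; exact (hSg r hr).1) hα0
      (by rw [hR]; exact (hSg r hr).2), hRs.2, hR]; simp
  have hsymQ : sym p ζ' Q α' = sym p ζ q α := by
    rw [hζ'def, hα'def, sym_algebraMap hζ Q (by rw [hQ]; exact (hSg q hq).1) hα0
      (by rw [hQ]; exact (hSg q hq).2), hQs.2, hQ]; simp
  -- the subgroup of divisors prime to Sg'
  let X : AddSubgroup (Dv k') :=
    { carrier := {D | ∀ w ∈ Sg', D w = 0}
      add_mem' := fun {x y} hx hy w hw => by rw [Finsupp.add_apply, hx w hw, hy w hw, add_zero]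
      zero_mem' := fun w _ => rfl
      neg_mem' := fun {x} hx w hw => by rw [Finsupp.neg_apply, hx w hw, neg_zero] }
  have hsingleX : ∀ (w : Pr k') (n : ℤ), w ∉ Sg' → Finsupp.single w n ∈ X := by
    intro w n hw w' hw'
    have : w ≠ w' := fun h => hw (h ▸ hw')
    exact Finsupp.single_eq_of_ne' this
  have hψ : ∀ D ∈ X, D ∈ Hgp p ζ' α' Sg' → psi p ζ' α' Sg' D = 0 := by
    intro D hDX hDH
    obtain ⟨P, hP, N, hN, rfl⟩ := AddSubgroup.mem_sup.mp hDH
    obtain ⟨y, hy0, rfl⟩ := (mem_Prin_iff P).mp hP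
    rw [map_add, psi_eq_zero_of_mem_Nrm α' Sg' hN, add_zero]
    refine psi_dv_eq_zero_of_cyc hp hζ hm hmp hγ0 hlg_mul hlg_zero hγ_unit hγ_ram hγ_sym hα0 hαm ha
      hdeg hθ Sg' hSg' hy0 fun w hw => ?_
    have h1 : dv y w + N w = 0 := hDX w hw
    have h2 : ord w y = - N w := by rw [← dv_apply]; linarith
    rw [h2]
    exact (dvd_neg).mpr (dvd_of_mem_Nrm hN hw)
  have hpsiR : psi p ζ' α' Sg' (Finsupp.single R 1) ≠ 0 := by
    rw [psi_single, if_neg hRS, hsymR]; simpa using hne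
  have hD0 : psi p ζ' α' Sg' (Finsupp.single R cq - Finsupp.single Q cr) = 0 := by
    rw [map_sub, psi_single, psi_single, if_neg hRS, if_neg hQS, hsymR, hsymQ, hcr, hcq]
    ring
  have hDH := mem_of_index_le (Hgp p ζ' α' Sg') X hI0 hIp (psi p ζ' α' Sg') hψ
    (hsingleX R 1 hRS) hpsiR (X.sub_mem (hsingleX R cq hRS) (hsingleX Q cr hQS)) hD0
  -- push down
  have hnmN : ∀ N ∈ Nrm p ζ' α' Sg', nm K k' N ∈ Nrm p ζ α Sg := by
    intro N hN
    unfold Nrm at hN
    induction hN using AddSubgroup.closure_induction with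
    | mem x hx =>
      rcases hx with ⟨w, hw, hs, rfl⟩ | ⟨E, rfl⟩
      · rw [nm_single]
        obtain ⟨h1, -, h3⟩ := hSg' w hw
        have hw1 : below K w ∉ Sg := by
          rw [hmem', hmem1, not_or] at hw; exact hw.1
        apply single_mem_Nrm α Sg hw1
        rw [hζ'def, hα'def, sym_algebraMap hζ w h1 hα0 h3] at hs
        push_cast
        rw [mul_one]; exact hs
      · rw [map_nsmul]; exact smul_mem_Nrm α Sg _
    | zero => rw [map_zero]; exact AddSubgroup.zero_mem _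
    | add x y _ _ hx hy => rw [map_add]; exact AddSubgroup.add_mem _ hx hy
    | neg x _ hx => rw [map_neg]; exact AddSubgroup.neg_mem _ hx
  obtain ⟨P, hP, N, hN, hPN⟩ := AddSubgroup.mem_sup.mp hDH
  obtain ⟨y, hy0, rfl⟩ := (mem_Prin_iff P).mp hP
  have hfinal := congrArg (nm K k') hPN
  rw [map_add, map_sub, nm_single, nm_single, nm_dv hy0, hR, hQ, hRs.2, hQs.2] at hfinal
  simp only [Nat.cast_one, one_mul] at hfinal
  rw [← hfinal]
  refine AddSubgroup.add_mem _ (AddSubgroup.mem_sup_left ?_) (AddSubgroup.mem_sup_right (hnmN N hN))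
  exact (mem_Prin_iff _).mpr ⟨_, (Algebra.norm_ne_zero_iff).mpr hy0, rfl⟩

end Fermat.Agent.S14
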