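import Fermat.Agent.S14.Sym
import Fermat.Agent.S14.SymCore

/-!
# S14/LinkCopAux : residue characteristics, rational integers and power residue symbols
-/

set_option autoImplicit false
set_option linter.unusedSectionVars false
set_option linter.unusedVariables false
set_option linter.style.haveILetI false

open NumberField IsDedekindDomain

namespace Fermat.Agent.S14.LinkCop

variable {k : Type} [Field k] [NumberField k]

theorem finite_quot (v : Pr k) : Finite (𝓞 k ⧸ v.asIdeal) := by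
  apply Nat.finite_of_card_ne_zero
  rw [← Nv_eq_card]
  have := two_le_Nv v
  omega

/-- the residue characteristic. -/
theorem exists_char (v : Pr k) :
    ∃ ℓ f : ℕ, ℓ.Prime ∧ f ≠ 0 ∧ Nv v = ℓ ^ f ∧ (ℓ : 𝓞 k) ∈ v.asIdeal := by
  have _ : v.asIdeal.IsMaximal := v.isMaximal
  let _ : Field (𝓞 k ⧸ v.asIdeal) := Ideal.Quotient.field v.asIdeal
  have hfin : Finite (𝓞 k ⧸ v.asIdeal) := finite_quot v
  let _ := Fintype.ofFinite (𝓞 k ⧸ v.asIdeal)
  obtain ⟨ℓ, hchar⟩ := CharP.exists (𝓞 k ⧸ v.asIdeal)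
  obtain ⟨n, hℓ, hcard⟩ := FiniteField.card (𝓞 k ⧸ v.asIdeal) ℓ
  refine ⟨ℓ, n, hℓ, n.ne_zero, ?_, ?_⟩
  · rw [Nv_eq_card, Nat.card_eq_fintype_card, hcard]
  · rw [← Ideal.Quotient.eq_zero_iff_mem, map_natCast]; exact CharP.cast_eq_zero _ ℓ

theorem natCast_mem_iff (v : Pr k) {ℓ : ℕ} (hℓ : ℓ.Prime) (hℓv : (ℓ : 𝓞 k) ∈ v.asIdeal) (n : ℕ) :
    (n : 𝓞 k) ∈ v.asIdeal ↔ ℓ ∣ n := by
  constructor
  · intro hn
    by_contra hdvd
    have hcop : IsCoprime (ℓ : ℤ) (n : ℤ) :=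
      Nat.isCoprime_iff_coprime.2 ((Nat.Prime.coprime_iff_not_dvd hℓ).2 hdvd)
    obtain ⟨a, b, hab⟩ := hcop
    have h1 : (a : 𝓞 k) * (ℓ : 𝓞 k) + (b : 𝓞 k) * (n : 𝓞 k) = 1 := by exact_mod_cast congrArg (Int.cast : ℤ → 𝓞 k) hab
    have h2 : (1 : 𝓞 k) ∈ v.asIdeal := by
      rw [← h1]
      exact v.asIdeal.add_mem (v.asIdeal.mul_mem_left _ hℓv) (v.asIdeal.mul_mem_left _ hn)
    exact v.isPrime.ne_top ((Ideal.eq_top_iff_one _).2 h2)
  · rintro ⟨c, rfl⟩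
    rw [Nat.cast_mul]
    exact v.asIdeal.mul_mem_right _ hℓv

theorem ord_natCast_eq_zero_iff (v : Pr k) {ℓ : ℕ} (hℓ : ℓ.Prime) (hℓv : (ℓ : 𝓞 k) ∈ v.asIdeal)
    {n : ℕ} (hn : n ≠ 0) : ord v (n : k) = 0 ↔ ¬ ℓ ∣ n := by
  have h0 : (n : 𝓞 k) ≠ 0 := Nat.cast_ne_zero.2 hn
  have h1 := ord_eq_zero_iff v h0
  rw [natCast_mem_iff v hℓ hℓv] at h1
  rw [← h1]
  simp

theorem Nv_mem (v : Pr k) : (Nv v : 𝓞 k) ∈ v.asIdeal := Ideal.absNorm_mem v.asIdeal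

/-- `1 ≤ ord_v (Nv v) ≤ [k : ℚ]`. -/
theorem ord_Nv (v : Pr k) : 1 ≤ ord v (Nv v : k) ∧ ord v (Nv v : k) ≤ Module.finrank ℚ k := by
  have h2 := two_le_Nv v
  have h0 : (Nv v : 𝓞 k) ≠ 0 := Nat.cast_ne_zero.2 (by omega)
  have hcast : (((Nv v : 𝓞 k)) : k) = (Nv v : k) := by simp
  constructor
  · have h1 := (le_ord_iff v h0 1).2 (by rw [pow_one]; exact Nv_mem v)
    rw [hcast] at h1
    exact_mod_cast h1
  · have h1 := absNorm_eq_prod (Nv v : 𝓞 k) h0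
    have h3 : Algebra.norm ℤ (Nv v : 𝓞 k) = (Nv v : ℤ) ^ Module.finrank ℚ k := by
      have := Algebra.norm_algebraMap (S := 𝓞 k) ((Nv v : ℤ))
      rw [RingOfIntegers.rank] at this
      simpa using this
    rw [h3, Int.natAbs_pow, Int.natAbs_natCast, hcast] at h1
    by_contra hcon
    push Not at hcon
    have hmem : v ∈ (dv (Nv v : k)).support := by
      rw [Finsupp.mem_support_iff, dv_apply]
      have : (0 : ℤ) ≤ Module.finrank ℚ k := Int.natCast_nonneg _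
      omega
    have h4 : Nv v ^ (ord v (Nv v : k)).toNat ∣ Nv v ^ Module.finrank ℚ k := by
      rw [h1]
      exact Finset.dvd_prod_of_mem (fun w => Nv w ^ ((dv (Nv v : k)) w).toNat) hmem
    have h5 := (Nat.pow_dvd_pow_iff_le_right (by omega : 1 < Nv v)).1 h4
    omega

theorem intCast_mem (v : Pr k) {m : ℕ} (hmv : (m : 𝓞 k) ∈ v.asIdeal) {a : ℤ} (h : (m : ℤ) ∣ a) :
    (a : 𝓞 k) ∈ v.asIdeal := by
  obtain ⟨t, rfl⟩ := h
  push_cast
  exact v.asIdeal.mul_mem_right _ hmv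

section symbols

variable {p : ℕ} [Fact p.Prime] {ζ : k}

/-- a rational integer which is a `p`-th power mod `m` has trivial symbol at the primes above `m`. -/
theorem sym_natCast_eq_zero_of_pow (hζ : IsPrimitiveRoot ζ p) (v : Pr k) (hv : ord v (p : k) = 0)
    {m : ℕ} (hm : m.Prime) (hmv : (m : 𝓞 k) ∈ v.asIdeal) {n : ℕ} (hn : ¬ m ∣ n) (c : ZMod m)
    (hc : c ^ p = (n : ZMod m)) : sym p ζ v (n : k) = 0 := by
  haveI : Fact m.Prime := ⟨hm⟩
  have hp0 : p ≠ 0 := (Fact.out : p.Prime).ne_zero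
  have hn0 : n ≠ 0 := by rintro rfl; exact hn (dvd_zero m)
  have hnk : (n : k) ≠ 0 := Nat.cast_ne_zero.2 hn0
  have hnz : (n : ZMod m) ≠ 0 := by rwa [Ne, ZMod.natCast_eq_zero_iff]
  have hc0 : c ≠ 0 := by
    rintro rfl
    rw [zero_pow hp0] at hc
    exact hnz hc.symm
  have hcv : ¬ m ∣ c.val := by
    rw [← ZMod.natCast_eq_zero_iff, ZMod.natCast_zmod_val]; exact hc0
  have hcv0 : c.val ≠ 0 := by intro h; rw [h] at hcv; exact hcv (dvd_zero m)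
  rw [sym_eq_zero_iff hζ v hv hnk ((ord_natCast_eq_zero_iff v hm hmv hn0).2 hn)]
  refine ⟨(c.val : k), Nat.cast_ne_zero.2 hcv0, (ord_natCast_eq_zero_iff v hm hmv hcv0).2 hcv, ?_⟩
  have h1 : (m : ℤ) ∣ (n : ℤ) - (c.val : ℤ) ^ p := by
    rw [← ZMod.intCast_zmod_eq_zero_iff_dvd]
    push_cast
    rw [ZMod.natCast_zmod_val, hc, sub_self]
  have h2 := intCast_mem v hmv h1
  have h3 : Cong v 1 (((n : 𝓞 k)) : k) ((((c.val : 𝓞 k)) ^ p : 𝓞 k) : k) := by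
    rw [cong_integer_iff, pow_one]
    have e0 : (((n : ℤ) - (c.val : ℤ) ^ p : ℤ) : 𝓞 k) = (n : 𝓞 k) - (c.val : 𝓞 k) ^ p := by
      push_cast; rfl
    rw [← e0]; exact h2
  have e1 : (((n : 𝓞 k)) : k) = (n : k) := map_natCast (algebraMap (𝓞 k) k) n
  have e2 : ((((c.val : 𝓞 k)) ^ p : 𝓞 k) : k) = (c.val : k) ^ p := by
    have e3 := map_pow (algebraMap (𝓞 k) k) (c.val : 𝓞 k) p
    rw [map_natCast (algebraMap (𝓞 k) k)] at e3
    exact e3
  rw [e1, e2] at h3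
  exact h3

theorem mod_eq_one_of_sym_ne_zero (hζ : IsPrimitiveRoot ζ p) (v : Pr k) (hv : ord v (p : k) = 0)
    {m : ℕ} (hm : m.Prime) (hmv : (m : 𝓞 k) ∈ v.asIdeal) {n : ℕ} (hn : ¬ m ∣ n)
    (h : sym p ζ v (n : k) ≠ 0) : m % p = 1 := by
  haveI : Fact m.Prime := ⟨hm⟩
  have hp : p.Prime := Fact.out
  by_contra hcon
  apply h
  have hndvd : ¬ p ∣ m - 1 := by
    rintro ⟨t, ht⟩
    apply hcon
    have hm1 := hm.one_lt
    have : m = p * t + 1 := by omega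
    rw [this, Nat.mul_add_mod, Nat.mod_eq_of_lt hp.one_lt]
  have hcard : Nat.card (ZMod m)ˣ = m - 1 := by
    rw [Nat.card_eq_fintype_card, ZMod.card_units_eq_totient, Nat.totient_prime hm]
  have hcop : (Nat.card (ZMod m)ˣ).Coprime p := by
    rw [hcard]
    exact (Nat.Coprime.symm ((Nat.Prime.coprime_iff_not_dvd hp).2 hndvd))
  have hnz : (n : ZMod m) ≠ 0 := by rwa [Ne, ZMod.natCast_eq_zero_iff]
  obtain ⟨c, hc⟩ := (powCoprime hcop).surjective (Units.mk0 _ hnz)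
  refine sym_natCast_eq_zero_of_pow hζ v hv hm hmv hn (c : ZMod m) ?_
  have := congrArg (fun u : (ZMod m)ˣ => (u : ZMod m)) hc
  simpa using this

/-- conversely (`m ≡ 1 mod p`, `[k:ℚ] < p`): trivial symbol at one prime above `m` implies `p`-th power mod `m`. -/
theorem exists_pow_of_sym_natCast_eq_zero (hζ : IsPrimitiveRoot ζ p) (v : Pr k)
    (hv : ord v (p : k) = 0) {m : ℕ} (hm : m.Prime) (hmv : (m : 𝓞 k) ∈ v.asIdeal)
    (hmp : m % p = 1) (hd : Module.finrank ℚ k < p) {n : ℕ} (hn : ¬ m ∣ n)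
    (h : sym p ζ v (n : k) = 0) : ∃ c : ZMod m, c ^ p = (n : ZMod m) := by
  haveI : Fact m.Prime := ⟨hm⟩
  have hp : p.Prime := Fact.out
  have _ : v.asIdeal.IsMaximal := v.isMaximal
  let _ : Field (𝓞 k ⧸ v.asIdeal) := Ideal.Quotient.field v.asIdeal
  have hfin := finite_quot v
  haveI : CharP (𝓞 k ⧸ v.asIdeal) m := by
    rw [CharP.charP_iff_prime_eq_zero hm, ← map_natCast (Ideal.Quotient.mk v.asIdeal),
      Ideal.Quotient.eq_zero_iff_mem]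
    exact hmv
  let i : ZMod m →+* (𝓞 k ⧸ v.asIdeal) := ZMod.castHom (dvd_refl m) _
  have hn0 : n ≠ 0 := by rintro rfl; exact hn (dvd_zero m)
  have hnk : (n : k) ≠ 0 := Nat.cast_ne_zero.2 hn0
  have hnz : (n : ZMod m) ≠ 0 := by rwa [Ne, ZMod.natCast_eq_zero_iff]
  have hnord := (ord_natCast_eq_zero_iff v hm hmv hn0).2 hn
  obtain ⟨ℓ, f, hℓ, hf0, hNv, hℓv⟩ := exists_char v
  have hℓm : ℓ = m :=
    ((Nat.prime_dvd_prime_iff_eq hm hℓ).1 ((natCast_mem_iff v hm hmv ℓ).1 hℓv)).symm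
  subst hℓm
  have hfp : f < p := by
    have h1 := (ord_Nv v).2
    rw [hNv] at h1
    push_cast at h1
    rw [ord_pow] at h1
    have h2 : 1 ≤ ord v (ℓ : k) := by
      have h0 : (ℓ : 𝓞 k) ≠ 0 := Nat.cast_ne_zero.2 hm.ne_zero
      have h3 := (le_ord_iff v h0 1).2 (by rw [pow_one]; exact hmv)
      have e1 : (((ℓ : 𝓞 k)) : k) = (ℓ : k) := map_natCast (algebraMap (𝓞 k) k) ℓ
      rw [e1] at h3
      exact_mod_cast h3
    have h3 : (f : ℤ) ≤ f * ord v (ℓ : k) := by nlinarith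
    have : (f : ℤ) < p := by
      have : ((Module.finrank ℚ k : ℕ) : ℤ) < p := by exact_mod_cast hd
      omega
    exact_mod_cast this
  have hcard : Nat.card (ZMod ℓ)ˣ = ℓ - 1 := by
    rw [Nat.card_eq_fintype_card, ZMod.card_units_eq_totient, Nat.totient_prime hm]
  have hdvd : p ∣ Nat.card (ZMod ℓ)ˣ := by
    rw [hcard]
    exact (Nat.modEq_iff_dvd' hm.one_lt.le).1 (by
      unfold Nat.ModEq; rw [hmp, Nat.mod_eq_of_lt hp.one_lt])
  obtain ⟨u, hu⟩ := exists_prime_orderOf_dvd_card' (G := (ZMod ℓ)ˣ) p hdvd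
  have hz : IsPrimitiveRoot (u : ZMod ℓ) p := by
    rw [IsPrimitiveRoot.coe_units_iff, ← hu]
    exact IsPrimitiveRoot.orderOf u
  have hcards : Nat.card (𝓞 k ⧸ v.asIdeal) = Nat.card (ZMod ℓ) ^ f := by
    rw [← Nv_eq_card, hNv, Nat.card_zmod]
  have hmap := SymCore.symF_map p i f hcards hz (n : ZMod ℓ)
  obtain ⟨z', hz'0, hz'ord, hcong⟩ := (sym_eq_zero_iff hζ v hv hnk hnord).1 h
  obtain ⟨a, ha⟩ := exists_integer_cong v 1 hz'ord.ge
  have hcong2 : Cong v 1 (n : k) ((a : k) ^ p) :=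
    hcong.trans (ha.pow hz'ord.ge (ord_nonneg v a) p)
  have hmem : (n : 𝓞 k) - a ^ p ∈ v.asIdeal := by
    have e1 : (((n : 𝓞 k)) : k) = (n : k) := map_natCast (algebraMap (𝓞 k) k) n
    have e2 : ((a ^ p : 𝓞 k) : k) = (a : k) ^ p := map_pow (algebraMap (𝓞 k) k) a p
    rw [← e1, ← e2, cong_integer_iff, pow_one] at hcong2
    exact hcong2
  have hin : i (n : ZMod ℓ) = (Ideal.Quotient.mk v.asIdeal a) ^ p := by
    rw [map_natCast, ← map_natCast (Ideal.Quotient.mk v.asIdeal), ← map_pow, Ideal.Quotient.eq]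
    exact hmem
  have hin0 : i (n : ZMod ℓ) ≠ 0 := by
    rw [Ne, map_eq_zero]; exact hnz
  have h0 : SymCore.symF p (i (u : ZMod ℓ)) (i (n : ZMod ℓ)) = 0 :=
    (SymCore.symF_eq_zero_iff p (hz.map_of_injective i.injective) hin0).2 ⟨_, hin.symm⟩
  rw [hmap] at h0
  have hf : (f : ZMod p) ≠ 0 := by
    rw [Ne, ZMod.natCast_eq_zero_iff]
    intro hdv
    exact absurd (Nat.le_of_dvd (Nat.pos_of_ne_zero hf0) hdv) (by omega)
  have h1 := (mul_eq_zero.1 h0).resolve_left hf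
  exact (SymCore.symF_eq_zero_iff p hz hnz).1 h1

end symbols

end Fermat.Agent.S14.LinkCop
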