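import Fermat.Agent.S14.CrossAux
import Fermat.Agent.S14.LinkCopAux

/-!
# S14/LinkCop : two primes with nonzero symbol and different residue characteristics are linked
-/

set_option autoImplicit false
set_option linter.unusedVariables false
set_option linter.style.haveILetI false

open NumberField IsDedekindDomain

namespace Fermat.Agent.S14

namespace LinkCop

theorem lg_one {p m : ℕ} {lg : ZMod m → ZMod p} [Fact m.Prime]
    (hlg_mul : ∀ a b : ZMod m, a ≠ 0 → b ≠ 0 → lg (a * b) = lg a + lg b) : lg 1 = 0 := by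
  have := hlg_mul 1 1 one_ne_zero one_ne_zero
  rw [mul_one] at this
  exact left_eq_add.1 this

theorem lg_pow {p m : ℕ} {lg : ZMod m → ZMod p} [Fact m.Prime]
    (hlg_mul : ∀ a b : ZMod m, a ≠ 0 → b ≠ 0 → lg (a * b) = lg a + lg b) {a : ZMod m} (ha : a ≠ 0)
    (n : ℕ) : lg (a ^ n) = n * lg a := by
  induction n with
  | zero => simp [lg_one hlg_mul]
  | succ n ih =>
    rw [pow_succ, hlg_mul _ _ (pow_ne_zero n ha) ha, ih]; push_cast; ring

theorem ord_Nv_of_coprime {k : Type} [Field k] [NumberField k] {r q : Pr k}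
    (hcop : Nat.Coprime (Nv r) (Nv q)) : ord r (Nv q : k) = 0 := by
  obtain ⟨ℓ, f, hℓ, hf0, hNv, hℓv⟩ := exists_char r
  have h2 := two_le_Nv q
  rw [ord_natCast_eq_zero_iff r hℓ hℓv (by omega)]
  intro hdvd
  have h1 : ℓ ∣ Nv r := by rw [hNv]; exact dvd_pow_self ℓ hf0
  have := Nat.dvd_gcd h1 hdvd
  rw [hcop.gcd_eq_one] at this
  exact hℓ.one_lt.ne' (Nat.dvd_one.1 this)

/-- the independence statement needed for `DL2`. -/
theorem indep {p : ℕ} [Fact p.Prime] {k : Type} [Field k] [NumberField k]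
    (hd : Module.finrank ℚ k < p) {r q : Pr k} (hcop : Nat.Coprime (Nv r) (Nv q))
    {e₁ e₂ : ℕ} (he₂ : ¬ p ∣ e₂) (j : ℕ) :
    ¬ ∃ y : k, y ^ p = (Nv r : k) * ((Nv r : k) ^ e₁ * (Nv q : k) ^ e₂) ^ j := by
  rintro ⟨y, hy⟩
  have hn₁ : (Nv r : k) ≠ 0 := Nat.cast_ne_zero.2 (by have := two_le_Nv r; omega)
  have hn₂ : (Nv q : k) ≠ 0 := Nat.cast_ne_zero.2 (by have := two_le_Nv q; omega)
  have hr1 := ord_Nv r
  have hq1 := ord_Nv q
  have hrq := ord_Nv_of_coprime hcop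
  have hqr := ord_Nv_of_coprime hcop.symm
  have key : ∀ v : Pr k, (p : ℤ) * ord v y =
      ord v (Nv r : k) + j * (e₁ * ord v (Nv r : k) + e₂ * ord v (Nv q : k)) := by
    intro v
    rw [← ord_pow, hy, ord_mul v hn₁ (pow_ne_zero _ (mul_ne_zero (pow_ne_zero _ hn₁)
      (pow_ne_zero _ hn₂))), ord_pow, ord_mul v (pow_ne_zero _ hn₁) (pow_ne_zero _ hn₂), ord_pow,
      ord_pow]
  have hne : ∀ a : ℤ, 1 ≤ a → a ≤ Module.finrank ℚ k → (a : ZMod p) ≠ 0 := by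
    intro a h1 h2
    rw [Ne, ZMod.intCast_zmod_eq_zero_iff_dvd]
    intro hdvd
    have := Int.le_of_dvd (by omega) hdvd
    have : ((Module.finrank ℚ k : ℕ) : ℤ) < p := by exact_mod_cast hd
    omega
  have k1 := congrArg (Int.cast : ℤ → ZMod p) (key r)
  have k2 := congrArg (Int.cast : ℤ → ZMod p) (key q)
  rw [hrq] at k1
  rw [hqr] at k2
  push_cast at k1 k2
  simp only [CharP.cast_eq_zero, zero_mul, mul_zero, add_zero, zero_add] at k1 k2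
  have he₂' : (e₂ : ZMod p) ≠ 0 := by rwa [Ne, ZMod.natCast_eq_zero_iff]
  have hj : (j : ZMod p) = 0 := by
    rcases mul_eq_zero.1 k2.symm with h | h
    · exact h
    · exact absurd h (mul_ne_zero he₂' (hne _ hq1.1 hq1.2))
  rw [hj, zero_mul, add_zero] at k1
  exact hne _ hr1.1 hr1.2 k1.symm

theorem mem_of_zsmul_mem {p : ℕ} [Fact p.Prime] {A : Type*} [AddCommGroup A] (H : AddSubgroup A)
    (hpH : ∀ D : A, p • D ∈ H) {n : ℤ} (hn : (n : ZMod p) ≠ 0) {D : A} (h : n • D ∈ H) : D ∈ H := by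
  have hpP : p.Prime := Fact.out
  have hcop : IsCoprime n (p : ℤ) := by
    rw [isCoprime_comm, Prime.coprime_iff_not_dvd (Nat.prime_iff_prime_int.1 hpP)]
    rwa [Ne, ZMod.intCast_zmod_eq_zero_iff_dvd] at hn
  obtain ⟨u, w, huw⟩ := hcop
  have h1 : D = u • (n • D) + w • (p • D) := by
    rw [smul_smul, ← natCast_zsmul, smul_smul, ← add_smul, huw, one_smul]
  rw [h1]
  exact H.add_mem (H.zsmul_mem h u) (H.zsmul_mem (hpH D) w)

theorem coprime_Nv_of_ord {k : Type} [Field k] [NumberField k] {r₀ r₁ : Pr k}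
    (h : ord r₁ (Nv r₀ : k) = 0) : Nat.Coprime (Nv r₀) (Nv r₁) := by
  obtain ⟨ℓ₁, f₁, hℓ₁, hf₁, hN₁, hv₁⟩ := exists_char r₁
  have h2 := two_le_Nv r₀
  rw [ord_natCast_eq_zero_iff r₁ hℓ₁ hv₁ (by omega)] at h
  rw [hN₁]
  exact Nat.Coprime.pow_right _ (Nat.Coprime.symm ((Nat.Prime.coprime_iff_not_dvd hℓ₁).2 h))

theorem coprime_Nv_trans {k : Type} [Field k] [NumberField k] {r₀ r₁ q : Pr k}
    (h01 : Nat.Coprime (Nv r₀) (Nv r₁)) (h0q : ¬ Nat.Coprime (Nv r₀) (Nv q)) :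
    Nat.Coprime (Nv r₁) (Nv q) := by
  obtain ⟨ℓ₀, f₀, hℓ₀, hf₀, hN₀, -⟩ := exists_char r₀
  obtain ⟨ℓq, fq, hℓq, hfq, hNq, -⟩ := exists_char q
  have heq : ℓ₀ = ℓq := by
    by_contra hne
    apply h0q
    rw [hN₀, hNq]
    exact Nat.Coprime.pow _ _ ((Nat.coprime_primes hℓ₀ hℓq).2 hne)
  subst heq
  rw [hN₀] at h01
  rw [hNq]
  have h1 : Nat.Coprime ℓ₀ (Nv r₁) := (Nat.coprime_pow_left_iff (Nat.pos_of_ne_zero hf₀) _ _).1 h01
  exact Nat.Coprime.pow_right _ h1.symm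

end LinkCop

open _root_.Fermat.Agent.S14.LinkCop in
/-- two primes with nonzero symbol and different residue characteristics are linked. -/
theorem LinkCop.link_of_coprime' {p : ℕ} [Fact p.Prime] (hp : p ≠ 2) {K : Type} [Field K] [NumberField K]
    [IsCyclotomicExtension {p} ℚ K] {ζ : K} (hζ : IsPrimitiveRoot ζ p) {α : K} (hα0 : α ≠ 0)
    (Sg : Finset (Pr K)) (hSg : Good p α Sg) {r q : Pr K} (hr : r ∉ Sg) (hq : q ∉ Sg)
    (hcop : Nat.Coprime (Nv r) (Nv q)) (hner : sym p ζ r α ≠ 0) (hneq : sym p ζ q α ≠ 0)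
    {cr cq : ℤ} (hcr : (cr : ZMod p) = sym p ζ r α) (hcq : (cq : ZMod p) = sym p ζ q α) :
    Finsupp.single r cq - Finsupp.single q cr ∈ Hgp p ζ α Sg := by
  classical
  have hpP : p.Prime := Fact.out
  haveI : NeZero p := ⟨hpP.ne_zero⟩
  have hfin : Module.finrank ℚ K = p - 1 := by
    rw [IsCyclotomicExtension.finrank K (Polynomial.cyclotomic.irreducible_rat hpP.pos),
      Nat.totient_prime hpP]
  have hd : Module.finrank ℚ K < p := by have := hpP.pos; omega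
  set c₁ := sym p ζ r α with hc₁
  set c₂ := sym p ζ q α with hc₂
  have hc₁v : 0 < c₁.val := Nat.pos_of_ne_zero (by rwa [Ne, ZMod.val_eq_zero])
  have hc₁lt : c₁.val < p := ZMod.val_lt c₁
  have he₂ : ¬ p ∣ (p - c₁.val) := by
    intro h
    have := Nat.le_of_dvd (by omega) h
    omega
  have hn₁0 : Nv r ≠ 0 := by have := two_le_Nv r; omega
  have hn₂0 : Nv q ≠ 0 := by have := two_le_Nv q; omega
  have hn₁ : (Nv r : K) ≠ 0 := Nat.cast_ne_zero.2 hn₁0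
  have hn₂ : (Nv q : K) ≠ 0 := Nat.cast_ne_zero.2 hn₂0
  set N : ℕ := ∏ u ∈ Sg, Nv u with hN
  have hN0 : N ≠ 0 := Finset.prod_ne_zero_iff.2 (fun u _ => by have := two_le_Nv u; omega)
  obtain ⟨𝔪, h𝔪S, h𝔪p, h𝔪x₁, h𝔪x₂, hs₁, hs₂⟩ := DL2 hζ (x₁ := (Nv r : K))
    (x₂ := (Nv r : K) ^ c₂.val * (Nv q : K) ^ (p - c₁.val))
    (mul_ne_zero (pow_ne_zero _ hn₁) (pow_ne_zero _ hn₂)) (indep hd hcop he₂)
    (Sg ∪ (finite_ord_ne_zero (N : K)).toFinset)
  obtain ⟨m, f, hm, hf0, hNm, hm𝔪⟩ := exists_char 𝔪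
  haveI : Fact m.Prime := ⟨hm⟩
  have hmn₁ : ¬ m ∣ Nv r := (ord_natCast_eq_zero_iff 𝔪 hm hm𝔪 hn₁0).1 h𝔪x₁
  have hmn₂ : ¬ m ∣ Nv q := by
    rw [← ord_natCast_eq_zero_iff 𝔪 hm hm𝔪 hn₂0]
    rw [ord_mul 𝔪 (pow_ne_zero _ hn₁) (pow_ne_zero _ hn₂), ord_pow, ord_pow, h𝔪x₁, mul_zero,
      zero_add] at h𝔪x₂
    rcases mul_eq_zero.1 h𝔪x₂ with h | h
    · exfalso
      have : (p - c₁.val) = 0 := by exact_mod_cast h
      omega
    · exact h
  have hmN : ¬ m ∣ N := by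
    rw [← ord_natCast_eq_zero_iff 𝔪 hm hm𝔪 hN0]
    by_contra hcon
    apply h𝔪S
    rw [Finset.mem_union]
    right
    rw [Set.Finite.mem_toFinset]
    exact hcon
  have hmp : m % p = 1 := mod_eq_one_of_sym_ne_zero hζ 𝔪 h𝔪p hm hm𝔪 hmn₁ hs₁
  obtain ⟨γ, lg, hγ0, hlg_mul, hlg_zero, hγ_unit, hγ_ram, hγ_sym⟩ := exists_gamma hp hζ hm hmp
  have hz₁ : (Nv r : ZMod m) ≠ 0 := by rwa [Ne, ZMod.natCast_eq_zero_iff]
  have hz₂ : (Nv q : ZMod m) ≠ 0 := by rwa [Ne, ZMod.natCast_eq_zero_iff]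
  have hlg₁ : lg (Nv r : ZMod m) ≠ 0 := by
    intro h
    obtain ⟨c, hc⟩ := (hlg_zero _ hz₁).1 h
    exact hs₁ (sym_natCast_eq_zero_of_pow hζ 𝔪 h𝔪p hm hm𝔪 hmn₁ c hc)
  have hrel : c₂ * lg (Nv r : ZMod m) = c₁ * lg (Nv q : ZMod m) := by
    have hX : ¬ m ∣ (Nv r ^ c₂.val * Nv q ^ (p - c₁.val)) := by
      intro h
      rcases (Nat.Prime.dvd_mul hm).1 h with h | h
      · exact hmn₁ (hm.dvd_of_dvd_pow h)
      · exact hmn₂ (hm.dvd_of_dvd_pow h)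
    have hs₂' : sym p ζ 𝔪 ((Nv r ^ c₂.val * Nv q ^ (p - c₁.val) : ℕ) : K) = 0 := by
      push_cast; exact hs₂
    obtain ⟨c, hc⟩ := exists_pow_of_sym_natCast_eq_zero hζ 𝔪 h𝔪p hm hm𝔪 hmp hd hX hs₂'
    have h1 := (hlg_zero _ (by rwa [Ne, ZMod.natCast_eq_zero_iff])).2 ⟨c, hc⟩
    push_cast at h1
    rw [hlg_mul _ _ (pow_ne_zero _ hz₁) (pow_ne_zero _ hz₂), lg_pow hlg_mul hz₁,
      lg_pow hlg_mul hz₂, Nat.cast_sub hc₁lt.le, ZMod.natCast_zmod_val, ZMod.natCast_zmod_val,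
      CharP.cast_eq_zero (ZMod p) p] at h1
    linear_combination h1
  set a : ℕ := (lg (Nv r : ZMod m) / c₁).val with ha_def
  have haz : (a : ZMod p) = lg (Nv r : ZMod m) / c₁ := ZMod.natCast_zmod_val _
  have ha : ¬ p ∣ a := by
    rw [← ZMod.natCast_eq_zero_iff, haz]
    exact div_ne_zero hlg₁ hner
  have hmem_of_ord : ∀ v : Pr K, ord v (m : K) ≠ 0 → (m : 𝓞 K) ∈ v.asIdeal := by
    intro v hv
    by_contra hcon
    apply hv
    have h0 : (m : 𝓞 K) ≠ 0 := Nat.cast_ne_zero.2 hm.ne_zero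
    have := (ord_eq_zero_iff v h0).2 hcon
    rwa [show (((m : 𝓞 K)) : K) = (m : K) from map_natCast (algebraMap (𝓞 K) K) m] at this
  have hdvdNv : ∀ v : Pr K, ord v (m : K) ≠ 0 → m ∣ Nv v := by
    intro v hv
    exact (natCast_mem_iff v hm (hmem_of_ord v hv) (Nv v)).1 (Nv_mem v)
  have hαm : ∀ v : Pr K, ord v (m : K) ≠ 0 → ord v α = 0 := by
    intro v hv
    apply (hSg v _).2
    intro hvS
    exact hmN ((hdvdNv v hv).trans (Finset.dvd_prod_of_mem _ hvS))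
  have hrm : ord r (m : K) = 0 := by
    by_contra hcon
    exact hmn₁ (hdvdNv r hcon)
  have hqm : ord q (m : K) = 0 := by
    by_contra hcon
    exact hmn₂ (hdvdNv q hcon)
  have hsym : ∀ v : Pr K, v ∉ Sg → ord v (m : K) = 0 →
      sym p ζ v (α ^ a * γ) = a * sym p ζ v α - lg (Nv v : ZMod m) := by
    intro v hv hvm
    have hvp := (hSg v hv).1
    have hvα := (hSg v hv).2
    rw [sym_mul hζ v hvp (pow_ne_zero _ hα0) (by rw [ord_pow, hvα, mul_zero]) hγ0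
      (hγ_unit v hvm), sym_pow hζ v hvp hα0 hvα, hγ_sym v hvm hvp]
    ring
  have hsr : sym p ζ r (α ^ a * γ) = 0 := by
    rw [hsym r hr hrm, haz, ← hc₁]
    field_simp
    ring
  have hsq : sym p ζ q (α ^ a * γ) = 0 := by
    rw [hsym q hq hqm, haz, ← hc₂]
    field_simp
    linear_combination hrel
  exact link hp hζ hm hmp hα0 Sg hSg hαm hγ0 hlg_mul hlg_zero hγ_unit hγ_ram hγ_sym ha hr hq hrm hqm
    hsr hsq hner hcr hcq

/-- two primes with nonzero symbol and different residue characteristics are linked. -/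
theorem link_of_coprime {p : ℕ} [Fact p.Prime] (hp : p ≠ 2) {K : Type} [Field K] [NumberField K]
    [IsCyclotomicExtension {p} ℚ K] {ζ : K} (hζ : IsPrimitiveRoot ζ p) {α : K} (hα0 : α ≠ 0)
    (Sg : Finset (Pr K)) (hSg : Good p α Sg) {r q : Pr K} (hr : r ∉ Sg) (hq : q ∉ Sg)
    (hcop : ord r (Nv q : K) = 0) (hner : sym p ζ r α ≠ 0) (hneq : sym p ζ q α ≠ 0)
    {cr cq : ℤ} (hcr : (cr : ZMod p) = sym p ζ r α) (hcq : (cq : ZMod p) = sym p ζ q α) :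
    Finsupp.single r cq - Finsupp.single q cr ∈ Hgp p ζ α Sg :=
  LinkCop.link_of_coprime' hp hζ hα0 Sg hSg hr hq (LinkCop.coprime_Nv_of_ord hcop).symm hner hneq
    hcr hcq

end Fermat.Agent.S14
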