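import Fermat.Agent.S14.DvBasic
import Fermat.Agent.S14.DefsLoc
import Fermat.Agent.S14.AbTools

/-!
# S14/SUnits : the group of `S`-units of a number field, its rank, and `#U_S/U_S^p`.
-/

set_option autoImplicit false

open NumberField IsDedekindDomain Module

namespace Fermat.Agent.S14

variable {k : Type} [Field k] [NumberField k]

theorem mem_US {S : Finset (Pr k)} {x : kˣ} : x ∈ US S ↔ ∀ v, v ∉ S → ord v (x : k) = 0 := Iff.rfl

theorem US_mono {S T : Finset (Pr k)} (h : S ⊆ T) : US S ≤ US T :=
  fun _ hx v hv => hx v fun hvS => hv (h hvS)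

namespace SUnits

/-- the valuation map `U_S → ℤ^S`. -/
noncomputable def val (S : Finset (Pr k)) : Additive (US S) →ₗ[ℤ] (S → ℤ) :=
  AddMonoidHom.toIntLinearMap
    { toFun := fun x v => ord v.1 (((Additive.toMul x : US S) : kˣ) : k)
      map_zero' := by
        funext v
        simpa using ord_one v.1
      map_add' := fun x y => by
        funext v
        simp only [toMul_add, Subgroup.coe_mul, Units.val_mul, Pi.add_apply]
        exact ord_mul v.1 (Units.ne_zero _) (Units.ne_zero _) }

theorem val_apply (S : Finset (Pr k)) (x : Additive (US S)) (v : S) :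
    val S x v = ord v.1 (((Additive.toMul x : US S) : kˣ) : k) := rfl

/-- units of `𝓞 k` as `S`-units. -/
noncomputable def unitsToUS (S : Finset (Pr k)) : (𝓞 k)ˣ →* US S :=
  (Units.map (algebraMap (𝓞 k) k).toMonoidHom).codRestrict (US S) fun u v _ => ord_unit v u

noncomputable def unitsToKer (S : Finset (Pr k)) :
    Additive (𝓞 k)ˣ →ₗ[ℤ] LinearMap.ker (val S) :=
  LinearMap.codRestrict _ (AddMonoidHom.toIntLinearMap (MonoidHom.toAdditive (unitsToUS S)))
    fun u => by
      rw [LinearMap.mem_ker]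
      funext v
      exact ord_unit v.1 (Additive.toMul u)

theorem unitsToKer_bijective (S : Finset (Pr k)) : Function.Bijective (unitsToKer S) := by
  constructor
  · intro u u' h
    have h1 := congrArg (fun z : LinearMap.ker (val S) =>
      (((Additive.toMul (z : Additive (US S)) : US S) : kˣ) : k)) h
    have h2 : ((Additive.toMul u : (𝓞 k)ˣ) : 𝓞 k) = ((Additive.toMul u' : (𝓞 k)ˣ) : 𝓞 k) :=
      RingOfIntegers.coe_injective h1
    exact Additive.toMul.injective (Units.ext h2)
  · rintro ⟨x, hx⟩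
    have hx' : ∀ v : Pr k, ord v (((Additive.toMul x : US S) : kˣ) : k) = 0 := by
      intro v
      by_cases hv : v ∈ S
      · exact congrFun (LinearMap.mem_ker.1 hx) ⟨v, hv⟩
      · exact (Additive.toMul x : US S).2 v hv
    obtain ⟨u, hu⟩ := exists_unit_of_ord_eq_zero (Units.ne_zero _) hx'
    refine ⟨Additive.ofMul u, Subtype.ext ?_⟩
    apply Additive.toMul.injective
    apply Subtype.ext
    apply Units.ext
    exact hu

open Classical in
theorem exists_val_single (S : Finset (Pr k)) :
    ∃ h : ℤ, h ≠ 0 ∧ ∀ i : S, (Pi.single i h : S → ℤ) ∈ LinearMap.range (val S) := by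
  have := finite_quot_Prin (k := k)
  refine ⟨(Nat.card (Dv k ⧸ Prin k) : ℤ), by exact_mod_cast Nat.card_pos.ne', fun i => ?_⟩
  have h1 : Nat.card (Dv k ⧸ Prin k) • (Finsupp.single i.1 1 : Dv k) ∈ Prin k := by
    rw [← QuotientAddGroup.eq_zero_iff, QuotientAddGroup.mk_nsmul]
    exact card_nsmul_eq_zero'
  obtain ⟨x, hx0, hx⟩ := (mem_Prin_iff _).1 h1
  have hord : ∀ v : Pr k, ord v x = if v = i.1 then (Nat.card (Dv k ⧸ Prin k) : ℤ) else 0 := by
    intro v
    rw [← dv_apply, hx]
    simp [Finsupp.single_apply, eq_comm]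
  have hmem : Units.mk0 x hx0 ∈ US S := by
    intro v hv
    rw [Units.val_mk0, hord, if_neg]
    rintro rfl
    exact hv i.2
  refine ⟨Additive.ofMul ⟨Units.mk0 x hx0, hmem⟩, ?_⟩
  funext v
  rw [val_apply]
  simp only [toMul_ofMul, Units.val_mk0, hord, Pi.single_apply, Subtype.ext_iff]

end SUnits

open SUnits AbTools

theorem US_finite_and_finrank (S : Finset (Pr k)) :
    Module.Finite ℤ (Additive (US S)) ∧
      finrank ℤ (Additive (US S)) = Units.rank k + S.card := by
  classical
  let e := LinearEquiv.ofBijective (unitsToKer S) (unitsToKer_bijective S)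
  have : Module.Finite ℤ (LinearMap.ker (val S)) := Module.Finite.equiv e
  obtain ⟨h, hh, hs⟩ := exists_val_single S
  obtain ⟨h1, h2⟩ := finite_and_finrank_of_map (val S) h hh hs
  refine ⟨h1, ?_⟩
  rw [h2, ← e.finrank_eq, Units.finrank_eq, Fintype.card_coe]

instance (S : Finset (Pr k)) : Module.Finite ℤ (Additive (US S)) := (US_finite_and_finrank S).1

theorem finrank_US (S : Finset (Pr k)) :
    finrank ℤ (Additive (US S)) = Units.rank k + S.card := (US_finite_and_finrank S).2

theorem card_ker_pow_US (p : ℕ) [hp : Fact p.Prime] {ζ : k} (hζ : IsPrimitiveRoot ζ p)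
    (S : Finset (Pr k)) :
    Nat.card (LinearMap.ker ((p : ℤ) • (LinearMap.id : Additive (US S) →ₗ[ℤ] Additive (US S)))) =
      p := by
  have : NeZero p := ⟨hp.out.ne_zero⟩
  have hcard : Nat.card (rootsOfUnity p k) = p := hζ.card_rootsOfUnity
  refine Eq.trans ?_ hcard
  have hmem : ∀ x : LinearMap.ker
      ((p : ℤ) • (LinearMap.id : Additive (US S) →ₗ[ℤ] Additive (US S))),
      ((Additive.toMul (x : Additive (US S)) : US S) : kˣ) ∈ rootsOfUnity p k := by
    rintro ⟨x, hx⟩
    rw [mem_rootsOfUnity]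
    have h1 : (p : ℤ) • x = 0 := by simpa using hx
    have h2 := congrArg (fun z : Additive (US S) => ((Additive.toMul z : US S) : kˣ)) h1
    simpa using h2
  refine Nat.card_congr (Equiv.ofBijective (fun x => ⟨_, hmem x⟩) ⟨?_, ?_⟩)
  · intro x y hxy
    have h1 := congrArg Subtype.val hxy
    exact Subtype.ext (Additive.toMul.injective (Subtype.ext h1))
  · rintro ⟨u, hu⟩
    have hu' : u ^ p = 1 := (mem_rootsOfUnity _ _).1 hu
    have hU : u ∈ US S := fun v _ =>
      ord_rootOfUnity v hp.out.ne_zero (by rw [← Units.val_pow_eq_pow_val, hu', Units.val_one])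
    refine ⟨⟨Additive.ofMul ⟨u, hU⟩, ?_⟩, rfl⟩
    rw [LinearMap.mem_ker]
    apply Additive.toMul.injective
    apply Subtype.ext
    simpa using hu'

/-- `#U_S / U_S^p = p^(rk E + #S + 1)`. -/
theorem index_pow_range_US (p : ℕ) [hp : Fact p.Prime] {ζ : k} (hζ : IsPrimitiveRoot ζ p)
    (S : Finset (Pr k)) :
    ((powMonoidHom p : US S →* US S).range).index = p ^ (Units.rank k + S.card + 1) := by
  have h := index_range_smul (A := Additive (US S)) p hp.out.ne_zero
  rw [card_ker_pow_US p hζ S, finrank_US, ← pow_succ] at h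
  rw [← h, ← Subgroup.index_toAddSubgroup]
  congr 1

/-- a number field containing a primitive `p`-th root of unity, `p > 2`, is totally complex. -/
theorem two_mul_rank_add_one (p : ℕ) (hp : 2 < p) {ζ : k} (hζ : IsPrimitiveRoot ζ p) :
    2 * (Units.rank k + 1) = finrank ℚ k := by
  have h0 := NumberField.InfinitePlace.IsPrimitiveRoot.nrRealPlaces_eq_zero_of_two_lt hp hζ
  have h1 := InfinitePlace.card_add_two_mul_card_eq_rank k
  have h2 := InfinitePlace.card_eq_nrRealPlaces_add_nrComplexPlaces k
  have h3 : 0 < Fintype.card (InfinitePlace k) := Fintype.card_pos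
  rw [h0] at h1 h2
  unfold Units.rank
  omega

/-- helper1's shape (`SI.lean` stub): `U_S/U_S^p` is finite of order `p^d`, `d ≥ #S + n/2`. -/
theorem US_index {p : ℕ} [Fact p.Prime] {ζ : k} (hp : p ≠ 2) (hζ : IsPrimitiveRoot ζ p)
    (S : Finset (Pr k)) :
    ∃ d : ℕ, S.card + Module.finrank ℚ k / 2 ≤ d ∧
      ((powMonoidHom p : US S →* US S).range).index = p ^ d := by
  refine ⟨Units.rank k + S.card + 1, ?_, index_pow_range_US p hζ S⟩
  have h2 : 2 < p := lt_of_le_of_ne (Fact.out : p.Prime).two_le (Ne.symm hp)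
  have := two_mul_rank_add_one p h2 hζ
  omega

end Fermat.Agent.S14
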