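import Fermat.Agent.S14.Herbrand

/-!
# S14/SigmaHAbs : abstract algebra used in SigmaH
-/

set_option autoImplicit false

namespace Fermat.Agent.S14.SigmaH

open Fermat.Agent.S14.Herbrand

variable {E : Type*} [CommGroup E]

lemma iterate_div_mem_range (s : E →* E) (i : ℕ) (x : E) : (s^[i]) x / x ∈ (mDl s).range := by
  induction i with
  | zero => simp
  | succ i ih =>
    have h : (s^[i + 1]) x / x = mDl s ((s^[i]) x) * ((s^[i]) x / x) := by
      rw [mDl_apply, Function.iterate_succ_apply', div_mul_div_cancel]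
    rw [h]
    exact mul_mem ⟨_, rfl⟩ ih

lemma pow_mem_range_of_norm_eq_one (s : E →* E) (p : ℕ) (x : E) (hx : mNm p s x = 1) :
    x ^ p ∈ (mDl s).range := by
  have h1 : x ^ p = (∏ i ∈ Finset.range p, ((s^[i]) x / x))⁻¹ := by
    rw [Finset.prod_div_distrib, Finset.prod_const, Finset.card_range, ← mNm_apply, hx]
    simp
  rw [h1]
  exact inv_mem (prod_mem fun i _ => iterate_div_mem_range s i x)

lemma mem_of_coprime_pow_mem (H : Subgroup E) {h p : ℕ} (hc : Nat.Coprime h p) {a : E}
    (h1 : a ^ h ∈ H) (h2 : a ^ p ∈ H) : a ∈ H := by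
  obtain ⟨u, v, huv⟩ := (Nat.isCoprime_iff_coprime.mpr hc)
  have : a = (a ^ h) ^ u * (a ^ p) ^ v := by
    rw [← zpow_natCast, ← zpow_natCast, ← zpow_mul, ← zpow_mul, ← zpow_add, mul_comm (h : ℤ),
      mul_comm (p : ℤ), huv, zpow_one]
  rw [this]
  exact mul_mem (H.zpow_mem h1 u) (H.zpow_mem h2 v)

/-- a lower bound for a relative index. -/
lemma card_le_relIndex {ι : Type*} (R F : Subgroup E) (hne : R.relIndex F ≠ 0) (u : ι → E)
    (huF : ∀ i, u i ∈ F) (hinj : ∀ i j, (u i)⁻¹ * u j ∈ R → i = j) :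
    Nat.card ι ≤ R.relIndex F := by
  have hfin : Finite (F ⧸ R.subgroupOf F) := by
    apply Nat.finite_of_card_ne_zero
    exact hne
  have : Function.Injective (fun i : ι => (QuotientGroup.mk (⟨u i, huF i⟩ : F) : F ⧸ R.subgroupOf F)) := by
    intro i j hij
    apply hinj
    have := QuotientGroup.eq.mp hij
    simpa [Subgroup.mem_subgroupOf] using this
  exact Nat.card_le_card_of_injective _ this

end Fermat.Agent.S14.SigmaH
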