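import Fermat.Agent.S14.DvExt
import Fermat.Agent.S14.SUnits
import Fermat.Agent.S14.SigmaHAbs

/-!
# S14/SigmaH : Herbrand quotient of `Σ`-units, Hilbert 90, and the two "first inequality" uses
-/

set_option autoImplicit false
set_option linter.style.haveILetI false
set_option linter.unusedSectionVars false

open NumberField IsDedekindDomain
open scoped nonZeroDivisors

namespace Fermat.Agent.S14.SigmaH

open Fermat.Agent.S14.Herbrand

variable {k : Type} [Field k] [NumberField k] {M : Type} [Field M] [NumberField M] [Algebra k M]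

variable (M) in
lemma finite_above (Sg : Finset (Pr k)) : {w : Pr M | below k w ∈ Sg}.Finite := by
  have : {w : Pr M | below k w ∈ Sg} = ⋃ v ∈ Sg, {w : Pr M | below k w = v} := by
    ext w
    simp
  rw [this]
  exact Set.Finite.biUnion Sg.finite_toSet fun v _ => finite_over v

variable (M) in
/-- the primes of `M` above the primes in `Sg`. -/
noncomputable def aboveF (Sg : Finset (Pr k)) : Finset (Pr M) := (finite_above M Sg).toFinset

@[simp] lemma mem_aboveF {Sg : Finset (Pr k)} {w : Pr M} : w ∈ aboveF M Sg ↔ below k w ∈ Sg := by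
  simp [aboveF]

lemma gal_gal_inv (σ : M ≃ₐ[k] M) (w : Pr M) : gal σ (gal σ⁻¹ w) = w := by
  rw [← gal_mul, mul_inv_cancel, gal_one]

lemma ord_apply (σ : M ≃ₐ[k] M) (w : Pr M) (z : M) : ord w (σ z) = ord (gal σ⁻¹ w) z := by
  rw [← ord_gal σ (gal σ⁻¹ w) z, gal_gal_inv]

/-- the action of `σ` on the `Σ_M`-units. -/
noncomputable def sE (Sg : Finset (Pr k)) (σ : M ≃ₐ[k] M) : US (aboveF M Sg) →* US (aboveF M Sg) where
  toFun x := ⟨Units.map (σ : M →* M) x.1, by
    intro w hw
    have h1 : ord w (σ ((x.1 : Mˣ) : M)) = 0 := by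
      rw [ord_apply]
      apply x.2
      rw [mem_aboveF, below_gal]
      rwa [mem_aboveF] at hw
    exact h1⟩
  map_one' := by
    ext
    simp
  map_mul' x y := by
    ext
    simp

@[simp] lemma sE_coe (Sg : Finset (Pr k)) (σ : M ≃ₐ[k] M) (x : US (aboveF M Sg)) :
    (((sE Sg σ x : US (aboveF M Sg)) : Mˣ) : M) = σ ((x : Mˣ) : M) := rfl

lemma sE_iterate_coe (Sg : Finset (Pr k)) (σ : M ≃ₐ[k] M) (i : ℕ) (x : US (aboveF M Sg)) :
    (((((sE Sg σ)^[i]) x : US (aboveF M Sg)) : Mˣ) : M) = (σ ^ i) ((x : Mˣ) : M) := by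
  induction i with
  | zero => rfl
  | succ i ih =>
    rw [Function.iterate_succ_apply', sE_coe, ih, pow_succ', AlgEquiv.mul_apply]

/-- `Sg`-units of `k` inside the `Σ_M`-units of `M`. -/
noncomputable def incl (Sg : Finset (Pr k)) : US Sg →* US (aboveF M Sg) where
  toFun x := ⟨Units.map (algebraMap k M : k →* M) x.1, by
    intro w hw
    have h1 : ord w (algebraMap k M ((x.1 : kˣ) : k)) = 0 := by
      rw [ord_algebraMap, x.2 _ (by rwa [mem_aboveF] at hw), mul_zero]
    exact h1⟩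
  map_one' := by
    ext
    simp
  map_mul' x y := by
    ext
    simp

@[simp] lemma incl_coe (Sg : Finset (Pr k)) (x : US Sg) :
    (((incl (M := M) Sg x : US (aboveF M Sg)) : Mˣ) : M) = algebraMap k M ((x : kˣ) : k) := rfl

lemma incl_injective (Sg : Finset (Pr k)) : Function.Injective (incl (M := M) Sg) := by
  intro x y h
  have h1 := congrArg (fun z : US (aboveF M Sg) => ((z : Mˣ) : M)) h
  simp only [incl_coe] at h1
  exact Subtype.ext (Units.ext ((algebraMap k M).injective h1))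

lemma incl_mem_ker (Sg : Finset (Pr k)) (σ : M ≃ₐ[k] M) (x : US Sg) :
    incl (M := M) Sg x ∈ (mDl (sE Sg σ)).ker := by
  rw [MonoidHom.mem_ker, mDl_apply, div_eq_one]
  apply Subtype.ext
  apply Units.ext
  simp

section galois

variable [IsGalois k M]

lemma fixed_of_gen {σ : M ≃ₐ[k] M} (hσ : ∀ τ : M ≃ₐ[k] M, τ ∈ Subgroup.zpowers σ) {z : M}
    (hz : σ z = z) (τ : M ≃ₐ[k] M) : τ z = z := by
  have h1 : Subgroup.zpowers σ ≤ MulAction.stabilizer (M ≃ₐ[k] M) z := by
    rw [Subgroup.zpowers_le]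
    exact hz
  exact h1 (hσ τ)

lemma exists_of_mem_ker (Sg : Finset (Pr k)) {σ : M ≃ₐ[k] M}
    (hσ : ∀ τ : M ≃ₐ[k] M, τ ∈ Subgroup.zpowers σ) (x : US (aboveF M Sg))
    (hx : x ∈ (mDl (sE Sg σ)).ker) : ∃ y : US Sg, incl (M := M) Sg y = x := by
  rw [MonoidHom.mem_ker, mDl_apply, div_eq_one] at hx
  have hx1 : σ ((x : Mˣ) : M) = ((x : Mˣ) : M) := by
    rw [← sE_coe, hx]
  obtain ⟨y0, hy0⟩ := (IsGalois.mem_range_algebraMap_iff_fixed (F := k) ((x : Mˣ) : M)).mpr
    (fixed_of_gen hσ hx1)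
  have hy00 : y0 ≠ 0 := by
    rintro rfl
    rw [map_zero] at hy0
    exact (x : Mˣ).ne_zero hy0.symm
  refine ⟨⟨Units.mk0 y0 hy00, ?_⟩, ?_⟩
  · intro v hv
    obtain ⟨w, hw⟩ := exists_over (M := M) v
    have h1 : ord w ((x : Mˣ) : M) = 0 := x.2 w (by rw [mem_aboveF, hw]; exact hv)
    rw [← hy0, ord_algebraMap, hw] at h1
    have h2 : (eidx k w : ℤ) ≠ 0 := by
      have := eidx_pos (k := k) w
      positivity
    exact (mul_eq_zero.mp h1).resolve_left h2
  · apply Subtype.ext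
    apply Units.ext
    exact hy0

/-- the fixed points are the `Sg`-units of `k`. -/
noncomputable def fixEquiv (Sg : Finset (Pr k)) {σ : M ≃ₐ[k] M}
    (hσ : ∀ τ : M ≃ₐ[k] M, τ ∈ Subgroup.zpowers σ) : US Sg ≃* (mDl (sE Sg σ)).ker :=
  MulEquiv.ofBijective ((incl (M := M) Sg).codRestrict _ (incl_mem_ker Sg σ))
    ⟨fun x y h => incl_injective Sg (congrArg Subtype.val h), fun x => by
      obtain ⟨y, hy⟩ := exists_of_mem_ker Sg hσ x.1 x.2
      exact ⟨y, Subtype.ext hy⟩⟩

lemma finrank_ker (Sg : Finset (Pr k)) {σ : M ≃ₐ[k] M}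
    (hσ : ∀ τ : M ≃ₐ[k] M, τ ∈ Subgroup.zpowers σ) :
    Module.finrank ℤ (Additive (mDl (sE Sg σ)).ker) = Module.finrank ℤ (Additive (US Sg)) :=
  ((fixEquiv Sg hσ).toAdditive.toIntLinearEquiv).finrank_eq.symm

lemma prod_pow_eq_norm {σ : M ≃ₐ[k] M} (hσ : ∀ τ : M ≃ₐ[k] M, τ ∈ Subgroup.zpowers σ) {p : ℕ}
    (hdeg : Module.finrank k M = p) (z : M) :
    ∏ i ∈ Finset.range p, (σ ^ i) z = algebraMap k M (Algebra.norm k z) := by
  classical
  rw [algebraMap_norm]
  have hord : orderOf σ = p := by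
    rw [orderOf_eq_card_of_forall_mem_zpowers hσ, IsGalois.card_aut_eq_finrank, hdeg]
  have hinj : Set.InjOn (fun i : ℕ => σ ^ i) (Finset.range p : Set ℕ) := by
    have := pow_injOn_Iio_orderOf (x := σ)
    rw [hord] at this
    simpa using this
  have himg : (Finset.range p).image (fun i : ℕ => σ ^ i) = Finset.univ := by
    apply Finset.eq_univ_of_card
    rw [Finset.card_image_of_injOn hinj, Finset.card_range, ← Nat.card_eq_fintype_card,
      IsGalois.card_aut_eq_finrank, hdeg]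
  rw [← himg, Finset.prod_image hinj]

lemma mNm_coe (Sg : Finset (Pr k)) {σ : M ≃ₐ[k] M}
    (hσ : ∀ τ : M ≃ₐ[k] M, τ ∈ Subgroup.zpowers σ) {p : ℕ}
    (hdeg : Module.finrank k M = p) (x : US (aboveF M Sg)) :
    (((mNm p (sE Sg σ) x : US (aboveF M Sg)) : Mˣ) : M)
      = algebraMap k M (Algebra.norm k ((x : Mˣ) : M)) := by
  rw [← prod_pow_eq_norm hσ hdeg, mNm_apply]
  simp only [Subgroup.val_finsetProd, Units.coe_prod, sE_iterate_coe]

/-- COR: `H^{-1}` of the `Σ_M`-units vanishes. -/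
theorem ker_le_range {p : ℕ} (hdeg : Module.finrank k M = p) (Sg : Finset (Pr k))
    {σ : M ≃ₐ[k] M} (hσ : ∀ τ : M ≃ₐ[k] M, τ ∈ Subgroup.zpowers σ)
    (hunr : ∀ w : Pr M, below k w ∉ Sg → eidx k w = 1)
    (h' : ℕ) (hh' : Nat.Coprime h' p)
    (hcl : ∀ D : Dv k, ∃ c : k, c ≠ 0 ∧ ∀ v, v ∉ Sg → (h' • D) v = ord v c) :
    (mNm p (sE Sg σ)).ker ≤ (mDl (sE Sg σ)).range := by
  intro ε hε
  apply mem_of_coprime_pow_mem _ hh' ?_ (pow_mem_range_of_norm_eq_one _ p ε hε)
  have hN : Algebra.norm k ((ε : Mˣ) : M) = 1 := by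
    apply (algebraMap k M).injective
    rw [← mNm_coe Sg hσ hdeg, MonoidHom.mem_ker.mp hε]
    simp
  haveI : IsCyclic (M ≃ₐ[k] M) := ⟨σ, hσ⟩
  obtain ⟨y, hy⟩ := groupCohomology.exists_div_of_norm_eq_one hσ hN
  have hy0 : (y : M) ≠ 0 := y.ne_zero
  have hσy0 : σ (y : M) ≠ 0 := by
    rw [Ne, map_eq_zero_iff σ σ.injective]
    exact hy0
  have claim1 : ∀ w : Pr M, below k w ∉ Sg → ord w (σ (y : M)) = ord w (y : M) := by
    intro w hw
    have h1 : (y : M) = ((ε : Mˣ) : M) * σ (y : M) := by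
      rw [← hy]
      field_simp
    have h2 : ord w ((ε : Mˣ) : M) = 0 := ε.2 w (by rw [mem_aboveF]; exact hw)
    conv_rhs => rw [h1, ord_mul w (ε : Mˣ).ne_zero hσy0, h2, zero_add]
  have claim2' : ∀ w : Pr M, below k w ∉ Sg → ord (gal σ⁻¹ w) (y : M) = ord w (y : M) := by
    intro w hw
    rw [← ord_apply, claim1 w hw]
  have claim2 : ∀ (j : ℕ) (w : Pr M), below k w ∉ Sg →
      ord (gal (σ⁻¹ ^ j) w) (y : M) = ord w (y : M) := by
    intro j
    induction j with
    | zero =>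
      intro w _
      rw [pow_zero, gal_one]
    | succ j ih =>
      intro w hw
      rw [pow_succ', gal_mul, claim2' _ (by rw [below_gal]; exact hw), ih w hw]
  have claim3 : ∀ (τ : M ≃ₐ[k] M) (w : Pr M), below k w ∉ Sg →
      ord (gal τ w) (y : M) = ord w (y : M) := by
    intro τ w hw
    have : τ ∈ Submonoid.powers σ⁻¹ := by
      rw [mem_powers_iff_mem_zpowers, Subgroup.zpowers_inv]
      exact hσ τ
    obtain ⟨j, rfl⟩ := this
    exact claim2 j w hw
  classical
  let wv : Pr k → Pr M := fun v => (exists_over (M := M) v).choose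
  have hwv : ∀ v, below k (wv v) = v := fun v => (exists_over (M := M) v).choose_spec
  let D : Dv k := Finsupp.ofSupportFinite (fun v => ord (wv v) (y : M)) (by
    apply Set.Finite.subset ((finite_ord_ne_zero (y : M)).image (below k))
    intro v hv
    exact ⟨wv v, hv, hwv v⟩)
  have hD : ∀ v, D v = ord (wv v) (y : M) := fun v => rfl
  obtain ⟨c, hc0, hc⟩ := hcl D
  have hc0' : algebraMap k M c ≠ 0 := by
    rw [Ne, map_eq_zero_iff _ (algebraMap k M).injective]
    exact hc0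
  let η : Mˣ := (Units.mk0 (algebraMap k M c) hc0') / y ^ h'
  have hηval : (η : M) = algebraMap k M c / (y : M) ^ h' := by
    simp [η]
  have hη : η ∈ US (aboveF M Sg) := by
    intro w hw
    rw [mem_aboveF] at hw
    rw [hηval, ord_div w hc0' (pow_ne_zero _ hy0), ord_pow, ord_algebraMap, hunr w hw, ← hc _ hw,
      Finsupp.smul_apply, hD]
    obtain ⟨τ, hτ⟩ := exists_gal_eq (k := k) (w := w) (w' := wv (below k w)) (hwv _).symm
    rw [← hτ, claim3 τ w hw]
    simp
  refine ⟨⟨η, hη⟩, ?_⟩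
  apply Subtype.ext
  apply Units.ext
  have h3 : ((((mDl (sE Sg σ)) ⟨η, hη⟩ : US (aboveF M Sg)) : Mˣ) : M) = σ (η : M) / (η : M) := by
    rw [mDl_apply]
    simp
  rw [h3, hηval]
  simp only [map_div₀, map_pow, AlgEquiv.commutes, SubmonoidClass.coe_pow, Units.val_pow_eq_pow_val]
  rw [← hy]
  field_simp
  rw [div_pow]
  field_simp

open scoped Classical in
lemma card_fiber_ge {p : ℕ} (hdeg : Module.finrank k M = p) (Sg : Finset (Pr k)) (v : Pr k)
    (hv : v ∈ Sg)
    (hsplit : ∀ w : Pr M, below k w = v → ∀ σ : M ≃ₐ[k] M, gal σ w = w → σ = 1) :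
    p ≤ ((aboveF M Sg).filter (fun w => below k w = v)).card := by
  obtain ⟨w, hw⟩ := exists_over (M := M) v
  have h1 : (Finset.univ : Finset (M ≃ₐ[k] M)).card = p := by
    rw [Finset.card_univ, ← Nat.card_eq_fintype_card, IsGalois.card_aut_eq_finrank, hdeg]
  rw [← h1]
  apply Finset.card_le_card_of_injOn (fun τ => gal τ w)
  · intro τ _
    simp only [Finset.coe_filter, mem_aboveF, Set.mem_ofPred_eq, below_gal, hw]
    exact ⟨hv, trivial⟩
  · intro τ _ τ' _ h
    have h2 : gal (τ'⁻¹ * τ) w = w := by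
      rw [gal_mul]
      simp only at h
      rw [h, ← gal_mul, inv_mul_cancel, gal_one]
    have h3 := hsplit w hw _ h2
    exact (inv_mul_eq_one.mp h3).symm

open scoped Classical in
lemma card_fiber_pos (Sg : Finset (Pr k)) (v : Pr k) (hv : v ∈ Sg) :
    1 ≤ ((aboveF M Sg).filter (fun w => below k w = v)).card := by
  obtain ⟨w, hw⟩ := exists_over (M := M) v
  apply Finset.card_pos.mpr
  exact ⟨w, by simp [hw, hv]⟩

open scoped Classical in
lemma card_aboveF_ge {p : ℕ} (hdeg : Module.finrank k M = p) (S T : Finset (Pr k))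
    (hST : Disjoint S T)
    (hsplit : ∀ w : Pr M, below k w ∈ S → ∀ σ : M ≃ₐ[k] M, gal σ w = w → σ = 1) :
    p * S.card + T.card ≤ (aboveF M (S ∪ T)).card := by
  rw [Finset.card_eq_sum_card_fiberwise (s := aboveF M (S ∪ T)) (f := below k) (t := S ∪ T)
    (fun w hw => by simpa using hw), Finset.sum_union hST]
  apply add_le_add
  · rw [mul_comm, ← smul_eq_mul, ← Finset.sum_const]
    apply Finset.sum_le_sum
    intro v hv
    exact card_fiber_ge hdeg _ v (Finset.mem_union_left _ hv)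
      (fun w hw => hsplit w (by rw [hw]; exact hv))
  · rw [Finset.card_eq_sum_ones]
    apply Finset.sum_le_sum
    intro v hv
    exact card_fiber_pos _ v (Finset.mem_union_right _ hv)

end galois

section rank

open NumberField.InfinitePlace

lemma two_mul_rank_add_one' {F : Type} [Field F] [NumberField F] {p : ℕ} (hp : 2 < p) {ζ : F}
    (hζ : IsPrimitiveRoot ζ p) : 2 * (NumberField.Units.rank F + 1) = Module.finrank ℚ F := by
  have h0 := hζ.nrRealPlaces_eq_zero_of_two_lt hp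
  have h1 := card_add_two_mul_card_eq_rank F
  have h2 := card_eq_nrRealPlaces_add_nrComplexPlaces F
  have h3 : 0 < Fintype.card (InfinitePlace F) := Fintype.card_pos
  rw [NumberField.Units.rank]
  rw [h0] at h1 h2
  omega

end rank

section core

variable [IsGalois k M]

open scoped Classical in
/-- the index of the norms in the `Σ`-units is at most `p^(#T - 1)`. -/
theorem core (p : ℕ) [Fact p.Prime] (hp2 : p ≠ 2)
    (hdeg : Module.finrank k M = p) (ζ : k) (hζ : IsPrimitiveRoot ζ p)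
    (S T : Finset (Pr k)) (hST : Disjoint S T)
    (hsplit : ∀ w : Pr M, below k w ∈ S → ∀ σ : M ≃ₐ[k] M, gal σ w = w → σ = 1)
    (hunr : ∀ w : Pr M, below k w ∉ S ∪ T → eidx k w = 1)
    (h' : ℕ) (hh' : Nat.Coprime h' p)
    (hcl : ∀ D : Dv k, ∃ c : k, c ≠ 0 ∧ ∀ v, v ∉ S ∪ T → (h' • D) v = ord v c)
    {σ : M ≃ₐ[k] M} (hσ : ∀ τ : M ≃ₐ[k] M, τ ∈ Subgroup.zpowers σ) :
    (mNm p (sE (S ∪ T) σ)).range.relIndex (mDl (sE (S ∪ T) σ)).ker ≠ 0 ∧
      (mNm p (sE (S ∪ T) σ)).range.relIndex (mDl (sE (S ∪ T) σ)).ker * p ≤ p ^ T.card := by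
  have hp : p.Prime := Fact.out
  have hp3 : 2 < p := by
    have := hp.two_le
    omega
  have hs : ∀ x, ((sE (S ∪ T) σ)^[p]) x = x := by
    intro x
    apply Subtype.ext
    apply Units.ext
    rw [sE_iterate_coe]
    have : σ ^ p = 1 := by
      rw [← hdeg, ← IsGalois.card_aut_eq_finrank]
      exact pow_card_eq_one'
    rw [this]
    rfl
  obtain ⟨c, h1, h2, -, h4⟩ := herbrand_mul hp (sE (S ∪ T) σ) hs
  refine ⟨h2, ?_⟩
  rw [Subgroup.relIndex_eq_one.mpr (ker_le_range hdeg (S ∪ T) hσ hunr h' hh' hcl), one_mul,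
    finrank_ker _ hσ, finrank_US] at h4
  rw [finrank_ker _ hσ, finrank_US, finrank_US, Finset.card_union_of_disjoint hST] at h1
  rw [Finset.card_union_of_disjoint hST] at h4
  have hk := two_mul_rank_add_one' hp3 hζ
  have hM := two_mul_rank_add_one' hp3 (hζ.map_of_injective (algebraMap k M).injective)
  rw [← Module.finrank_mul_finrank ℚ k M, hdeg, ← hk] at hM
  have hcount := card_aboveF_ge hdeg S T hST hsplit
  set rk := NumberField.Units.rank k
  set rM := NumberField.Units.rank M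
  set n := (aboveF M (S ∪ T)).card
  set h0 := (mNm p (sE (S ∪ T) σ)).range.relIndex (mDl (sE (S ∪ T) σ)).ker
  -- `rM + 1 = p (rk + 1)`
  have hM' : rM + 1 = (rk + 1) * p := by nlinarith
  obtain ⟨q, rfl⟩ : ∃ q, p = q + 1 := ⟨p - 1, by omega⟩
  simp only [Nat.add_sub_cancel] at h1
  have hq : 0 < q := by omega
  have hc : rk + 1 + S.card ≤ c := by
    by_contra hlt
    push Not at hlt
    have h5 : c + 1 ≤ rk + 1 + S.card := hlt
    have h6 : q * (c + 1) ≤ q * (rk + 1 + S.card) := Nat.mul_le_mul_left q h5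
    nlinarith
  have h7 : h0 * (q + 1) * (q + 1) ^ c = (q + 1) ^ (rk + (S.card + T.card) + 1) := by
    rw [pow_succ, ← h4]
    ring
  have h8 : (q + 1) ^ (rk + (S.card + T.card) + 1) ≤ (q + 1) ^ T.card * (q + 1) ^ c := by
    rw [← pow_add]
    exact Nat.pow_le_pow_right (by omega) (by omega)
  rw [← h7] at h8
  exact Nat.le_of_mul_le_mul_right h8 (pow_pos (by omega) c)

end core

end Fermat.Agent.S14.SigmaH

namespace Fermat.Agent.S14

open SigmaH Herbrand

variable {k : Type} [Field k] [NumberField k] {M : Type} [Field M] [NumberField M] [Algebra k M]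

/-- USE 1 (core of Lemma B). -/
theorem lemmaB_core (p : ℕ) [Fact p.Prime] (hp2 : p ≠ 2) [IsGalois k M]
    (hdeg : Module.finrank k M = p) (ζ : k) (hζ : IsPrimitiveRoot ζ p)
    (S T : Finset (Pr k)) (hST : Disjoint S T)
    (hsplit : ∀ w : Pr M, below k w ∈ S → ∀ σ : M ≃ₐ[k] M, gal σ w = w → σ = 1)
    (hunr : ∀ w : Pr M, below k w ∉ S → below k w ∉ T → eidx k w = 1)
    (hcl : ∀ D : Dv k, ∃ c : k, c ≠ 0 ∧ ∀ v, v ∉ S → D v = ord v c)
    (φ : US S →* Multiplicative (T → ZMod p)) (hφ : Function.Surjective φ)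
    (hφN : ∀ (u : US S) (η : Mˣ),
      (∀ w : Pr M, below k w ∉ S → below k w ∉ T → ord w (η : M) = 0) →
      Algebra.norm k (η : M) = ((u : kˣ) : k) → φ u = 1) :
    False := by
  classical
  have hp : p.Prime := Fact.out
  haveI : IsCyclic (M ≃ₐ[k] M) :=
    isCyclic_of_prime_card (p := p) (by rw [IsGalois.card_aut_eq_finrank, hdeg])
  obtain ⟨σ, hσ⟩ := IsCyclic.exists_generator (α := M ≃ₐ[k] M)
  obtain ⟨hne, hle⟩ := core p hp2 hdeg ζ hζ S T hST hsplit
    (fun w hw => by
      rw [Finset.mem_union, not_or] at hw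
      exact hunr w hw.1 hw.2) 1 (Nat.coprime_one_left p)
    (fun D => by
      obtain ⟨c, hc0, hc⟩ := hcl D
      refine ⟨c, hc0, fun v hv => ?_⟩
      rw [Finset.mem_union, not_or] at hv
      rw [one_smul, hc v hv.1]) hσ
  -- lower bound
  let uu : (T → ZMod p) → US S := fun f => (hφ (Multiplicative.ofAdd f)).choose
  have huu : ∀ f, φ (uu f) = Multiplicative.ofAdd f := fun f =>
    (hφ (Multiplicative.ofAdd f)).choose_spec
  let ι : US S → US (S ∪ T) := fun u => ⟨u.1, fun v hv => u.2 v (by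
    rw [Finset.mem_union, not_or] at hv
    exact hv.1)⟩
  have hlow : Nat.card (T → ZMod p) ≤
      (mNm p (sE (S ∪ T) σ)).range.relIndex (mDl (sE (S ∪ T) σ)).ker := by
    apply card_le_relIndex _ _ hne (fun f => incl (M := M) (S ∪ T) (ι (uu f)))
      (fun f => incl_mem_ker _ _ _)
    intro f g hfg
    obtain ⟨η, hη⟩ := hfg
    have h1 := congrArg (fun z : US (aboveF M (S ∪ T)) => ((z : Mˣ) : M)) hη
    simp only [mNm_coe _ hσ hdeg] at h1
    have h2 : Algebra.norm k ((η : Mˣ) : M) = ((((uu f)⁻¹ * uu g : US S) : kˣ) : k) := by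
      apply (algebraMap k M).injective
      rw [h1]
      simp [ι]
    have h3 := hφN _ (η : Mˣ) (fun w hw1 hw2 => η.2 w (by
      rw [mem_aboveF, Finset.mem_union, not_or]
      exact ⟨hw1, hw2⟩)) h2
    rw [map_mul, map_inv, huu, huu, inv_mul_eq_one] at h3
    exact Multiplicative.ofAdd.injective h3
  have hcard : Nat.card (T → ZMod p) = p ^ T.card := by
    rw [Nat.card_fun, Nat.card_zmod, Nat.card_eq_fintype_card, Fintype.card_coe]
  rw [hcard] at hlow
  have h5 : 0 < p ^ T.card := pow_pos hp.pos _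
  have h6 := hp.two_le
  nlinarith

namespace SigmaH

/-- divisors supported in a set. -/
lemma apply_eq_zero_of_mem_closure {Sg : Set (Pr k)} {F : Dv k}
    (hF : F ∈ AddSubgroup.closure {D : Dv k | ∃ v ∈ Sg, D = Finsupp.single v 1}) {v : Pr k}
    (hv : v ∉ Sg) : F v = 0 := by
  classical
  induction hF using AddSubgroup.closure_induction with
  | mem x hx =>
    obtain ⟨v', hv', rfl⟩ := hx
    rw [Finsupp.single_apply, if_neg]
    rintro rfl
    exact hv hv'
  | zero => rfl
  | add x y _ _ hx hy => rw [Finsupp.add_apply, hx, hy, add_zero]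
  | neg x _ hx => rw [Finsupp.neg_apply, hx, neg_zero]

/-- a finite abelian group with `p Q = Q` has order prime to `p`. -/
lemma coprime_card_of_surjective {Q : Type*} [AddCommGroup Q] [Finite Q] {p : ℕ} (hp : p.Prime)
    (h : ∀ x : Q, ∃ y : Q, p • y = x) : Nat.Coprime (Nat.card Q) p := by
  rw [Nat.coprime_comm, Nat.Prime.coprime_iff_not_dvd hp]
  intro hdvd
  haveI : Fact p.Prime := ⟨hp⟩
  obtain ⟨x, hx⟩ := exists_prime_addOrderOf_dvd_card' p hdvd
  have hinj : Function.Injective (fun y : Q => p • y) := Finite.injective_iff_surjective.mpr h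
  have h0 : p • x = p • (0 : Q) := by
    rw [smul_zero, ← hx]
    exact addOrderOf_nsmul_eq_zero x
  have hx0 : x = 0 := hinj h0
  rw [hx0, addOrderOf_zero] at hx
  exact hp.one_lt.ne hx

end SigmaH

/-- USE 2. -/
theorem prin_sup_range_nm_ne_top (p : ℕ) [Fact p.Prime] (hp2 : p ≠ 2) [IsGalois k M]
    (hdeg : Module.finrank k M = p) (ζ : k) (hζ : IsPrimitiveRoot ζ p)
    (hunr : ∀ w : Pr M, eidx k w = 1) :
    Prin k ⊔ (nm k M).range ≠ ⊤ := by
  classical
  intro htop
  have hp : p.Prime := Fact.out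
  haveI : IsCyclic (M ≃ₐ[k] M) :=
    isCyclic_of_prime_card (p := p) (by rw [IsGalois.card_aut_eq_finrank, hdeg])
  obtain ⟨σ, hσ⟩ := IsCyclic.exists_generator (α := M ≃ₐ[k] M)
  -- the split primes
  let Sp : Set (Pr k) := {v | ∀ w : Pr M, below k w = v → fdeg k w = 1}
  let Hs : AddSubgroup (Dv k) := AddSubgroup.closure {D : Dv k | ∃ v ∈ Sp, D = Finsupp.single v 1}
  let B : AddSubgroup (Dv k) := Prin k ⊔ Hs
  -- Step 1
  have hstep1 : ∀ D : Dv M, ∃ b ∈ Hs, ∃ E : Dv k, nm k M D = b + p • E := by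
    intro D
    induction D using Finsupp.induction_linear with
    | zero => exact ⟨0, zero_mem _, 0, by simp⟩
    | add D D' hD hD' =>
      obtain ⟨b, hb, E, h⟩ := hD
      obtain ⟨b', hb', E', h'⟩ := hD'
      refine ⟨b + b', add_mem hb hb', E + E', ?_⟩
      rw [map_add, h, h', smul_add]
      abel
    | single w n =>
      rw [nm_single]
      rcases trichotomy hdeg w with h | h | h
      · refine ⟨Finsupp.single (below k w) n, ?_, 0, ?_⟩
        · have h1 : Finsupp.single (below k w) n = n • Finsupp.single (below k w) (1 : ℤ) := by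
            rw [Finsupp.smul_single, smul_eq_mul, mul_one]
          rw [h1]
          apply AddSubgroup.zsmul_mem
          apply AddSubgroup.subset_closure
          refine ⟨below k w, ?_, rfl⟩
          intro w' hw'
          obtain ⟨τ, rfl⟩ := exists_gal_eq (k := k) hw'.symm
          rw [fdeg_gal, h.2]
        · rw [h.2]
          simp
      · refine ⟨0, zero_mem _, Finsupp.single (below k w) n, ?_⟩
        rw [h.2, zero_add, Finsupp.smul_single, nsmul_eq_mul]
      · have := hunr w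
        rw [h.1] at this
        exact absurd this hp.one_lt.ne'
  -- Step 2
  haveI hfinP : Finite (Dv k ⧸ Prin k) := finite_quot_Prin
  haveI hfinB : Finite (Dv k ⧸ B) :=
    Finite.of_surjective (QuotientAddGroup.map (Prin k) B (AddMonoidHom.id _) le_sup_left)
      (by
        intro x
        obtain ⟨D, rfl⟩ := QuotientAddGroup.mk_surjective x
        exact ⟨QuotientAddGroup.mk D, rfl⟩)
  have hsurj : ∀ x : Dv k ⧸ B, ∃ y : Dv k ⧸ B, p • y = x := by
    intro x
    obtain ⟨D, rfl⟩ := QuotientAddGroup.mk_surjective x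
    have hD : D ∈ Prin k ⊔ (nm k M).range := by rw [htop]; trivial
    obtain ⟨a, ha, c, ⟨D', rfl⟩, rfl⟩ := AddSubgroup.mem_sup.mp hD
    obtain ⟨b, hb, E, hE⟩ := hstep1 D'
    refine ⟨QuotientAddGroup.mk E, ?_⟩
    rw [← QuotientAddGroup.mk_nsmul, QuotientAddGroup.eq, hE]
    have : -(p • E) + (a + (b + p • E)) = a + b := by abel
    rw [this]
    exact add_mem (AddSubgroup.mem_sup_left ha) (AddSubgroup.mem_sup_right hb)
  have hcop := coprime_card_of_surjective hp hsurj
  set h' := Nat.card (Dv k ⧸ B) with hh'def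
  have hmem : ∀ D : Dv k, h' • D ∈ B := by
    intro D
    rw [← QuotientAddGroup.eq_zero_iff, QuotientAddGroup.mk_nsmul, hh'def]
    exact card_nsmul_eq_zero'
  -- Step 3
  obtain ⟨s', hs's, hbij⟩ := Set.exists_subset_bijOn Sp
    (fun v => (QuotientAddGroup.mk (Finsupp.single v (1 : ℤ)) : Dv k ⧸ Prin k))
  have hs'fin : s'.Finite := (hbij.finite_iff_finite).mpr (Set.toFinite _)
  let Sg : Finset (Pr k) := hs'fin.toFinset
  have hSg : ∀ v, v ∈ Sg ↔ v ∈ s' := fun v => hs'fin.mem_toFinset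
  let Hg : AddSubgroup (Dv k) :=
    AddSubgroup.closure {D : Dv k | ∃ v ∈ (Sg : Set (Pr k)), D = Finsupp.single v 1}
  have hHs : Hs ≤ Prin k ⊔ Hg := by
    rw [AddSubgroup.closure_le]
    rintro _ ⟨v, hv, rfl⟩
    have h1 : (QuotientAddGroup.mk (Finsupp.single v (1 : ℤ)) : Dv k ⧸ Prin k) ∈
        (fun v => (QuotientAddGroup.mk (Finsupp.single v (1 : ℤ)) : Dv k ⧸ Prin k)) '' s' := by
      rw [hbij.image_eq]
      exact ⟨v, hv, rfl⟩
    obtain ⟨v', hv', h2⟩ := h1
    have h3 := QuotientAddGroup.eq.mp h2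
    have h4 : Finsupp.single v (1 : ℤ)
        = (-Finsupp.single v' (1 : ℤ) + Finsupp.single v (1 : ℤ)) + Finsupp.single v' (1 : ℤ) := by
      abel
    rw [SetLike.mem_coe, h4]
    refine add_mem (AddSubgroup.mem_sup_left h3) (AddSubgroup.mem_sup_right ?_)
    exact AddSubgroup.subset_closure ⟨v', by simpa [hSg] using hv', rfl⟩
  have hB : B ≤ Prin k ⊔ Hg := sup_le le_sup_left hHs
  -- apply the core
  obtain ⟨hne, hle⟩ := core p hp2 hdeg ζ hζ Sg ∅ (Finset.disjoint_empty_right _)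
    (fun w hw τ hτ => by
      have h1 : fdeg k w = 1 := hs's ((hSg _).mp hw) w rfl
      have h2 := card_stab (k := k) w
      rw [h1, hunr w, mul_one] at h2
      have h3 : Subsingleton {σ : M ≃ₐ[k] M // gal σ w = w} :=
        (Nat.card_eq_one_iff_unique.mp h2).1
      have h4 := Subsingleton.elim (⟨τ, hτ⟩ : {σ : M ≃ₐ[k] M // gal σ w = w}) ⟨1, gal_one w⟩
      exact congrArg Subtype.val h4)
    (fun w _ => hunr w) h' hcop
    (fun D => by
      obtain ⟨a, ha, b, hb, hab⟩ := AddSubgroup.mem_sup.mp (hB (hmem D))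
      obtain ⟨c, hc0, rfl⟩ := (mem_Prin_iff a).mp ha
      refine ⟨c, hc0, fun v hv => ?_⟩
      rw [Finset.union_empty] at hv
      rw [← hab, Finsupp.add_apply, apply_eq_zero_of_mem_closure hb (by simpa using hv), add_zero,
        dv_apply]) hσ
  rw [Finset.card_empty, pow_zero] at hle
  have h6 := hp.two_le
  have h7 : 0 < (mNm p (sE (Sg ∪ ∅) σ)).range.relIndex (mDl (sE (Sg ∪ ∅) σ)).ker :=
    Nat.pos_of_ne_zero hne
  nlinarith

end Fermat.Agent.S14
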