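import Fermat.Agent.S14.DvExt
import Fermat.Agent.S14.SymBasic

/-!
# S14/Sym : the power residue symbol `sym p ζ v x ∈ ZMod p` and the homomorphism `psi`
`x ^ ((Nv - 1)/p) ≡ ζ ^ sym  mod v`.  The part over one field is in `SymBasic`; here: base change and
Galois equivariance (they use `DvExt`).   Auxiliary lemmas: namespace `Fermat.Agent.S14.Sym`.
-/

set_option autoImplicit false

open NumberField IsDedekindDomain

namespace Fermat.Agent.S14

variable {p : ℕ} [Fact p.Prime] {k : Type} [Field k] [NumberField k] {ζ : k}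

/-- base change:  `x^((Nw-1)/p) = (x^((Nv-1)/p))^(1 + Nv + ... + Nv^(f-1))` and `Nv ≡ 1 mod p`. -/
theorem sym_algebraMap (hζ : IsPrimitiveRoot ζ p) {F : Type} [Field F] [NumberField F] [Algebra k F]
    (w : Pr F) (hv : ord (below k w) (p : k) = 0) {x : k} (hx0 : x ≠ 0) (hx : ord (below k w) x = 0) :
    sym p (algebraMap k F ζ) w (algebraMap k F x) = fdeg k w * sym p ζ (below k w) x := by
  have hp : p.Prime := Fact.out
  have hζ' : IsPrimitiveRoot (algebraMap k F ζ) p :=
    hζ.map_of_injective (algebraMap k F).injective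
  have hw : ord w (p : F) = 0 := by
    have := ord_algebraMap (k := k) w (p : k)
    rw [map_natCast, hv, mul_zero] at this
    exact this
  apply sym_eq_of_cong hζ' w hw
  set q := Nv (below k w) with hq
  set f := fdeg k w with hf
  obtain ⟨c, hc⟩ := dvd_Nv_sub_one hζ (below k w) hv
  have hq1 : 1 ≤ q := le_trans (by norm_num) (two_le_Nv (below k w))
  have hqc : q = p * c + 1 := by omega
  have h1 : (q - 1) / p = c := by
    rw [← hq] at hc
    rw [hc, Nat.mul_div_cancel_left _ hp.pos]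
  -- the geometric sum
  have hg : q ^ f - 1 = (q - 1) * ∑ i ∈ Finset.range f, q ^ i := by
    have := Nat.geomSum_eq (m := q) (le_trans (by norm_num) (two_le_Nv (below k w))) f
    have h2 : (q - 1) ∣ q ^ f - 1 := by
      simpa using Nat.sub_dvd_pow_sub_pow q 1 f
    rw [this, Nat.mul_div_cancel' h2]
  have h2 : (Nv w - 1) / p = c * ∑ i ∈ Finset.range f, q ^ i := by
    rw [Nv_eq_pow (k := k) w, ← hq, ← hf, hg]
    rw [← hq] at hc
    rw [hc, mul_assoc, Nat.mul_div_cancel_left _ hp.pos]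
  have h3 : ((∑ i ∈ Finset.range f, q ^ i : ℕ) : ZMod p) = f := by
    push_cast
    have : (q : ZMod p) = 1 := by
      rw [hqc]; push_cast; simp
    rw [this]; simp
  have h4 := cong_algebraMap (k := k) w (sym_spec hζ (below k w) hv hx0 hx)
  rw [← hq, h1, map_pow, map_pow] at h4
  have hox : ord w (algebraMap k F x) = 0 := by
    rw [ord_algebraMap (k := k), hx, mul_zero]
  have h5 := h4.pow (by rw [ord_pow, hox, mul_zero]) (Sym.ord_zeta_pow hζ' w _).ge
    (∑ i ∈ Finset.range f, q ^ i)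
  rw [← pow_mul, ← pow_mul, ← h2, ← SymCore.pow_val_natCast p hζ'.pow_eq_one] at h5
  have h6 : (((sym p ζ (below k w) x).val * ∑ i ∈ Finset.range f, q ^ i : ℕ) : ZMod p) =
      f * sym p ζ (below k w) x := by
    have : NeZero p := ⟨hp.ne_zero⟩
    rw [Nat.cast_mul, h3, ZMod.natCast_zmod_val, mul_comm]
  rwa [h6] at h5

/-- Galois equivariance. -/
theorem sym_gal (hζ : IsPrimitiveRoot ζ p) (δ : k ≃ₐ[ℚ] k) {c : ℕ} (hc : δ ζ = ζ ^ c) (v : Pr k)
    (hv : ord v (p : k) = 0) {x : k} (hx0 : x ≠ 0) (hx : ord v x = 0) :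
    sym p ζ (gal δ v) (δ x) = c * sym p ζ v x := by
  have hp : p.Prime := Fact.out
  have : NeZero p := ⟨hp.ne_zero⟩
  have hv' : ord (gal δ v) (p : k) = 0 := by
    have := ord_gal δ v (p : k)
    rwa [map_natCast, hv] at this
  apply sym_eq_of_cong hζ (gal δ v) hv'
  have h := cong_gal δ v (sym_spec hζ v hv hx0 hx)
  rw [map_pow, map_pow, hc, ← pow_mul, ← SymCore.pow_val_natCast p hζ.pow_eq_one, Nat.cast_mul,
    ZMod.natCast_zmod_val] at h
  rwa [Nv_gal]

end Fermat.Agent.S14
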