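import Fermat.Agent.S14.DvExt

/-!
# S14/Use2Red : the class group reduction of USE 2
If `M/k` is cyclic of degree `p`, everywhere unramified, and `Dv k = Prin k + nm (Dv M)`, then there are a finite
set `Sg` of primes which split in `M` and `h` prime to `p` such that `h • D` is principal outside `Sg` for all `D`.
Auxiliary lemmas: namespace `Fermat.Agent.S14.Use2Red`.
-/

set_option autoImplicit false
set_option linter.unusedSectionVars false

open NumberField IsDedekindDomain

namespace Fermat.Agent.S14

variable {k : Type} [Field k] [NumberField k] {M : Type} [Field M] [NumberField M] [Algebra k M]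

namespace Use2Red

variable (k M) in
/-- `v` splits completely in `M` (all decomposition groups are trivial). -/
def Spl (v : Pr k) : Prop := ∀ w : Pr M, below k w = v → ∀ σ : M ≃ₐ[k] M, gal σ w = w → σ = 1

variable (k M) in
/-- divisors supported on split primes. -/
def Hs : AddSubgroup (Dv k) where
  carrier := {D | ∀ v, D v ≠ 0 → Spl k M v}
  zero_mem' := fun v h => absurd rfl h
  add_mem' := by
    intro a b ha hb v hv
    by_cases h : a v = 0
    · apply hb v
      intro h'
      exact hv (by rw [Finsupp.add_apply, h, h', add_zero])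
    · exact ha v h
  neg_mem' := by
    intro a ha v hv
    apply ha v
    intro h
    exact hv (by rw [Finsupp.neg_apply, h, neg_zero])

/-- a finite abelian group with `p A = A` has order prime to `p`. -/
theorem coprime_card_of_smul_surj {A : Type*} [AddCommGroup A] [Finite A] (p : ℕ) [Fact p.Prime]
    (h : ∀ a : A, ∃ b : A, p • b = a) : Nat.Coprime (Nat.card A) p := by
  have hp : p.Prime := Fact.out
  rw [Nat.coprime_comm, hp.coprime_iff_not_dvd]
  intro hdvd
  obtain ⟨x, hx⟩ := exists_prime_addOrderOf_dvd_card' p hdvd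
  have hinj : Function.Injective (fun b : A => p • b) := Finite.injective_iff_surjective.2 h
  have h0 : x = 0 := hinj (by simp only [smul_zero]; rw [← hx]; exact addOrderOf_nsmul_eq_zero x)
  rw [h0, addOrderOf_zero] at hx
  exact hp.one_lt.ne hx

end Use2Red

open Use2Red

theorem use2_red {p : ℕ} [Fact p.Prime] [IsGalois k M] (hdeg : Module.finrank k M = p)
    (hunr : ∀ w : Pr M, w.asIdeal.inertia (M ≃ₐ[k] M) = ⊥)
    (htop : Prin k ⊔ (nm k M).range = ⊤) :
    ∃ (Sg : Finset (Pr k)) (h : ℕ), Nat.Coprime h p ∧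
      (∀ w : Pr M, below k w ∈ Sg → ∀ σ : M ≃ₐ[k] M, gal σ w = w → σ = 1) ∧
      ∀ D : Dv k, ∃ c : k, c ≠ 0 ∧ ∀ v, v ∉ Sg → (h : ℤ) * D v = ord v c := by
  classical
  have hp : p.Prime := Fact.out
  -- everything is unramified
  have he : ∀ w : Pr M, eidx k w = 1 := by
    intro w
    apply unram_of_inertia
    intro σ hσ
    have := (DvExt.mem_inertia_iff σ w).1 hσ
    rw [hunr w] at this
    exact Subgroup.mem_bot.1 this
  -- `f = 1` implies split
  have hspl : ∀ w : Pr M, fdeg k w = 1 → Spl k M (below k w) := by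
    intro w hf w' hw' σ hσ
    obtain ⟨τ, rfl⟩ := exists_gal_eq (k := k) hw'.symm
    have hc := card_stab (k := k) (gal τ w)
    rw [he, fdeg_gal, hf, mul_one] at hc
    have hsub : Subsingleton {σ : M ≃ₐ[k] M // gal σ (gal τ w) = gal τ w} :=
      (Nat.card_eq_one_iff_unique.1 hc).1
    have := hsub.elim ⟨σ, hσ⟩ ⟨1, gal_one _⟩
    exact congrArg Subtype.val this
  -- the big subgroup
  set B : AddSubgroup (Dv k) := Prin k ⊔ Hs k M with hB
  have hrange : ∀ E : Dv M, ∃ F : Dv k, nm k M E - p • F ∈ Hs k M := by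
    intro E
    induction E using Finsupp.induction_linear with
    | zero => exact ⟨0, by simp [(Hs k M).zero_mem]⟩
    | add E₁ E₂ h₁ h₂ =>
      obtain ⟨F₁, h₁⟩ := h₁
      obtain ⟨F₂, h₂⟩ := h₂
      refine ⟨F₁ + F₂, ?_⟩
      have := (Hs k M).add_mem h₁ h₂
      rw [map_add, smul_add]
      convert this using 1
      abel
    | single w n =>
      rcases trichotomy (k := k) hdeg w with h | h | h
      · refine ⟨0, ?_⟩
        rw [smul_zero, sub_zero, nm_single]
        intro v hv
        have : v = below k w := by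
          by_contra hne
          exact hv (Finsupp.single_eq_of_ne hne)
        rw [this]
        exact hspl w h.2
      · refine ⟨Finsupp.single (below k w) n, ?_⟩
        rw [nm_single, h.2, Finsupp.smul_single, nsmul_eq_mul, sub_self]
        exact (Hs k M).zero_mem
      · exfalso
        have := he w
        rw [h.1] at this
        exact hp.one_lt.ne' this
  have hfinA : Finite (Dv k ⧸ Prin k) := finite_quot_Prin
  have hfinB : Finite (Dv k ⧸ B) :=
    Finite.of_surjective (QuotientAddGroup.map (Prin k) B (AddMonoidHom.id _) le_sup_left)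
      (by
        intro x
        obtain ⟨D, rfl⟩ := QuotientAddGroup.mk_surjective x
        exact ⟨QuotientAddGroup.mk D, rfl⟩)
  have hsurj : ∀ a : Dv k ⧸ B, ∃ b : Dv k ⧸ B, p • b = a := by
    intro a
    obtain ⟨D, rfl⟩ := QuotientAddGroup.mk_surjective a
    have hD : D ∈ Prin k ⊔ (nm k M).range := by rw [htop]; trivial
    obtain ⟨P, hP, _, ⟨E, rfl⟩, rfl⟩ := AddSubgroup.mem_sup.1 hD
    obtain ⟨F, hF⟩ := hrange E
    refine ⟨QuotientAddGroup.mk F, ?_⟩
    rw [← QuotientAddGroup.mk_nsmul, QuotientAddGroup.eq]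
    have h1 : P ∈ B := (le_sup_left : Prin k ≤ B) hP
    have h2 : nm k M E - p • F ∈ B := (le_sup_right : Hs k M ≤ B) hF
    have := B.add_mem h1 h2
    convert this using 1
    abel
  have hcop := coprime_card_of_smul_surj p hsurj
  set h := Nat.card (Dv k ⧸ B) with hh
  have hmem : ∀ D : Dv k, h • D ∈ B := by
    intro D
    rw [← QuotientAddGroup.eq_zero_iff, QuotientAddGroup.mk_nsmul, hh]
    exact card_nsmul_eq_zero'
  -- representatives
  let _ : Fintype (Dv k ⧸ Prin k) := Fintype.ofFinite _
  let rep : (Dv k ⧸ Prin k) → Dv k := fun a =>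
    if h : ∃ E ∈ Hs k M, (QuotientAddGroup.mk E : Dv k ⧸ Prin k) = a then h.choose else 0
  have hrep1 : ∀ a, rep a ∈ Hs k M := by
    intro a
    simp only [rep]
    split_ifs with h
    · exact h.choose_spec.1
    · exact (Hs k M).zero_mem
  have hrep2 : ∀ E ∈ Hs k M, (QuotientAddGroup.mk (rep (QuotientAddGroup.mk E)) : Dv k ⧸ Prin k) =
      QuotientAddGroup.mk E := by
    intro E hE
    have h : ∃ E' ∈ Hs k M, (QuotientAddGroup.mk E' : Dv k ⧸ Prin k) = QuotientAddGroup.mk E :=
      ⟨E, hE, rfl⟩
    simp only [rep]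
    rw [dif_pos h]
    exact h.choose_spec.2
  refine ⟨Finset.univ.biUnion fun a => (rep a).support, h, hcop, ?_, ?_⟩
  · intro w hw
    rw [Finset.mem_biUnion] at hw
    obtain ⟨a, _, ha⟩ := hw
    exact hrep1 a _ (Finsupp.mem_support_iff.1 ha) w rfl
  · intro D
    obtain ⟨P, hP, E, hE, hPE⟩ := AddSubgroup.mem_sup.1 (hmem D)
    have h1 : -rep (QuotientAddGroup.mk E) + E ∈ Prin k := QuotientAddGroup.eq.1 (hrep2 E hE)
    obtain ⟨c, hc0, hc⟩ := (mem_Prin_iff _).1 ((Prin k).add_mem hP h1)
    refine ⟨c, hc0, ?_⟩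
    intro v hv
    have hv0 : rep (QuotientAddGroup.mk E) v = 0 := by
      by_contra hne
      apply hv
      rw [Finset.mem_biUnion]
      exact ⟨_, Finset.mem_univ _, Finsupp.mem_support_iff.2 hne⟩
    have h2 := congrArg (fun F : Dv k => F v) hc
    have h3 := congrArg (fun F : Dv k => F v) hPE
    simp only [dv_apply, Finsupp.add_apply, Finsupp.neg_apply, hv0, Finsupp.smul_apply,
      nsmul_eq_mul] at h2 h3
    rw [h2, ← h3]
    ring

end Fermat.Agent.S14
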